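import Mathlib
import Fermat.Agent.Flat.Conc6

/-!
# Good reduction of `X₀(N)` with respect to the parameters `t` and `t⁻¹`
-/

set_option autoImplicit false
set_option linter.unusedSectionVars false

noncomputable section

namespace Fermat.Agent.Mzr

open AlgebraicCurve IsDedekindDomain IntermediateField WithZero Module Fermat.Agent.FunField
open Polynomial (aeval)
open Fermat.Agent.LG Fermat.Agent.ModFun Fermat.Agent.Geo Fermat.Agent.Flat
open Fermat.Agent.ESCore (HauptFn haupt2 haupt3 ιC)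
open IsLocalRing ModularCurve

/-- The field of algebraic numbers. -/
local notation "Qb" => AlgebraicClosure ℚ
/-- The absolute Galois group. -/
local notation "GQ" => (AlgebraicClosure ℚ ≃ₐ[ℚ] AlgebraicClosure ℚ)

/-- Change of the sections under `t ↦ t⁻¹`. -/
theorem mem_nL_inv {K F : Type*} [Field K] [Field F] [Algebra K F] [IsAlgClosed K] {t : F}
    (h : Sep K t) {n : ℕ} {z : F} : z * t⁻¹ ^ n ∈ riemannRochSpace (n • pol (K := K) t⁻¹) ↔
      z ∈ riemannRochSpace (n • pol (K := K) t) := by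
  have ht0 := h.ne_zero
  rw [mem_nL_iff h.inv, mem_nL_iff h, inv_inv, mul_assoc, ← mul_pow, inv_mul_cancel₀ ht0,
    one_pow, mul_one, and_comm]

/-- Lifting with respect to `t⁻¹`. -/
theorem lift_inv {Ω κ F E : Type*} [Field Ω] [Field κ] [Field F] [Field E] [Algebra Ω F]
    [Algebra κ E] {A : ValuationSubring Ω} [IsAlgClosed Ω] [IsAlgClosed κ]
    {r : A →+* κ} {W : Subring F} {ρ : W →+* E} {t : F} {tb : E} {d : ℕ} {e : Fin d → F}
    {G : Type*} [Group G] {γ : G →* SemilinearAut Ω F}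
    (h : Pre r W ρ t tb e) (ht : Sep Ω t) (htb : Sep κ tb)
    (hlift : ∃ M : ℕ, ∀ n ≥ M, ∀ zb ∈ riemannRochSpace (n • pol (K := κ) tb), ∃ z : W,
      (z : F) ∈ riemannRochSpace (n • pol (K := Ω) t) ∧ ρ z = zb ∧ ∀ g : G, γ g • (z : F) = z)
    (hfixt : ∀ g : G, γ g • t = t) :
    ∃ M : ℕ, ∀ n ≥ M, ∀ zb ∈ riemannRochSpace (n • pol (K := κ) tb⁻¹), ∃ z : W,
      (z : F) ∈ riemannRochSpace (n • pol (K := Ω) t⁻¹) ∧ ρ z = zb ∧
        ∀ g : G, γ g • (z : F) = z := by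
  obtain ⟨M, hM⟩ := hlift
  refine ⟨M, fun n hn zb hzb => ?_⟩
  have htb0 : tb ≠ 0 := htb.ne_zero
  have h1 : zb = (zb * tb ^ n) * tb⁻¹ ^ n := by
    rw [mul_assoc, ← mul_pow, mul_inv_cancel₀ htb0, one_pow, mul_one]
  rw [h1, mem_nL_inv htb] at hzb
  obtain ⟨z, hz1, hz2, hz3⟩ := hM n hn _ hzb
  refine ⟨z * ⟨t⁻¹, h.tinvW⟩ ^ n, ?_, ?_, fun g => ?_⟩
  · exact (mem_nL_inv ht).mpr hz1
  · rw [map_mul, map_pow, hz2, h.inv.tρ]
    exact h1.symm
  · change γ g • ((z : F) * t⁻¹ ^ n) = (z : F) * t⁻¹ ^ n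
    rw [smul_mul', smul_pow', hz3, smul_inv'', hfixt]

section

variable {A : ValuationSubring Qb} {q : ℕ}
  {p : ℕ} [Fact p.Prime] {κ : ℤ} {N : ℕ} [NeZero N]

set_option synthInstance.maxHeartbeats 400000 in
set_option maxHeartbeats 1000000 in
/-- Good reduction with respect to `t` or `t⁻¹`; the ring `W` is the Gauss ring. -/
theorem exists_goodCrv₂ (hq : q.Prime) (hA : A.LiesOverPrime q) (hqN : ¬ q ∣ N) (hp : p ∣ N)
    {H : HauptFn p κ} {S : Set ℤ} {k : ℕ} {P : Polynomial ℤ} (hH : HautData H S k P)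
    (hS : ∀ c ∈ S, ∀ c' ∈ S, c ≠ c' →
      IsUnit ((c - c' : ℤ) : A.comap (algebraMap (KI A) Qb)))
    {G : Type*} [Group G] [MulSemiringAction G Qb] (γ : G →* SemilinearAut Qb (F0 Qb N))
    (hbase : ∀ (g : G) (a : Qb), SemilinearAut.baseAut (γ g) a = g • a)
    (hcoe : ∀ (g : G) (x : F0 Qb N), ((γ g • x : F0 Qb N) : LaurentSeries Qb) =
      coeffMap ((MulSemiringAction.toRingEquiv G Qb g : Qb ≃+* Qb) : Qb →+* Qb) x)
    (hfix : ∀ (g : G), ∀ x ∈ KI A, g • x = x)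
    (hstab : ∀ (g : G), ∀ a ∈ A, g • a ∈ A)
    (htriv : ∀ (g : G) (a : A), residue A ⟨g • (a : Qb), hstab g a a.2⟩ = residue A a) :
    ∃ (Fb : IntermediateField (ResidueField A) (LaurentSeries (ResidueField A)))
      (W : ValuationSubring (F0 Qb N)) (ρ : W →+* Fb) (tb : Fb)
      (htW : tF H hp ∈ W) (htW' : (tF H hp)⁻¹ ∈ W),
      (∀ z : F0 Qb N, z ∈ W ↔ (z : LaurentSeries Qb) ∈ gA A) ∧
      (∀ z : W, ∃ h : ((z : F0 Qb N) : LaurentSeries Qb) ∈ gA A,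
        ((ρ z : Fb) : LaurentSeries (ResidueField A)) = gAR ⟨_, h⟩) ∧
      ρ ⟨tF H hp, htW⟩ = tb ∧ GoodCrv (residue A) γ W ρ (tF H hp) tb ∧
      ρ ⟨(tF H hp)⁻¹, htW'⟩ = tb⁻¹ ∧ GoodCrv (residue A) γ W ρ (tF H hp)⁻¹ tb⁻¹ := by
  have hac : IsAlgClosed (ResidueField A) := isAlgClosed_residueA hq hA
  obtain ⟨d, e, h, M, hM⟩ := lift_of_level hq hA hqN hp hH hS
  have hgA : ∀ (g : G) (x : LaurentSeries Qb) (hx : x ∈ gA A),
      ∃ h : coeffMap ((MulSemiringAction.toRingEquiv G Qb g : Qb ≃+* Qb) : Qb →+* Qb) x ∈ gA A,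
        gAR ⟨_, h⟩ = gAR ⟨x, hx⟩ := fun g x hx =>
    coeffMap_mem_gA (σ := MulSemiringAction.toRingEquiv G Qb g) (hstab g) (htriv g) hx
  have hfixt : ∀ g : G, γ g • tF H hp = tF H hp := by
    intro g
    apply Subtype.ext
    rw [hcoe, coe_tF]
    exact coeffMap_tS _ p κ
  have hfixt' : ∀ g : G, γ g • (tF H hp)⁻¹ = (tF H hp)⁻¹ := by
    intro g
    rw [smul_inv'', hfixt]
  have hst := sep_tF (N := N) H hp
  have hstb := sep_tbb h
  have hlift : ∀ n ≥ M, ∀ zb ∈ riemannRochSpace (n • pol (K := ResidueField A) h.tbb),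
      ∃ z : W0 A N, (z : F0 Qb N) ∈ riemannRochSpace (n • pol (K := Qb) (tF H hp)) ∧
        h.ρb z = zb ∧ ∀ g : G, γ g • (z : F0 Qb N) = z := by
    intro n hn zb hzb
    obtain ⟨z, hz1, hz2, zL, hzL⟩ := hM n hn zb hzb
    refine ⟨z, hz1, hz2, fun g => ?_⟩
    apply Subtype.ext
    rw [hcoe, hzL, coe_liftF]
    ext i
    exact hfix g _ ((zL : LaurentSeries (KI A)).coeff i).2
  have hWstab : ∀ (g : G), ∀ z ∈ W0 A N, γ g • z ∈ W0 A N := by
    intro g z hz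
    rw [mem_W0, hcoe]
    exact (hgA g _ hz).1
  have hWtriv : ∀ (g : G) (z : W0 A N) (h' : γ g • (z : F0 Qb N) ∈ W0 A N),
      h.ρb ⟨γ g • (z : F0 Qb N), h'⟩ = h.ρb z := by
    intro g z hz
    apply Subtype.ext
    change ρ0 A N _ = ρ0 A N _
    refine Eq.trans ?_ (hgA g _ z.2).2
    change gAR _ = _
    congr 1
    exact Subtype.ext (hcoe g _)
  refine ⟨h.Fb, h.red.val, h.red.ρv, h.tbb, h.tW, h.red.tinvW, fun z => Iff.rfl,
    fun z => ⟨z.2, rfl⟩, h.red.tρ, ?_, h.red.inv.tρ, ?_⟩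
  · exact h.red.goodCrv hst hstb ⟨M, hlift⟩ hbase hWstab hWtriv hfixt
  · exact h.red.inv.goodCrv hst.inv hstb.inv (lift_inv h.red hst hstb ⟨M, hlift⟩ hfixt) hbase
      hWstab hWtriv hfixt'

end

end Fermat.Agent.Mzr
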