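import Mathlib
import Fermat.Agent.Flat.Conc6

/-!
Congruence of places of `F0 Qb M` modulo a valuation ring.
-/

set_option autoImplicit false

noncomputable section

namespace Fermat.Agent.Mzr

open AlgebraicCurve Fermat.Agent.FunField Fermat.Agent.Flat Fermat.Agent.LG Fermat.Agent.ModFun
open Fermat.Agent.Geo

/-- The field of algebraic numbers. -/
local notation "Qb" => AlgebraicClosure ℚ

/-- Two places of `F0 Qb M` are congruent modulo `A` (`t` is a parameter finite at both). -/
def Near (A : ValuationSubring Qb) (M : ℕ) [NeZero M] (t : F0 Qb M)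
    (a b : Place Qb (F0 Qb M)) : Prop :=
  ∀ z : F0 Qb M, (z : LaurentSeries Qb) ∈ gA A → Reg Qb t z →
    A.valuation (evp a z - evp b z) < 1

end Fermat.Agent.Mzr
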