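import Mathlib
import Fermat.Agent.Flat.Desc

/-!
Cartier duality for Hopf orders.
-/

set_option autoImplicit false
set_option linter.unusedSectionVars false

noncomputable section

namespace Fermat.Agent.Mzr

open Module Fermat.Agent.Flat

section Dual

variable {R G Ω V : Type*} [CommRing R] [IsDomain R] [IsPrincipalIdealRing R] [Field Ω]
  [Algebra R Ω] [Group G] [MulSemiringAction G Ω] [AddCommGroup V] [Finite V]
  [DistribMulAction G V]

/-- The action on the characters. -/
@[reducible] def dualAct (G V Ω : Type*) [Field Ω] [Group G] [MulSemiringAction G Ω]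
    [AddCommGroup V] [DistribMulAction G V] : DistribMulAction G (Additive (AddChar V Ω)) where
  smul g ψ := Additive.ofMul
    { toFun := fun v => g • (ψ.toMul) (g⁻¹ • v)
      map_zero_eq_one' := by rw [smul_zero, AddChar.map_zero_eq_one, smul_one]
      map_add_eq_mul' := fun v w => by rw [smul_add, AddChar.map_add_eq_mul, smul_mul'] }
  one_smul ψ := by
    apply Additive.toMul.injective
    ext v
    change (1 : G) • (ψ.toMul) ((1 : G)⁻¹ • v) = ψ.toMul v
    rw [inv_one, one_smul, one_smul]
  mul_smul g h ψ := by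
    apply Additive.toMul.injective
    ext v
    change (g * h) • (ψ.toMul) ((g * h)⁻¹ • v) = g • (h • (ψ.toMul) (h⁻¹ • (g⁻¹ • v)))
    rw [mul_inv_rev, mul_smul, mul_smul]
  smul_zero g := by
    apply Additive.toMul.injective
    ext v
    change g • (1 : AddChar V Ω) (g⁻¹ • v) = (1 : AddChar V Ω) v
    rw [AddChar.one_apply, AddChar.one_apply, smul_one]
  smul_add g ψ φ := by
    apply Additive.toMul.injective
    ext v
    change g • (ψ.toMul * φ.toMul) (g⁻¹ • v) = (g • ψ.toMul (g⁻¹ • v)) * (g • φ.toMul (g⁻¹ • v))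
    rw [AddChar.mul_apply, smul_mul']

theorem dualAct_apply (g : G) (ψ : Additive (AddChar V Ω)) (v : V) :
    ((dualAct G V Ω).smul g ψ).toMul v = g • (ψ.toMul) (g⁻¹ • v) := rfl

variable [Fintype V]

/-- The transform of a function. -/
def tr (g : V → Ω) (ψ : Additive (AddChar V Ω)) : Ω := ∑ v, g v * ψ.toMul v

/-- The functions integral on the order. -/
def perp (H : Subalgebra R (V → Ω)) (g : V → Ω) : Prop :=
  ∀ f ∈ H, ∃ r : R, algebraMap R Ω r = ∑ v, f v * g v

theorem HB_nondeg {H : Subalgebra R (V → Ω)} {n : ℕ} {h : Fin n → V → Ω} (hb : HBasis H h)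
    {g : V → Ω} (hg : ∀ f ∈ H, ∑ v, f v * g v = 0) : g = 0 := by
  classical
  funext v
  obtain ⟨c, hc⟩ := hb.top (fun w => if w = v then 1 else 0)
  have h1 : ∑ w, (if w = v then (1 : Ω) else 0) * g w = 0 := by
    have h2 : ∀ w, (if w = v then (1 : Ω) else 0) = ∑ i, c i * h i w := by
      intro w
      have := congrFun hc w
      simpa [Finset.sum_apply] using this
    calc _ = ∑ w, ∑ i, c i * (h i w * g w) := by
          refine Finset.sum_congr rfl fun w _ => ?_
          rw [h2, Finset.sum_mul]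
          exact Finset.sum_congr rfl fun i _ => by ring
      _ = ∑ i, c i * ∑ w, h i w * g w := by
          rw [Finset.sum_comm]
          exact Finset.sum_congr rfl fun i _ => by rw [Finset.mul_sum]
      _ = 0 := Finset.sum_eq_zero fun i _ => by rw [hg _ (hb.mem i), mul_zero]
  simpa using h1

theorem perp.equiv (hD : Desc R G Ω) {H : Subalgebra R (V → Ω)} (hH : IsHopfOrder R G H)
    {g : V → Ω} (hg : perp H g) (γ : G) (v : V) : γ • g (γ⁻¹ • v) = g v := by
  obtain ⟨n, h, hb⟩ := hH.exists_hbasis hD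
  have key := HB_nondeg hb (g := fun v => γ • g (γ⁻¹ • v) - g v) ?_
  · exact sub_eq_zero.mp (congrFun key v)
  · intro f hf
    obtain ⟨r, hr⟩ := hg f hf
    have h1 : ∑ v, f v * (γ • g (γ⁻¹ • v)) = γ • ∑ v, f v * g v := by
      rw [Finset.smul_sum]
      rw [← Equiv.sum_comp (MulAction.toPerm γ : Equiv.Perm V)
        (fun v => f v * (γ • g (γ⁻¹ • v)))]
      refine Finset.sum_congr rfl fun w _ => ?_
      simp only [MulAction.toPerm_apply, inv_smul_smul]
      rw [hH.equiv γ f hf, smul_mul']
    calc _ = ∑ v, f v * (γ • g (γ⁻¹ • v)) - ∑ v, f v * g v := by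
          rw [← Finset.sum_sub_distrib]
          exact Finset.sum_congr rfl fun v _ => by ring
      _ = 0 := by rw [h1, ← hr, hD.fix, sub_self]

/-- The dual order. -/
def dualH (H : Subalgebra R (V → Ω)) (hH : ∀ f ∈ H, (fun p : V × V => f (p.1 + p.2)) ∈ tens₂ R H H)
    (h0 : ∀ f ∈ H, ∃ r : R, algebraMap R Ω r = f 0) :
    Subalgebra R (Additive (AddChar V Ω) → Ω) where
  carrier := {F | ∃ g : V → Ω, perp H g ∧ ∀ ψ, F ψ = tr g ψ}
  mul_mem' := by
    rintro F₁ F₂ ⟨g₁, hg₁, h₁⟩ ⟨g₂, hg₂, h₂⟩
    refine ⟨fun x => ∑ v, g₁ v * g₂ (x - v), ?_, ?_⟩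
    · intro f hf
      obtain ⟨n, a, b, ha, hb, h⟩ := mem_tens₂_iff.mp (hH f hf)
      choose r hr using fun i => hg₁ (a i) (ha i)
      choose s hs using fun i => hg₂ (b i) (hb i)
      refine ⟨∑ i : Fin n, r i * s i, ?_⟩
      rw [map_sum (algebraMap R Ω)]
      calc ∑ i, algebraMap R Ω (r i * s i)
          = ∑ i, (∑ v, a i v * g₁ v) * (∑ w, b i w * g₂ w) :=
            Finset.sum_congr rfl fun i _ => by rw [map_mul, hr, hs]
        _ = ∑ v, ∑ w, (f (v + w)) * (g₁ v * g₂ w) := by
            have h' : ∀ v w, f (v + w) = ∑ i, a i v * b i w := h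
            have e1 : ∀ i, (∑ v, a i v * g₁ v) * (∑ w, b i w * g₂ w) =
                ∑ v, ∑ w, a i v * b i w * (g₁ v * g₂ w) := by
              intro i
              rw [Finset.sum_mul_sum]
              exact Finset.sum_congr rfl fun v _ => Finset.sum_congr rfl fun w _ => by ring
            rw [Finset.sum_congr rfl fun i _ => e1 i, Finset.sum_comm]
            refine Finset.sum_congr rfl fun v _ => ?_
            rw [Finset.sum_comm]
            refine Finset.sum_congr rfl fun w _ => ?_
            rw [h', Finset.sum_mul]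
        _ = ∑ v, ∑ x, f x * (g₁ v * g₂ (x - v)) := by
            refine Finset.sum_congr rfl fun v _ => ?_
            rw [← Equiv.sum_comp (Equiv.addLeft v) (fun x => f x * (g₁ v * g₂ (x - v)))]
            refine Finset.sum_congr rfl fun w _ => ?_
            simp
        _ = _ := by
            rw [Finset.sum_comm]
            refine Finset.sum_congr rfl fun x _ => ?_
            rw [Finset.mul_sum]
    · intro ψ
      change F₁ ψ * F₂ ψ = _
      rw [h₁, h₂, tr, tr, tr, Finset.sum_mul_sum]
      calc ∑ v, ∑ w, g₁ v * ψ.toMul v * (g₂ w * ψ.toMul w)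
          = ∑ v, ∑ x, g₁ v * g₂ (x - v) * ψ.toMul x := by
            refine Finset.sum_congr rfl fun v _ => ?_
            rw [← Equiv.sum_comp (Equiv.addLeft v) (fun x => g₁ v * g₂ (x - v) * ψ.toMul x)]
            refine Finset.sum_congr rfl fun w _ => ?_
            simp only [Equiv.coe_addLeft, add_sub_cancel_left, AddChar.map_add_eq_mul]
            ring
        _ = _ := by
            rw [Finset.sum_comm]
            refine Finset.sum_congr rfl fun x _ => ?_
            rw [Finset.sum_mul]
  add_mem' := by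
    rintro F₁ F₂ ⟨g₁, hg₁, h₁⟩ ⟨g₂, hg₂, h₂⟩
    refine ⟨g₁ + g₂, fun f hf => ?_, fun ψ => ?_⟩
    · obtain ⟨r, hr⟩ := hg₁ f hf
      obtain ⟨s, hs⟩ := hg₂ f hf
      refine ⟨r + s, ?_⟩
      rw [map_add, hr, hs, ← Finset.sum_add_distrib]
      exact Finset.sum_congr rfl fun v _ => by rw [Pi.add_apply]; ring
    · rw [Pi.add_apply, h₁, h₂, tr, tr, tr, ← Finset.sum_add_distrib]
      exact Finset.sum_congr rfl fun v _ => by rw [Pi.add_apply]; ring
  algebraMap_mem' := by
    classical
    intro r
    refine ⟨fun v => if v = 0 then algebraMap R Ω r else 0, fun f hf => ?_, fun ψ => ?_⟩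
    · obtain ⟨s, hs⟩ := h0 f hf
      refine ⟨s * r, ?_⟩
      rw [map_mul, hs]
      simp
    · rw [tr]
      simp

variable {H : Subalgebra R (V → Ω)}

theorem mem_dualH {hH : ∀ f ∈ H, (fun p : V × V => f (p.1 + p.2)) ∈ tens₂ R H H}
    {h0 : ∀ f ∈ H, ∃ r : R, algebraMap R Ω r = f 0} {F : Additive (AddChar V Ω) → Ω} :
    F ∈ dualH H hH h0 ↔ ∃ g : V → Ω, perp H g ∧ ∀ ψ, F ψ = tr g ψ := Iff.rfl

/-- the dual basis -/
theorem exists_dual {n : ℕ} {h : Fin n → V → Ω} (hb : HBasis H h) :
    ∃ h' : Fin n → V → Ω, (∀ i, perp H (h' i)) ∧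
      ∀ g : V → Ω, g = ∑ i, (∑ v, h i v * g v) • h' i := by
  classical
  let B : Basis (Fin n) Ω (V → Ω) := Basis.mk hb.li (by
    rintro f -
    obtain ⟨c, hc⟩ := hb.top f
    rw [hc]
    exact Submodule.sum_mem _ fun i _ => Submodule.smul_mem _ _ (Submodule.subset_span ⟨i, rfl⟩))
  have hB : ∀ i, B i = h i := fun i => Basis.mk_apply _ _ i
  have hδ : ∀ f : V → Ω, f = ∑ v, f v • (Pi.single v (1 : Ω) : V → Ω) := by
    intro f
    funext w
    simp [Finset.sum_apply, Pi.single_apply]
  refine ⟨fun i v => B.repr (Pi.single v (1 : Ω)) i, ?_, ?_⟩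
  · intro i f hf
    obtain ⟨c, hc⟩ := hb.span f hf
    refine ⟨c i, ?_⟩
    have h1 : ∑ v, f v * B.repr (Pi.single v (1 : Ω)) i = B.repr f i := by
      conv_rhs => rw [hδ f]
      rw [map_sum]
      simp [Finsupp.finsetSum_apply]
    rw [h1]
    have h2 : f = ∑ j, algebraMap R Ω (c j) • B j := by
      rw [hc]
      refine Finset.sum_congr rfl fun j _ => ?_
      rw [hB, algebraMap_smul]
    rw [h2, map_sum, Finsupp.finsetSum_apply]
    simp only [map_smul, Basis.repr_self, Finsupp.smul_apply, smul_eq_mul,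
      Finsupp.single_apply]
    simp
  · intro g
    funext v
    have h1 : (Pi.single v (1 : Ω) : V → Ω) =
        ∑ i, B.repr (Pi.single v (1 : Ω)) i • h i := by
      conv_lhs => rw [← B.sum_repr (Pi.single v (1 : Ω))]
      exact Finset.sum_congr rfl fun i _ => by rw [hB]
    have h2 : g v = ∑ w, (Pi.single v (1 : Ω) : V → Ω) w * g w := by
      simp [Pi.single_apply]
    rw [h2]
    have h3 : ∀ w, (Pi.single v (1 : Ω) : V → Ω) w =
        ∑ i, B.repr (Pi.single v (1 : Ω)) i * h i w := by
      intro w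
      have := congrFun h1 w
      simpa [Finset.sum_apply] using this
    rw [Finset.sum_apply]
    calc _ = ∑ w, ∑ i, B.repr (Pi.single v (1 : Ω)) i * (h i w * g w) := by
          refine Finset.sum_congr rfl fun w _ => ?_
          rw [h3, Finset.sum_mul]
          exact Finset.sum_congr rfl fun i _ => by ring
      _ = _ := by
          rw [Finset.sum_comm]
          refine Finset.sum_congr rfl fun i _ => ?_
          rw [Pi.smul_apply, smul_eq_mul, ← Finset.mul_sum, mul_comm]

theorem tr_sum {n : ℕ} (c : Fin n → Ω) (h' : Fin n → V → Ω) (ψ : Additive (AddChar V Ω)) :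
    tr (∑ i, c i • h' i) ψ = ∑ i, c i * tr (h' i) ψ := by
  simp only [tr, Finset.sum_apply, Pi.smul_apply, smul_eq_mul, Finset.sum_mul]
  rw [Finset.sum_comm]
  refine Finset.sum_congr rfl fun i _ => ?_
  rw [Finset.mul_sum]
  exact Finset.sum_congr rfl fun v _ => by ring

/-- **Cartier duality** for Hopf orders. -/
theorem dual_isHopfOrder (hD : Desc R G Ω) (hH : IsHopfOrder R G H)
    (h0 : ∀ f ∈ H, ∃ r : R, algebraMap R Ω r = f 0) :
    letI := dualAct G V Ω
    IsHopfOrder R G (dualH H hH.comul h0) := by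
  letI := dualAct G V Ω
  obtain ⟨n, h, hb⟩ := hH.exists_hbasis hD
  obtain ⟨h', hp, hh⟩ := exists_dual hb
  classical
  refine ⟨?_, ?_, ?_, ?_⟩
  · refine ⟨Finset.univ.image fun i => (fun ψ => tr (h' i) ψ : Additive (AddChar V Ω) → Ω),
      ?_⟩
    apply le_antisymm
    · rw [Submodule.span_le]
      intro F hF
      rw [Finset.coe_image, Finset.coe_univ, Set.image_univ] at hF
      obtain ⟨i, rfl⟩ := hF
      exact ⟨h' i, hp i, fun _ => rfl⟩
    · rintro F ⟨g, hg, hF⟩
      choose r hr using fun i => hg (h i) (hb.mem i)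
      have h1 : F = ∑ i, r i • (fun ψ => tr (h' i) ψ : Additive (AddChar V Ω) → Ω) := by
        funext ψ
        rw [hF]
        conv_lhs => rw [hh g]
        rw [tr_sum, Finset.sum_apply]
        refine Finset.sum_congr rfl fun i _ => ?_
        rw [Pi.smul_apply, Algebra.smul_def, hr]
      rw [h1]
      refine Submodule.sum_mem _ fun i _ => Submodule.smul_mem _ _ (Submodule.subset_span ?_)
      rw [Finset.coe_image, Finset.coe_univ, Set.image_univ]
      exact ⟨i, rfl⟩
  · intro ψ φ hψφ
    have h1 : ∀ g : V → Ω, tr g ψ = tr g φ := by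
      intro g
      rw [hh g, tr_sum, tr_sum]
      refine Finset.sum_congr rfl fun i _ => ?_
      rw [hψφ (fun ψ => tr (h' i) ψ) ⟨h' i, hp i, fun _ => rfl⟩]
    classical
    apply Additive.toMul.injective
    ext v
    have h2 := h1 (Pi.single v 1)
    simpa [tr, Pi.single_apply] using h2
  · rintro γ F ⟨g, hg, hF⟩ ψ
    rw [hF, hF, tr, tr, Finset.smul_sum,
      ← Equiv.sum_comp (MulAction.toPerm γ : Equiv.Perm V)]
    refine Finset.sum_congr rfl fun v _ => ?_
    simp only [MulAction.toPerm_apply]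
    have h1 : (γ • ψ).toMul (γ • v) = γ • ψ.toMul v := by
      change γ • ψ.toMul (γ⁻¹ • γ • v) = _
      rw [inv_smul_smul]
    have h2 := perp.equiv hD hH hg γ (γ • v)
    rw [inv_smul_smul] at h2
    rw [h1, ← h2, smul_mul']
  · rintro F ⟨g, hg, hF⟩
    have hc : ∀ i j, ∃ r : R, algebraMap R Ω r = ∑ v, h i v * h j v * g v := fun i j =>
      hg (h i * h j) (mul_mem (hb.mem i) (hb.mem j))
    choose c hc using hc
    have key : ∀ ψ φ : Additive (AddChar V Ω), F (ψ + φ) =
        ∑ i, ∑ j, algebraMap R Ω (c i j) * (tr (h' i) ψ * tr (h' j) φ) := by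
      intro ψ φ
      rw [hF, tr]
      -- the function `v ↦ g v * φ v` in terms of the dual basis, twice
      have e1 : ∀ j, ∑ v, h j v * (g v * ψ.toMul v) =
          ∑ i, algebraMap R Ω (c i j) * tr (h' i) ψ := by
        intro j
        have e2 : ∑ v, h j v * (g v * ψ.toMul v) = tr (fun v => h j v * g v) ψ := by
          rw [tr]
          exact Finset.sum_congr rfl fun v _ => by ring
        rw [e2]
        conv_lhs => rw [hh (fun v => h j v * g v)]
        rw [tr_sum]
        refine Finset.sum_congr rfl fun i _ => ?_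
        rw [hc]
        congr 1
        exact Finset.sum_congr rfl fun v _ => by ring
      have e3 : ∑ v, g v * (ψ + φ).toMul v = tr (fun v => g v * ψ.toMul v) φ := by
        rw [tr]
        refine Finset.sum_congr rfl fun v _ => ?_
        rw [toMul_add, AddChar.mul_apply]
        ring
      rw [e3]
      conv_lhs => rw [hh (fun v => g v * ψ.toMul v)]
      rw [tr_sum]
      simp only [e1]
      rw [Finset.sum_comm]
      refine Finset.sum_congr rfl fun j _ => ?_
      rw [Finset.sum_mul]
      refine Finset.sum_congr rfl fun i _ => ?_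
      ring
    have h1 : (fun p : Additive (AddChar V Ω) × Additive (AddChar V Ω) => F (p.1 + p.2)) =
        ∑ i, ∑ j, c i j • fun p : Additive (AddChar V Ω) × Additive (AddChar V Ω) =>
          (fun ψ => tr (h' i) ψ) p.1 * (fun ψ => tr (h' j) ψ) p.2 := by
      funext p
      rw [key]
      simp only [Finset.sum_apply, Pi.smul_apply]
      exact Finset.sum_congr rfl fun i _ => Finset.sum_congr rfl fun j _ =>
        (Algebra.smul_def _ _).symm
    rw [h1]
    refine sum_mem fun i _ => sum_mem fun j _ => Subalgebra.smul_mem _ ?_ _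
    exact mul_mem_tens₂ ⟨h' i, hp i, fun _ => rfl⟩ ⟨h' j, hp j, fun _ => rfl⟩


end Dual

end Fermat.Agent.Mzr
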