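import Mathlib
import Fermat.Agent.Conn.Zeta
import Fermat.Agent.Mzr.Dual

/-!
# Local lemmas on extensions in the flat category
-/

set_option autoImplicit false
set_option linter.unusedSectionVars false

noncomputable section

namespace Fermat.Agent.Mzr

open Module Fermat.Agent.Flat Fermat.Agent.LG Fermat.Agent.GaloisBasics Fermat.Agent.Inertia
  Fermat.Agent.EC Fermat.Agent.Conn

section Expansion

variable {G Ω : Type*} [Group G] [Field Ω] [MulSemiringAction G Ω]

/-- Expansion in powers of a Kummer generator. -/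
theorem exists_expansion {p : ℕ} (hp0 : 0 < p) (hpΩ : (p : Ω) ≠ 0) {ϖ y : Ω} (hϖ0 : ϖ ≠ 0)
    (hϖ : ∀ g : G, g • ϖ ^ p = ϖ ^ p) (hy : ∀ g : G, g • ϖ = ϖ → g • y = y) :
    ∃ r : ℕ → Ω, (∀ j, ∀ g : G, g • r j = r j) ∧ y = ∑ j ∈ Finset.range p, r j * ϖ ^ j := by
  classical
  have hroot : ∀ o : MulAction.orbit G ϖ, (o : Ω) ^ p = ϖ ^ p := by
    rintro ⟨_, g, rfl⟩
    change (g • ϖ) ^ p = _
    rw [← smul_pow', hϖ]
  have hfinite : Finite (MulAction.orbit G ϖ) := by
    have hP : (Polynomial.X ^ p - Polynomial.C (ϖ ^ p) : Polynomial Ω) ≠ 0 :=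
      Polynomial.X_pow_sub_C_ne_zero hp0 _
    have h1 : (MulAction.orbit G ϖ : Set Ω) ⊆
        ((Polynomial.X ^ p - Polynomial.C (ϖ ^ p) : Polynomial Ω).roots.toFinset : Set Ω) := by
      intro o ho
      rw [Finset.mem_coe, Multiset.mem_toFinset, Polynomial.mem_roots hP, Polynomial.IsRoot,
        Polynomial.eval_sub, Polynomial.eval_pow, Polynomial.eval_X, Polynomial.eval_C,
        sub_eq_zero]
      exact hroot ⟨o, ho⟩
    exact ((Finset.finite_toSet _).subset h1).to_subtype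
  haveI := Fintype.ofFinite (MulAction.orbit G ϖ)
  have hg : ∀ o : MulAction.orbit G ϖ, ∃ g : G, g • ϖ = (o : Ω) := fun o => o.2
  choose g hg using hg
  have ho0 : ∀ o : MulAction.orbit G ϖ, (o : Ω) ≠ 0 := by
    intro o h0
    have := hroot o
    rw [h0, zero_pow hp0.ne'] at this
    exact pow_ne_zero p hϖ0 this.symm
  have hY : ∀ (h : G) (o : MulAction.orbit G ϖ), h • g o • y = g (h • o) • y := by
    intro h o
    have h1 : ((g (h • o))⁻¹ * (h * g o)) • ϖ = ϖ := by
      rw [mul_smul, mul_smul, hg o, inv_smul_eq_iff, hg (h • o)]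
      rfl
    have h2 := hy _ h1
    rw [mul_smul, inv_smul_eq_iff, mul_smul] at h2
    exact h2
  let r : ℕ → Ω := fun j => (p : Ω)⁻¹ * ∑ o : MulAction.orbit G ϖ, (g o • y) * ((o : Ω)⁻¹) ^ j
  refine ⟨r, fun j h => ?_, ?_⟩
  · change h • ((p : Ω)⁻¹ * ∑ o : MulAction.orbit G ϖ, (g o • y) * ((o : Ω)⁻¹) ^ j) = _
    rw [smul_mul', Finset.smul_sum]
    have h1 : h • (p : Ω)⁻¹ = (p : Ω)⁻¹ := by
      have h2 : h • (p : Ω) = (p : Ω) := map_natCast (MulSemiringAction.toRingHom G Ω h) p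
      rw [smul_inv'', h2]
    rw [h1]
    change _ = (p : Ω)⁻¹ * ∑ o : MulAction.orbit G ϖ, (g o • y) * ((o : Ω)⁻¹) ^ j
    congr 1
    refine Eq.trans (Finset.sum_congr rfl fun o _ => ?_) (Equiv.sum_comp
      (MulAction.toPerm h : Equiv.Perm (MulAction.orbit G ϖ))
      (fun o : MulAction.orbit G ϖ => (g o • y) * ((o : Ω)⁻¹) ^ j))
    change _ = (g (h • o) • y) * (((h • o : MulAction.orbit G ϖ) : Ω)⁻¹) ^ j
    rw [smul_mul', hY, smul_pow', smul_inv'']
    rfl
  · have hexp : ∀ o : MulAction.orbit G ϖ,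
        ∑ j ∈ Finset.range p, ((o : Ω)⁻¹ * ϖ) ^ j = if g o • ϖ = ϖ then (p : Ω) else 0 := by
      intro o
      by_cases h : g o • ϖ = ϖ
      · rw [if_pos h, ← hg o, h, inv_mul_cancel₀ hϖ0]
        simp
      · rw [if_neg h]
        have h1 : ((o : Ω)⁻¹ * ϖ) ^ p = 1 := by
          rw [mul_pow, inv_pow, hroot, inv_mul_cancel₀ (pow_ne_zero _ hϖ0)]
        have h2 : (o : Ω)⁻¹ * ϖ - 1 ≠ 0 := by
          intro h3
          apply h
          rw [hg o]
          have h4 : (o : Ω)⁻¹ * ϖ = 1 := sub_eq_zero.mp h3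
          rw [inv_mul_eq_iff_eq_mul₀ (ho0 o), mul_one] at h4
          exact h4.symm
        have h3 := geom_sum_mul ((o : Ω)⁻¹ * ϖ) p
        rw [h1, sub_self] at h3
        exact (mul_eq_zero.mp h3).resolve_right h2
    have h1 : ∑ j ∈ Finset.range p, r j * ϖ ^ j = (p : Ω)⁻¹ *
        ∑ o : MulAction.orbit G ϖ, (g o • y) * ∑ j ∈ Finset.range p, ((o : Ω)⁻¹ * ϖ) ^ j := by
      rw [Finset.mul_sum]
      simp only [r, Finset.mul_sum, Finset.sum_mul]
      rw [Finset.sum_comm]
      refine Finset.sum_congr rfl fun o _ => Finset.sum_congr rfl fun j _ => ?_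
      rw [mul_pow]
      ring
    rw [h1]
    have h2 : ∑ o : MulAction.orbit G ϖ, (g o • y) * ∑ j ∈ Finset.range p, ((o : Ω)⁻¹ * ϖ) ^ j =
        y * p := by
      let o₀ : MulAction.orbit G ϖ := ⟨ϖ, MulAction.mem_orbit_self ϖ⟩
      rw [Finset.sum_eq_single o₀]
      · have h3 : g o₀ • ϖ = ϖ := hg o₀
        rw [hexp, if_pos h3, hy _ h3]
      · intro o _ hne
        have h3 : ¬ g o • ϖ = ϖ := by
          rw [hg o]
          exact fun h => hne (Subtype.ext h)
        rw [hexp, if_neg h3, mul_zero]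
      · intro h
        exact absurd (Finset.mem_univ _) h
    rw [h2]
    field_simp

end Expansion

section L1

variable {G Ω : Type*} [Field Ω] [Group G] [MulSemiringAction G Ω] {A : ValuationSubring Ω} {p : ℕ}
variable {V : Type*} [AddCommGroup V] [DistribMulAction G V]

/-- **L1** -/
theorem smul_sub_eq_zero (hU : Unr G A p) (hp2 : p ≠ 2) {H : Subalgebra (fixA G A) (V → Ω)}
    (hH : IsHopfOrder (fixA G A) G H) (hval : ∀ f ∈ H, ∀ w, f w ∈ A)
    (g : G) (v : V) (hpv : p • (g • v - v) = 0)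
    (hfix : ∀ h : G, h • (g • v - v) = g • v - v) : g • v = v := by
  rw [← sub_eq_zero]
  set w := g • v - v with hw
  have hred : w ∈ red A H := smul_sub_mem_red hH hval hU.res g v
  by_contra hv
  obtain ⟨f₀, hf₀, h00, hc⟩ := exists_min' hH hval w
  have hc0 := value_ne_zero hH hv hc
  have hc1 : A.valuation (f₀ w) < 1 := by
    have := (mem_red_iff hH hval).mp hred f₀ hf₀
    rwa [h00, sub_zero] at this
  have h1 := p_le hU hH hval hpv hf₀ h00 hc hc0 hc1
  have h2 := hU.le (f₀ w) (fun g => by rw [← hH.equiv g f₀ hf₀, hfix]) hc1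
  have h3 : A.valuation (f₀ w) ^ (p - 1) ≤ A.valuation (p : Ω) ^ (p - 1) :=
    pow_le_pow_left₀ zero_le h2 _
  have hp3 : 3 ≤ p := by
    have := hU.prime.two_le
    omega
  have hvp0 : A.valuation (p : Ω) ≠ 0 := (Valuation.ne_zero_iff _).mpr hU.ne_zero
  have h4 : A.valuation (p : Ω) ^ (p - 1) < A.valuation (p : Ω) :=
    pow_lt_self_of_lt_one₀ (zero_lt_iff.mpr hvp0) hU.lt_one (by omega)
  exact lt_irrefl _ (h1.trans_lt (h3.trans_lt h4))

end L1

/-- The field of algebraic numbers. -/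
local notation "Qb" => AlgebraicClosure ℚ
/-- The absolute Galois group. -/
local notation "GQ" => (AlgebraicClosure ℚ ≃ₐ[ℚ] AlgebraicClosure ℚ)

section L2

variable {A : ValuationSubring Qb} {p : ℕ}
variable {G : Type*} [Group G] [MulSemiringAction G Qb]
variable {V : Type*} [AddCommGroup V] [DistribMulAction G V]

/-- **L2** -/
theorem exists_zpow_of_flat (hU : Unr G A p)
    (hz : ∀ x : Qb, (∀ g : G, g • x = x) → x ≠ 0 →
      ∃ n : ℤ, A.valuation x = A.valuation (p : Qb) ^ n)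
    {H : Subalgebra (fixA G A) (V → Qb)}
    (hH : IsHopfOrder (fixA G A) G H) (hval : ∀ f ∈ H, ∀ w, f w ∈ A)
    {b : V} {ξ : Qb} (hξ0 : ξ ≠ 0) (hξp : ∀ g : G, g • ξ ^ p = ξ ^ p)
    (hb : ∀ g : G, g • ξ = ξ → g • b = b) (hb' : ∀ g : G, g • b = b → g • ξ = ξ)
    (hpb : ∀ g : G, p • (g • b - b) = 0) :
    ∃ n : ℤ, A.valuation ξ = A.valuation (p : Qb) ^ n := by
  have hp := hU.prime
  have hvp0 : A.valuation (p : Qb) ≠ 0 := (Valuation.ne_zero_iff _).mpr hU.ne_zero
  by_contra hcon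
  obtain ⟨m, hm⟩ := hz (ξ ^ p) hξp (pow_ne_zero _ hξ0)
  rw [map_pow] at hm
  have hpm : ¬ (p : ℤ) ∣ m := by
    rintro ⟨k, rfl⟩
    apply hcon
    refine ⟨k, ?_⟩
    rw [mul_comm, zpow_mul, zpow_natCast] at hm
    exact (pow_left_inj₀ zero_le zero_le hp.ne_zero).mp hm
  have hcop : IsCoprime m (p : ℤ) := by
    rw [Int.isCoprime_iff_gcd_eq_one, Int.gcd_comm]
    have := (Nat.Prime.coprime_iff_not_dvd hp (n := m.natAbs)).mpr (by
      intro h
      exact hpm (Int.natCast_dvd.mpr h))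
    rwa [Int.gcd_eq_natAbs, Int.natAbs_natCast]
  obtain ⟨i, j, hij⟩ := hcop
  set ϖ : Qb := ξ ^ i * (p : Qb) ^ j with hϖdef
  have hp0 : (p : Qb) ≠ 0 := hU.ne_zero
  have hϖ0 : ϖ ≠ 0 := mul_ne_zero (zpow_ne_zero _ hξ0) (zpow_ne_zero _ hp0)
  have hgp : ∀ g : G, g • (p : Qb) = (p : Qb) := fun g =>
    map_natCast (MulSemiringAction.toRingHom G Qb g) p
  have hsz : ∀ (g : G) (x : Qb) (k : ℤ), g • x ^ k = (g • x) ^ k := fun g x k =>
    map_zpow₀ (MulSemiringAction.toRingHom G Qb g) x k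
  have hϖp : ∀ g : G, g • ϖ ^ p = ϖ ^ p := by
    intro g
    have h1 : ϖ ^ p = (ξ ^ p) ^ i * ((p : Qb) ^ p) ^ j := by
      rw [hϖdef, mul_pow, ← zpow_natCast, ← zpow_natCast, ← zpow_mul, ← zpow_mul, mul_comm i,
        mul_comm j, zpow_mul, zpow_mul, zpow_natCast, zpow_natCast]
    rw [h1, smul_mul', hsz, hsz, hξp, smul_pow', hgp]
  have hvϖ : A.valuation ϖ ^ p = A.valuation (p : Qb) := by
    rw [hϖdef, map_mul, map_zpow₀, map_zpow₀, mul_pow, ← zpow_natCast, ← zpow_natCast, ← zpow_mul,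
      ← zpow_mul, mul_comm i, zpow_mul, zpow_natCast, hm, ← zpow_mul, ← zpow_add₀ hvp0,
      mul_comm m i, hij, zpow_one]
  have hvϖ0 : A.valuation ϖ ≠ 0 := (Valuation.ne_zero_iff _).mpr hϖ0
  have hvϖ1 : A.valuation ϖ < 1 := by
    by_contra hge
    rw [not_lt] at hge
    have h1 : 1 ≤ A.valuation ϖ ^ p := one_le_pow₀ hge
    rw [hvϖ] at h1
    exact absurd hU.lt_one (not_lt.mpr h1)
  -- an element moving `ξ`
  have hmove : ∃ g : G, g • ξ ≠ ξ := by
    by_contra hall
    push Not at hall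
    exact hcon (hz ξ hall hξ0)
  obtain ⟨g, hg⟩ := hmove
  have hi : IsCoprime i (p : ℤ) := ⟨m, j, by rw [mul_comm m i]; exact hij⟩
  have hstab : ∀ h : G, h • ϖ = ϖ → h • ξ = ξ := by
    intro h hh
    rw [hϖdef, smul_mul', hsz, hsz, hgp] at hh
    have h1 : (h • ξ) ^ i = ξ ^ i := mul_right_cancel₀ (zpow_ne_zero _ hp0) hh
    have h2 : (h • ξ) ^ (p : ℤ) = ξ ^ (p : ℤ) := by
      rw [zpow_natCast, zpow_natCast, ← smul_pow', hξp]
    obtain ⟨a, b', hab⟩ := hi
    have h3 : ∀ x : Qb, x ≠ 0 → x = (x ^ i) ^ a * (x ^ (p : ℤ)) ^ b' := by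
      intro x hx
      rw [← zpow_mul, ← zpow_mul, ← zpow_add₀ hx, mul_comm i, mul_comm (p : ℤ), hab, zpow_one]
    have h4 : h • ξ ≠ 0 := by
      intro h0
      apply hξ0
      rw [smul_eq_zero_iff_eq] at h0
      exact h0
    rw [h3 _ h4, h1, h2, ← h3 _ hξ0]
  have hgϖ : g • ϖ ≠ ϖ := fun h => hg (hstab g h)
  set ζ : Qb := (g • ϖ) / ϖ with hζdef
  have hζp : ζ ^ p = 1 := by
    rw [hζdef, div_pow, ← smul_pow', hϖp, div_self (pow_ne_zero _ hϖ0)]
  have hζ1 : ζ ≠ 1 := by
    intro h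
    rw [hζdef, div_eq_one_iff_eq hϖ0] at h
    exact hgϖ h
  have hζprim : IsPrimitiveRoot ζ p := by
    haveI : Fact p.Prime := ⟨hp⟩
    have := IsPrimitiveRoot.orderOf ζ
    rwa [orderOf_eq_prime hζp hζ1] at this
  have hgϖ' : g • ϖ = ζ * ϖ := by rw [hζdef, div_mul_cancel₀ _ hϖ0]
  -- the basic estimate
  have hest : ∀ f ∈ H, A.valuation (f (g • b) - f b) ≤ A.valuation ϖ * A.valuation (1 - ζ) := by
    intro f hf
    obtain ⟨r, hr, hfb⟩ := exists_expansion (G := G) hp.pos hp0 hϖ0 hϖp (y := f b)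
      (fun h hh => by rw [← hH.equiv h f hf, hb h (hstab h hh)])
    -- the coefficients are integral
    have hrv : ∀ j, r j ≠ 0 → ∃ n : ℤ, A.valuation (r j) = A.valuation ϖ ^ ((p : ℤ) * n) := by
      intro j hj
      obtain ⟨n, hn⟩ := hz (r j) (hr j) hj
      refine ⟨n, ?_⟩
      rw [hn, zpow_mul, zpow_natCast, hvϖ]
    have hneg : ∀ n : ℤ, A.valuation ϖ ^ n ≤ 1 → 0 ≤ n := by
      intro n hn
      by_contra hlt
      rw [not_le] at hlt
      obtain ⟨k, hk⟩ : ∃ k : ℕ, n = -((k : ℤ) + 1) := ⟨(-n - 1).toNat, by omega⟩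
      have h2 : A.valuation ϖ ^ (k + 1) < 1 := pow_lt_one₀ zero_le hvϖ1 (Nat.succ_ne_zero k)
      have h3 : A.valuation ϖ ^ n * A.valuation ϖ ^ (k + 1) = 1 := by
        rw [← zpow_natCast, ← zpow_add₀ hvϖ0, hk]
        push_cast
        rw [neg_add_cancel, zpow_zero]
      have h4 : A.valuation ϖ ^ n * A.valuation ϖ ^ (k + 1) < 1 :=
        (mul_le_of_le_one_left' hn).trans_lt h2
      exact absurd h3 h4.ne
    have hrint : ∀ j ∈ Finset.range p, A.valuation (r j) ≤ 1 := by
      -- the maximal term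
      obtain ⟨k, hk, hmax⟩ := Finset.exists_max_image (Finset.range p)
        (fun j => A.valuation (r j * ϖ ^ j)) ⟨0, Finset.mem_range.mpr hp.pos⟩
      have hle1 : A.valuation (r k * ϖ ^ k) ≤ 1 := by
        by_contra hgt
        rw [not_le] at hgt
        have hk0 : r k ≠ 0 := by
          intro h0
          rw [h0, zero_mul, map_zero] at hgt
          exact absurd hgt (not_lt.mpr zero_le)
        obtain ⟨n, hn⟩ := hrv k hk0
        have hlt : ∀ j ∈ (Finset.range p).erase k,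
            A.valuation (r j * ϖ ^ j) < A.valuation (r k * ϖ ^ k) := by
          intro j hj
          rw [Finset.mem_erase] at hj
          refine lt_of_le_of_ne (hmax j hj.2) fun heq => ?_
          have hj0 : r j ≠ 0 := by
            intro h0
            rw [h0, zero_mul, map_zero] at heq
            rw [← heq] at hgt
            exact absurd hgt (not_lt.mpr zero_le)
          obtain ⟨n', hn'⟩ := hrv j hj0
          rw [map_mul, map_mul, map_pow, map_pow, hn, hn', ← zpow_natCast, ← zpow_natCast,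
            ← zpow_add₀ hvϖ0, ← zpow_add₀ hvϖ0] at heq
          have h5 : (p : ℤ) * n' + j = p * n + k := by
            have h6 : A.valuation ϖ ^ ((p : ℤ) * n' + j - (p * n + k)) = 1 := by
              rw [zpow_sub₀ hvϖ0, heq, div_self (zpow_ne_zero _ hvϖ0)]
            have h7 : A.valuation ϖ ^ (-((p : ℤ) * n' + j - (p * n + k))) = 1 := by
              rw [zpow_neg, h6, inv_one]
            have h8 := hneg _ h6.le
            have h9 := hneg _ h7.le
            omega
          have hj' := Finset.mem_range.mp hj.2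
          have hk' := Finset.mem_range.mp hk
          apply hj.1
          have h10 : (p : ℤ) * (n' - n) = k - j := by rw [mul_sub]; omega
          have h11 : (n' - n) = 0 := by
            by_contra h12
            rcases lt_or_gt_of_ne h12 with h13 | h13
            · nlinarith
            · nlinarith
          rw [h11, mul_zero] at h10
          omega
        have hsum : A.valuation (∑ j ∈ (Finset.range p).erase k, r j * ϖ ^ j) <
            A.valuation (r k * ϖ ^ k) := by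
          refine Valuation.map_sum_lt _ ?_ hlt
          exact (zero_lt_one.trans hgt).ne'
        have h5 : f b = r k * ϖ ^ k + ∑ j ∈ (Finset.range p).erase k, r j * ϖ ^ j := by
          rw [hfb, Finset.add_sum_erase _ (fun j => r j * ϖ ^ j) hk]
        have h6 : A.valuation (f b) = A.valuation (r k * ϖ ^ k) := by
          rw [h5]
          exact Valuation.map_add_eq_of_lt_left _ hsum
        have h7 : A.valuation (f b) ≤ 1 := (A.valuation_le_one_iff _).mpr (hval f hf b)
        rw [h6] at h7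
        exact absurd hgt (not_lt.mpr h7)
      intro j hj
      by_cases hj0 : r j = 0
      · rw [hj0, map_zero]; exact zero_le
      obtain ⟨n, hn⟩ := hrv j hj0
      have h5 := (hmax j hj).trans hle1
      rw [map_mul, map_pow, hn, ← zpow_natCast, ← zpow_add₀ hvϖ0] at h5
      have h6 := hneg _ h5
      have hj' := Finset.mem_range.mp hj
      have h7 : 0 ≤ n := by
        by_contra h8
        have h9 : n ≤ -1 := by omega
        nlinarith
      rw [hn]
      obtain ⟨k', rfl⟩ : ∃ k' : ℕ, n = k' := ⟨n.toNat, by omega⟩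
      rw [zpow_mul, zpow_natCast, zpow_natCast]
      exact pow_le_one₀ zero_le (pow_le_one₀ zero_le hvϖ1.le)
    have h1 : f (g • b) - f b = ∑ j ∈ Finset.range p, r j * ϖ ^ j * (ζ ^ j - 1) := by
      rw [hH.equiv g f hf, hfb, Finset.smul_sum, ← Finset.sum_sub_distrib]
      refine Finset.sum_congr rfl fun j _ => ?_
      rw [smul_mul', hr, smul_pow', hgϖ', mul_pow]
      ring
    rw [h1]
    refine Valuation.map_sum_le _ fun j hj => ?_
    rw [map_mul, map_mul, map_pow]
    rcases Nat.eq_zero_or_pos j with rfl | hj0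
    · rw [pow_zero ζ, sub_self, map_zero, mul_zero]
      exact zero_le
    · have h2 : A.valuation (r j) * A.valuation ϖ ^ j ≤ A.valuation ϖ := by
        refine (mul_le_of_le_one_left' (hrint j hj)).trans ?_
        exact pow_le_of_le_one zero_le hvϖ1.le hj0.ne'
      have h3 : A.valuation (ζ ^ j - 1) ≤ A.valuation (1 - ζ) := by
        rw [Valuation.map_sub_swap]
        exact val_one_sub_pow_le (val_root hp.pos hζp).le j
      exact mul_le_mul' h2 h3
  -- conclusion
  set x : V := g • b - b with hx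
  have hx0 : x ≠ 0 := fun h => hg (hb' g (sub_eq_zero.mp h))
  obtain ⟨f₀, hf₀, h00, hc⟩ := exists_min' hH hval x
  have hc0 := value_ne_zero hH hx0 hc
  have hle : A.valuation (f₀ x) ≤ A.valuation ϖ * A.valuation (1 - ζ) := by
    obtain ⟨n, a, b', ha, hb', -, h2⟩ := comul_sub hH hf₀
    have h3 := h2 (-b) (g • b) b
    rw [neg_add_cancel, h00, sub_zero, neg_add_eq_sub] at h3
    rw [hx, h3]
    refine Valuation.map_sum_le _ fun i _ => ?_
    rw [map_mul]
    exact (mul_le_of_le_one_left' ((A.valuation_le_one_iff _).mpr (hval _ (ha i) _))).trans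
      (hest _ (hb' i))
  have hζ1' : A.valuation (1 - ζ) ≤ 1 := by
    refine (Valuation.map_sub _ _ _).trans ?_
    rw [map_one, val_root hp.pos hζp, max_self]
  have hc1 : A.valuation (f₀ x) < 1 := hle.trans_lt ((mul_le_of_le_one_right' hζ1').trans_lt hvϖ1)
  have h1 := p_le hU hH hval (hpb g) hf₀ h00 hc hc0 hc1
  have h2 : A.valuation (f₀ x) ^ (p - 1) ≤ (A.valuation ϖ * A.valuation (1 - ζ)) ^ (p - 1) :=
    pow_le_pow_left₀ zero_le hle _
  rw [mul_pow, val_zeta hp hζprim] at h2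
  have h3 : A.valuation ϖ ^ (p - 1) * A.valuation (p : Qb) < A.valuation (p : Qb) := by
    have h4 : A.valuation ϖ ^ (p - 1) < 1 :=
      pow_lt_one₀ zero_le hvϖ1 (by have := hp.two_le; omega)
    calc _ < 1 * A.valuation (p : Qb) := mul_lt_mul_of_pos_right h4 (zero_lt_iff.mpr hvp0)
      _ = _ := one_mul _
  exact lt_irrefl _ ((h1.trans h2).trans_lt h3)

end L2

end Fermat.Agent.Mzr
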