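import Mathlib
import Fermat.Agent.Mzr.Loc
import Fermat.Agent.Flat.SubQuot
import Fermat.Agent.GCFT.Mod
import Fermat.Agent.ESCore.Cyclo

/-!
# Extensions by roots of unity
-/

set_option autoImplicit false
set_option linter.unusedSectionVars false

noncomputable section

namespace Fermat.Agent.Mzr

open Module Fermat.Agent.Flat Fermat.Agent.Conn

/-- The field of algebraic numbers. -/
local notation "Qb" => AlgebraicClosure ℚ
/-- The absolute Galois group. -/
local notation "GQ" => (AlgebraicClosure ℚ ≃ₐ[ℚ] AlgebraicClosure ℚ)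

/-- The roots of unity, additively. -/
def Mu (m : ℕ) : Type := Additive (rootsOfUnity m Qb)

instance (m : ℕ) : AddCommGroup (Mu m) := inferInstanceAs (AddCommGroup (Additive _))

instance (m : ℕ) [NeZero m] : Finite (Mu m) := inferInstanceAs (Finite (rootsOfUnity m Qb))

/-- the value -/
def Mu.val {m : ℕ} (z : Mu m) : Qb := (((Additive.toMul z : rootsOfUnity m Qb) : Qbˣ) : Qb)

section Mu

variable {m : ℕ}

theorem Mu.val_zero : (0 : Mu m).val = 1 := rfl

theorem Mu.val_add (z w : Mu m) : (z + w).val = z.val * w.val := rfl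

theorem Mu.val_neg (z : Mu m) : (-z).val = z.val⁻¹ := by
  change ((((Additive.toMul z)⁻¹ : rootsOfUnity m Qb) : Qbˣ) : Qb) = _
  rw [Subgroup.coe_inv, Units.val_inv_eq_inv_val]
  rfl

theorem Mu.val_pow (z : Mu m) : z.val ^ m = 1 := by
  have h := (Additive.toMul z : rootsOfUnity m Qb).2
  rw [mem_rootsOfUnity'] at h
  exact h

theorem Mu.val_ne (z : Mu m) : z.val ≠ 0 := Units.ne_zero _

theorem Mu.ext {z w : Mu m} (h : z.val = w.val) : z = w :=
  Additive.toMul.injective (Subtype.ext (Units.ext h))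

theorem Mu.val_nsmul (z : Mu m) (n : ℕ) : (n • z).val = z.val ^ n := by
  induction n with
  | zero => rw [zero_smul, pow_zero, Mu.val_zero]
  | succ n ih => rw [succ_nsmul, Mu.val_add, ih, pow_succ]

theorem Mu.smul_eq_zero (z : Mu m) : m • z = 0 :=
  Mu.ext (by rw [Mu.val_nsmul, Mu.val_pow, Mu.val_zero])

/-- constructor -/
def Mu.mk (hm : m ≠ 0) (x : Qb) (hx : x ^ m = 1) : Mu m :=
  Additive.ofMul ⟨Units.mk0 x (by rintro rfl; rw [zero_pow hm] at hx; exact zero_ne_one hx), by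
    rw [mem_rootsOfUnity']
    exact hx⟩

theorem Mu.val_mk (hm : m ≠ 0) (x : Qb) (hx : x ^ m = 1) : (Mu.mk hm x hx).val = x := rfl

instance : DistribMulAction GQ (Mu m) where
  smul σ z := Additive.ofMul ⟨Units.map (σ : Qb →* Qb) ((Additive.toMul z : rootsOfUnity m Qb) : Qbˣ),
    by
      rw [mem_rootsOfUnity']
      have h := Mu.val_pow z
      have h2 := congrArg σ h
      rw [map_pow, map_one] at h2
      exact h2⟩
  one_smul z := Mu.ext rfl
  mul_smul σ τ z := Mu.ext rfl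
  smul_zero σ := Mu.ext (map_one σ)
  smul_add σ z w := Mu.ext (map_mul σ _ _)

theorem Mu.val_smul (σ : GQ) (z : Mu m) : (σ • z).val = σ z.val := rfl

end Mu

section Coc

variable {S : Type} [AddCommGroup S] [DistribMulAction GQ S] {m : ℕ}

/-- Cocycles with values in the dual. -/
def IsCoc (c : GQ → S →+ Mu m) : Prop :=
  ∀ σ τ x, c (σ * τ) x = c σ x + σ • c τ (σ⁻¹ • x)

variable {c : GQ → S →+ Mu m}

theorem IsCoc.one (hc : IsCoc c) : c 1 = 0 := by
  ext x
  have h := hc 1 1 x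
  rw [mul_one, inv_one, one_smul, one_smul] at h
  exact (left_eq_add.mp h)

/-- The extension defined by a cocycle. -/
def Ext (c : GQ → S →+ Mu m) (_ : IsCoc c) : Type := S × Mu m

instance (hc : IsCoc c) : AddCommGroup (Ext c hc) := inferInstanceAs (AddCommGroup (S × Mu m))

instance (hc : IsCoc c) [Finite S] [NeZero m] : Finite (Ext c hc) :=
  inferInstanceAs (Finite (S × Mu m))

/-- constructor -/
def Ext.mk (hc : IsCoc c) (x : S) (z : Mu m) : Ext c hc := (x, z)

theorem Ext.mk_add (hc : IsCoc c) (x y : S) (z w : Mu m) :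
    Ext.mk hc x z + Ext.mk hc y w = Ext.mk hc (x + y) (z + w) := rfl

theorem Ext.mk_sub (hc : IsCoc c) (x y : S) (z w : Mu m) :
    Ext.mk hc x z - Ext.mk hc y w = Ext.mk hc (x - y) (z - w) := rfl

theorem Ext.mk_zero (hc : IsCoc c) : Ext.mk hc 0 0 = 0 := rfl

theorem Ext.nsmul_mk (hc : IsCoc c) (n : ℕ) (x : S) (z : Mu m) :
    n • Ext.mk hc x z = Ext.mk hc (n • x) (n • z) := rfl

instance (hc : IsCoc c) : DistribMulAction GQ (Ext c hc) where
  smul σ p := (σ • p.1, σ • p.2 + c σ (σ • p.1))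
  one_smul p := by
    change ((1 : GQ) • p.1, (1 : GQ) • p.2 + c 1 ((1 : GQ) • p.1)) = p
    rw [one_smul, one_smul, hc.one, AddMonoidHom.zero_apply, add_zero]
    rfl
  mul_smul σ τ p := by
    change ((σ * τ) • p.1, (σ * τ) • p.2 + c (σ * τ) ((σ * τ) • p.1)) =
      (σ • τ • p.1, σ • (τ • p.2 + c τ (τ • p.1)) + c σ (σ • τ • p.1))
    rw [hc, mul_smul, mul_smul, inv_smul_smul, smul_add]
    refine Prod.ext rfl ?_
    change _ + (_ + _) = _ + _ + _
    abel
  smul_zero σ := by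
    change (σ • (0 : S), σ • (0 : Mu m) + c σ (σ • (0 : S))) = 0
    rw [smul_zero, smul_zero, map_zero, add_zero]
    rfl
  smul_add σ p p' := by
    change (σ • (p.1 + p'.1), σ • (p.2 + p'.2) + c σ (σ • (p.1 + p'.1))) =
      (σ • p.1 + σ • p'.1, (σ • p.2 + c σ (σ • p.1)) + (σ • p'.2 + c σ (σ • p'.1)))
    rw [smul_add, smul_add, map_add]
    refine Prod.ext rfl ?_
    change _ + _ + (_ + _) = _ + _ + (_ + _)
    abel

theorem Ext.smul_mk (hc : IsCoc c) (σ : GQ) (x : S) (z : Mu m) :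
    σ • Ext.mk hc x z = Ext.mk hc (σ • x) (σ • z + c σ (σ • x)) := rfl

theorem Ext.mk_surj (hc : IsCoc c) (p : Ext c hc) : ∃ x z, p = Ext.mk hc x z := ⟨p.1, p.2, rfl⟩

theorem Ext.mk_inj (hc : IsCoc c) {x y : S} {z w : Mu m} (h : Ext.mk hc x z = Ext.mk hc y w) :
    x = y ∧ z = w := ⟨congrArg Prod.fst h, congrArg Prod.snd h⟩

end Coc

end Fermat.Agent.Mzr
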