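import Mathlib
import Fermat.Agent.Mzr.Coc

/-!
# Extensions attached to a character of a group of functions
-/

set_option autoImplicit false
set_option linter.unusedSectionVars false

noncomputable section

namespace Fermat.Agent.Mzr

/-- The field of algebraic numbers. -/
local notation "Qb" => AlgebraicClosure ℚ
/-- The absolute Galois group. -/
local notation "GQ" => (AlgebraicClosure ℚ ≃ₐ[ℚ] AlgebraicClosure ℚ)

/-- A subgroup `Z` of `U` containing the `m`-th powers and a character `y` of `U`. -/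
structure PD (U : Type) [CommGroup U] [MulDistribMulAction GQ U] (m : ℕ) where
  /-- the subgroup -/
  Z : Subgroup U
  pow_mem : ∀ u : U, u ^ m ∈ Z
  smul_mem : ∀ (σ : GQ), ∀ f ∈ Z, σ • f ∈ Z
  /-- the character -/
  y : U →* Qbˣ
  y_smul : ∀ (σ : GQ) (u : U), (y (σ • u) : Qb) = σ (y u)
  y_tors : ∀ u : U, u ^ m = 1 → y u = 1

variable {U : Type} [CommGroup U] [MulDistribMulAction GQ U] {m : ℕ}

/-- the Galois action on the units -/
def uact (σ : GQ) : Qbˣ →* Qbˣ := Units.map (σ : Qb →* Qb)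

theorem coe_uact (σ : GQ) (x : Qbˣ) : ((uact σ x : Qbˣ) : Qb) = σ x := rfl

theorem uact_mul (σ τ : GQ) (x : Qbˣ) : uact (σ * τ) x = uact σ (uact τ x) := Units.ext rfl

theorem uact_one (x : Qbˣ) : uact 1 x = x := Units.ext rfl

namespace PD

variable (D : PD U m)

theorem y_smul' (σ : GQ) (u : U) : D.y (σ • u) = uact σ (D.y u) := Units.ext (D.y_smul σ u)

/-- `m`-th powers -/
def B : Subgroup D.Z where
  carrier := {f | ∃ u : U, (f : U) = u ^ m}
  one_mem' := ⟨1, by rw [one_pow]; rfl⟩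
  mul_mem' := by
    rintro f g ⟨u, hu⟩ ⟨v, hv⟩
    exact ⟨u * v, by rw [mul_pow, ← hu, ← hv]; rfl⟩
  inv_mem' := by
    rintro f ⟨u, hu⟩
    exact ⟨u⁻¹, by rw [inv_pow, ← hu]; rfl⟩

/-- the quotient -/
def S : Type := Additive (D.Z ⧸ D.B)

instance : AddCommGroup D.S := inferInstanceAs (AddCommGroup (Additive (D.Z ⧸ D.B)))

/-- the class of a function -/
def cls (f : D.Z) : D.S := Additive.ofMul (QuotientGroup.mk f)

theorem cls_surj (s : D.S) : ∃ f, D.cls f = s := by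
  obtain ⟨f, hf⟩ := QuotientGroup.mk_surjective (Additive.toMul s)
  exact ⟨f, by rw [cls, hf]; rfl⟩

theorem cls_mul (f g : D.Z) : D.cls (f * g) = D.cls f + D.cls g := rfl

theorem cls_inv (f : D.Z) : D.cls f⁻¹ = - D.cls f := rfl

theorem cls_one : D.cls 1 = 0 := rfl

theorem cls_eq_zero {f : D.Z} : D.cls f = 0 ↔ ∃ u : U, (f : U) = u ^ m :=
  QuotientGroup.eq_one_iff f

theorem cls_eq {f g : D.Z} : D.cls f = D.cls g ↔ ∃ u : U, (f : U) = g * u ^ m := by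
  rw [← sub_eq_zero, sub_eq_add_neg, ← cls_inv, ← cls_mul, cls_eq_zero]
  constructor
  · rintro ⟨u, hu⟩
    refine ⟨u, ?_⟩
    have h1 : (f : U) * (g : U)⁻¹ = u ^ m := hu
    rw [← h1, mul_comm, inv_mul_cancel_right]
  · rintro ⟨u, hu⟩
    refine ⟨u, ?_⟩
    change (f : U) * (g : U)⁻¹ = u ^ m
    rw [hu, mul_comm (g : U), mul_inv_cancel_right]

/-- action on the functions -/
def actZ (σ : GQ) : D.Z →* D.Z where
  toFun f := ⟨σ • (f : U), D.smul_mem σ f f.2⟩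
  map_one' := Subtype.ext (smul_one σ)
  map_mul' f g := Subtype.ext (smul_mul' σ _ _)

instance : DistribMulAction GQ D.S where
  smul σ s := Additive.ofMul (QuotientGroup.map D.B D.B (D.actZ σ) (by
    rintro f ⟨u, hu⟩
    refine ⟨σ • u, ?_⟩
    change σ • (f : U) = _
    rw [hu, smul_pow']) (Additive.toMul s))
  one_smul s := by
    obtain ⟨f, rfl⟩ := D.cls_surj s
    change D.cls (D.actZ 1 f) = D.cls f
    congr 1
    exact Subtype.ext (one_smul _ _)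
  mul_smul σ τ s := by
    obtain ⟨f, rfl⟩ := D.cls_surj s
    change D.cls (D.actZ (σ * τ) f) = D.cls (D.actZ σ (D.actZ τ f))
    congr 1
    exact Subtype.ext (mul_smul _ _ _)
  smul_zero σ := congrArg Additive.ofMul (map_one _)
  smul_add σ s t := congrArg Additive.ofMul (map_mul _ _ _)

theorem smul_cls (σ : GQ) (f : D.Z) : σ • D.cls f = D.cls (D.actZ σ f) := rfl

/-- The group of pairs `(f, η)` with `η ^ m = y f`. -/
def EZ : Subgroup (U × Qbˣ) where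
  carrier := {p | p.1 ∈ D.Z ∧ p.2 ^ m = D.y p.1}
  one_mem' := ⟨D.Z.one_mem, by
    change (1 : Qbˣ) ^ m = D.y 1
    rw [one_pow, map_one]⟩
  mul_mem' := by
    rintro p p' ⟨h1, h2⟩ ⟨h3, h4⟩
    refine ⟨D.Z.mul_mem h1 h3, ?_⟩
    change (p.2 * p'.2) ^ m = D.y (p.1 * p'.1)
    rw [mul_pow, map_mul, h2, h4]
  inv_mem' := by
    rintro p ⟨h1, h2⟩
    refine ⟨D.Z.inv_mem h1, ?_⟩
    change (p.2⁻¹) ^ m = D.y (p.1⁻¹)
    rw [inv_pow, map_inv, h2]

/-- the trivial pairs -/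
def EB : Subgroup D.EZ where
  carrier := {p | ∃ u : U, (p : U × Qbˣ) = (u ^ m, D.y u)}
  one_mem' := ⟨1, by rw [one_pow, map_one]; rfl⟩
  mul_mem' := by
    rintro p p' ⟨u, hu⟩ ⟨v, hv⟩
    refine ⟨u * v, ?_⟩
    rw [mul_pow, map_mul, ← Prod.mk_mul_mk, ← hu, ← hv]
    rfl
  inv_mem' := by
    rintro p ⟨u, hu⟩
    refine ⟨u⁻¹, ?_⟩
    rw [inv_pow, map_inv, ← Prod.inv_mk, ← hu]
    rfl

/-- The extension. -/
def E : Type := Additive (D.EZ ⧸ D.EB)

instance : AddCommGroup D.E := inferInstanceAs (AddCommGroup (Additive (D.EZ ⧸ D.EB)))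

/-- the class of a pair -/
def ecl (p : D.EZ) : D.E := Additive.ofMul (QuotientGroup.mk p)

theorem ecl_surj (s : D.E) : ∃ p, D.ecl p = s := by
  obtain ⟨f, hf⟩ := QuotientGroup.mk_surjective (Additive.toMul s)
  exact ⟨f, by rw [ecl, hf]; rfl⟩

theorem ecl_mul (f g : D.EZ) : D.ecl (f * g) = D.ecl f + D.ecl g := rfl

theorem ecl_inv (f : D.EZ) : D.ecl f⁻¹ = - D.ecl f := rfl

theorem ecl_one : D.ecl 1 = 0 := rfl

theorem ecl_eq_zero {p : D.EZ} : D.ecl p = 0 ↔ ∃ u : U, (p : U × Qbˣ) = (u ^ m, D.y u) :=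
  QuotientGroup.eq_one_iff p

/-- action on the pairs -/
def actEZ (σ : GQ) : D.EZ →* D.EZ where
  toFun p := ⟨(σ • (p : U × Qbˣ).1, uact σ (p : U × Qbˣ).2), D.smul_mem σ _ p.2.1, by
    change (uact σ (p : U × Qbˣ).2) ^ m = D.y (σ • (p : U × Qbˣ).1)
    rw [← map_pow, p.2.2, y_smul']⟩
  map_one' := Subtype.ext (Prod.ext (smul_one σ) (map_one _))
  map_mul' f g := Subtype.ext (Prod.ext (smul_mul' σ _ _) (map_mul _ _ _))

/-- action on the extension -/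
def actE (σ : GQ) : D.E →+ D.E :=
  MonoidHom.toAdditive (QuotientGroup.map D.EB D.EB (D.actEZ σ) (by
    rintro p ⟨u, hu⟩
    refine ⟨σ • u, ?_⟩
    change (σ • (p : U × Qbˣ).1, uact σ (p : U × Qbˣ).2) = _
    rw [hu, smul_pow', y_smul']))

theorem actE_ecl (σ : GQ) (p : D.EZ) : D.actE σ (D.ecl p) = D.ecl (D.actEZ σ p) := rfl

instance : DistribMulAction GQ D.E where
  smul σ s := D.actE σ s
  one_smul s := by
    change D.actE 1 s = s
    obtain ⟨f, rfl⟩ := D.ecl_surj s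
    rw [actE_ecl]
    congr 1
    exact Subtype.ext (Prod.ext (one_smul _ _) (uact_one _))
  mul_smul σ τ s := by
    change D.actE (σ * τ) s = D.actE σ (D.actE τ s)
    obtain ⟨f, rfl⟩ := D.ecl_surj s
    rw [actE_ecl, actE_ecl, actE_ecl]
    congr 1
    exact Subtype.ext (Prod.ext (mul_smul _ _ _) (uact_mul _ _ _))
  smul_zero σ := map_zero (D.actE σ)
  smul_add σ s t := map_add (D.actE σ) s t

theorem smul_ecl (σ : GQ) (p : D.EZ) : σ • D.ecl p = D.ecl (D.actEZ σ p) := rfl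

/-- projection to the first component -/
def fstZ : D.EZ →* D.Z where
  toFun p := ⟨(p : U × Qbˣ).1, p.2.1⟩
  map_one' := rfl
  map_mul' _ _ := rfl

/-- the projection -/
def π : D.E →+ D.S := MonoidHom.toAdditive (QuotientGroup.map D.EB D.B D.fstZ (by
  rintro p ⟨u, hu⟩
  exact ⟨u, congrArg Prod.fst hu⟩))

theorem π_ecl (p : D.EZ) : D.π (D.ecl p) = D.cls (D.fstZ p) := rfl

theorem π_smul (σ : GQ) (e : D.E) : D.π (σ • e) = σ • D.π e := by
  obtain ⟨p, rfl⟩ := D.ecl_surj e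
  rfl

theorem π_surj (hm : m ≠ 0) : Function.Surjective D.π := by
  intro s
  obtain ⟨f, rfl⟩ := D.cls_surj s
  obtain ⟨η, hη⟩ := IsAlgClosed.exists_pow_nat_eq (D.y f : Qb) (Nat.pos_of_ne_zero hm)
  have hη0 : η ≠ 0 := by
    rintro rfl
    rw [zero_pow hm] at hη
    exact (D.y f).ne_zero hη.symm
  exact ⟨D.ecl ⟨((f : U), Units.mk0 η hη0), f.2, Units.ext (by
    rw [Units.val_pow_eq_pow_val]; exact hη)⟩, rfl⟩

/-- The roots of unity in the extension. -/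
def ι : Mu m →+ D.E where
  toFun z := D.ecl ⟨(1, ((Additive.toMul z : rootsOfUnity m Qb) : Qbˣ)), D.Z.one_mem, by
    rw [map_one]
    exact (Additive.toMul z : rootsOfUnity m Qb).2⟩
  map_zero' := rfl
  map_add' z w := by
    rw [← ecl_mul]
    congr 1
    exact Subtype.ext (Prod.ext (mul_one 1).symm rfl)

theorem ι_smul (σ : GQ) (z : Mu m) : D.ι (σ • z) = σ • D.ι z := by
  change D.ecl _ = D.ecl _
  congr 1
  exact Subtype.ext (Prod.ext (smul_one σ).symm rfl)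

theorem ι_inj : Function.Injective D.ι := by
  rw [injective_iff_map_eq_zero]
  intro z hz
  obtain ⟨u, hu⟩ := D.ecl_eq_zero.mp hz
  have h1 : (1 : U) = u ^ m := congrArg Prod.fst hu
  have h2 : ((Additive.toMul z : rootsOfUnity m Qb) : Qbˣ) = D.y u := congrArg Prod.snd hu
  rw [D.y_tors u h1.symm] at h2
  apply Mu.ext
  change (((Additive.toMul z : rootsOfUnity m Qb) : Qbˣ) : Qb) = 1
  rw [h2, Units.val_one]

theorem π_ι (z : Mu m) : D.π (D.ι z) = 0 := by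
  change D.cls _ = 0
  rw [cls_eq_zero]
  exact ⟨1, (one_pow m).symm⟩

theorem exact {e : D.E} (he : D.π e = 0) : ∃ z, D.ι z = e := by
  obtain ⟨p, rfl⟩ := D.ecl_surj e
  obtain ⟨u, hu⟩ := D.cls_eq_zero.mp he
  have hu' : (p : U × Qbˣ).1 = u ^ m := hu
  have h1 := p.2.2
  rw [hu', map_pow] at h1
  have h2 : ((p : U × Qbˣ).2 * (D.y u)⁻¹) ^ m = 1 := by
    rw [mul_pow, inv_pow, h1, mul_inv_cancel]
  refine ⟨Additive.ofMul ⟨(p : U × Qbˣ).2 * (D.y u)⁻¹, h2⟩, ?_⟩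
  rw [← sub_eq_zero, sub_eq_add_neg]
  change D.ecl _ + -D.ecl p = 0
  rw [← ecl_inv, ← ecl_mul, ecl_eq_zero]
  refine ⟨u⁻¹, Prod.ext ?_ ?_⟩
  · change 1 * ((p : U × Qbˣ).1)⁻¹ = u⁻¹ ^ m
    rw [hu', one_mul, inv_pow]
  · change ((p : U × Qbˣ).2 * (D.y u)⁻¹) * ((p : U × Qbˣ).2)⁻¹ = D.y u⁻¹
    rw [map_inv, mul_comm, inv_mul_cancel_left]

theorem smul_E (e : D.E) : m • e = 0 := by
  obtain ⟨p, rfl⟩ := D.ecl_surj e
  have h1 : ∀ n : ℕ, n • D.ecl p = D.ecl (p ^ n) := fun n => rfl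
  rw [h1, ecl_eq_zero]
  refine ⟨(p : U × Qbˣ).1, Prod.ext rfl ?_⟩
  exact p.2.2

theorem smul_S (s : D.S) : m • s = 0 := by
  obtain ⟨f, rfl⟩ := D.cls_surj s
  have h1 : ∀ n : ℕ, n • D.cls f = D.cls (f ^ n) := fun n => rfl
  rw [h1, cls_eq_zero]
  exact ⟨f, rfl⟩

/-- A splitting over a group `H` of automorphisms, up to `b`. -/
def Spl (b : ℕ) (H : Subgroup GQ) : Prop :=
  ∃ s : D.Z →* Qbˣ, (∀ f, s f ^ m = D.y f ^ b) ∧ (∀ (u : U), s ⟨u ^ m, D.pow_mem u⟩ = D.y u ^ b) ∧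
    ∀ σ ∈ H, ∀ f, s (D.actZ σ f) = uact σ (s f)

end PD

end Fermat.Agent.Mzr
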