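import Mathlib
import Fermat.Agent.Mzr.Iface
import Fermat.Agent.Mzr.Pair
import Fermat.Agent.Flat.SelFlat
import Fermat.Agent.WP.Pl

/-!
# Extensions attached to pairs of rational points of `X₀(N)`
-/

set_option autoImplicit false
set_option linter.unusedSectionVars false

noncomputable section

namespace Fermat.Agent.Mzr

open AlgebraicCurve Fermat.Agent.FunField Fermat.Agent.Flat Fermat.Agent.LG Fermat.Agent.ModFun
open Fermat.Agent.Geo
open Fermat.Agent.ESCore (ιC)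

/-- The field of algebraic numbers. -/
local notation "Qb" => AlgebraicClosure ℚ
/-- The absolute Galois group. -/
local notation "GQ" => (AlgebraicClosure ℚ ≃ₐ[ℚ] AlgebraicClosure ℚ)

variable {N : ℕ} [NeZero N]

/-- the places of `F0 Qb N` are rational -/
theorem rat_F0 (v : Place Qb (F0 Qb N)) : Flat.Rational v := by
  obtain ⟨ζ, hζ⟩ := exists_zeta_Qb N
  exact (WP.sep_jF hζ).rational v

variable (N) in
/-- A rational point. -/
structure FixPl where
  /-- the place -/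
  pl : Place Qb (F0 Qb N)
  fix : ∀ σ : GQ, galF0 N σ • pl = pl

theorem FixPl.ord_smul (a : FixPl N) (σ : GQ) (f : F0 Qb N) :
    a.pl.ord (galF0 N σ • f) = a.pl.ord f := by
  conv_lhs => rw [← a.fix σ]
  rw [SemilinearAut.ord_smul]

theorem FixPl.evp_smul (a : FixPl N) (σ : GQ) {f : F0 Qb N} (hf : 0 ≤ a.pl.ord f) :
    evp a.pl (galF0 N σ • f) = σ (evp a.pl f) := by
  conv_lhs => rw [← a.fix σ]
  rw [rational_smul _ (rat_F0 _) (mem_of_ord_nonneg _ hf)]
  rfl

/-- the Galois action on the nonzero functions -/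
def galU (N : ℕ) [NeZero N] (σ : GQ) : (F0 Qb N)ˣ →* (F0 Qb N)ˣ :=
  Units.map (MulSemiringAction.toRingHom (SemilinearAut Qb (F0 Qb N)) (F0 Qb N) (galF0 N σ))

theorem coe_galU (σ : GQ) (f : (F0 Qb N)ˣ) : ((galU N σ f : (F0 Qb N)ˣ) : F0 Qb N) =
    galF0 N σ • (f : F0 Qb N) := rfl

/-- Functions regular and nonvanishing at the points of `T`. -/
def UG (T : Set (FixPl N)) : Subgroup (F0 Qb N)ˣ where
  carrier := {f | ∀ a ∈ T, a.pl.ord (f : F0 Qb N) = 0}
  one_mem' a _ := a.pl.ord_one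
  mul_mem' {f g} hf hg a ha := by
    rw [Units.val_mul, a.pl.ord_mul f.ne_zero g.ne_zero, hf a ha, hg a ha, add_zero]
  inv_mem' {f} hf a ha := by
    rw [Units.val_inv_eq_inv_val, a.pl.ord_inv, hf a ha, neg_zero]

instance (T : Set (FixPl N)) : MulDistribMulAction GQ (UG T) where
  smul σ f := ⟨galU N σ f, fun a ha => by rw [coe_galU, a.ord_smul]; exact f.2 a ha⟩
  one_smul f := by
    apply Subtype.ext
    apply Units.ext
    change galF0 N 1 • ((f : (F0 Qb N)ˣ) : F0 Qb N) = _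
    rw [map_one, one_smul]
  mul_smul σ τ f := by
    apply Subtype.ext
    apply Units.ext
    change galF0 N (σ * τ) • ((f : (F0 Qb N)ˣ) : F0 Qb N) = galF0 N σ • (galF0 N τ • _)
    rw [map_mul, mul_smul]
  smul_one σ := Subtype.ext (map_one (galU N σ))
  smul_mul σ f g := Subtype.ext (map_mul (galU N σ) _ _)

theorem coe_smul_UG {T : Set (FixPl N)} (σ : GQ) (f : UG T) :
    (((σ • f : UG T) : (F0 Qb N)ˣ) : F0 Qb N) = galF0 N σ • ((f : (F0 Qb N)ˣ) : F0 Qb N) := rfl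

/-- evaluation at a point of `T` -/
def evU {T : Set (FixPl N)} (a : FixPl N) (ha : a ∈ T) : UG T →* Qbˣ where
  toFun f := Units.mk0 (evp a.pl ((f : (F0 Qb N)ˣ) : F0 Qb N))
    ((evp_ne_zero_iff (rat_F0 _) (mem_of_ord_nonneg _ (f.2 a ha).ge)).mpr
      ⟨Units.ne_zero _, f.2 a ha⟩)
  map_one' := Units.ext evp_one
  map_mul' f g := Units.ext (evp_mul (rat_F0 _) (mem_of_ord_nonneg _ (f.2 a ha).ge)
    (mem_of_ord_nonneg _ (g.2 a ha).ge))

theorem coe_evU {T : Set (FixPl N)} (a : FixPl N) (ha : a ∈ T) (f : UG T) :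
    (evU a ha f : Qb) = evp a.pl ((f : (F0 Qb N)ˣ) : F0 Qb N) := rfl

theorem evU_smul {T : Set (FixPl N)} (a : FixPl N) (ha : a ∈ T) (σ : GQ) (f : UG T) :
    evU a ha (σ • f) = uact σ (evU a ha f) :=
  Units.ext (a.evp_smul σ (f.2 a ha).ge)

/-- A nonzero function with a power equal to one is constant. -/
theorem evU_tors {T : Set (FixPl N)} (a b : FixPl N) (ha : a ∈ T) (hb : b ∈ T) {m : ℕ}
    (hm : m ≠ 0) {u : UG T} (hu : u ^ m = 1) : evU a ha u = evU b hb u := by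
  have h1 : ((u : (F0 Qb N)ˣ) : F0 Qb N) ^ m = 1 := by
    have := congrArg (fun w : UG T => ((w : (F0 Qb N)ˣ) : F0 Qb N)) hu
    simpa using this
  obtain ⟨c, hc⟩ : ∃ c : Qb, algebraMap Qb (F0 Qb N) c = ((u : (F0 Qb N)ˣ) : F0 Qb N) := by
    haveI : NeZero m := ⟨hm⟩
    obtain ⟨ζ, hζ⟩ := HasEnoughRootsOfUnity.exists_primitiveRoot Qb m
    have h2 := hζ.map_of_injective (f := algebraMap Qb (F0 Qb N)) (algebraMap Qb (F0 Qb N)).injective
    obtain ⟨i, -, hi⟩ := h2.eq_pow_of_pow_eq_one h1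
    exact ⟨ζ ^ i, by rw [map_pow, hi]⟩
  apply Units.ext
  rw [coe_evU, coe_evU, ← hc, evp_algebraMap, evp_algebraMap]

/-- The data attached to the divisor `a - b` and all functions with divisor divisible by `m`. -/
def selPD (T : Set (FixPl N)) (m : ℕ) [NeZero m] (a b : FixPl N) (ha : a ∈ T) (hb : b ∈ T) :
    PD (UG T) m where
  Z := (SelZ Qb (F0 Qb N) m).subgroupOf (UG T)
  pow_mem u := by
    rw [Subgroup.mem_subgroupOf]
    intro v
    have h1 : (((u ^ m : UG T) : (F0 Qb N)ˣ) : F0 Qb N) = ((u : (F0 Qb N)ˣ) : F0 Qb N) ^ m := by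
      simp
    rw [h1, Flat.ord_pow]
    exact dvd_mul_right _ _
  smul_mem σ f hf := by
    rw [Subgroup.mem_subgroupOf] at hf ⊢
    intro v
    rw [coe_smul_UG]
    have h1 := SemilinearAut.ord_smul (galF0 N σ) ((galF0 N σ)⁻¹ • v)
      ((f : (F0 Qb N)ˣ) : F0 Qb N)
    rw [smul_inv_smul] at h1
    rw [h1]
    exact hf _
  y := evU a ha * (evU b hb)⁻¹
  y_smul σ u := by
    change (((evU a ha (σ • u)) * (evU b hb (σ • u))⁻¹ : Qbˣ) : Qb) = _
    rw [evU_smul, evU_smul, ← map_inv, ← map_mul]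
    rfl
  y_tors u hu := by
    change evU a ha u * (evU b hb u)⁻¹ = 1
    rw [evU_tors a b ha hb (NeZero.ne m) hu, mul_inv_cancel]

/-- The data attached to the divisor `a - b`, `T = {a, b}`. -/
def pairPD (m : ℕ) [NeZero m] (a b : FixPl N) : PD (UG ({a, b} : Set (FixPl N))) m :=
  selPD {a, b} m a b (Set.mem_insert _ _) (Set.mem_insert_of_mem _ rfl)

end Fermat.Agent.Mzr
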