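import Mathlib
import Fermat.Agent.Mzr.PairX

/-!
# Extensions attached to a character of a group of functions, general group
-/

set_option autoImplicit false
set_option linter.unusedSectionVars false

noncomputable section

namespace Fermat.Agent.Mzr

open AlgebraicCurve Fermat.Agent.FunField Fermat.Agent.Flat Fermat.Agent.LG Fermat.Agent.ModFun
open Fermat.Agent.Geo

/-- The field of algebraic numbers. -/
local notation "Qb" => AlgebraicClosure ℚ
/-- The absolute Galois group. -/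
local notation "GQ" => (AlgebraicClosure ℚ ≃ₐ[ℚ] AlgebraicClosure ℚ)

/-- A subgroup `Z` of `U` containing the `m`-th powers and a character `y` of `U`;
a group `G` acts on everything. -/
structure PG {G : Type} [Group G] (ρ : G →* GQ) (U : Type) [CommGroup U]
    [MulDistribMulAction G U] (m : ℕ) where
  /-- the subgroup -/
  Z : Subgroup U
  pow_mem : ∀ u : U, u ^ m ∈ Z
  smul_mem : ∀ (σ : G), ∀ f ∈ Z, σ • f ∈ Z
  /-- the character -/
  y : U →* Qbˣ
  y_smul : ∀ (σ : G) (u : U), (y (σ • u) : Qb) = ρ σ (y u)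
  y_tors : ∀ u : U, u ^ m = 1 → y u = 1

variable {G : Type} [Group G] {ρ : G →* GQ} {U : Type} [CommGroup U] [MulDistribMulAction G U]
  {m : ℕ}

namespace PG

variable (D : PG ρ U m)

theorem y_smul' (σ : G) (u : U) : D.y (σ • u) = uact (ρ σ) (D.y u) := Units.ext (D.y_smul σ u)

/-- The group of pairs `(f, η)` with `η ^ m = y f`. -/
def EZ : Subgroup (U × Qbˣ) where
  carrier := {p | p.1 ∈ D.Z ∧ p.2 ^ m = D.y p.1}
  one_mem' := ⟨D.Z.one_mem, by
    change (1 : Qbˣ) ^ m = D.y 1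
    rw [one_pow, map_one]⟩
  mul_mem' := by
    rintro p p' ⟨h1, h2⟩ ⟨h3, h4⟩
    refine ⟨D.Z.mul_mem h1 h3, ?_⟩
    change (p.2 * p'.2) ^ m = D.y (p.1 * p'.1)
    rw [mul_pow, map_mul, h2, h4]
  inv_mem' := by
    rintro p ⟨h1, h2⟩
    refine ⟨D.Z.inv_mem h1, ?_⟩
    change (p.2⁻¹) ^ m = D.y (p.1⁻¹)
    rw [inv_pow, map_inv, h2]

theorem mem_EZ {p : U × Qbˣ} : p ∈ D.EZ ↔ p.1 ∈ D.Z ∧ p.2 ^ m = D.y p.1 := Iff.rfl

/-- the trivial pairs -/
def EB : Subgroup D.EZ where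
  carrier := {p | ∃ u : U, (p : U × Qbˣ) = (u ^ m, D.y u)}
  one_mem' := ⟨1, by rw [one_pow, map_one]; rfl⟩
  mul_mem' := by
    rintro p p' ⟨u, hu⟩ ⟨v, hv⟩
    refine ⟨u * v, ?_⟩
    rw [mul_pow, map_mul, ← Prod.mk_mul_mk, ← hu, ← hv]
    rfl
  inv_mem' := by
    rintro p ⟨u, hu⟩
    refine ⟨u⁻¹, ?_⟩
    rw [inv_pow, map_inv, ← Prod.inv_mk, ← hu]
    rfl

/-- The extension. -/
def E : Type := Additive (D.EZ ⧸ D.EB)

instance : AddCommGroup D.E := inferInstanceAs (AddCommGroup (Additive (D.EZ ⧸ D.EB)))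

/-- the class of a pair -/
def ecl (p : D.EZ) : D.E := Additive.ofMul (QuotientGroup.mk p)

theorem ecl_surj (s : D.E) : ∃ p, D.ecl p = s := by
  obtain ⟨f, hf⟩ := QuotientGroup.mk_surjective (Additive.toMul s)
  exact ⟨f, by rw [ecl, hf]; rfl⟩

theorem ecl_mul (f g : D.EZ) : D.ecl (f * g) = D.ecl f + D.ecl g := rfl

theorem ecl_inv (f : D.EZ) : D.ecl f⁻¹ = - D.ecl f := rfl

theorem ecl_one : D.ecl 1 = 0 := rfl

theorem ecl_eq_zero {p : D.EZ} : D.ecl p = 0 ↔ ∃ u : U, (p : U × Qbˣ) = (u ^ m, D.y u) :=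
  QuotientGroup.eq_one_iff p

/-- action on the pairs -/
def actEZ (σ : G) : D.EZ →* D.EZ where
  toFun p := ⟨(σ • (p : U × Qbˣ).1, uact (ρ σ) (p : U × Qbˣ).2), D.smul_mem σ _ p.2.1, by
    change (uact (ρ σ) (p : U × Qbˣ).2) ^ m = D.y (σ • (p : U × Qbˣ).1)
    rw [← map_pow, p.2.2, y_smul']⟩
  map_one' := Subtype.ext (Prod.ext (smul_one σ) (map_one _))
  map_mul' f g := Subtype.ext (Prod.ext (smul_mul' σ _ _) (map_mul _ _ _))

/-- action on the extension -/
def actE (σ : G) : D.E →+ D.E :=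
  MonoidHom.toAdditive (QuotientGroup.map D.EB D.EB (D.actEZ σ) (by
    rintro p ⟨u, hu⟩
    refine ⟨σ • u, ?_⟩
    change (σ • (p : U × Qbˣ).1, uact (ρ σ) (p : U × Qbˣ).2) = _
    rw [hu, smul_pow', y_smul']))

theorem actE_ecl (σ : G) (p : D.EZ) : D.actE σ (D.ecl p) = D.ecl (D.actEZ σ p) := rfl

instance : DistribMulAction G D.E where
  smul σ s := D.actE σ s
  one_smul s := by
    change D.actE 1 s = s
    obtain ⟨f, rfl⟩ := D.ecl_surj s
    rw [actE_ecl]
    congr 1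
    exact Subtype.ext (Prod.ext (one_smul _ _) (by
      change uact (ρ 1) _ = _
      rw [map_one]
      exact uact_one _))
  mul_smul σ τ s := by
    change D.actE (σ * τ) s = D.actE σ (D.actE τ s)
    obtain ⟨f, rfl⟩ := D.ecl_surj s
    rw [actE_ecl, actE_ecl, actE_ecl]
    congr 1
    exact Subtype.ext (Prod.ext (mul_smul _ _ _) (by
      change uact (ρ (σ * τ)) _ = _
      rw [map_mul]
      exact uact_mul _ _ _))
  smul_zero σ := map_zero (D.actE σ)
  smul_add σ s t := map_add (D.actE σ) s t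

theorem smul_ecl (σ : G) (p : D.EZ) : σ • D.ecl p = D.ecl (D.actEZ σ p) := rfl

end PG

/-! ## The extension attached to two places -/

section

variable {M : ℕ} [NeZero M]

variable (M) in
/-- A place fixed by the elements of `G`. -/
structure FPl (G : Subgroup GQ) where
  /-- the place -/
  pl : Place Qb (F0 Qb M)
  fix : ∀ σ ∈ G, galF0 M σ • pl = pl

variable {G : Subgroup GQ}

theorem FPl.ord_smul (a : FPl M G) (σ : G) (f : F0 Qb M) :
    a.pl.ord (galF0 M (σ : GQ) • f) = a.pl.ord f := by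
  conv_lhs => rw [← a.fix σ σ.2]
  rw [SemilinearAut.ord_smul]

theorem FPl.evp_smul (a : FPl M G) (σ : G) {f : F0 Qb M} (hf : 0 ≤ a.pl.ord f) :
    evp a.pl (galF0 M (σ : GQ) • f) = (σ : GQ) (evp a.pl f) := by
  conv_lhs => rw [← a.fix σ σ.2]
  rw [rational_smul _ (rat_F0 _) (mem_of_ord_nonneg _ hf)]
  rfl

/-- Functions regular and nonvanishing at `a` and `b`. -/
def UP (a b : FPl M G) : Subgroup (F0 Qb M)ˣ where
  carrier := {f | a.pl.ord (f : F0 Qb M) = 0 ∧ b.pl.ord (f : F0 Qb M) = 0}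
  one_mem' := ⟨a.pl.ord_one, b.pl.ord_one⟩
  mul_mem' {f g} hf hg := by
    refine ⟨?_, ?_⟩
    · rw [Units.val_mul, a.pl.ord_mul f.ne_zero g.ne_zero, hf.1, hg.1, add_zero]
    · rw [Units.val_mul, b.pl.ord_mul f.ne_zero g.ne_zero, hf.2, hg.2, add_zero]
  inv_mem' {f} hf := by
    refine ⟨?_, ?_⟩
    · rw [Units.val_inv_eq_inv_val, a.pl.ord_inv, hf.1, neg_zero]
    · rw [Units.val_inv_eq_inv_val, b.pl.ord_inv, hf.2, neg_zero]

variable (a b : FPl M G)

instance : MulDistribMulAction G (UP a b) where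
  smul σ f := ⟨galU M (σ : GQ) f, by
    refine ⟨?_, ?_⟩
    · rw [coe_galU, a.ord_smul]; exact f.2.1
    · rw [coe_galU, b.ord_smul]; exact f.2.2⟩
  one_smul f := by
    apply Subtype.ext
    apply Units.ext
    change galF0 M ((1 : G) : GQ) • ((f : (F0 Qb M)ˣ) : F0 Qb M) = _
    rw [Subgroup.coe_one, map_one, one_smul]
  mul_smul σ τ f := by
    apply Subtype.ext
    apply Units.ext
    change galF0 M ((σ * τ : G) : GQ) • ((f : (F0 Qb M)ˣ) : F0 Qb M) =
      galF0 M (σ : GQ) • (galF0 M (τ : GQ) • _)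
    rw [Subgroup.coe_mul, map_mul, mul_smul]
  smul_one σ := Subtype.ext (map_one (galU M (σ : GQ)))
  smul_mul σ f g := Subtype.ext (map_mul (galU M (σ : GQ)) _ _)

theorem coe_smul_UP (σ : G) (f : UP a b) :
    (((σ • f : UP a b) : (F0 Qb M)ˣ) : F0 Qb M) =
      galF0 M (σ : GQ) • ((f : (F0 Qb M)ˣ) : F0 Qb M) := rfl

/-- evaluation at the first place -/
def evL : UP a b →* Qbˣ where
  toFun f := Units.mk0 (evp a.pl ((f : (F0 Qb M)ˣ) : F0 Qb M))
    ((evp_ne_zero_iff (rat_F0 _) (mem_of_ord_nonneg _ f.2.1.ge)).mpr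
      ⟨Units.ne_zero _, f.2.1⟩)
  map_one' := Units.ext evp_one
  map_mul' f g := Units.ext (evp_mul (rat_F0 _) (mem_of_ord_nonneg _ f.2.1.ge)
    (mem_of_ord_nonneg _ g.2.1.ge))

/-- evaluation at the second place -/
def evR : UP a b →* Qbˣ where
  toFun f := Units.mk0 (evp b.pl ((f : (F0 Qb M)ˣ) : F0 Qb M))
    ((evp_ne_zero_iff (rat_F0 _) (mem_of_ord_nonneg _ f.2.2.ge)).mpr
      ⟨Units.ne_zero _, f.2.2⟩)
  map_one' := Units.ext evp_one
  map_mul' f g := Units.ext (evp_mul (rat_F0 _) (mem_of_ord_nonneg _ f.2.2.ge)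
    (mem_of_ord_nonneg _ g.2.2.ge))

theorem coe_evL (f : UP a b) : (evL a b f : Qb) = evp a.pl ((f : (F0 Qb M)ˣ) : F0 Qb M) := rfl

theorem coe_evR (f : UP a b) : (evR a b f : Qb) = evp b.pl ((f : (F0 Qb M)ˣ) : F0 Qb M) := rfl

/-- The data attached to the divisor `a - b` and all functions with divisor divisible by `m`. -/
def plPG (m : ℕ) [NeZero m] : PG (Subgroup.subtype G) (UP a b) m where
  Z := (SelZ Qb (F0 Qb M) m).subgroupOf (UP a b)
  pow_mem u := by
    rw [Subgroup.mem_subgroupOf]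
    intro v
    have h1 : (((u ^ m : UP a b) : (F0 Qb M)ˣ) : F0 Qb M) = ((u : (F0 Qb M)ˣ) : F0 Qb M) ^ m := by
      simp
    rw [h1, Flat.ord_pow]
    exact dvd_mul_right _ _
  smul_mem σ f hf := by
    rw [Subgroup.mem_subgroupOf] at hf ⊢
    intro v
    rw [coe_smul_UP]
    have h1 := SemilinearAut.ord_smul (galF0 M (σ : GQ)) ((galF0 M (σ : GQ))⁻¹ • v)
      ((f : (F0 Qb M)ˣ) : F0 Qb M)
    rw [smul_inv_smul] at h1
    rw [h1]
    exact hf _
  y := evL a b * (evR a b)⁻¹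
  y_smul σ u := by
    change (((evL a b (σ • u)) * (evR a b (σ • u))⁻¹ : Qbˣ) : Qb) = _
    have h1 : evL a b (σ • u) = uact (σ : GQ) (evL a b u) :=
      Units.ext (a.evp_smul σ u.2.1.ge)
    have h2 : evR a b (σ • u) = uact (σ : GQ) (evR a b u) :=
      Units.ext (b.evp_smul σ u.2.2.ge)
    rw [h1, h2, ← map_inv, ← map_mul]
    rfl
  y_tors u hu := by
    have hm := NeZero.ne m
    have h1 : ((u : (F0 Qb M)ˣ) : F0 Qb M) ^ m = 1 := by
      have := congrArg (fun w : UP a b => ((w : (F0 Qb M)ˣ) : F0 Qb M)) hu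
      simpa using this
    obtain ⟨c, hc⟩ : ∃ c : Qb, algebraMap Qb (F0 Qb M) c = ((u : (F0 Qb M)ˣ) : F0 Qb M) := by
      obtain ⟨ζ, hζ⟩ := HasEnoughRootsOfUnity.exists_primitiveRoot Qb m
      have h2 := hζ.map_of_injective (f := algebraMap Qb (F0 Qb M))
        (algebraMap Qb (F0 Qb M)).injective
      obtain ⟨i, -, hi⟩ := h2.eq_pow_of_pow_eq_one h1
      exact ⟨ζ ^ i, by rw [map_pow, hi]⟩
    change evL a b u * (evR a b u)⁻¹ = 1
    rw [mul_inv_eq_one]
    apply Units.ext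
    rw [coe_evL, coe_evR, ← hc, evp_algebraMap, evp_algebraMap]

end

end Fermat.Agent.Mzr
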