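import Mathlib
import Fermat.Agent.Flat.Points2

/-!
# Canonical splittings: values at congruent points
-/

set_option autoImplicit false
set_option linter.unusedSectionVars false

noncomputable section

namespace Fermat.Agent.Mzr

open AlgebraicCurve Fermat.Agent.FunField Fermat.Agent.Flat

section Roots

variable {Ω : Type*} [Field Ω] {A : ValuationSubring Ω} {m : ℕ}

theorem val_one_of_sub {x : Ω} (h : A.valuation (x - 1) < 1) : A.valuation x = 1 := by
  have h1 : x = (x - 1) + 1 := by ring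
  rw [h1, Valuation.map_add_eq_of_lt_right _ (by rwa [map_one]), map_one]

theorem sub_mul_lt {x y : Ω} (hx : A.valuation (x - 1) < 1) (hy : A.valuation (y - 1) < 1) :
    A.valuation (x * y - 1) < 1 := by
  have h1 : x * y - 1 = (x - 1) * y + (y - 1) := by ring
  rw [h1]
  refine Valuation.map_add_lt _ ?_ hy
  rw [map_mul, val_one_of_sub hy, mul_one]
  exact hx

theorem sub_inv_lt {x : Ω} (hx : A.valuation (x - 1) < 1) : A.valuation (x⁻¹ - 1) < 1 := by
  have h1 := val_one_of_sub hx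
  have h0 : x ≠ 0 := by
    rintro rfl
    rw [map_zero] at h1
    exact zero_ne_one h1
  have h2 : x⁻¹ - 1 = - (x - 1) * x⁻¹ := by
    field_simp
    ring
  rw [h2, map_mul, Valuation.map_neg, map_inv₀, h1, inv_one, mul_one]
  exact hx

theorem sub_pow_lt {x : Ω} (hx : A.valuation (x - 1) < 1) (n : ℕ) :
    A.valuation (x ^ n - 1) < 1 := by
  induction n with
  | zero => rw [pow_zero, sub_self, map_zero]; exact zero_lt_one
  | succ n ih => rw [pow_succ]; exact sub_mul_lt ih hx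

theorem val_eq_one_of_pow {x : Ω} (hm : m ≠ 0) (h : A.valuation (x ^ m) = 1) :
    A.valuation x = 1 := by
  rw [map_pow] at h
  rcases lt_trichotomy (A.valuation x) 1 with h1 | h1 | h1
  · exact absurd h (pow_lt_one₀ zero_le' h1 hm).ne
  · exact h1
  · exact absurd h (one_lt_pow₀ h1 hm).ne'

/-- Roots congruent to one are unique. -/
theorem root_unique (hm : A.valuation (m : Ω) = 1) {x y : Ω} (hx : A.valuation (x - 1) < 1)
    (hy : A.valuation (y - 1) < 1) (h : x ^ m = y ^ m) : x = y := by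
  have hy1 := val_one_of_sub hy
  have hy0 : y ≠ 0 := by
    rintro rfl
    rw [map_zero] at hy1
    exact zero_ne_one hy1
  set u := x * y⁻¹ with hu
  have hu1 : A.valuation (u - 1) < 1 := sub_mul_lt hx (sub_inv_lt hy)
  have hum : u ^ m = 1 := by
    rw [hu, mul_pow, h, ← mul_pow, mul_inv_cancel₀ hy0, one_pow]
  by_contra hne
  have hune : u - 1 ≠ 0 := by
    intro h0
    apply hne
    have h1 : u = 1 := sub_eq_zero.mp h0
    rw [hu] at h1
    exact (mul_inv_eq_one₀ hy0).mp h1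
  have h1 : (∑ i ∈ Finset.range m, u ^ i) * (u - 1) = 0 := by
    rw [geom_sum_mul, hum, sub_self]
  have h2 : ∑ i ∈ Finset.range m, u ^ i = 0 := (mul_eq_zero.mp h1).resolve_right hune
  have h3 : A.valuation (∑ i ∈ Finset.range m, (u ^ i - 1)) < 1 :=
    Valuation.map_sum_lt _ one_ne_zero fun i _ => sub_pow_lt hu1 i
  rw [Finset.sum_sub_distrib, h2, zero_sub, Valuation.map_neg, Finset.sum_const,
    Finset.card_range, nsmul_eq_mul, mul_one, hm] at h3
  exact lt_irrefl _ h3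

/-- Existence of roots congruent to one. -/
theorem exists_root [IsAlgClosed Ω] (hm : m ≠ 0) {c : Ω} (hc : A.valuation (c - 1) < 1) :
    ∃ x : Ω, x ^ m = c ∧ A.valuation (x - 1) < 1 := by
  classical
  have hmpos := Nat.pos_of_ne_zero hm
  obtain ⟨x₀, hx₀⟩ := IsAlgClosed.exists_pow_nat_eq c hmpos
  have hc1 := val_one_of_sub hc
  have hx1 : A.valuation x₀ = 1 := val_eq_one_of_pow hm (by rw [hx₀]; exact hc1)
  let P : Polynomial Ω := Polynomial.X ^ m - 1
  have hP : P ≠ 0 := (Polynomial.monic_X_pow_sub_C (1 : Ω) hm).ne_zero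
  have hPm : P.Monic := Polynomial.monic_X_pow_sub_C (1 : Ω) hm
  have hprod : (P.roots.map fun z => Polynomial.X - Polynomial.C z).prod = P := by
    have := IsAlgClosed.splits P
    exact (this.eq_prod_roots_of_monic hPm).symm
  have hev : (P.roots.map fun z => x₀ - z).prod = c - 1 := by
    have h1 := congrArg (Polynomial.eval x₀) hprod
    rw [Polynomial.eval_multiset_prod, Multiset.map_map] at h1
    simp only [Function.comp_def, Polynomial.eval_sub, Polynomial.eval_X, Polynomial.eval_C] at h1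
    rw [h1]
    simp [P, hx₀]
  obtain ⟨z, hz, hzv⟩ : ∃ z ∈ P.roots, A.valuation (x₀ - z) < 1 := by
    by_contra hcon
    push Not at hcon
    have h2 : (1 : A.ValueGroup) ≤ A.valuation ((P.roots.map fun z => x₀ - z).prod) := by
      rw [map_multiset_prod, Multiset.map_map]
      apply Multiset.one_le_prod_of_one_le
      intro y hy
      rw [Multiset.mem_map] at hy
      obtain ⟨z, hz, rfl⟩ := hy
      exact hcon z hz
    rw [hev] at h2
    exact absurd hc (not_lt.mpr h2)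
  have hzm : z ^ m = 1 := by
    have := (Polynomial.mem_roots hP).mp hz
    rw [Polynomial.IsRoot.def] at this
    simp only [P, Polynomial.eval_sub, Polynomial.eval_pow, Polynomial.eval_X,
      Polynomial.eval_one] at this
    exact sub_eq_zero.mp this
  have hz0 : z ≠ 0 := by
    rintro rfl
    rw [zero_pow hm] at hzm
    exact zero_ne_one hzm
  have hz1 : A.valuation z = 1 := val_eq_one_of_pow hm (by rw [hzm, map_one])
  refine ⟨x₀ * z⁻¹, ?_, ?_⟩
  · rw [mul_pow, hx₀, inv_pow, hzm, inv_one, mul_one]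
  · have h3 : x₀ * z⁻¹ - 1 = (x₀ - z) * z⁻¹ := by rw [sub_mul, mul_inv_cancel₀ hz0]
    rw [h3, map_mul, map_inv₀, hz1, inv_one, mul_one]
    exact hzv

end Roots

variable {Ω F : Type*} [Field Ω] [Field F] [Algebra Ω F]

/-- Two rational points `a ≡ b`, and enough functions with values which are units. -/
structure Can (A : ValuationSubring Ω) (W : ValuationSubring F) (t : F) (m : ℕ)
    (a b : Place Ω F) : Prop where
  ratA : Rational a
  ratB : Rational b
  ordA : 0 ≤ a.ord t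
  ordB : 0 ≤ b.ord t
  near : ∀ z ∈ W, Reg Ω t z → A.valuation (evp a z - evp b z) < 1
  adm : ∀ f : F, f ≠ 0 → (∀ v : Place Ω F, (m : ℤ) ∣ v.ord f) → a.ord f = 0 →
    ∃ z : F, z ≠ 0 ∧ a.ord z = 0 ∧ z ^ m * f ∈ W ∧ Reg Ω t (z ^ m * f) ∧
      A.valuation (evp a (z ^ m * f)) = 1
  unit : A.valuation (m : Ω) = 1

/-- Functions with unit value. -/
structure NU (A : ValuationSubring Ω) (W : ValuationSubring F) (t : F) (a : Place Ω F)
    (z : F) : Prop where
  mem : z ∈ W
  reg : Reg Ω t z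
  val : A.valuation (evp a z) = 1

/-- quotient of the values -/
def yv (a b : Place Ω F) (z : F) : Ω := evp a z / evp b z

variable {A : ValuationSubring Ω} {W : ValuationSubring F} {t : F} {m : ℕ} {a b : Place Ω F}

theorem yv_mul (ha : Rational a) (hb : Rational b) {z z' : F} (hz : a.ord z = 0)
    (hz' : a.ord z' = 0) (hy : b.ord z = 0) (hy' : b.ord z' = 0) :
    yv a b (z * z') = yv a b z * yv a b z' := by
  rw [yv, yv, yv, evp_mul ha (mem_of_ord_nonneg _ hz.ge) (mem_of_ord_nonneg _ hz'.ge),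
    evp_mul hb (mem_of_ord_nonneg _ hy.ge) (mem_of_ord_nonneg _ hy'.ge), mul_div_mul_comm]

theorem yv_pow (ha : Rational a) (hb : Rational b) {z : F} (hz : a.ord z = 0)
    (hy : b.ord z = 0) (n : ℕ) : yv a b (z ^ n) = yv a b z ^ n := by
  rw [yv, yv, evp_pow ha (mem_of_ord_nonneg _ hz.ge),
    evp_pow hb (mem_of_ord_nonneg _ hy.ge), div_pow]

theorem yv_ne (ha : Rational a) (hb : Rational b) {z : F} (h0 : z ≠ 0) (hz : a.ord z = 0)
    (hy : b.ord z = 0) : yv a b z ≠ 0 :=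
  div_ne_zero ((evp_ne_zero_iff ha (mem_of_ord_nonneg _ hz.ge)).mpr ⟨h0, hz⟩)
    ((evp_ne_zero_iff hb (mem_of_ord_nonneg _ hy.ge)).mpr ⟨h0, hy⟩)

namespace Can

variable (h : Can A W t m a b)
include h

theorem m_ne : m ≠ 0 := by
  rintro rfl
  have := h.unit
  rw [Nat.cast_zero, map_zero] at this
  exact zero_ne_one this

theorem valB {z : F} (hz : NU A W t a z) : A.valuation (evp b z) = 1 := by
  have h1 := h.near z hz.mem hz.reg
  have h2 : evp b z = evp a z - (evp a z - evp b z) := by ring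
  rw [h2]
  have h3 : A.valuation (evp a z - (evp a z - evp b z)) = A.valuation (evp a z) :=
    Valuation.map_sub_eq_of_lt_left _ (by rw [hz.val]; exact h1)
  rw [h3, hz.val]

theorem ordA0 {z : F} (hz : NU A W t a z) : z ≠ 0 ∧ a.ord z = 0 := by
  rw [← evp_ne_zero_iff h.ratA (hz.reg.mem h.ordA)]
  intro h0
  have := hz.val
  rw [h0, map_zero] at this
  exact zero_ne_one this

theorem ordB0 {z : F} (hz : NU A W t a z) : b.ord z = 0 := by
  refine ((evp_ne_zero_iff h.ratB (hz.reg.mem h.ordB)).mp ?_).2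
  intro h0
  have := h.valB hz
  rw [h0, map_zero] at this
  exact zero_ne_one this

theorem yv_near {z : F} (hz : NU A W t a z) : A.valuation (yv a b z - 1) < 1 := by
  have h1 := h.near z hz.mem hz.reg
  have h2 := h.valB hz
  have h3 : evp b z ≠ 0 := by
    intro h0
    rw [h0, map_zero] at h2
    exact zero_ne_one h2
  have h4 : yv a b z - 1 = (evp a z - evp b z) * (evp b z)⁻¹ := by
    rw [yv, sub_mul, mul_inv_cancel₀ h3, div_eq_mul_inv]
  rw [h4, map_mul, map_inv₀, h2, inv_one, mul_one]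
  exact h1

theorem nu_mul {z z' : F} (hz : NU A W t a z) (hz' : NU A W t a z') : NU A W t a (z * z') where
  mem := mul_mem hz.mem hz'.mem
  reg := hz.reg.mul hz'.reg
  val := by
    rw [evp_mul h.ratA (hz.reg.mem h.ordA) (hz'.reg.mem h.ordA), map_mul, hz.val, hz'.val,
      mul_one]

theorem nu_one : NU A W t a (1 : F) where
  mem := one_mem _
  reg v _ := by rw [v.ord_one]
  val := by rw [evp_one, map_one]

theorem nu_pow {z : F} (hz : NU A W t a z) (n : ℕ) : NU A W t a (z ^ n) := by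
  induction n with
  | zero => rw [pow_zero]; exact h.nu_one
  | succ n ih => rw [pow_succ]; exact h.nu_mul ih hz

theorem nu_of_pow {z : F} (hz : NU A W t a (z ^ m)) : NU A W t a z := by
  have hm := h.m_ne
  have hz0 : z ≠ 0 := by
    rintro rfl
    rw [zero_pow hm] at hz
    exact (h.ordA0 hz).1 rfl
  have hreg : Reg Ω t z := by
    intro v hv
    have h1 := hz.reg v hv
    rw [Flat.ord_pow] at h1
    have h4 : (1 : ℤ) ≤ m := by exact_mod_cast Nat.pos_of_ne_zero hm
    by_contra hcon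
    push Not at hcon
    nlinarith
  refine ⟨?_, hreg, ?_⟩
  · rw [← W.valuation_le_one_iff]
    have h3 : W.valuation (z ^ m) ≤ 1 := (W.valuation_le_one_iff _).mpr hz.mem
    rw [map_pow] at h3
    by_contra hcon
    exact absurd h3 (not_le.mpr (one_lt_pow₀ (not_le.mp hcon) hm))
  · apply val_eq_one_of_pow hm
    rw [← evp_pow h.ratA (hreg.mem h.ordA)]
    exact hz.val

/-- The key lemma. -/
theorem key {u g g' : F} (hua : a.ord u = 0) (hub : b.ord u = 0)
    (hg : NU A W t a g) (hg' : NU A W t a g') (e : u ^ m * g' = g) :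
    A.valuation (yv a b u - 1) < 1 := by
  have hm := h.m_ne
  have h1 : NU A W t a (u * g') := by
    apply h.nu_of_pow
    have h2 : (u * g') ^ m = g * g' ^ (m - 1) := by
      rw [mul_pow, ← e, mul_assoc, ← pow_succ', Nat.sub_add_cancel (Nat.one_le_iff_ne_zero.mpr hm)]
    rw [h2]
    exact h.nu_mul hg (h.nu_pow hg' _)
  have h2 := h.yv_near h1
  have h3 := h.yv_near hg'
  have ha := h.ordA0 hg'
  have hb := h.ordB0 hg'
  rw [yv_mul h.ratA h.ratB hua ha.2 hub hb] at h2
  have h4 := sub_mul_lt h2 (sub_inv_lt h3)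
  rwa [mul_assoc, mul_inv_cancel₀ (yv_ne h.ratA h.ratB ha.1 ha.2 hb), mul_one] at h4

end Can

variable (A W t m a b) in
/-- The canonical root. -/
def CRel (f : F) (η : Ω) : Prop :=
  ∃ z : F, z ≠ 0 ∧ a.ord z = 0 ∧ b.ord z = 0 ∧ NU A W t a (z ^ m * f) ∧
    ∃ ρ : Ω, ρ ^ m = yv a b (z ^ m * f) ∧ A.valuation (ρ - 1) < 1 ∧ η = ρ * (yv a b z)⁻¹

namespace Can

variable (h : Can A W t m a b)
include h

theorem crel_exists [IsAlgClosed Ω] {f : F} (hf : f ≠ 0)
    (hd : ∀ v : Place Ω F, (m : ℤ) ∣ v.ord f) (ha : a.ord f = 0) (hb : b.ord f = 0) :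
    ∃ η, CRel A W t m a b f η := by
  obtain ⟨z, hz0, hza, h1, h2, h3⟩ := h.adm f hf hd ha
  have hN : NU A W t a (z ^ m * f) := ⟨h1, h2, h3⟩
  have hzb : b.ord z = 0 := by
    have h4 := h.ordB0 hN
    rw [b.ord_mul (pow_ne_zero _ hz0) hf, hb, add_zero, Flat.ord_pow] at h4
    exact (mul_eq_zero.mp h4).resolve_left (by exact_mod_cast h.m_ne)
  obtain ⟨ρ, hρ, hρ1⟩ := exists_root h.m_ne (h.yv_near hN)
  exact ⟨_, z, hz0, hza, hzb, hN, ρ, hρ, hρ1, rfl⟩

theorem crel_pow {f : F} {η : Ω} (ha : a.ord f = 0) (hb : b.ord f = 0)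
    (hr : CRel A W t m a b f η) : η ^ m = yv a b f := by
  obtain ⟨z, hz0, hza, hzb, hN, ρ, hρ, hρ1, rfl⟩ := hr
  have hza' : a.ord (z ^ m) = 0 := by rw [Flat.ord_pow, hza, mul_zero]
  have hzb' : b.ord (z ^ m) = 0 := by rw [Flat.ord_pow, hzb, mul_zero]
  rw [mul_pow, hρ, yv_mul h.ratA h.ratB hza' ha hzb' hb, inv_pow, yv_pow h.ratA h.ratB hza hzb,
    mul_right_comm, mul_inv_cancel₀ (pow_ne_zero _ (yv_ne h.ratA h.ratB hz0 hza hzb)), one_mul]

theorem crel_unique {f : F} {η η' : Ω} (ha : a.ord f = 0) (hb : b.ord f = 0)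
    (hr : CRel A W t m a b f η) (hr' : CRel A W t m a b f η') : η = η' := by
  have e1 := h.crel_pow ha hb hr
  have e2 := h.crel_pow ha hb hr'
  obtain ⟨z, hz0, hza, hzb, hN, ρ, hρ, hρ1, rfl⟩ := hr
  obtain ⟨z', hz0', hza', hzb', hN', ρ', hρ', hρ1', rfl⟩ := hr'
  have hy := yv_ne h.ratA h.ratB hz0 hza hzb
  have hy' := yv_ne h.ratA h.ratB hz0' hza' hzb'
  -- `z / z'`
  have hka : a.ord (z * z'⁻¹) = 0 := by
    rw [a.ord_mul hz0 (inv_ne_zero hz0'), a.ord_inv, hza, hza', neg_zero, add_zero]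
  have hkb : b.ord (z * z'⁻¹) = 0 := by
    rw [b.ord_mul hz0 (inv_ne_zero hz0'), b.ord_inv, hzb, hzb', neg_zero, add_zero]
  have hk := h.key hka hkb hN hN' (by
    rw [mul_pow, inv_pow, mul_assoc, ← mul_assoc (z' ^ m)⁻¹, inv_mul_cancel₀
      (pow_ne_zero _ hz0'), one_mul])
  have hinv : yv a b z'⁻¹ = (yv a b z')⁻¹ := by
    have h1 := yv_mul h.ratA h.ratB (z := z') (z' := z'⁻¹) hza' (by rw [a.ord_inv, hza', neg_zero])
      hzb' (by rw [b.ord_inv, hzb', neg_zero])
    rw [mul_inv_cancel₀ hz0'] at h1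
    have h2 : yv a b (1 : F) = 1 := by rw [yv, evp_one, evp_one, div_one]
    rw [h2] at h1
    exact eq_inv_of_mul_eq_one_right h1.symm
  rw [yv_mul h.ratA h.ratB hza (by rw [a.ord_inv, hza', neg_zero]) hzb
    (by rw [b.ord_inv, hzb', neg_zero]), hinv] at hk
  have key : ρ = ρ' * (yv a b z * (yv a b z')⁻¹) := by
    refine root_unique h.unit hρ1 (sub_mul_lt hρ1' hk) ?_
    have e3 : (ρ * (yv a b z)⁻¹) ^ m = (ρ' * (yv a b z')⁻¹) ^ m := by rw [e1, e2]
    have e4 : (ρ * (yv a b z)⁻¹) ^ m * (yv a b z) ^ m =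
      (ρ' * (yv a b z')⁻¹) ^ m * (yv a b z) ^ m := by rw [e3]
    rw [← mul_pow, ← mul_pow] at e4
    rw [mul_assoc, inv_mul_cancel₀ hy, mul_one] at e4
    rw [e4]
    congr 1
    ring
  rw [key]
  field_simp

theorem crel_mul {f f' : F} {η η' : Ω} (hr : CRel A W t m a b f η)
    (hr' : CRel A W t m a b f' η') : CRel A W t m a b (f * f') (η * η') := by
  obtain ⟨z, hz0, hza, hzb, hN, ρ, hρ, hρ1, rfl⟩ := hr
  obtain ⟨z', hz0', hza', hzb', hN', ρ', hρ', hρ1', rfl⟩ := hr'
  have e1 : (z * z') ^ m * (f * f') = (z ^ m * f) * (z' ^ m * f') := by ring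
  refine ⟨z * z', mul_ne_zero hz0 hz0', by rw [a.ord_mul hz0 hz0', hza, hza', add_zero],
    by rw [b.ord_mul hz0 hz0', hzb, hzb', add_zero], ?_, ρ * ρ', ?_, sub_mul_lt hρ1 hρ1', ?_⟩
  · rw [e1]
    exact h.nu_mul hN hN'
  · rw [e1, yv_mul h.ratA h.ratB (h.ordA0 hN).2 (h.ordA0 hN').2 (h.ordB0 hN) (h.ordB0 hN'),
      mul_pow, hρ, hρ']
  · rw [yv_mul h.ratA h.ratB hza hza' hzb hzb', mul_inv_rev]
    ring

theorem crel_of_pow {u : F} {η : Ω} (hu : u ≠ 0) (hua : a.ord u = 0) (hub : b.ord u = 0)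
    (hr : CRel A W t m a b (u ^ m) η) : η = yv a b u := by
  obtain ⟨z, hz0, hza, hzb, hN, ρ, hρ, hρ1, rfl⟩ := hr
  have hy := yv_ne h.ratA h.ratB hz0 hza hzb
  rw [← mul_pow] at hN hρ
  have ha : a.ord (z * u) = 0 := by rw [a.ord_mul hz0 hu, hza, hua, add_zero]
  have hb : b.ord (z * u) = 0 := by rw [b.ord_mul hz0 hu, hzb, hub, add_zero]
  have h1 := h.key ha hb hN h.nu_one (mul_one _)
  rw [yv_pow h.ratA h.ratB ha hb] at hρ
  have h2 := root_unique h.unit hρ1 h1 hρ
  rw [h2, yv_mul h.ratA h.ratB hza hua hzb hub, mul_right_comm, mul_inv_cancel₀ hy, one_mul]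

/-- Equivariance. -/
theorem crel_smul {g : SemilinearAut Ω F} (hgA : ∀ x : Ω, A.valuation x ≤ 1 →
      A.valuation (SemilinearAut.baseAut g x) ≤ 1)
    (hgA' : ∀ x : Ω, A.valuation x < 1 → A.valuation (SemilinearAut.baseAut g x) < 1)
    (hgW : ∀ z ∈ W, g • z ∈ W) (hgt : g • t = t) (hga : g • a = a) (hgb : g • b = b)
    {f : F} {η : Ω} (hr : CRel A W t m a b f η) :
    CRel A W t m a b (g • f) (SemilinearAut.baseAut g η) := by
  obtain ⟨z, hz0, hza, hzb, hN, ρ, hρ, hρ1, rfl⟩ := hr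
  have hoa : ∀ x : F, a.ord (g • x) = a.ord x := fun x => by
    conv_lhs => rw [← hga]
    rw [SemilinearAut.ord_smul]
  have hob : ∀ x : F, b.ord (g • x) = b.ord x := fun x => by
    conv_lhs => rw [← hgb]
    rw [SemilinearAut.ord_smul]
  have hea : ∀ x : F, 0 ≤ a.ord x → evp a (g • x) = SemilinearAut.baseAut g (evp a x) := by
    intro x hx
    conv_lhs => rw [← hga]
    rw [rational_smul _ h.ratA (mem_of_ord_nonneg _ hx)]
  have heb : ∀ x : F, 0 ≤ b.ord x → evp b (g • x) = SemilinearAut.baseAut g (evp b x) := by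
    intro x hx
    conv_lhs => rw [← hgb]
    rw [rational_smul _ h.ratB (mem_of_ord_nonneg _ hx)]
  have hyv : ∀ x : F, 0 ≤ a.ord x → 0 ≤ b.ord x →
      yv a b (g • x) = SemilinearAut.baseAut g (yv a b x) := by
    intro x hx hx'
    rw [yv, yv, hea x hx, heb x hx', map_div₀]
  have hreg : ∀ x : F, Reg Ω t x → Reg Ω t (g • x) := by
    intro x hx v hv
    have h1 : v = g • (g⁻¹ • v) := (smul_inv_smul g v).symm
    rw [h1, SemilinearAut.ord_smul]
    apply hx
    have h2 : v.ord t = (g⁻¹ • v).ord t := by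
      conv_lhs => rw [h1, ← hgt, SemilinearAut.ord_smul]
    rw [← h2]
    exact hv
  have hone : ∀ x : Ω, A.valuation x = 1 → A.valuation (SemilinearAut.baseAut g x) = 1 := by
    intro x hx
    have hx0 : x ≠ 0 := by
      rintro rfl
      rw [map_zero] at hx
      exact zero_ne_one hx
    apply le_antisymm (hgA x hx.le)
    have h1 := hgA x⁻¹ (by rw [map_inv₀, hx, inv_one])
    rw [map_inv₀, map_inv₀] at h1
    have h2 : SemilinearAut.baseAut g x ≠ 0 := (map_ne_zero_iff _ (RingEquiv.injective _)).mpr hx0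
    have h3 : A.valuation (SemilinearAut.baseAut g x) ≠ 0 := (Valuation.ne_zero_iff _).mpr h2
    exact (inv_le_one₀ (zero_lt_iff.mpr h3)).mp h1
  have e1 : (g • z) ^ m * (g • f) = g • (z ^ m * f) := by rw [smul_mul', smul_pow']
  have hNa := h.ordA0 hN
  have hNb := h.ordB0 hN
  refine ⟨g • z, (smul_ne_zero_iff_ne g).mpr hz0, by rw [hoa, hza], by rw [hob, hzb], ?_,
    SemilinearAut.baseAut g ρ, ?_, ?_, ?_⟩
  · rw [e1]
    refine ⟨hgW _ hN.mem, hreg _ hN.reg, ?_⟩
    rw [hea _ hNa.2.ge]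
    exact hone _ hN.val
  · rw [e1, hyv _ hNa.2.ge hNb.ge, ← map_pow, hρ]
  · have := hgA' _ hρ1
    rwa [map_sub, map_one] at this
  · rw [hyv _ hza.ge hzb.ge, map_mul, map_inv₀]

end Can

end Fermat.Agent.Mzr
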