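import Mathlib
import Fermat.Agent.Mzr.Can
import Fermat.Agent.Flat.Class4

/-!
# Canonical splittings from good reduction
-/

set_option autoImplicit false
set_option linter.unusedSectionVars false

noncomputable section

namespace Fermat.Agent.Mzr

open AlgebraicCurve IsDedekindDomain IntermediateField WithZero Module Fermat.Agent.FunField
open Fermat.Agent.Flat

variable {Ω κ F Fb : Type*} [Field Ω] [Field κ] [Field F] [Field Fb] [Algebra Ω F] [Algebra κ Fb]
  {A : ValuationSubring Ω} {G : Type*} [Group G] [MulSemiringAction G Ω]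
  [IsAlgClosed Ω] [IsAlgClosed κ] {r : A →+* κ} {γ : G →* SemilinearAut Ω F}
  {W : ValuationSubring F} {ρ : W →+* Fb} {t : F} {tb : Fb} {m : ℕ}

/-- The data for the canonical splitting, from good reduction. -/
theorem can_of_goodCrv (hG : GoodCrv r γ W ρ t tb) (htW : t ∈ W) (htb : ρ ⟨t, htW⟩ = tb)
    (hm : A.valuation (m : Ω) = 1) {a b : Place Ω F} {c : A}
    (ha : 0 < a.ord (t - algebraMap Ω F c)) (hb : 0 ≤ b.ord t) (hfix : ∀ g, γ g • a = a)
    (near : ∀ z ∈ W, Reg Ω t z → A.valuation (evp a z - evp b z) < 1) : Can A W t m a b where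
  ratA := hG.sep.rational a
  ratB := hG.sep.rational b
  ordA := ord_t_nonneg ha
  ordB := hb
  near := near
  unit := hm
  adm := by
    intro f hf hd haf
    have hm0 : m ≠ 0 := by
      rintro rfl
      rw [Nat.cast_zero, map_zero] at hm
      exact zero_ne_one hm
    obtain ⟨g₁, C₁, hC₁⟩ := hG.sep.exists_crv
    obtain ⟨g₂, C₂, hC₂⟩ := hG.sepb.exists_crv
    obtain ⟨-, hg, -⟩ := hG.numerics hC₁ hC₂
    subst hg
    have hC := hC₁.mono (le_max_left C₁ C₂)
    have hCb := hC₂.mono (le_max_right C₁ C₂)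
    obtain ⟨ab, hab, hred⟩ := hG.exists_red htW htb ha
    have hP : Pts r γ ρ t tb (fun _ : Unit => a) (fun _ : Unit => ab) :=
      { inj := fun _ _ _ => rfl
        injb := fun _ _ _ => rfl
        ord := fun _ => ord_t_nonneg ha
        ordb := fun _ => ord_t_nonneg hab
        red := fun _ => hred
        fix := fun g _ => hfix g
        cA := fun _ => ⟨c, ha⟩ }
    obtain ⟨η, hη⟩ := IsAlgClosed.exists_pow_nat_eq (evp a f) (Nat.pos_of_ne_zero hm0)
    have hadm : Adm m (fun _ : Unit => a) f (fun _ => η) :=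
      { ne := hf
        dvd := hd
        ord := fun _ => haf
        pow := fun _ => hη.symm }
    obtain ⟨f', η', hv, u, hu, hux, h1, -⟩ := exists_vadm hG hC hCb hP hm0 hadm
    have h2 : (f' : F) = u ^ m * f := by rw [h1, mul_comm]
    refine ⟨u, hu, hux (), ?_, ?_, ?_⟩
    · rw [← h2]; exact f'.2
    · rw [← h2]; exact hv.reg
    · rw [← h2]
      obtain ⟨hA, hr⟩ := hred f' hv.reg
      have hne : r ⟨_, hA⟩ ≠ 0 := by
        rw [hr]
        exact hv.evb_ne hCb ()
      have h3 := hG.unit _ hne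
      have h4 : A.valuation (evp a (f' : F)) ≤ 1 := (A.valuation_le_one_iff _).mpr hA
      have h5 : A.valuation (evp a (f' : F))⁻¹ ≤ 1 := (A.valuation_le_one_iff _).mpr h3
      have h6 : evp a (f' : F) ≠ 0 := by
        intro h0
        apply hne
        have : (⟨evp a (f' : F), hA⟩ : A) = 0 := Subtype.ext h0
        rw [this, map_zero]
      have h7 : A.valuation (evp a (f' : F)) ≠ 0 := (Valuation.ne_zero_iff _).mpr h6
      rw [map_inv₀] at h5
      exact le_antisymm h4 ((inv_le_one₀ (zero_lt_iff.mpr h7)).mp h5)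

end Fermat.Agent.Mzr
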