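import Mathlib
import Fermat.Agent.Mzr.Can2
import Fermat.Agent.Mzr.PairG
import Fermat.Agent.GC.Conc2

/-!
# Canonical splittings for places of `F0 Qb M`
-/

set_option autoImplicit false
set_option linter.unusedSectionVars false
set_option synthInstance.maxHeartbeats 400000

noncomputable section

namespace Fermat.Agent.Mzr

open AlgebraicCurve Fermat.Agent.FunField Fermat.Agent.Flat Fermat.Agent.LG Fermat.Agent.ModFun
open Fermat.Agent.Geo IsLocalRing Fermat.Agent.MZ Fermat.Agent.Lf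
open Fermat.Agent.ESCore (HauptFn haupt2 haupt3 ιC)
open ModularCurve
open scoped Pointwise

/-- The field of algebraic numbers. -/
local notation "Qb" => AlgebraicClosure ℚ
/-- The absolute Galois group. -/
local notation "GQ" => (AlgebraicClosure ℚ ≃ₐ[ℚ] AlgebraicClosure ℚ)

/-- The Gauss ring is stable under the decomposition group. -/
theorem gA_stab {Ω : Type*} [Field Ω] {A : ValuationSubring Ω} {σ : Ω ≃+* Ω}
    (hσ : ∀ a ∈ A, σ a ∈ A) {x : LaurentSeries Ω} (hx : x ∈ gA A) :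
    coeffMap (σ : Ω →+* Ω) x ∈ gA A := by
  obtain ⟨a, b, hb, h⟩ := hx
  have hb' : lK A (coeffMap (σA hσ) b) ≠ 0 := by
    intro h0
    apply hb
    ext n
    have h1 : (lK A (coeffMap (σA hσ) b)).coeff n = residue A (σA hσ (b.coeff n)) := rfl
    have h2 : (lK A b).coeff n = residue A (b.coeff n) := rfl
    rw [h0] at h1
    rw [h2, HahnSeries.coeff_zero]
    by_contra h3
    have h4 : IsUnit (b.coeff n) := (residue_ne_zero_iff_isUnit _).mp h3
    have h5 : IsUnit (σA hσ (b.coeff n)) := h4.map _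
    exact ((residue_ne_zero_iff_isUnit _).mpr h5) (by rw [← h1, HahnSeries.coeff_zero])
  refine ⟨coeffMap (σA hσ) a, coeffMap (σA hσ) b, hb', ?_⟩
  rw [lA_σA, lA_σA, ← map_mul, h]

theorem mem_of_decomp {A : ValuationSubring Qb} {σ : GQ} (hσ : σ ∈ A.decompositionSubgroup ℚ) :
    ∀ a ∈ A, σ a ∈ A := by
  intro a ha
  have h1 : σ • A = A := hσ
  rw [← h1]
  exact ValuationSubring.smul_mem_pointwise_smul σ a A ha

theorem val_lt_of_decomp {A : ValuationSubring Qb} {σ : GQ}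
    (hσ : σ ∈ A.decompositionSubgroup ℚ) {x : Qb} (hx : A.valuation x < 1) :
    A.valuation (σ x) < 1 := by
  by_contra hcon
  push Not at hcon
  have h0 : σ x ≠ 0 := by
    intro h0
    rw [h0, map_zero] at hcon
    exact absurd hcon (not_le.mpr zero_lt_one)
  have h1 : A.valuation ((σ x)⁻¹) ≤ 1 := by
    rw [map_inv₀]
    exact inv_le_one_of_one_le₀ hcon
  have h2 : (σ x)⁻¹ ∈ A := (A.valuation_le_one_iff _).mp h1
  have h3 := mem_of_decomp (inv_mem hσ) _ h2
  have h4 : (σ⁻¹ : GQ) ((σ x)⁻¹) = x⁻¹ := by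
    rw [map_inv₀]
    congr 1
    exact σ.symm_apply_apply x
  rw [h4] at h3
  have h5 := (A.valuation_le_one_iff _).mpr h3
  rw [map_inv₀] at h5
  have hx0 : x ≠ 0 := by
    rintro rfl
    exact h0 (map_zero σ)
  have h6 : A.valuation x ≠ 0 := (Valuation.ne_zero_iff _).mpr hx0
  exact absurd hx (not_lt.mpr ((inv_le_one₀ (zero_lt_iff.mpr h6)).mp h5))

section

variable {M : ℕ} [NeZero M] {A : ValuationSubring Qb} {D : Subgroup GQ} {m : ℕ} [NeZero m]
  {W : ValuationSubring (F0 Qb M)} {t : F0 Qb M}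

/-- **The canonical splitting.** -/
theorem exists_can_split (hD : D ≤ A.decompositionSubgroup ℚ) (a b : FPl M D)
    (hW : ∀ z : F0 Qb M, z ∈ W ↔ (z : LaurentSeries Qb) ∈ gA A)
    (h : Can A W t m a.pl b.pl) (ht : ∀ σ ∈ D, galF0 M σ • t = t) :
    ∃ s : (plPG a b m).Z →* Qbˣ, (∀ f, s f ^ m = (plPG a b m).y f) ∧
      (∀ u, s ⟨u ^ m, (plPG a b m).pow_mem u⟩ = (plPG a b m).y u) ∧
      ∀ (σ : D) (f : (plPG a b m).Z), s ⟨σ • (f : UP a b), (plPG a b m).smul_mem σ f f.2⟩ =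
        uact (σ : GQ) (s f) := by
  have hne : ∀ f : UP a b, ((f : (F0 Qb M)ˣ) : F0 Qb M) ≠ 0 := fun f => Units.ne_zero _
  have hy : ∀ f : UP a b, ((plPG a b m).y f : Qb) = yv a.pl b.pl ((f : (F0 Qb M)ˣ) : F0 Qb M) := by
    intro f
    have h1 : (plPG a b m).y f = evL a b f * (evR a b f)⁻¹ := rfl
    rw [h1, Units.val_mul, Units.val_inv_eq_inv_val, coe_evL, coe_evR, yv, div_eq_mul_inv]
  have hex : ∀ f : (plPG a b m).Z, ∃ η : Qbˣ,
      CRel A W t m a.pl b.pl (((f : UP a b) : (F0 Qb M)ˣ) : F0 Qb M) η := by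
    intro f
    have hd : ∀ v : Place Qb (F0 Qb M), (m : ℤ) ∣ v.ord (((f : UP a b) : (F0 Qb M)ˣ) : F0 Qb M) := by
      have := f.2
      exact this
    obtain ⟨η, hη⟩ := h.crel_exists (hne f) hd (f : UP a b).2.1 (f : UP a b).2.2
    have h1 := h.crel_pow (f : UP a b).2.1 (f : UP a b).2.2 hη
    have hη0 : η ≠ 0 := by
      rintro rfl
      rw [zero_pow (NeZero.ne m)] at h1
      exact yv_ne h.ratA h.ratB (hne f) (f : UP a b).2.1 (f : UP a b).2.2 h1.symm
    exact ⟨Units.mk0 η hη0, hη⟩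
  choose s hs using hex
  have hone : s 1 = 1 := by
    apply Units.ext
    have h3 := hs 1
    have h4 : ((((1 : (plPG a b m).Z) : UP a b) : (F0 Qb M)ˣ) : F0 Qb M) = (1 : F0 Qb M) ^ m := by
      rw [one_pow]
      rfl
    rw [h4] at h3
    rw [h.crel_of_pow one_ne_zero a.pl.ord_one b.pl.ord_one h3, yv, evp_one, evp_one, div_one]
    rfl
  have hmul : ∀ f g, s (f * g) = s f * s g := by
    intro f g
    apply Units.ext
    rw [Units.val_mul]
    have h1 := hs (f * g)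
    have h2 : ((((f * g : (plPG a b m).Z) : UP a b) : (F0 Qb M)ˣ) : F0 Qb M) =
      (((f : UP a b) : (F0 Qb M)ˣ) : F0 Qb M) * (((g : UP a b) : (F0 Qb M)ˣ) : F0 Qb M) := rfl
    have h3 := ((f * g : (plPG a b m).Z) : UP a b).2
    have h4 := h.crel_mul (hs f) (hs g)
    rw [← h2] at h4
    exact h.crel_unique h3.1 h3.2 h1 h4
  have hpow : ∀ f, s f ^ m = (plPG a b m).y f := by
    intro f
    apply Units.ext
    rw [Units.val_pow_eq_pow_val]
    exact (h.crel_pow (f : UP a b).2.1 (f : UP a b).2.2 (hs f)).trans (hy f).symm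
  have hB : ∀ u : UP a b, s ⟨u ^ m, (plPG a b m).pow_mem u⟩ = (plPG a b m).y u := by
    intro u
    apply Units.ext
    refine Eq.trans ?_ (hy u).symm
    refine h.crel_of_pow (hne u) u.2.1 u.2.2 ?_
    have h1 : CRel A W t m a.pl b.pl (((u ^ m : UP a b) : (F0 Qb M)ˣ) : F0 Qb M)
      (s ⟨u ^ m, (plPG a b m).pow_mem u⟩) := hs ⟨u ^ m, (plPG a b m).pow_mem u⟩
    have h2 : (((u ^ m : UP a b) : (F0 Qb M)ˣ) : F0 Qb M) =
        ((u : (F0 Qb M)ˣ) : F0 Qb M) ^ m := by
      rw [SubmonoidClass.coe_pow, Units.val_pow_eq_pow_val]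
    rw [h2] at h1
    exact h1
  have hsm : ∀ (σ : D) (f : (plPG a b m).Z), s ⟨σ • (f : UP a b),
      (plPG a b m).smul_mem σ f f.2⟩ = uact (σ : GQ) (s f) := by
    intro σ f
    apply Units.ext
    have hσ := hD σ.2
    have h1 := hs ⟨σ • (f : UP a b), (plPG a b m).smul_mem σ f f.2⟩
    have h2 := h.crel_smul (g := galF0 M (σ : GQ))
      (fun x hx => (A.valuation_le_one_iff _).mpr
        (mem_of_decomp hσ x ((A.valuation_le_one_iff _).mp hx)))
      (fun x hx => val_lt_of_decomp hσ hx) (fun z hz => by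
        rw [hW] at hz ⊢
        exact gA_stab (σ := ((σ : GQ) : Qb ≃+* Qb)) (mem_of_decomp hσ) hz)
      (ht σ σ.2) (a.fix σ σ.2) (b.fix σ σ.2) (hs f)
    exact h.crel_unique (σ • (f : UP a b)).2.1 (σ • (f : UP a b)).2.2 h1 h2
  exact ⟨{ toFun := s, map_one' := hone, map_mul' := hmul }, hpow, hB, hsm⟩

end

section GC

variable {M : ℕ} [NeZero M] {A : ValuationSubring Qb} {D : Subgroup GQ} {m : ℕ} [NeZero m] {l : ℕ}

theorem val_natCast (hl : l.Prime) (hA : A.LiesOverPrime l) (hlm : ¬ l ∣ m) :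
    A.valuation (m : Qb) = 1 := EC.v_nat_eq_one hl hA hlm

/-- **The canonical splitting**, from good reduction. -/
theorem exists_can_split_of (hl : l.Prime) (hA : A.LiesOverPrime l) (hlm : ¬ l ∣ m)
    (hD : D ≤ A.decompositionSubgroup ℚ) (a b : FPl M D) {t : F0 Qb M} {tb : FbK A M}
    (hG : GoodCrv (residue A) ((galF0 M).comp (⊥ : Subgroup GQ).subtype) (GC.WV hl hA M)
      (GC.ρV hl hA M) t tb) (htW : t ∈ GC.WV hl hA M) (htb : GC.ρV hl hA M ⟨t, htW⟩ = tb)
    (ht : ∀ σ ∈ D, galF0 M σ • t = t) {c : A}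
    (ha : 0 < a.pl.ord (t - algebraMap Qb (F0 Qb M) c)) (hb : 0 ≤ b.pl.ord t)
    (hnear : Near A M t a.pl b.pl) :
    ∃ s : (plPG a b m).Z →* Qbˣ, (∀ f, s f ^ m = (plPG a b m).y f) ∧
      (∀ u, s ⟨u ^ m, (plPG a b m).pow_mem u⟩ = (plPG a b m).y u) ∧
      ∀ (σ : D) (f : (plPG a b m).Z), s ⟨σ • (f : UP a b), (plPG a b m).smul_mem σ f f.2⟩ =
        uact (σ : GQ) (s f) := by
  have hac : IsAlgClosed (ResidueField A) := isAlgClosed_residueA hl hA
  refine exists_can_split hD a b (W := GC.WV hl hA M) (t := t) (fun z => Iff.rfl) ?_ ht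
  refine can_of_goodCrv hG htW htb (val_natCast hl hA hlm) ha hb ?_ ?_
  · intro g
    have h1 : g = 1 := Subsingleton.elim _ _
    rw [h1, map_one, one_smul]
  · intro z hz hreg
    exact hnear z hz hreg

end GC

end Fermat.Agent.Mzr
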