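import Mathlib
import Fermat.Agent.Mzr.Can3
import Fermat.Agent.GC.B3Flat2

/-!
# Canonical splittings for places of `F0 Qb M`: final forms
-/

set_option autoImplicit false
set_option linter.unusedSectionVars false
set_option synthInstance.maxHeartbeats 400000

noncomputable section

namespace Fermat.Agent.Mzr

open AlgebraicCurve Fermat.Agent.FunField Fermat.Agent.Flat Fermat.Agent.LG Fermat.Agent.ModFun
open Fermat.Agent.Geo IsLocalRing Fermat.Agent.MZ Fermat.Agent.Lf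
open Fermat.Agent.ESCore (HauptFn haupt2 haupt3 ιC)
open ModularCurve
open scoped Pointwise

/-- The field of algebraic numbers. -/
local notation "Qb" => AlgebraicClosure ℚ
/-- The absolute Galois group. -/
local notation "GQ" => (AlgebraicClosure ℚ ≃ₐ[ℚ] AlgebraicClosure ℚ)

section

variable {M : ℕ} [NeZero M] {A : ValuationSubring Qb} {D : Subgroup GQ} {m : ℕ} [NeZero m] {l : ℕ}

variable (A m) in
/-- The statement of (B3-can). -/
def CanSplit (a b : FPl M D) : Prop :=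
  ∃ s : (plPG a b m).Z →* Qbˣ, (∀ f, s f ^ m = (plPG a b m).y f) ∧
    (∀ u, s ⟨u ^ m, (plPG a b m).pow_mem u⟩ = (plPG a b m).y u) ∧
    ∀ (σ : D) (f : (plPG a b m).Z), s ⟨σ • (f : UP a b), (plPG a b m).smul_mem σ f f.2⟩ =
      uact (σ : GQ) (s f)

theorem gal_algebraMap_int (σ : GQ) (n : ℤ) :
    galF0 M σ • (algebraMap Qb (F0 Qb M) (n : Qb)) = algebraMap Qb (F0 Qb M) (n : Qb) := by
  rw [SemilinearAut.smul_algebraMap]
  congr 1
  exact map_intCast _ n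

theorem gal_jF (σ : GQ) : galF0 M σ • jF Qb M = jF Qb M := by
  apply Subtype.ext
  exact coeffMap_jqModC _

theorem gal_tF {p : ℕ} [Fact p.Prime] {κ : ℤ} (H : HauptFn p κ) (hp : p ∣ M) (σ : GQ) :
    galF0 M σ • tF H hp = tF H hp := by
  apply Subtype.ext
  exact coeffMap_tS _ p κ

/-- **(B3-can)**, residue characteristic `l ≥ 5`. -/
theorem can_J (hl : l.Prime) (hl5 : 5 ≤ l) (hA : A.LiesOverPrime l) (hlM : ¬ l ∣ M)
    (hlm : ¬ l ∣ m) (hD : D ≤ A.decompositionSubgroup ℚ) (a b : FPl M D) (n : ℤ) {c : A}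
    (ha : 0 < a.pl.ord ((jF Qb M - algebraMap Qb (F0 Qb M) (n : Qb))⁻¹ -
      algebraMap Qb (F0 Qb M) c))
    (hb : 0 ≤ b.pl.ord (jF Qb M - algebraMap Qb (F0 Qb M) (n : Qb))⁻¹)
    (hnear : Near A M (jF Qb M - algebraMap Qb (F0 Qb M) (n : Qb))⁻¹ a.pl b.pl) :
    CanSplit m a b := by
  have hac : IsAlgClosed (ResidueField A) := isAlgClosed_residueA hl hA
  have hG := GC.goodCrv_J hl hl5 hA hlM n ⊥ bot_le
  obtain ⟨hj, hjr⟩ := GC.jF_WV (M := M) hl hA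
  obtain ⟨htW, htb⟩ := GC.inv_tW_int hG hj hjr
  refine exists_can_split_of hl hA hlm hD a b hG htW htb (fun σ _ => ?_) ha hb hnear
  rw [smul_inv'', smul_sub, gal_jF, gal_algebraMap_int]

/-- **(B3-can)**, residue characteristic `l ≥ 5`, parameter `j⁻¹`. -/
theorem can_J0 (hl : l.Prime) (hl5 : 5 ≤ l) (hA : A.LiesOverPrime l) (hlM : ¬ l ∣ M)
    (hlm : ¬ l ∣ m) (hD : D ≤ A.decompositionSubgroup ℚ) (a b : FPl M D) {c : A}
    (ha : 0 < a.pl.ord ((jF Qb M)⁻¹ - algebraMap Qb (F0 Qb M) c))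
    (hb : 0 ≤ b.pl.ord (jF Qb M)⁻¹) (hnear : Near A M (jF Qb M)⁻¹ a.pl b.pl) :
    CanSplit m a b := by
  have e : jF Qb M = jF Qb M - algebraMap Qb (F0 Qb M) ((0 : ℤ) : Qb) := by
    rw [Int.cast_zero, map_zero, sub_zero]
  rw [e] at ha hb hnear
  exact can_J hl hl5 hA hlM hlm hD a b 0 ha hb hnear

/-- **(B3-can)**, level divisible by `p`, parameter `t⁻¹`. -/
theorem can_T_of {p : ℕ} [Fact p.Prime] {κ : ℤ} {H : HauptFn p κ} {S : Set ℤ} {k : ℕ}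
    {P : Polynomial ℤ} (hH : HautData H S k P) (hp : p ∣ M)
    (hS : ∀ c ∈ S, ∀ c' ∈ S, c ≠ c' → IsUnit ((c - c' : ℤ) : A.comap (algebraMap (KI A) Qb)))
    (hl : l.Prime) (hA : A.LiesOverPrime l) (hlM : ¬ l ∣ M)
    (hlm : ¬ l ∣ m) (hD : D ≤ A.decompositionSubgroup ℚ) (a b : FPl M D) {c : A}
    (ha : 0 < a.pl.ord ((tF H hp)⁻¹ - algebraMap Qb (F0 Qb M) c))
    (hb : 0 ≤ b.pl.ord (tF H hp)⁻¹) (hnear : Near A M (tF H hp)⁻¹ a.pl b.pl) :
    CanSplit m a b := by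
  have hac : IsAlgClosed (ResidueField A) := isAlgClosed_residueA hl hA
  have hG := GC.goodCrv_T_of hH hp hS hl hA hlM 0 ⊥ bot_le
  obtain ⟨hj, hjr⟩ := GC.tF_WV (M := M) H hp hl hA
  obtain ⟨htW, htb⟩ := GC.inv_tW_int hG hj hjr
  have e : tF H hp = tF H hp - algebraMap Qb (F0 Qb M) ((0 : ℤ) : Qb) := by
    rw [Int.cast_zero, map_zero, sub_zero]
  rw [e] at ha hb hnear
  refine exists_can_split_of hl hA hlm hD a b hG htW htb (fun σ _ => ?_) ha hb hnear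
  rw [smul_inv'', smul_sub, gal_tF, gal_algebraMap_int]

/-- **(B3-can)**, even level, parameter `t⁻¹`. -/
theorem can_T2 (hM : 2 ∣ M) (hl : l.Prime) (hA : A.LiesOverPrime l) (hlM : ¬ l ∣ M)
    (hlm : ¬ l ∣ m) (hD : D ≤ A.decompositionSubgroup ℚ) (a b : FPl M D) {c : A}
    (ha : haveI : Fact (Nat.Prime 2) := ⟨Nat.prime_two⟩
      0 < a.pl.ord ((tF haupt2 hM)⁻¹ - algebraMap Qb (F0 Qb M) c))
    (hb : haveI : Fact (Nat.Prime 2) := ⟨Nat.prime_two⟩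
      0 ≤ b.pl.ord (tF haupt2 hM)⁻¹)
    (hnear : haveI : Fact (Nat.Prime 2) := ⟨Nat.prime_two⟩
      Near A M (tF haupt2 hM)⁻¹ a.pl b.pl) : CanSplit m a b := by
  haveI : Fact (Nat.Prime 2) := ⟨Nat.prime_two⟩
  exact can_T_of haut2 hM (haut2_isUnit hl hA fun h => hlM (h ▸ hM)) hl hA hlM hlm hD a b ha hb
    hnear

/-- **(B3-can)**, level divisible by three, parameter `t⁻¹`. -/
theorem can_T3 (hM : 3 ∣ M) (hl : l.Prime) (hA : A.LiesOverPrime l) (hlM : ¬ l ∣ M)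
    (hlm : ¬ l ∣ m) (hD : D ≤ A.decompositionSubgroup ℚ) (a b : FPl M D) {c : A}
    (ha : haveI : Fact (Nat.Prime 3) := ⟨Nat.prime_three⟩
      0 < a.pl.ord ((tF haupt3 hM)⁻¹ - algebraMap Qb (F0 Qb M) c))
    (hb : haveI : Fact (Nat.Prime 3) := ⟨Nat.prime_three⟩
      0 ≤ b.pl.ord (tF haupt3 hM)⁻¹)
    (hnear : haveI : Fact (Nat.Prime 3) := ⟨Nat.prime_three⟩
      Near A M (tF haupt3 hM)⁻¹ a.pl b.pl) : CanSplit m a b := by
  haveI : Fact (Nat.Prime 3) := ⟨Nat.prime_three⟩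
  exact can_T_of haut3 hM (haut3_isUnit hl hA fun h => hlM (h ▸ hM)) hl hA hlM hlm hD a b ha hb
    hnear

end

end Fermat.Agent.Mzr
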