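import Mathlib
import Fermat.Agent.Mzr.Pair

/-!
# Families of divisible classes and splittings
-/

set_option autoImplicit false
set_option linter.unusedSectionVars false

noncomputable section

namespace Fermat.Agent.Mzr

/-- The field of algebraic numbers. -/
local notation "Qb" => AlgebraicClosure ℚ
/-- The absolute Galois group. -/
local notation "GQ" => (AlgebraicClosure ℚ ≃ₐ[ℚ] AlgebraicClosure ℚ)

/-- A compatible family of subgroups. -/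
structure ZFam (U : Type) [CommGroup U] [MulDistribMulAction GQ U] (q : ℕ) where
  /-- the subgroups -/
  Z : ℕ → Subgroup U
  pow_mem : ∀ (k : ℕ) (u : U), u ^ q ^ k ∈ Z k
  smul_mem : ∀ (k : ℕ) (σ : GQ), ∀ f ∈ Z k, σ • f ∈ Z k
  of_pow : ∀ (k r : ℕ) (f : U), f ^ q ^ r ∈ Z (k + r) → f ∈ Z k
  to_pow : ∀ (k r : ℕ) (f : U), f ∈ Z k → f ^ q ^ r ∈ Z (k + r)
  div : ∀ (k r : ℕ) (f : U), f ∈ Z k → ∃ g ∈ Z (k + r), ∃ u : U, f = g * u ^ q ^ k

variable {U : Type} [CommGroup U] [MulDistribMulAction GQ U] {q : ℕ}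

/-- An exact splitting. -/
structure ESpl (F : ZFam U q) (y : U →* Qbˣ) (k : ℕ) (t : F.Z k →* Qbˣ) : Prop where
  pow : ∀ f : F.Z k, t f ^ q ^ k = y (f : U)
  pow' : ∀ u : U, t ⟨u ^ q ^ k, F.pow_mem k u⟩ = y u

/-- Equivariance up to `n`. -/
def AEq (F : ZFam U q) (k : ℕ) (H : Subgroup GQ) (n : ℕ) (t : F.Z k →* Qbˣ) : Prop :=
  ∀ (σ : GQ), σ ∈ H → ∀ f : F.Z k,
    t ⟨σ • (f : U), F.smul_mem k σ f f.2⟩ ^ n = uact σ (t f) ^ n

/-- Equivariant homomorphisms to roots of unity are killed by `c`. -/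
def HomKill (F : ZFam U q) (k : ℕ) (H : Subgroup GQ) (c : ℕ) : Prop :=
  ∀ ω : F.Z k →* Qbˣ, (∀ f, ω f ^ q ^ k = 1) → (∀ u : U, ω ⟨u ^ q ^ k, F.pow_mem k u⟩ = 1) →
    (∀ σ ∈ H, ∀ f : F.Z k, ω ⟨σ • (f : U), F.smul_mem k σ f f.2⟩ = uact σ (ω f)) →
    ∀ f, ω f ^ c = 1

theorem pow_eq_of_pow_eq {a b : Qbˣ} {n r n' m : ℕ} (hn : n = q ^ r * n') (hm : n'.Coprime (q ^ m))
    {k : ℕ} (hk : k = m + r) (h1 : a ^ n = b ^ n) (h2 : a ^ q ^ k = b ^ q ^ k) :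
    a ^ q ^ r = b ^ q ^ r := by
  have e1 : (a / b) ^ n = 1 := by rw [div_pow, h1, div_self']
  have e2 : (a / b) ^ q ^ k = 1 := by rw [div_pow, h2, div_self']
  have e3 : orderOf (a / b) ∣ Nat.gcd n (q ^ k) :=
    Nat.dvd_gcd (orderOf_dvd_of_pow_eq_one e1) (orderOf_dvd_of_pow_eq_one e2)
  have e4 : Nat.gcd n (q ^ k) = q ^ r := by
    rw [hn, hk, add_comm, pow_add, Nat.gcd_mul_left, hm.gcd_eq_one, mul_one]
  rw [e4] at e3
  have e5 : (a / b) ^ q ^ r = 1 := orderOf_dvd_iff_pow_eq_one.mp e3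
  rwa [div_pow, div_eq_one] at e5

/-- **Lemma D**: almost equivariant exact splittings at all levels give equivariant ones. -/
theorem exists_exact (hq : q.Prime) (F : ZFam U q) {y : U →* Qbˣ}
    (hy : ∀ (σ : GQ) (u : U), y (σ • u) = uact σ (y u)) {H : Subgroup GQ} {n : ℕ} (hn : 0 < n)
    (h : ∀ K, ∃ t : F.Z K →* Qbˣ, ESpl F y K t ∧ AEq F K H n t) (k : ℕ) :
    ∃ t : F.Z k →* Qbˣ, ESpl F y k t ∧ AEq F k H 1 t := by
  obtain ⟨r, n', hn', hnr⟩ := Nat.exists_eq_pow_mul_and_not_dvd hn.ne' q hq.ne_one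
  have hcop : n'.Coprime (q ^ k) :=
    (((Nat.Prime.coprime_iff_not_dvd hq).mpr hn').symm).pow_right k
  obtain ⟨t, ht, hteq⟩ := h (k + r)
  -- the equivariant homomorphism
  let s : F.Z (k + r) →* Qbˣ := (powMonoidHom (q ^ r)).comp t
  have hs : ∀ f, s f = t f ^ q ^ r := fun f => rfl
  have hs1 : ∀ f, s f ^ q ^ k = y (f : U) := by
    intro f
    have e : q ^ r * q ^ k = q ^ (k + r) := by rw [← pow_add, Nat.add_comm r k]
    rw [hs, ← pow_mul, e, ht.pow]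
  have hs2 : ∀ (u : U) (hu : u ^ q ^ (k + r) ∈ F.Z (k + r)), s ⟨u ^ q ^ (k + r), hu⟩ =
      y u ^ q ^ r := by
    intro u hu
    rw [hs, ht.pow']
  have hs3 : ∀ σ ∈ H, ∀ (f : U) (hf : f ∈ F.Z (k + r)) (hf' : σ • f ∈ F.Z (k + r)),
      s ⟨σ • f, hf'⟩ = uact σ (s ⟨f, hf⟩) := by
    intro σ hσ f hf hf'
    rw [hs, hs, map_pow]
    refine pow_eq_of_pow_eq hnr hcop rfl (hteq σ hσ ⟨f, hf⟩) ?_
    rw [ht.pow, ← map_pow, ht.pow]
    exact hy σ f
  -- values at powers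
  have hstar : ∀ (v : U) (hv : v ^ q ^ k ∈ F.Z (k + r)), s ⟨v ^ q ^ k, hv⟩ = y v := by
    intro v hv
    have hv' : v ∈ F.Z r := F.of_pow r k v (by rwa [add_comm])
    obtain ⟨g, hg, w, hw⟩ := F.div r k v hv'
    rw [add_comm] at hg
    have h1 : v ^ q ^ k = g ^ q ^ k * w ^ q ^ (k + r) := by
      rw [hw, mul_pow, ← pow_mul, ← pow_add, add_comm r k]
    have h2 : (⟨v ^ q ^ k, hv⟩ : F.Z (k + r)) =
        (⟨g, hg⟩ : F.Z (k + r)) ^ q ^ k * ⟨w ^ q ^ (k + r), F.pow_mem _ w⟩ :=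
      Subtype.ext h1
    rw [h2, map_mul, map_pow, hs1, hs2, hw, map_mul, map_pow]
  have huniq : ∀ (g g' : F.Z (k + r)) (w w' : U),
      (g : U) * w ^ q ^ k = (g' : U) * w' ^ q ^ k → s g * y w = s g' * y w' := by
    intro g g' w w' hgw
    have h1 : (w' / w) ^ q ^ k = ((g / g' : F.Z (k + r)) : U) := by
      rw [Subgroup.coe_div, div_pow, div_eq_div_iff_mul_eq_mul, mul_comm, ← hgw, mul_comm]
    have h2 : (w' / w) ^ q ^ k ∈ F.Z (k + r) := by rw [h1]; exact (g / g').2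
    have h3 := hstar _ h2
    have h4 : (⟨(w' / w) ^ q ^ k, h2⟩ : F.Z (k + r)) = g / g' := Subtype.ext h1
    rw [h4, map_div, map_div, div_eq_div_iff_mul_eq_mul] at h3
    rw [h3, mul_comm]
  choose g hg w hw using fun f : F.Z k => F.div k r f f.2
  let t' : F.Z k →* Qbˣ :=
    { toFun := fun f => s ⟨g f, hg f⟩ * y (w f)
      map_one' := by
        have h1 := huniq ⟨g 1, hg 1⟩ 1 (w 1) 1 (by
          rw [← hw 1, one_pow, Subgroup.coe_one, Subgroup.coe_one, mul_one])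
        rw [h1, map_one, map_one, mul_one]
      map_mul' := fun f f' => by
        have h1 := huniq ⟨g (f * f'), hg _⟩ (⟨g f, hg f⟩ * ⟨g f', hg f'⟩) (w (f * f'))
          (w f * w f') (by
            rw [← hw (f * f'), Subgroup.coe_mul, Subgroup.coe_mul, mul_pow,
              mul_mul_mul_comm, ← hw f, ← hw f'])
        rw [h1, map_mul, map_mul, mul_mul_mul_comm] }
  refine ⟨t', ⟨fun f => ?_, fun u => ?_⟩, fun σ hσ f => ?_⟩
  · change (s ⟨g f, hg f⟩ * y (w f)) ^ q ^ k = _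
    rw [mul_pow, hs1, ← map_pow, ← map_mul, ← hw f]
  · have h1 := huniq ⟨g ⟨u ^ q ^ k, F.pow_mem k u⟩, hg _⟩ 1 (w ⟨u ^ q ^ k, F.pow_mem k u⟩) u (by
      rw [← hw, Subgroup.coe_one, one_mul])
    exact h1.trans (by rw [map_one, one_mul])
  · rw [pow_one, pow_one]
    have h0 := F.smul_mem (k + r) σ _ (hg f)
    have h1 := huniq ⟨g ⟨σ • (f : U), F.smul_mem k σ f f.2⟩, hg _⟩ ⟨σ • g f, h0⟩
      (w ⟨σ • (f : U), F.smul_mem k σ f f.2⟩) (σ • w f) (by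
      rw [← hw]
      change σ • (f : U) = σ • g f * (σ • w f) ^ q ^ k
      rw [← smul_pow', ← smul_mul', ← hw f])
    refine h1.trans ?_
    rw [hs3 σ hσ _ (hg f) h0, hy, ← map_mul]
    rfl

/-- **Claim A** -/
theorem aeq_of_spl (F : ZFam U q) {y : U →* Qbˣ}
    (hy : ∀ (σ : GQ) (u : U), y (σ • u) = uact σ (y u)) {H : Subgroup GQ} {k B c : ℕ}
    {s t : F.Z k →* Qbˣ} (hs1 : ∀ f, s f ^ q ^ k = y (f : U) ^ B)
    (hs2 : ∀ u : U, s ⟨u ^ q ^ k, F.pow_mem k u⟩ = y u ^ B)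
    (hs3 : ∀ (σ : GQ) (f : F.Z k), s ⟨σ • (f : U), F.smul_mem k σ f f.2⟩ = uact σ (s f))
    (ht : ESpl F y k t) (hteq : AEq F k H 1 t) (hkill : HomKill F k H c) :
    AEq F k ⊤ (B * c) t := by
  have h1 := hkill (s / (powMonoidHom B).comp t) (fun f => by
      change (s f / t f ^ B) ^ q ^ k = 1
      rw [div_pow, hs1, pow_right_comm, ht.pow, div_self']) (fun u => by
      change s ⟨u ^ q ^ k, F.pow_mem k u⟩ / t ⟨u ^ q ^ k, F.pow_mem k u⟩ ^ B = 1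
      rw [hs2, ht.pow', div_self']) (fun σ hσ f => by
      change s ⟨σ • (f : U), F.smul_mem k σ f f.2⟩ / t ⟨σ • (f : U), F.smul_mem k σ f f.2⟩ ^ B =
        uact σ (s f / t f ^ B)
      have h2 := hteq σ hσ f
      rw [pow_one, pow_one] at h2
      rw [hs3, h2, map_div, map_pow])
  have h2 : ∀ f, s f ^ c = t f ^ (B * c) := by
    intro f
    have h3 := h1 f
    change (s f / t f ^ B) ^ c = 1 at h3
    rw [div_pow, div_eq_one, ← pow_mul] at h3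
    exact h3
  intro σ _ f
  have h3 := h2 ⟨σ • (f : U), F.smul_mem k σ f f.2⟩
  rw [hs3, ← map_pow (uact σ) (s f), h2 f, map_pow] at h3
  exact h3.symm

/-- **The end argument.** -/
theorem aeq_of_hecke (F : ZFam U q) {z : U →* Qbˣ}
    (hz : ∀ (σ : GQ) (u : U), z (σ • u) = uact σ (z u)) {H : Subgroup GQ} {k c c' : ℕ}
    {t : F.Z k →* Qbˣ} (ht : ESpl F z k t) (hteq : AEq F k H 1 t) (hkill : HomKill F k H c)
    (η : U →* U) (hη : ∀ (σ : GQ) (u : U), η (σ • u) = σ • η u)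
    (hηZ : ∀ f ∈ F.Z k, η f ∈ F.Z k) (hzη : ∀ u, z (η u) = 1)
    (hdiv : ∀ f ∈ F.Z k, ∃ g ∈ F.Z k, ∃ u : U, f ^ c' = η g * u ^ q ^ k) :
    AEq F k ⊤ (c' * c) t := by
  let ω : F.Z k →* Qbˣ := t.comp
    { toFun := fun f => (⟨η f, hηZ f f.2⟩ : F.Z k)
      map_one' := Subtype.ext (map_one η)
      map_mul' := fun f g => Subtype.ext (map_mul η _ _) }
  have hω : ∀ (f : U) (hf : f ∈ F.Z k) (hf' : η f ∈ F.Z k), t ⟨η f, hf'⟩ = ω ⟨f, hf⟩ :=
    fun f hf hf' => rfl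
  have h1 := hkill ω (fun f => by
      change t ⟨η f, hηZ f f.2⟩ ^ q ^ k = 1
      rw [ht.pow]
      exact hzη f) (fun u => by
      change t ⟨η (u ^ q ^ k), hηZ _ (F.pow_mem k u)⟩ = 1
      have h2 : (⟨η (u ^ q ^ k), hηZ _ (F.pow_mem k u)⟩ : F.Z k) =
          ⟨η u ^ q ^ k, F.pow_mem k (η u)⟩ := Subtype.ext (map_pow _ _ _)
      rw [h2, ht.pow', hzη]) (fun σ hσ f => by
      change t ⟨η (σ • (f : U)), _⟩ = uact σ (t ⟨η f, hηZ f f.2⟩)
      have h2 := hteq σ hσ ⟨η f, hηZ f f.2⟩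
      rw [pow_one, pow_one] at h2
      rw [← h2]
      congr 1
      exact Subtype.ext (hη σ f))
  have key : ∀ (f : U) (hf : f ∈ F.Z k) (g : U) (hg : g ∈ F.Z k) (u : U),
      f ^ c' = η g * u ^ q ^ k → t ⟨f, hf⟩ ^ (c' * c) = z u ^ c := by
    intro f hf g hg u hfu
    have h2 : (⟨f, hf⟩ : F.Z k) ^ c' = ⟨η g, hηZ g hg⟩ * ⟨u ^ q ^ k, F.pow_mem k u⟩ :=
      Subtype.ext hfu
    rw [pow_mul, ← map_pow, h2, map_mul, ht.pow', mul_pow, hω g hg, h1, one_mul]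
  intro σ _ f
  obtain ⟨g, hg, u, hfu⟩ := hdiv f f.2
  have h3 := key _ (F.smul_mem k σ f f.2) (σ • g) (F.smul_mem k σ g hg) (σ • u) (by
    rw [← smul_pow', hfu, smul_mul', smul_pow', hη])
  have h4 := key f f.2 g hg u hfu
  have h5 : (uact σ (t f)) ^ (c' * c) = uact σ (z u ^ c) := by
    rw [← h4, map_pow]
  rw [h3, h5, hz, map_pow]

/-- Extension of splittings to a larger group of functions. -/
theorem extend_spl {U₂ : Type} [CommGroup U₂] [MulDistribMulAction GQ U₂]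
    (F : ZFam U q) (F₂ : ZFam U₂ q) (j : U →* U₂) (hj : Function.Injective j)
    (hjσ : ∀ (σ : GQ) (u : U), j (σ • u) = σ • j u)
    {k : ℕ} (hZ : ∀ f : U, f ∈ F.Z k ↔ j f ∈ F₂.Z k)
    (hmove : ∀ f ∈ F₂.Z k, ∃ (f' : U) (w : U₂), f = j f' * w ^ q ^ k)
    (hreg : ∀ (w : U₂) (v : U), w ^ q ^ k = j v → ∃ w' : U, j w' = w)
    {z : U₂ →* Qbˣ} (hz : ∀ (σ : GQ) (u : U₂), z (σ • u) = uact σ (z u))
    {H : Subgroup GQ} {t : F.Z k →* Qbˣ} (ht : ESpl F (z.comp j) k t) (hteq : AEq F k H 1 t) :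
    ∃ t₂ : F₂.Z k →* Qbˣ, ESpl F₂ z k t₂ ∧ AEq F₂ k H 1 t₂ := by
  have hmove' : ∀ f : F₂.Z k, ∃ (f' : F.Z k) (w : U₂), (f : U₂) = j f' * w ^ q ^ k := by
    intro f
    obtain ⟨f', w, hf⟩ := hmove f f.2
    have h1 : j f' ∈ F₂.Z k := by
      have h2 : j f' = f * (w ^ q ^ k)⁻¹ := by rw [hf, mul_inv_cancel_right]
      rw [h2]
      exact (F₂.Z k).mul_mem f.2 ((F₂.Z k).inv_mem (F₂.pow_mem k w))
    exact ⟨⟨f', (hZ f').mpr h1⟩, w, hf⟩
  have huniq : ∀ (g g' : F.Z k) (w w' : U₂),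
      j g * w ^ q ^ k = j g' * w' ^ q ^ k → t g * z w = t g' * z w' := by
    intro g g' w w' hgw
    have h1 : (w' / w) ^ q ^ k = j ((g / g' : F.Z k) : U) := by
      rw [Subgroup.coe_div, map_div, div_pow, div_eq_div_iff_mul_eq_mul, mul_comm, ← hgw, mul_comm]
    obtain ⟨v, hv⟩ := hreg _ _ h1
    have h2 : v ^ q ^ k = ((g / g' : F.Z k) : U) := by
      apply hj
      rw [map_pow, hv, h1]
    have h3 := ht.pow' v
    have h4 : (⟨v ^ q ^ k, F.pow_mem k v⟩ : F.Z k) = g / g' := Subtype.ext h2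
    rw [h4, map_div, MonoidHom.comp_apply, hv, map_div, div_eq_div_iff_mul_eq_mul] at h3
    rw [h3, mul_comm]
  choose g w hw using hmove'
  let t' : F₂.Z k →* Qbˣ :=
    { toFun := fun f => t (g f) * z (w f)
      map_one' := by
        have h1 := huniq (g 1) 1 (w 1) 1 (by
          rw [← hw 1, one_pow, Subgroup.coe_one, Subgroup.coe_one, map_one, mul_one])
        rw [h1, map_one, map_one, mul_one]
      map_mul' := fun f f' => by
        have h1 := huniq (g (f * f')) (g f * g f') (w (f * f'))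
          (w f * w f') (by
            rw [← hw (f * f'), Subgroup.coe_mul, Subgroup.coe_mul, map_mul, mul_pow,
              mul_mul_mul_comm, ← hw f, ← hw f'])
        rw [h1, map_mul, map_mul, mul_mul_mul_comm] }
  refine ⟨t', ⟨fun f => ?_, fun u => ?_⟩, fun σ hσ f => ?_⟩
  · change (t (g f) * z (w f)) ^ q ^ k = _
    rw [mul_pow, ht.pow, ← map_pow, MonoidHom.comp_apply, ← map_mul, ← hw f]
  · have h1 := huniq (g ⟨u ^ q ^ k, F₂.pow_mem k u⟩) 1 (w ⟨u ^ q ^ k, F₂.pow_mem k u⟩) u (by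
      rw [← hw, Subgroup.coe_one, map_one, one_mul])
    exact h1.trans (by rw [map_one, one_mul])
  · rw [pow_one, pow_one]
    have h1 := huniq (g ⟨σ • (f : U₂), F₂.smul_mem k σ f f.2⟩)
      ⟨σ • (g f : U), F.smul_mem k σ _ (g f).2⟩
      (w ⟨σ • (f : U₂), F₂.smul_mem k σ f f.2⟩) (σ • w f) (by
      rw [← hw]
      change σ • (f : U₂) = j (σ • (g f : U)) * (σ • w f) ^ q ^ k
      rw [← smul_pow', hjσ, ← smul_mul', ← hw f])
    refine h1.trans ?_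
    have h2 := hteq σ hσ (g f)
    rw [pow_one, pow_one] at h2
    rw [h2, hz, ← map_mul]
    rfl

end Fermat.Agent.Mzr
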