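import Fermat.Agent.Mzr.EisS
import Fermat.Agent.KL.Final
import Fermat.Agent.FrobDensity.Density

/-!
Frobenius and inertia on the Eisenstein part.
-/

set_option autoImplicit false

noncomputable section

namespace Fermat.Agent.Mzr

open CongruenceSubgroup Polynomial
open Fermat.Agent.ESCore Fermat.Agent.ESCore.ModP Fermat.Agent.ESCore.Univ
open Fermat.Agent.Flat (galF0 selHom Sel)
open scoped MatrixGroups

/-- The field of algebraic numbers. -/
local notation "Qb" => AlgebraicClosure ℚ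
/-- The absolute Galois group. -/
local notation "GQ" => (AlgebraicClosure ℚ ≃ₐ[ℚ] AlgebraicClosure ℚ)

/-- an abstract form of the nilpotency of `(σ - 1) (σ - c)` -/
theorem nilpotent_aux {E : Type*} [Ring E] {F t : E} {l q : ℕ} (hq : IsNilpotent (q : E))
    (ht : IsNilpotent t) (htF : Commute t F) (hF : (F - 1) * (F - (l : E)) = t * F) {i c : ℕ}
    {d : ℤ} (hd : (l : ℤ) ^ i - c = q * d) : IsNilpotent ((F ^ i - 1) * (F ^ i - (c : E))) := by
  obtain ⟨G1, hG1⟩ : (X - 1 : ℤ[X]) ∣ X ^ i - 1 := by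
    simpa using sub_dvd_pow_sub_pow (X : ℤ[X]) 1 i
  obtain ⟨G2, hG2⟩ : (X - C (l : ℤ)) ∣ X ^ i - C (l : ℤ) ^ i := sub_dvd_pow_sub_pow _ _ i
  have h6 : (F ^ i - 1) * (F ^ i - (c : E)) = aeval F ((X ^ i - 1) * (X ^ i - C (c : ℤ))) := by
    simp
  have h7 : (X ^ i - 1 : ℤ[X]) * (X ^ i - C (c : ℤ)) =
      ((X - 1) * (X - C (l : ℤ))) * (G1 * G2) + C (q : ℤ) * (C d * (X ^ i - 1)) := by
    have h8 : C (l : ℤ) ^ i - C (c : ℤ) = C (q : ℤ) * C d := by
      rw [← C_pow, ← C_sub, ← C_mul, hd]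
    linear_combination (X ^ i - C (c : ℤ)) * hG1 + (X - 1) * G1 * hG2 + (X - 1) * G1 * h8 -
      C (q : ℤ) * C d * hG1
  rw [h6, h7, map_add]
  have hcomm : ∀ P Q : ℤ[X], Commute (aeval F P) (aeval F Q) := fun P Q => by
    rw [Commute, SemiconjBy, ← map_mul, mul_comm, map_mul]
  refine (hcomm _ _).isNilpotent_add ?_ ?_
  · rw [map_mul]
    refine (hcomm _ _).isNilpotent_mul_right ?_
    have h8 : aeval F ((X - 1) * (X - C (l : ℤ))) = t * F := by
      rw [← hF]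
      simp
    rw [h8]
    exact htF.isNilpotent_mul_right ht
  · rw [map_mul]
    refine (hcomm _ _).isNilpotent_mul_right ?_
    have h8 : aeval F (C (q : ℤ)) = (q : E) := by
      simp
    rw [h8]
    exact hq

variable {N : ℕ} [NeZero N] {q : ℕ} [NeZero q]

variable (N q) in
/-- the Eisenstein part as a type -/
def EX (k : ℕ) : Type := eisX N q k

instance (k : ℕ) : AddCommGroup (EX N q k) := inferInstanceAs (AddCommGroup (eisX N q k))

/-- the underlying character -/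
def EX.ch {k : ℕ} (x : EX N q k) : XG N (q ^ k) := Additive.toMul x.1

theorem EX.ext {k : ℕ} {x y : EX N q k} (h : x.ch = y.ch) : x = y :=
  Subtype.ext (Additive.toMul.injective h)

theorem EX.ch_add {k : ℕ} (x y : EX N q k) : (x + y).ch = x.ch * y.ch := rfl

theorem EX.ch_sub {k : ℕ} (x y : EX N q k) : (x - y).ch = x.ch / y.ch := rfl

theorem EX.ch_nsmul {k : ℕ} (n : ℕ) (x : EX N q k) : (n • x).ch = x.ch ^ n := rfl

theorem EX.ch_zero {k : ℕ} : (0 : EX N q k).ch = 1 := rfl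

variable [hq : Fact q.Prime]

/-- the Galois action on the Eisenstein part -/
def gE (k : ℕ) (σ : GQ) : AddMonoid.End (EX N q k) where
  toFun x := ⟨gX (pos_pow q k) σ x.1, gX_mem_eisX _ σ x.2⟩
  map_zero' := Subtype.ext (map_zero (gX (pos_pow q k) σ))
  map_add' x y := Subtype.ext (map_add (gX (pos_pow q k) σ) x.1 y.1)

theorem gE_ch (k : ℕ) (σ : GQ) (x : EX N q k) :
    (gE k σ x).ch = galX N (pos_pow q k) σ x.ch := rfl

theorem gE_mul (k : ℕ) (σ τ : GQ) : gE (N := N) (q := q) k (σ * τ) = gE k σ * gE k τ :=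
  DFunLike.ext _ _ fun x => EX.ext (by
    change (gE k (σ * τ) x).ch = (gE k σ (gE k τ x)).ch
    rw [gE_ch, gE_ch, gE_ch, map_mul]
    rfl)

theorem gE_eq_one {k : ℕ} {σ : GQ} (h : galX N (pos_pow q k) σ = 1) :
    gE (N := N) (q := q) k σ = 1 :=
  DFunLike.ext _ _ fun x => EX.ext (by
    rw [gE_ch, h]
    rfl)

theorem gE_one (k : ℕ) : gE (N := N) (q := q) k 1 = 1 := gE_eq_one (map_one _)

theorem gE_pow (k : ℕ) (σ : GQ) (i : ℕ) :
    gE (N := N) (q := q) k (σ ^ i) = gE k σ ^ i := by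
  induction i with
  | zero => rw [pow_zero, pow_zero, gE_one]
  | succ i ih => rw [pow_succ, pow_succ, gE_mul, ih]

omit hq in
theorem heckeXL_mem_eisX {k : ℕ} (i : Idx N {q}) {x : Additive (XG N (q ^ k))}
    (hx : x ∈ eisX N q k) : heckeXL i.2.1 i.2.2.1 (q ^ k) x ∈ eisX N q k :=
  hkC_mem_eisD i hx

omit hq in
/-- the Hecke operators on the Eisenstein part -/
def hE (k : ℕ) (i : Idx N {q}) : AddMonoid.End (EX N q k) where
  toFun x := ⟨heckeXL i.2.1 i.2.2.1 (q ^ k) x.1, heckeXL_mem_eisX i x.2⟩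
  map_zero' := Subtype.ext (map_zero (heckeXL i.2.1 i.2.2.1 (q ^ k)))
  map_add' x y := Subtype.ext (map_add (heckeXL i.2.1 i.2.2.1 (q ^ k)) x.1 y.1)

omit hq in
theorem hE_ch (k : ℕ) (i : Idx N {q}) (x : EX N q k) :
    (hE k i x).ch = heckeX i.2.1 i.2.2.1 (q ^ k) x.ch := rfl

omit hq in
/-- the operators `T_l - 1 - l` on the Eisenstein part -/
def tE (k : ℕ) (i : Idx N {q}) : AddMonoid.End (EX N q k) :=
  hE k i - ((1 + i.1 : ℕ) : AddMonoid.End (EX N q k))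

theorem natEnd_apply {M : Type*} [AddCommGroup M] (n : ℕ) (x : M) :
    ((n : ℕ) : AddMonoid.End M) x = n • x := AddMonoid.End.natCast_apply n x

theorem subEnd_apply {M : Type*} [AddCommGroup M] (f g : AddMonoid.End M) (x : M) :
    (f - g) x = f x - g x := rfl

omit hq in
theorem tE_apply (k : ℕ) (i : Idx N {q}) (x : EX N q k) :
    tE k i x = hE k i x - (1 + i.1) • x := by
  rw [tE, subEnd_apply, natEnd_apply]

omit hq in
/-- the inclusion in the group of characters -/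
def inE (k : ℕ) : EX N q k →+ XC N where
  toFun x := inclX N (q ^ k) x.1
  map_zero' := map_zero (inclX N (q ^ k))
  map_add' x y := map_add (inclX N (q ^ k)) x.1 y.1

omit hq in
theorem inE_injective (k : ℕ) : Function.Injective (inE (N := N) (q := q) k) := fun _ _ h =>
  Subtype.ext (inclX_injective N (q ^ k) h)

omit hq in
theorem inE_mem (k : ℕ) (x : EX N q k) : inE k x ∈ eisD N q := x.2

omit hq in
theorem inE_tors (k : ℕ) (x : EX N q k) : q ^ k • inE k x = 0 := by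
  change q ^ k • inclX N (q ^ k) x.1 = 0
  rw [← map_nsmul, XG_nsmul, map_zero]

omit hq in
theorem exists_inE {k : ℕ} {x : XC N} (hx : x ∈ eisD N q) (hk : q ^ k • x = 0) :
    ∃ y : EX N q k, inE k y = x := by
  obtain ⟨y, hy, h⟩ := exists_eisX hx hk
  exact ⟨⟨y, hy⟩, h⟩

omit hq in
theorem inE_hE (k : ℕ) (i : Idx N {q}) (x : EX N q k) : inE k (hE k i x) = hkC i (inE k x) := rfl

omit hq in
theorem inE_tE (k : ℕ) (i : Idx N {q}) (x : EX N q k) : inE k (tE k i x) = tC i (inE k x) := by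
  rw [tE_apply, tC_apply, map_sub, map_nsmul, inE_hE]

omit hq in
theorem inE_tE_pow (k : ℕ) (i : Idx N {q}) (n : ℕ) (x : EX N q k) :
    inE k ((tE k i ^ n) x) = (tC i ^ n) (inE k x) := by
  induction n generalizing x with
  | zero => rfl
  | succ n ih =>
    rw [pow_succ, pow_succ, Module.End.mul_apply, ← inE_tE, ← ih]
    rfl

omit hq in
theorem tE_nilpotent (k : ℕ) (i : Idx N {q}) : IsNilpotent (tE (N := N) (q := q) k i) := by
  refine ⟨thM N q * k, DFunLike.ext _ _ fun x => ?_⟩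
  apply inE_injective
  rw [inE_tE_pow]
  exact (thE_spec i k (inE_mem k x) (inE_tors k x)).trans (map_zero (inE k)).symm

theorem hE_comm_gE (k : ℕ) (i : Idx N {q}) (σ : GQ) :
    Commute (hE (N := N) (q := q) k i) (gE k σ) :=
  DFunLike.ext _ _ fun x => EX.ext (by
    change (hE k i (gE k σ x)).ch = (gE k σ (hE k i x)).ch
    rw [hE_ch, gE_ch, gE_ch, hE_ch]
    exact gal_hecke_comm (pos_pow q k) i.2.1 i.2.2.1 σ x.ch)

theorem tE_comm_gE (k : ℕ) (i : Idx N {q}) (σ : GQ) :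
    Commute (tE (N := N) (q := q) k i) (gE k σ) :=
  (hE_comm_gE k i σ).sub_left (Nat.cast_commute _ _)

omit [NeZero q] in
theorem not_dvd_pow {l : ℕ} (hl : l.Prime) (hlq : l ≠ q) (k : ℕ) : ¬ l ∣ q ^ k := fun h =>
  hlq ((Nat.prime_dvd_prime_iff_eq hl hq.out).mp (hl.dvd_of_dvd_pow h))

omit [NeZero q] hq in
theorem galData_pow (k : ℕ) (hm : 0 < q ^ k) : GalData N (q ^ k) (galX N hm) :=
  galData_galX hm fun _ hl hlN hlm _ hB => Fermat.Agent.KL.klProp hm hl hlN hlm hB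

/-- **The Eichler–Shimura relation.** -/
theorem es_rel (k : ℕ) (i : Idx N {q}) {A : ValuationSubring Qb} (hA : A.LiesOverPrime i.1)
    {φ : GQ} (hφ : A.IsFrobeniusAt φ i.1) (x : EX N q k) :
    hE k i (gE k φ x) = gE k φ (gE k φ x) + i.1 • x := by
  have hlq : i.1 ≠ q := fun h => i.2.2.2 (Finset.mem_singleton.mpr h)
  refine EX.ext ?_
  have h1 := (galData_pow (N := N) k (pos_pow q k)).es i.1 i.2.1 i.2.2.1
    (not_dvd_pow i.2.1 hlq k) A hA φ hφ x.ch
  rw [hE_ch, EX.ch_add, EX.ch_nsmul, gE_ch, gE_ch, gE_ch, h1, map_mul]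
  rfl

/-- `(φ - 1) (φ - l) = (T_l - 1 - l) φ` -/
theorem es_rel' (k : ℕ) (i : Idx N {q}) {A : ValuationSubring Qb} (hA : A.LiesOverPrime i.1)
    {φ : GQ} (hφ : A.IsFrobeniusAt φ i.1) :
    (gE (N := N) (q := q) k φ - 1) * (gE k φ - ((i.1 : ℕ) : AddMonoid.End (EX N q k))) =
      tE k i * gE k φ := by
  refine DFunLike.ext _ _ fun x => ?_
  change gE k φ (gE k φ x - ((i.1 : ℕ) : AddMonoid.End (EX N q k)) x) -
    (gE k φ x - ((i.1 : ℕ) : AddMonoid.End (EX N q k)) x) = tE k i (gE k φ x)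
  rw [tE_apply, es_rel k i hA hφ, natEnd_apply, map_sub, map_nsmul, add_smul, one_smul]
  abel

omit hq in
theorem natCast_q_nilpotent (k : ℕ) : IsNilpotent ((q : ℕ) : AddMonoid.End (EX N q k)) := by
  refine ⟨k, DFunLike.ext _ _ fun x => ?_⟩
  rw [← Nat.cast_pow, natEnd_apply]
  exact Subtype.ext (XG_nsmul x.1)

/-- **(P5)** -/
theorem nilpotent_gE (k : ℕ) (σ : GQ) (c : ℕ) (hc : ((cyc q σ : (ZMod q)ˣ) : ZMod q) = c) :
    IsNilpotent ((gE (N := N) (q := q) k σ - 1) *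
      (gE k σ - ((c : ℕ) : AddMonoid.End (EX N q k)))) := by
  obtain ⟨L₁, hL₁, h₁⟩ := galX_continuous (N := N) (pos_pow q k)
  obtain ⟨L₂, hL₂, h₂⟩ := cyc_finite q
  obtain ⟨l, hl, hlbad, A, hA, φ, hφ, i, -, hi, -⟩ :=
    FrobDensity.exists_frobenius_pow (L₁ ⊔ L₂) σ (N.primeFactors ∪ {q})
  rw [Finset.mem_union, not_or, Finset.mem_singleton] at hlbad
  have hlN : ¬ l ∣ N := fun h => hlbad.1 (Nat.mem_primeFactors.mpr ⟨hl, h, NeZero.ne N⟩)
  have hlq := hlbad.2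
  let ix : Idx N {q} := ⟨l, hl, hlN, fun h => hlq (Finset.mem_singleton.mp h)⟩
  have hδ : ∀ x ∈ L₁ ⊔ L₂, (σ⁻¹ * φ ^ i : GQ) x = x := by
    intro x hx
    rw [AlgEquiv.mul_apply, hi x hx, ← AlgEquiv.mul_apply, inv_mul_cancel, AlgEquiv.one_apply]
  have e1 : galX N (pos_pow q k) (σ⁻¹ * φ ^ i) = 1 :=
    h₁ _ fun x hx => hδ x ((le_sup_left : L₁ ≤ L₁ ⊔ L₂) hx)
  have e2 : cyc q (σ⁻¹ * φ ^ i) = 1 :=
    h₂ _ fun x hx => hδ x ((le_sup_right : L₂ ≤ L₁ ⊔ L₂) hx)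
  have e0 : φ ^ i = σ * (σ⁻¹ * φ ^ i) := by rw [mul_inv_cancel_left]
  have e3 : gE (N := N) (q := q) k σ = gE k φ ^ i := by
    rw [← gE_pow, e0, gE_mul, gE_eq_one e1, mul_one]
  have e4 : ((cyc q σ : (ZMod q)ˣ) : ZMod q) = (l : ZMod q) ^ i := by
    have h3 : cyc q σ = cyc q φ ^ i := by
      rw [← map_pow, e0, map_mul, e2, mul_one]
    have h4 : ¬ l ∣ q := fun h => hlq ((Nat.prime_dvd_prime_iff_eq hl hq.out).mp h)
    rw [h3, Units.val_pow_eq_pow_val, cyc_frob hA hl hφ h4]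
  have e5 : ∃ d : ℤ, (l : ℤ) ^ i - c = q * d := by
    rw [e4] at hc
    have h5 : (((l : ℤ) ^ i - c : ℤ) : ZMod q) = 0 := by
      push_cast
      rw [hc, sub_self]
    exact (ZMod.intCast_zmod_eq_zero_iff_dvd _ _).mp h5
  obtain ⟨d, hd⟩ := e5
  rw [e3]
  exact nilpotent_aux (natCast_q_nilpotent k) (tE_nilpotent k ix) (tE_comm_gE k ix φ)
    (es_rel' k ix hA hφ) hd

/-- **(P8)** inertia at the primes not dividing `N q` -/
theorem gE_inertia (k : ℕ) {l : ℕ} (hl : l.Prime) (hlN : ¬ l ∣ N) (hlq : l ≠ q)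
    {A : ValuationSubring Qb} (hA : A.LiesOverPrime l) {σ : GQ}
    (hσ : σ ∈ A.inertiaSubgroupIn ℚ) : gE (N := N) (q := q) k σ = 1 :=
  gE_eq_one ((galData_pow k (pos_pow q k)).inertia l hl hlN (not_dvd_pow hl hlq k) A hA σ hσ)

end Fermat.Agent.Mzr
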