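import Mathlib
import Fermat.Agent.Mzr.PairX
import Fermat.Agent.Mzr.Nil
import Fermat.Agent.Mzr.Fin
import Fermat.Agent.MZ.OrdNorm

/-!
# The families of Eisenstein functions
-/

set_option autoImplicit false
set_option linter.unusedSectionVars false

noncomputable section

namespace Fermat.Agent.Mzr

open AlgebraicCurve Fermat.Agent.FunField Fermat.Agent.Flat Fermat.Agent.LG Fermat.Agent.ModFun
open Fermat.Agent.Geo
open Fermat.Agent.ESCore (ιC)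

/-- The field of algebraic numbers. -/
local notation "Qb" => AlgebraicClosure ℚ
/-- The absolute Galois group. -/
local notation "GQ" => (AlgebraicClosure ℚ ≃ₐ[ℚ] AlgebraicClosure ℚ)

variable {N : ℕ} [NeZero N]

/-- prescribed orders -/
theorem exists_ord_on {T : Set (FixPl N)} (hT : T.Finite) (n : Place Qb (F0 Qb N) → ℤ) :
    ∃ w : (F0 Qb N)ˣ, ∀ a ∈ T, a.pl.ord (w : F0 Qb N) = n a.pl := by
  obtain ⟨ζ, hζ⟩ := exists_zeta_Qb N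
  obtain ⟨g, C, hC⟩ := (WP.sep_jF hζ).exists_crv
  obtain ⟨y, hy0, hy⟩ := MZ.exists_ord_eq_on hC (hT.image FixPl.pl).toFinset n
  exact ⟨Units.mk0 y hy0, fun a ha => hy _ ((hT.image FixPl.pl).mem_toFinset.mpr ⟨a, ha, rfl⟩)⟩

theorem ord_upow (v : Place Qb (F0 Qb N)) (u : (F0 Qb N)ˣ) (m : ℕ) :
    v.ord ((u ^ m : (F0 Qb N)ˣ) : F0 Qb N) = m * v.ord (u : F0 Qb N) := by
  rw [Units.val_pow_eq_pow_val, Flat.ord_pow]

variable {q : ℕ} [NeZero q]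

variable (N q) in
/-- The Eisenstein functions. -/
def ZK (k : ℕ) : Subgroup (F0 Qb N)ˣ where
  carrier := {f | ∃ h : f ∈ SelZ Qb (F0 Qb N) (q ^ k), Sel.mk ⟨f, h⟩ ∈ eisS N q k}
  one_mem' := ⟨Subgroup.one_mem _, (eisS N q k).zero_mem⟩
  mul_mem' := by
    rintro f g ⟨hf, hf'⟩ ⟨hg, hg'⟩
    exact ⟨Subgroup.mul_mem _ hf hg, (eisS N q k).add_mem hf' hg'⟩
  inv_mem' := by
    rintro f ⟨hf, hf'⟩
    exact ⟨Subgroup.inv_mem _ hf, (eisS N q k).neg_mem hf'⟩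

theorem mem_ZK {k : ℕ} {f : (F0 Qb N)ˣ} : f ∈ ZK N q k ↔
    ∃ h : f ∈ SelZ Qb (F0 Qb N) (q ^ k), Sel.mk ⟨f, h⟩ ∈ eisS N q k := Iff.rfl

theorem ZK_le (k : ℕ) : ZK N q k ≤ SelZ Qb (F0 Qb N) (q ^ k) := fun _ h => h.1

theorem pow_mem_selZ (m : ℕ) (u : (F0 Qb N)ˣ) : u ^ m ∈ SelZ Qb (F0 Qb N) m := by
  intro v
  rw [ord_upow]
  exact dvd_mul_right _ _

theorem pow_mem_ZK (k : ℕ) (u : (F0 Qb N)ˣ) : u ^ q ^ k ∈ ZK N q k := by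
  refine ⟨pow_mem_selZ _ u, ?_⟩
  have h1 : Sel.mk ⟨u ^ q ^ k, pow_mem_selZ (q ^ k) u⟩ = 0 :=
    Sel.mk_eq_zero.mpr ⟨u, u.ne_zero, Units.val_pow_eq_pow_val _ _⟩
  rw [h1]
  exact (eisS N q k).zero_mem

theorem galU_mem_selZ {m : ℕ} (σ : GQ) {f : (F0 Qb N)ˣ} (hf : f ∈ SelZ Qb (F0 Qb N) m) :
    galU N σ f ∈ SelZ Qb (F0 Qb N) m := by
  intro v
  rw [coe_galU]
  have h1 := SemilinearAut.ord_smul (galF0 N σ) ((galF0 N σ)⁻¹ • v) (f : F0 Qb N)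
  rw [smul_inv_smul] at h1
  rw [h1]
  exact hf _

theorem selHom_mk' {m : ℕ} (σ : GQ) (f : (F0 Qb N)ˣ) (hf : f ∈ SelZ Qb (F0 Qb N) m) :
    selHom m (galF0 N) σ (Sel.mk ⟨f, hf⟩) = Sel.mk ⟨galU N σ f, galU_mem_selZ σ hf⟩ := rfl

theorem gal_mem_ZK [Fact q.Prime] {k : ℕ} (σ : GQ) {f : (F0 Qb N)ˣ} (hf : f ∈ ZK N q k) :
    galU N σ f ∈ ZK N q k := by
  obtain ⟨h, h'⟩ := hf
  exact ⟨galU_mem_selZ σ h, eisS_gal σ h'⟩

theorem pow_mem_selZ_iff {k r : ℕ} (f : (F0 Qb N)ˣ) :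
    f ^ q ^ r ∈ SelZ Qb (F0 Qb N) (q ^ (k + r)) ↔ f ∈ SelZ Qb (F0 Qb N) (q ^ k) := by
  have hq0 : ((q ^ r : ℕ) : ℤ) ≠ 0 := by
    exact_mod_cast (pos_pow q r).ne'
  have key : ∀ v : Place Qb (F0 Qb N), ((q ^ (k + r) : ℕ) : ℤ) ∣
      v.ord ((f ^ q ^ r : (F0 Qb N)ˣ) : F0 Qb N) ↔ ((q ^ k : ℕ) : ℤ) ∣ v.ord (f : F0 Qb N) := by
    intro v
    rw [ord_upow, pow_add, mul_comm (q ^ k), Nat.cast_mul]
    exact mul_dvd_mul_iff_left hq0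
  exact ⟨fun h v => (key v).mp (h v), fun h v => (key v).mpr (h v)⟩

theorem pow_mem_ZK_iff {k r : ℕ} (f : (F0 Qb N)ˣ) : f ^ q ^ r ∈ ZK N q (k + r) ↔ f ∈ ZK N q k := by
  constructor
  · rintro ⟨h, h'⟩
    have h1 := (pow_mem_selZ_iff f).mp h
    exact ⟨h1, (eisS_pow_iff f h1 h).mpr h'⟩
  · rintro ⟨h, h'⟩
    have h1 : f ^ q ^ r ∈ SelZ Qb (F0 Qb N) (q ^ (k + r)) := (pow_mem_selZ_iff f).mpr h
    exact ⟨h1, (eisS_pow_iff f h h1).mp h'⟩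

/-- Moving lemma -/
theorem exists_move {T : Set (FixPl N)} (hT : T.Finite) {k : ℕ} {f : (F0 Qb N)ˣ}
    (hf : f ∈ SelZ Qb (F0 Qb N) (q ^ k)) : ∃ w : (F0 Qb N)ˣ, f * w ^ q ^ k ∈ UG T := by
  obtain ⟨w, hw⟩ := exists_ord_on hT fun v => - (v.ord (f : F0 Qb N) / (q ^ k : ℕ))
  refine ⟨w, fun a ha => ?_⟩
  rw [Units.val_mul, a.pl.ord_mul f.ne_zero (Units.ne_zero _), ord_upow, hw a ha, mul_neg,
    Int.mul_ediv_cancel' (hf a.pl), add_neg_cancel]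

theorem exists_move_ZK {T : Set (FixPl N)} (hT : T.Finite) {k : ℕ} {f : (F0 Qb N)ˣ}
    (hf : f ∈ ZK N q k) : ∃ w : (F0 Qb N)ˣ, f * w ^ q ^ k ∈ UG T ∧ f * w ^ q ^ k ∈ ZK N q k := by
  obtain ⟨w, hw⟩ := exists_move hT hf.1
  exact ⟨w, hw, (ZK N q k).mul_mem hf (pow_mem_ZK k w)⟩

/-- functions whose power has order zero at `T` -/
theorem mem_UG_of_pow {T : Set (FixPl N)} {m : ℕ} (hm : m ≠ 0) {u : (F0 Qb N)ˣ}
    (hu : u ^ m ∈ UG T) : u ∈ UG T := by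
  intro a ha
  have h1 := hu a ha
  rw [ord_upow] at h1
  rcases mul_eq_zero.mp h1 with h2 | h2
  · exact absurd (Nat.cast_eq_zero.mp h2) hm
  · exact h2

variable (q) in
/-- The family of Eisenstein functions on the complement of `T`. -/
def eisFam [Fact q.Prime] (T : Set (FixPl N)) (hT : T.Finite) : ZFam (UG T) q where
  Z k := (ZK N q k).subgroupOf (UG T)
  pow_mem k u := by
    rw [Subgroup.mem_subgroupOf]
    exact pow_mem_ZK k (u : (F0 Qb N)ˣ)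
  smul_mem k σ f hf := by
    rw [Subgroup.mem_subgroupOf] at hf ⊢
    exact gal_mem_ZK σ hf
  of_pow k r f hf := by
    rw [Subgroup.mem_subgroupOf] at hf ⊢
    exact (pow_mem_ZK_iff _).mp hf
  to_pow k r f hf := by
    rw [Subgroup.mem_subgroupOf] at hf ⊢
    exact (pow_mem_ZK_iff _).mpr hf
  div k r f hf := by
    rw [Subgroup.mem_subgroupOf] at hf
    obtain ⟨h, h'⟩ := hf
    obtain ⟨g, h1, h2, h3, h4⟩ := eisS_surj r h'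
    obtain ⟨w, hw, hw'⟩ := exists_move_ZK hT (⟨h1, h3⟩ : g ∈ ZK N q (k + r))
    have h5 : Sel.mk (⟨(f : (F0 Qb N)ˣ), h⟩ * ⟨g, h2⟩⁻¹ : SelZ Qb (F0 Qb N) (q ^ k)) = 0 := by
      have h6 : Sel.mk (⟨(f : (F0 Qb N)ˣ), h⟩ * ⟨g, h2⟩⁻¹ : SelZ Qb (F0 Qb N) (q ^ k)) =
        Sel.mk ⟨(f : (F0 Qb N)ˣ), h⟩ - Sel.mk ⟨g, h2⟩ := rfl
      rw [h6]
      exact sub_eq_zero.mpr h4.symm
    obtain ⟨u, hu0, hu⟩ := Sel.mk_eq_zero.mp h5
    have h7 : (f : (F0 Qb N)ˣ) * g⁻¹ = (Units.mk0 u hu0) ^ q ^ k := Units.ext (by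
      rw [Units.val_pow_eq_pow_val]; exact hu)
    have h8 : (f : (F0 Qb N)ˣ) = (g * w ^ q ^ (k + r)) *
        ((Units.mk0 u hu0) * (w ^ q ^ r)⁻¹) ^ q ^ k := by
      rw [mul_pow, ← h7, inv_pow, ← pow_mul, ← pow_add, add_comm r k]
      have h9 : g * w ^ q ^ (k + r) * (((f : (F0 Qb N)ˣ) * g⁻¹) * (w ^ q ^ (k + r))⁻¹) =
        (f : (F0 Qb N)ˣ) * (g * g⁻¹) * (w ^ q ^ (k + r) * (w ^ q ^ (k + r))⁻¹) := by
        ac_rfl
      rw [h9, mul_inv_cancel, mul_inv_cancel, mul_one, mul_one]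
    have h10 : ((Units.mk0 u hu0) * (w ^ q ^ r)⁻¹) ^ q ^ k ∈ UG T := by
      have h11 : ((Units.mk0 u hu0) * (w ^ q ^ r)⁻¹) ^ q ^ k =
          (g * w ^ q ^ (k + r))⁻¹ * (f : (F0 Qb N)ˣ) := by
        rw [h8, inv_mul_cancel_left]
      rw [h11]
      exact (UG T).mul_mem ((UG T).inv_mem hw) f.2
    refine ⟨⟨g * w ^ q ^ (k + r), hw⟩, ?_, ⟨_, mem_UG_of_pow (pos_pow q k).ne' h10⟩,
      Subtype.ext h8⟩
    rw [Subgroup.mem_subgroupOf]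
    exact hw'

/-- The data attached to `a - b` and the Eisenstein functions. -/
def eisPD [Fact q.Prime] (T : Set (FixPl N)) (k : ℕ) (a b : FixPl N) (ha : a ∈ T) (hb : b ∈ T) :
    PD (UG T) (q ^ k) where
  Z := (ZK N q k).subgroupOf (UG T)
  pow_mem u := by
    rw [Subgroup.mem_subgroupOf]
    exact pow_mem_ZK k (u : (F0 Qb N)ˣ)
  smul_mem σ f hf := by
    rw [Subgroup.mem_subgroupOf] at hf ⊢
    exact gal_mem_ZK σ hf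
  y := evU a ha * (evU b hb)⁻¹
  y_smul σ u := by
    change (((evU a ha (σ • u)) * (evU b hb (σ • u))⁻¹ : Qbˣ) : Qb) = _
    rw [evU_smul, evU_smul, ← map_inv, ← map_mul]
    rfl
  y_tors u hu := by
    change evU a ha u * (evU b hb u)⁻¹ = 1
    rw [evU_tors a b ha hb (pos_pow q k).ne' hu, mul_inv_cancel]

end Fermat.Agent.Mzr
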