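import Mathlib
import Fermat.Agent.Mzr.EisFam

/-!
# Assembly of Mazur's argument
-/

set_option autoImplicit false
set_option linter.unusedSectionVars false

noncomputable section

namespace Fermat.Agent.Mzr

open AlgebraicCurve Fermat.Agent.FunField Fermat.Agent.Flat Fermat.Agent.LG Fermat.Agent.ModFun
open Fermat.Agent.Geo

/-- The field of algebraic numbers. -/
local notation "Qb" => AlgebraicClosure ℚ
/-- The absolute Galois group. -/
local notation "GQ" => (AlgebraicClosure ℚ ≃ₐ[ℚ] AlgebraicClosure ℚ)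

variable {N : ℕ} [NeZero N] {q : ℕ} [NeZero q] [Fact q.Prime]

theorem fin_pair (a b : FixPl N) : ({a, b} : Set (FixPl N)).Finite := Set.toFinite _

variable (q) in
/-- the family for a pair of points -/
abbrev famP (a b : FixPl N) : ZFam (UG ({a, b} : Set (FixPl N))) q :=
  eisFam q {a, b} (fin_pair a b)

theorem memL (a b : FixPl N) : a ∈ ({a, b} : Set (FixPl N)) := Set.mem_insert _ _

theorem memR (a b : FixPl N) : b ∈ ({a, b} : Set (FixPl N)) :=
  Set.mem_insert_of_mem _ (Set.mem_singleton b)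

/-- the character for a pair of points -/
abbrev chP (a b : FixPl N) : UG ({a, b} : Set (FixPl N)) →* Qbˣ :=
  evU a (memL a b) * (evU b (memR a b))⁻¹

theorem chP_smul (a b : FixPl N) (σ : GQ) (u : UG ({a, b} : Set (FixPl N))) :
    chP a b (σ • u) = uact σ (chP a b u) := by
  change evU a (memL a b) (σ • u) * (evU b (memR a b) (σ • u))⁻¹ =
    uact σ (evU a (memL a b) u * (evU b (memR a b) u)⁻¹)
  rw [evU_smul, evU_smul, map_mul, map_inv]

variable (q) in
/-- exact splittings, equivariant for `H` -/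
def HasSpl (a b : FixPl N) (H : Subgroup GQ) (n : ℕ) : Prop :=
  ∀ k, ∃ t : (famP q a b).Z k →* Qbˣ, ESpl (famP q a b) (chP a b) k t ∧ AEq (famP q a b) k H n t

/-- Equivariant splittings. -/
theorem hasSpl_top (x c : FixPl N) {H : Subgroup GQ} {n₀ c₀ : ℕ} (hn : 0 < n₀) (hc : 0 < c₀)
    (hspl : ∀ k, (eisPD (q := q) {x, c} k x c (memL x c) (memR x c)).Spl n₀ ⊤)
    (hcan : HasSpl q x c H 1) (hkill : ∀ k, HomKill (famP q x c) k H c₀) :
    HasSpl q x c ⊤ 1 := by
  have hq : q.Prime := Fact.out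
  have h1 : ∀ k, ∃ t : (famP q x c).Z k →* Qbˣ, ESpl (famP q x c) (chP x c) k t ∧
      AEq (famP q x c) k ⊤ (n₀ * c₀) t := by
    intro k
    obtain ⟨s, hs1, hs2, hs3⟩ := hspl k
    obtain ⟨t, ht, hteq⟩ := hcan k
    refine ⟨t, ht, ?_⟩
    exact aeq_of_spl (famP q x c) (chP_smul x c) (s := s) hs1 hs2
      (fun σ f => hs3 σ (Subgroup.mem_top σ) f) ht hteq (hkill k)
  exact fun k => exists_exact hq (famP q x c) (chP_smul x c) (Nat.mul_pos hn hc) h1 k

/-- The Hecke argument at the end. -/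
theorem hasSpl_end (a b : FixPl N) {H : Subgroup GQ} {c c' : ℕ} (hc : 0 < c) (hc' : 0 < c')
    (h : HasSpl q a b H 1) (hkill : ∀ k, HomKill (famP q a b) k H c)
    (η : UG ({a, b} : Set (FixPl N)) →* UG ({a, b} : Set (FixPl N)))
    (hη : ∀ (σ : GQ) (u : UG ({a, b} : Set (FixPl N))), η (σ • u) = σ • η u)
    (hηZ : ∀ k, ∀ f ∈ (famP q a b).Z k, η f ∈ (famP q a b).Z k)
    (hzη : ∀ u, chP a b (η u) = 1)
    (hdiv : ∀ k, ∀ f ∈ (famP q a b).Z k, ∃ g ∈ (famP q a b).Z k,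
      ∃ u : UG ({a, b} : Set (FixPl N)), f ^ c' = η g * u ^ q ^ k) :
    HasSpl q a b ⊤ 1 := by
  have hq : q.Prime := Fact.out
  have h1 : ∀ k, ∃ t : (famP q a b).Z k →* Qbˣ, ESpl (famP q a b) (chP a b) k t ∧
      AEq (famP q a b) k ⊤ (c' * c) t := by
    intro k
    obtain ⟨t, ht, hteq⟩ := h k
    exact ⟨t, ht, aeq_of_hecke (famP q a b) (chP_smul a b) ht hteq (hkill k) η hη (hηZ k) hzη
      (hdiv k)⟩
  exact fun k => exists_exact hq (famP q a b) (chP_smul a b) (Nat.mul_pos hc' hc) h1 k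

theorem espl_inv {U : Type} [CommGroup U] [MulDistribMulAction GQ U] (F : ZFam U q)
    {y : U →* Qbˣ} {k : ℕ} {t : F.Z k →* Qbˣ} (ht : ESpl F y k t) : ESpl F y⁻¹ k t⁻¹ where
  pow f := by rw [MonoidHom.inv_apply, MonoidHom.inv_apply, inv_pow, ht.pow f]
  pow' u := by rw [MonoidHom.inv_apply, MonoidHom.inv_apply, ht.pow' u]

theorem aeq_inv {U : Type} [CommGroup U] [MulDistribMulAction GQ U] (F : ZFam U q)
    {k n : ℕ} {H : Subgroup GQ} {t : F.Z k →* Qbˣ} (h : AEq F k H n t) : AEq F k H n t⁻¹ := by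
  intro σ hσ f
  have h1 := h σ hσ f
  have h2 : uact σ (t f)⁻¹ = (uact σ (t f))⁻¹ := map_inv (uact σ) (t f)
  rw [MonoidHom.inv_apply, MonoidHom.inv_apply, h2, inv_pow, inv_pow, h1]

theorem HasSpl.symm {a b : FixPl N} {H : Subgroup GQ} {n : ℕ} (h : HasSpl q a b H n) :
    HasSpl q b a H n := by
  have key : ∀ (T : Set (FixPl N)) (hT : T.Finite) (ha : a ∈ T) (hb : b ∈ T), T = {a, b} →
      ∀ k, ∃ t : (eisFam q T hT).Z k →* Qbˣ,
        ESpl (eisFam q T hT) (evU a ha * (evU b hb)⁻¹) k t ∧ AEq (eisFam q T hT) k H n t := by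
    rintro T hT ha hb rfl
    exact h
  intro k
  obtain ⟨t, ht, hteq⟩ := key {b, a} (fin_pair b a) (memR b a) (memL b a) (Set.pair_comm b a) k
  have h0 : (evU a (memR b a) * (evU b (memL b a))⁻¹)⁻¹ = chP b a := by
    refine MonoidHom.ext fun u => ?_
    change (evU a (memR b a) u * (evU b (memL b a) u)⁻¹)⁻¹ =
      evU b (memL b a) u * (evU a (memR b a) u)⁻¹
    rw [mul_inv, inv_inv, mul_comm]
  have h1 := espl_inv _ ht
  rw [h0] at h1
  exact ⟨t⁻¹, h1, aeq_inv _ hteq⟩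

theorem HasSpl.mono {a b : FixPl N} {H H' : Subgroup GQ} {n : ℕ} (h : HasSpl q a b H n)
    (hH : H' ≤ H) : HasSpl q a b H' n := by
  intro k
  obtain ⟨t, ht, hteq⟩ := h k
  exact ⟨t, ht, fun σ hσ f => hteq σ (hH hσ) f⟩

end Fermat.Agent.Mzr
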