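import Fermat.Agent.Mzr.PairX
import Fermat.Agent.WP.Cusp

/-!
The cusps of `X₀(N)` as rational points.
-/

set_option autoImplicit false

noncomputable section

namespace Fermat.Agent.Mzr

variable {N : ℕ} [NeZero N]

/-- The cusp `∞`. -/
def cI : FixPl N := ⟨WP.cInf N, fun σ => WP.galF0_cInf σ⟩

/-- The cusp `0`. -/
def cO [Fact N.Prime] : FixPl N := ⟨WP.cZero N, fun σ => WP.galF0_cZero σ⟩

theorem cI_pl : (cI : FixPl N).pl = WP.cInf N := rfl

theorem cO_pl [Fact N.Prime] : (cO : FixPl N).pl = WP.cZero N := rfl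

/-- the set of the cusps -/
theorem finite_cusps [Fact N.Prime] : ({cO, cI} : Set (FixPl N)).Finite :=
  (Set.finite_singleton _).insert _

theorem cO_mem [Fact N.Prime] : (cO : FixPl N) ∈ ({cO, cI} : Set (FixPl N)) :=
  Set.mem_insert _ _

theorem cI_mem [Fact N.Prime] : (cI : FixPl N) ∈ ({cO, cI} : Set (FixPl N)) :=
  Set.mem_insert_of_mem _ rfl

theorem cO_ne_cI [Fact N.Prime] : (cO : FixPl N) ≠ cI := fun h =>
  WP.cInf_ne_cZero (congrArg FixPl.pl h).symm

end Fermat.Agent.Mzr
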