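import Fermat.Agent.Mzr.DK

/-!
A character of `Γ₀(N)`, `N` prime, with torsion free values, which is trivial on `T` and `-1`,
is parabolic (transfer).
-/

set_option autoImplicit false

noncomputable section

namespace Fermat.Agent.Mzr

open CongruenceSubgroup
open Fermat.Agent.ESCore Fermat.Agent.ESCore.ModP Fermat.Agent.ESCore.Univ
open scoped MatrixGroups

variable {N : ℕ}

theorem mulZ_eq_one_of_pow {a : Multiplicative ℤ} {n : ℕ} (hn : n ≠ 0) (h : a ^ n = 1) : a = 1 := by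
  have h1 : Multiplicative.toAdd (a ^ n) = 0 := by rw [h]; rfl
  rw [toAdd_pow, nsmul_eq_mul] at h1
  rcases mul_eq_zero.mp h1 with h2 | h2
  · exact absurd (by exact_mod_cast h2) hn
  · exact Multiplicative.toAdd.injective h2

/-- a homomorphism from `SL(2, ℤ)` to a torsion free group is trivial on `T` -/
theorem hom_T_eq_one (t : SL(2, ℤ) →* Multiplicative ℤ) : t ModularGroup.T = 1 := by
  have hS : t ModularGroup.S = 1 := by
    refine mulZ_eq_one_of_pow (n := 4) (by norm_num) ?_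
    rw [← map_pow]
    have : ModularGroup.S ^ 4 = 1 := by
      ext i j
      fin_cases i <;> fin_cases j <;> decide
    rw [this, map_one]
  have hST : t (ModularGroup.S * ModularGroup.T) = 1 := by
    refine mulZ_eq_one_of_pow (n := 6) (by norm_num) ?_
    rw [← map_pow]
    have : (ModularGroup.S * ModularGroup.T) ^ 6 = 1 := by
      ext i j
      fin_cases i <;> fin_cases j <;> decide
    rw [this, map_one]
  rwa [map_mul, hS, one_mul] at hST

/-- the translation as an element of `Γ₀(N)` -/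
def TG (N : ℕ) : Gamma0 N := ⟨ModularGroup.T, by
  rw [Gamma0_mem, ModularGroup.T]
  simp⟩

theorem coe_STS (N : ℕ) :
    (((ModularGroup.S)⁻¹ * ModularGroup.T ^ N * ModularGroup.S : SL(2, ℤ)) :
      Matrix (Fin 2) (Fin 2) ℤ) = !![1, 0; -(N : ℤ), 1] := by
  rw [Matrix.SpecialLinearGroup.coe_mul, Matrix.SpecialLinearGroup.coe_mul,
    Matrix.SpecialLinearGroup.coe_inv, ModularGroup.coe_S,
    show ((ModularGroup.T ^ N : SL(2, ℤ)) : Matrix (Fin 2) (Fin 2) ℤ) = !![1, (N : ℤ); 0, 1] from by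
      have := ModularGroup.coe_T_zpow (N : ℤ)
      rwa [zpow_natCast] at this]
  ext i j
  fin_cases i <;> fin_cases j <;> simp [Matrix.adjugate_fin_two, Matrix.mul_apply, Fin.sum_univ_two]

/-- the lower unipotent generator -/
def UGam (N : ℕ) : Gamma0 N := ⟨(ModularGroup.S)⁻¹ * ModularGroup.T ^ N * ModularGroup.S, by
  rw [Gamma0_mem, coe_STS]
  simp⟩

/-- the coset decomposition for prime level -/
theorem exists_TS (hN : N.Prime) (g : SL(2, ℤ)) (hg : ¬ (N : ℤ) ∣ g 1 0) :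
    ∃ (j : ℤ) (h : Gamma0 N), g = ModularGroup.T ^ j * ModularGroup.S * (h : SL(2, ℤ)) := by
  obtain ⟨u, hu⟩ : ∃ u : ℤ, (N : ℤ) ∣ g 1 0 * u - 1 := by
    have hcop : IsCoprime (N : ℤ) (g 1 0) :=
      (Nat.prime_iff_prime_int.mp hN).coprime_iff_not_dvd.mpr hg
    obtain ⟨a, b, hab⟩ := hcop
    exact ⟨b, ⟨-a, by linear_combination hab⟩⟩
  refine ⟨g 0 0 * u, ⟨(ModularGroup.T ^ (g 0 0 * u) * ModularGroup.S)⁻¹ * g, ?_⟩, ?_⟩
  · rw [Gamma0_mem, ZMod.intCast_zmod_eq_zero_iff_dvd]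
    have e : (((ModularGroup.T ^ (g 0 0 * u) * ModularGroup.S)⁻¹ * g : SL(2, ℤ)) :
        Matrix (Fin 2) (Fin 2) ℤ) 1 0 = g 0 0 * (g 1 0 * u - 1) := by
      rw [mul_inv_rev, Matrix.SpecialLinearGroup.coe_mul, Matrix.SpecialLinearGroup.coe_mul,
        Matrix.SpecialLinearGroup.coe_inv, Matrix.SpecialLinearGroup.coe_inv, ModularGroup.coe_S,
        ModularGroup.coe_T_zpow]
      simp [Matrix.adjugate_fin_two, Matrix.mul_apply, Fin.sum_univ_two]
      ring
    rw [e]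
    exact hu.mul_left _
  · exact (mul_inv_cancel_left _ _).symm

theorem parB_aux (ψ : Gamma0 N →* Multiplicative ℤ) (j : ℤ) (h : Gamma0 N) (n : ℤ)
    (γ : Gamma0 N) (hγ : (γ : SL(2, ℤ)) = (ModularGroup.T ^ j * ModularGroup.S * (h : SL(2, ℤ)))⁻¹ *
      ModularGroup.T ^ (N * n : ℤ) * (ModularGroup.T ^ j * ModularGroup.S * (h : SL(2, ℤ)))) :
    ψ γ = ψ (UGam N) ^ n := by
  have e : γ = h⁻¹ * (UGam N) ^ n * h := by
    apply Subtype.ext
    rw [hγ, Subgroup.coe_mul, Subgroup.coe_mul, Subgroup.coe_inv, Subgroup.coe_zpow, UGam]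
    have e1 : ((ModularGroup.S)⁻¹ * ModularGroup.T ^ N * ModularGroup.S : SL(2, ℤ)) ^ n =
        (ModularGroup.S)⁻¹ * ModularGroup.T ^ (N * n : ℤ) * ModularGroup.S := by
      rw [show ((ModularGroup.S)⁻¹ * ModularGroup.T ^ N * ModularGroup.S : SL(2, ℤ)) =
        (ModularGroup.S)⁻¹ * ModularGroup.T ^ N * ((ModularGroup.S)⁻¹)⁻¹ from by rw [inv_inv],
        conj_zpow, inv_inv, zpow_mul, zpow_natCast]
    rw [e1]
    group
  rw [e, map_mul, map_mul, map_zpow, map_inv, mul_comm, mul_inv_cancel_left]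

theorem dvd_of_conj (hN : N.Prime) {g : SL(2, ℤ)} (hg : ¬ (N : ℤ) ∣ g 1 0) {n : ℤ}
    (h : g⁻¹ * ModularGroup.T ^ n * g ∈ Gamma0 N) : (N : ℤ) ∣ n := by
  rw [Gamma0_mem, ZMod.intCast_zmod_eq_zero_iff_dvd] at h
  have e : ((g⁻¹ * ModularGroup.T ^ n * g : SL(2, ℤ)) : Matrix (Fin 2) (Fin 2) ℤ) 1 0 =
      - (n * (g 1 0 * g 1 0)) := by
    rw [Matrix.SpecialLinearGroup.coe_mul, Matrix.SpecialLinearGroup.coe_mul,
        Matrix.SpecialLinearGroup.coe_inv, ModularGroup.coe_T_zpow]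
    simp [Matrix.adjugate_fin_two, Matrix.mul_apply, Fin.sum_univ_two]
    ring
  rw [e, dvd_neg] at h
  have hp := Nat.prime_iff_prime_int.mp hN
  rcases hp.dvd_mul.mp h with h | h
  · exact h
  · exact absurd ((hp.dvd_mul.mp h).elim id id) hg

theorem mem_Gamma0_iff_dvd (g : SL(2, ℤ)) : g ∈ Gamma0 N ↔ (N : ℤ) ∣ g 1 0 := by
  rw [Gamma0_mem, ZMod.intCast_zmod_eq_zero_iff_dvd]

theorem psi_UGam (hN : N.Prime) {ψ : Gamma0 N →* Multiplicative ℤ} (hT : ψ (TG N) = 1) :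
    ψ (UGam N) = 1 := by
  classical
  have : NeZero N := ⟨hN.ne_zero⟩
  have h0 := hom_T_eq_one (MonoidHom.transfer ψ)
  rw [MonoidHom.transfer_eq_prod_quotient_orbitRel_zpowers_quot] at h0
  set Q := Quotient (MulAction.orbitRel (Subgroup.zpowers (ModularGroup.T : SL(2, ℤ)))
    (SL(2, ℤ) ⧸ Gamma0 N)) with hQ
  have key : ∀ q : Q, ∀ hm, ψ ⟨(Quotient.out (Quotient.out q))⁻¹ * ModularGroup.T ^
      Function.minimalPeriod (ModularGroup.T • ·) (Quotient.out q) * Quotient.out (Quotient.out q),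
      hm⟩ = if (N : ℤ) ∣ (Quotient.out (Quotient.out q) : SL(2, ℤ)) 1 0 then 1 else ψ (UGam N) := by
    intro q hm
    set g : SL(2, ℤ) := Quotient.out (Quotient.out q) with hg
    set m := Function.minimalPeriod (ModularGroup.T • ·) (Quotient.out q) with hmdef
    split_ifs with hd
    · have hg' : g ∈ Gamma0 N := (mem_Gamma0_iff_dvd g).mpr hd
      have e : (⟨g⁻¹ * ModularGroup.T ^ m * g, hm⟩ : Gamma0 N) =
          (⟨g, hg'⟩ : Gamma0 N)⁻¹ * (TG N) ^ m * ⟨g, hg'⟩ := Subtype.ext rfl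
      rw [e, map_mul, map_mul, map_pow, hT, one_pow, mul_one, map_inv, inv_mul_cancel]
    · have h1 : (N : ℤ) ∣ (m : ℤ) := dvd_of_conj hN hd (by rw [zpow_natCast]; exact hm)
      have h2 : m ∣ N := by
        have : Function.IsPeriodicPt (ModularGroup.T • ·) N (Quotient.out q : SL(2, ℤ) ⧸ Gamma0 N) := by
          rw [Function.IsPeriodicPt, Function.IsFixedPt, smul_iterate]
          show ModularGroup.T ^ N • (Quotient.out q) = Quotient.out q
          rw [← QuotientGroup.out_eq' (Quotient.out q), ← hg, MulAction.Quotient.smul_mk,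
            QuotientGroup.eq, ← inv_mem_iff]
          rw [smul_eq_mul, mul_inv_rev, inv_inv, mem_Gamma0_iff_dvd]
          obtain ⟨j, h, hj⟩ := exists_TS hN g hd
          have e : g⁻¹ * (ModularGroup.T ^ N * g) = ((h⁻¹ * UGam N * h : Gamma0 N) : SL(2, ℤ)) := by
            rw [hj, Subgroup.coe_mul, Subgroup.coe_mul, Subgroup.coe_inv, UGam]
            group
          rw [← mem_Gamma0_iff_dvd, e]
          exact SetLike.coe_mem _
        exact this.minimalPeriod_dvd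
      have h3 : m = N := Nat.dvd_antisymm h2 (by exact_mod_cast h1)
      obtain ⟨j, h, hj⟩ := exists_TS hN g hd
      rw [parB_aux ψ j h 1 _ (by
        show g⁻¹ * ModularGroup.T ^ m * g = _
        rw [mul_one, zpow_natCast, ← hj, h3]), zpow_one]
  rw [Finset.prod_congr rfl (fun q _ => key q _), Finset.prod_ite, Finset.prod_const_one, one_mul,
    Finset.prod_const] at h0
  refine mulZ_eq_one_of_pow ?_ h0
  rw [Finset.card_ne_zero]
  refine ⟨(Quotient.mk _ ((ModularGroup.S : SL(2, ℤ)) : SL(2, ℤ) ⧸ Gamma0 N) : Q), ?_⟩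
  rw [Finset.mem_filter]
  refine ⟨Finset.mem_univ _, fun hd => ?_⟩
  set q : Q := (Quotient.mk _ ((ModularGroup.S : SL(2, ℤ)) : SL(2, ℤ) ⧸ Gamma0 N) : Q) with hq
  have h1 : (MulAction.orbitRel (Subgroup.zpowers (ModularGroup.T : SL(2, ℤ)))
    (SL(2, ℤ) ⧸ Gamma0 N)).r (Quotient.out q) ((ModularGroup.S : SL(2, ℤ)) : SL(2, ℤ) ⧸ Gamma0 N) :=
    Quotient.exact (by rw [Quotient.out_eq])
  rw [MulAction.orbitRel_apply] at h1
  obtain ⟨⟨t, ht⟩, h2⟩ := h1
  obtain ⟨k, rfl⟩ := ht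
  have h3 : ModularGroup.T ^ k • ((ModularGroup.S : SL(2, ℤ)) : SL(2, ℤ) ⧸ Gamma0 N) =
    Quotient.out q := h2
  rw [← QuotientGroup.out_eq' (Quotient.out q), MulAction.Quotient.smul_mk, QuotientGroup.eq,
    mem_Gamma0_iff_dvd] at h3
  have hS : ((ModularGroup.T ^ k • ModularGroup.S)⁻¹ * Quotient.out (Quotient.out q)) *
    (Quotient.out (Quotient.out q))⁻¹ ∈ Gamma0 N := by
    refine mul_mem ((mem_Gamma0_iff_dvd _).mpr h3) (inv_mem ((mem_Gamma0_iff_dvd _).mpr hd))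
  rw [mul_inv_cancel_right, inv_mem_iff, mem_Gamma0_iff_dvd, smul_eq_mul,
    Matrix.SpecialLinearGroup.coe_mul, ModularGroup.coe_T_zpow, ModularGroup.coe_S] at hS
  simp [Matrix.mul_apply, Fin.sum_univ_two] at hS
  exact hN.one_lt.ne' (Nat.dvd_one.mp (by exact_mod_cast hS))

/-- Parabolic elements are, up to sign, conjugate to translations -/
theorem exists_conj_T' {γ : SL(2, ℤ)} (hγ : LG.trS γ ^ 2 = 4) :
    ∃ (δ : SL(2, ℤ)) (n : ℤ), γ = δ * ModularGroup.T ^ n * δ⁻¹ ∨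
      γ = -(δ * ModularGroup.T ^ n * δ⁻¹) := by
  have hdet := γ.det_coe
  rw [Matrix.det_fin_two] at hdet
  rw [LG.trS] at hγ
  set a := (γ : Matrix (Fin 2) (Fin 2) ℤ) 0 0 with ha
  set b := (γ : Matrix (Fin 2) (Fin 2) ℤ) 0 1 with hb
  set c := (γ : Matrix (Fin 2) (Fin 2) ℤ) 1 0 with hc
  set d := (γ : Matrix (Fin 2) (Fin 2) ℤ) 1 1 with hd
  obtain ⟨e, he⟩ : ∃ e : ℤ, a + d = 2 * e ∧ e ^ 2 = 1 := by
    have : (a + d - 2) * (a + d + 2) = 0 := by linear_combination hγ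
    rcases mul_eq_zero.mp this with h | h
    · exact ⟨1, by linarith, by norm_num⟩
    · exact ⟨-1, by linarith, by norm_num⟩
  obtain ⟨he1, he2⟩ := he
  -- reduce to a conjugate with vanishing lower left entry
  have key : ∀ δ : SL(2, ℤ), (δ⁻¹ * γ * δ) 1 0 = 0 →
      ∃ (δ : SL(2, ℤ)) (n : ℤ), γ = δ * ModularGroup.T ^ n * δ⁻¹ ∨
        γ = -(δ * ModularGroup.T ^ n * δ⁻¹) := by
    intro δ h0
    set M : SL(2, ℤ) := δ⁻¹ * γ * δ with hM
    have hMγ : γ = δ * M * δ⁻¹ := by rw [hM]; group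
    have hMdet := M.det_coe
    rw [Matrix.det_fin_two, h0, mul_zero, sub_zero] at hMdet
    rcases Int.eq_one_or_neg_one_of_mul_eq_one' hMdet with ⟨h1, h2⟩ | ⟨h1, h2⟩
    · refine ⟨δ, M 0 1, Or.inl ?_⟩
      rw [hMγ]
      congr 2
      ext i j
      rw [ModularGroup.coe_T_zpow]
      fin_cases i <;> fin_cases j
      · exact h1
      · rfl
      · exact h0
      · exact h2
    · refine ⟨δ, - M 0 1, Or.inr ?_⟩
      rw [hMγ, ← neg_mul, ← mul_neg]
      congr 2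
      ext i j
      rw [Matrix.SpecialLinearGroup.coe_neg, ModularGroup.coe_T_zpow]
      fin_cases i <;> fin_cases j
      · simpa using h1
      · simp
      · simpa using h0
      · simpa using h2
  by_cases hc0 : c = 0
  · exact key 1 (by simpa using hc0)
  · -- the fixed vector
    set g := Int.gcd (a - e) c with hg
    have hg0 : (g : ℤ) ≠ 0 := by
      intro h
      have : g = 0 := by exact_mod_cast h
      rw [hg, Int.gcd_eq_zero_iff] at this
      exact hc0 this.2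
    obtain ⟨p, hp⟩ : (g : ℤ) ∣ a - e := Int.gcd_dvd_left ..
    obtain ⟨q, hq⟩ : (g : ℤ) ∣ c := Int.gcd_dvd_right ..
    have hcop : IsCoprime p q := by
      rw [Int.isCoprime_iff_gcd_eq_one]
      have h1 : g = g * Int.gcd p q := by
        conv_lhs => rw [hg, hp, hq]
        rw [Int.gcd_mul_left, Int.natAbs_natCast]
      have h2 : g ≠ 0 := by exact_mod_cast hg0
      have h3 : g * 1 = g * Int.gcd p q := by rw [mul_one]; exact h1
      exact (mul_left_cancel₀ h2 h3).symm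
    obtain ⟨δ, h00, h10⟩ := hcop.exists_SL2_col 0
    refine key δ ?_
    have hd1 : p * δ 1 1 - δ 0 1 * q = 1 := by
      have := δ.det_coe
      rw [Matrix.det_fin_two, h00, h10] at this
      exact this
    have e1 : (δ⁻¹ * γ * δ) 1 0 = (-q * a + p * c) * p + (-q * b + p * d) * q := by
      simp only [Matrix.SpecialLinearGroup.coe_mul, Matrix.SpecialLinearGroup.coe_inv,
        Matrix.adjugate_fin_two, Matrix.mul_apply, Fin.sum_univ_two, h00, h10]
      simp [← ha, ← hb, ← hc, ← hd]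
    rw [e1]
    have e2 : (g : ℤ) ^ 2 * ((-q * a + p * c) * p + (-q * b + p * d) * q) = 0 := by
      have hp' : (g : ℤ) * p = a - e := hp.symm
      have hq' : (g : ℤ) * q = c := hq.symm
      have : (g : ℤ) ^ 2 * ((-q * a + p * c) * p + (-q * b + p * d) * q) =
        (-(g * q) * a + (g * p) * c) * (g * p) + (-(g * q) * b + (g * p) * d) * (g * q) := by ring
      rw [this, hp', hq']
      have hd' : d = 2 * e - a := by linarith
      rw [hd'] at hdet ⊢
      linear_combination c * hdet - c * he2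
    rcases mul_eq_zero.mp e2 with h | h
    · exact absurd (pow_eq_zero_iff (two_ne_zero) |>.mp h) hg0
    · exact h

theorem neg_one_mem_Gamma0 : (-1 : SL(2, ℤ)) ∈ Gamma0 N := by
  rw [Gamma0_mem]
  simp

theorem psi_neg_one (ψ : Gamma0 N →* Multiplicative ℤ) :
    ψ ⟨-1, neg_one_mem_Gamma0⟩ = 1 := by
  refine mulZ_eq_one_of_pow (n := 2) (by norm_num) ?_
  rw [← map_pow]
  have : (⟨-1, neg_one_mem_Gamma0⟩ : Gamma0 N) ^ 2 = 1 := Subtype.ext (by
    rw [Subgroup.coe_pow]; simp)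
  rw [this, map_one]

/-- **(P12-T)** -/
theorem parB_of_T (hN : N.Prime) {ψ : Gamma0 N →* Multiplicative ℤ} (hT : ψ (TG N) = 1) :
    ParB ψ := by
  intro γ hγ
  obtain ⟨δ, n, hδ⟩ := exists_conj_T' hγ
  have key : ∀ γ : Gamma0 N, (γ : SL(2, ℤ)) = δ * ModularGroup.T ^ n * δ⁻¹ → ψ γ = 1 := by
    intro γ hγ
    by_cases hd : (N : ℤ) ∣ δ 1 0
    · have hδ' : δ ∈ Gamma0 N := (mem_Gamma0_iff_dvd δ).mpr hd
      have e : γ = (⟨δ, hδ'⟩ : Gamma0 N) * (TG N) ^ n * (⟨δ, hδ'⟩ : Gamma0 N)⁻¹ := Subtype.ext hγ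
      rw [e, map_mul, map_mul, map_zpow, hT, one_zpow, mul_one, map_inv, mul_inv_cancel]
    · have hd' : ¬ (N : ℤ) ∣ (δ⁻¹ : SL(2, ℤ)) 1 0 := by
        intro h
        exact hd ((mem_Gamma0_iff_dvd δ).mp (inv_mem_iff.mp ((mem_Gamma0_iff_dvd δ⁻¹).mpr h)))
      obtain ⟨m, rfl⟩ := dvd_of_conj hN hd' (n := n) (by
        rw [inv_inv, ← hγ]
        exact γ.2)
      obtain ⟨j, h, hj⟩ := exists_TS hN δ⁻¹ hd'
      rw [parB_aux ψ j h m γ (by rw [← hj, inv_inv]; exact hγ), psi_UGam hN hT, one_zpow]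
  rcases hδ with hδ | hδ
  · exact key γ hδ
  · have e : γ = (⟨-1, neg_one_mem_Gamma0⟩ : Gamma0 N) * ((⟨-1, neg_one_mem_Gamma0⟩ : Gamma0 N) * γ) := by
      rw [← mul_assoc]
      have : (⟨-1, neg_one_mem_Gamma0⟩ : Gamma0 N) * (⟨-1, neg_one_mem_Gamma0⟩ : Gamma0 N) = 1 :=
        Subtype.ext (by rw [Subgroup.coe_mul]; simp)
      rw [this, one_mul]
    rw [e, map_mul, psi_neg_one, one_mul]
    refine key _ ?_
    rw [Subgroup.coe_mul, hδ]
    simp

end Fermat.Agent.Mzr
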