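import Fermat.Agent.Mzr.HEis
import Fermat.Agent.Mzr.Trf

/-!
The class of `Δ(τ)/Δ(Nτ)` is Eisenstein.
-/

set_option autoImplicit false

noncomputable section

namespace Fermat.Agent.Mzr

open CongruenceSubgroup
open Fermat.Agent.FunField Fermat.Agent.Flat Fermat.Agent.WP

/-- The field of algebraic numbers. -/
local notation "Qb" => AlgebraicClosure ℚ

/-- **(P12)** -/
theorem HF_mem {N : ℕ} [hN : Fact N.Prime] [NeZero N] {q : ℕ} [NeZero q] [hq : Fact q.Prime]
    {K : ℕ} (hK : q ^ K ∣ N - 1) : Sel.mk ⟨_, HF_mem_selZ hK⟩ ∈ eisS N q K :=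
  HF_mem_of (fun _ hT _ => parB_of_T hN.out (hT _)) hK _

end Fermat.Agent.Mzr
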