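import Fermat.Agent.Mzr.EisFam
import Fermat.Agent.Mzr.Cusps
import Fermat.Agent.Mzr.HEis2
import Fermat.Agent.WP.GInf

/-!
The final contradiction.
-/

set_option autoImplicit false
set_option linter.unusedSectionVars false

noncomputable section

namespace Fermat.Agent.Mzr

open AlgebraicCurve Fermat.Agent.FunField Fermat.Agent.Flat Fermat.Agent.LG Fermat.Agent.ModFun
open Fermat.Agent.WP (HF HF_ne_zero cInf cZero galF0_HF exists_Hr)

/-- The field of algebraic numbers. -/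
local notation "Qb" => AlgebraicClosure ℚ
/-- The absolute Galois group. -/
local notation "GQ" => (AlgebraicClosure ℚ ≃ₐ[ℚ] AlgebraicClosure ℚ)

variable {N : ℕ} [hN : Fact N.Prime] [NeZero N] {q : ℕ} [NeZero q] [hq : Fact q.Prime]

/-- powers of a prime which are powers -/
theorem dvd_of_pow_eq {N m k : ℕ} (hN : N.Prime) {x : ℚ} (h : x ^ m = (N : ℚ) ^ k) :
    m ∣ k := by
  have := Fact.mk hN
  have h1 := congrArg (padicValRat N) h
  have hx : m = 0 ∨ x ≠ 0 := by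
    by_cases hm : m = 0
    · exact Or.inl hm
    right
    rintro rfl
    rw [zero_pow hm] at h
    exact pow_ne_zero k (by exact_mod_cast hN.ne_zero : (N : ℚ) ≠ 0) h.symm
  rw [padicValRat.pow (p := N) (q := (N : ℚ)), padicValRat.self hN.one_lt, mul_one] at h1
  rcases hx with rfl | hx
  · rw [pow_zero, padicValRat.one] at h1
    have : k = 0 := by exact_mod_cast h1.symm
    rw [this]
  · rw [padicValRat.pow] at h1
    have h2 : (m : ℤ) ∣ (k : ℤ) := ⟨_, h1.symm⟩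
    exact_mod_cast h2

/-- The Eisenstein function of the end of the argument. -/
theorem exists_endF {K : ℕ} (hK : q ^ K ∣ N - 1) :
    ∃ (h : UG ({cO, cI} : Set (FixPl N))) (r s : ℚ), (h : (F0 Qb N)ˣ) ∈ ZK N q K ∧
      (∀ σ : GQ, σ • h = h) ∧ r ≠ 0 ∧ s ≠ 0 ∧
      (evU (cI : FixPl N) cI_mem h : Qb) = (r : Qb) ^ q ^ K ∧
      (evU (cO : FixPl N) cO_mem h : Qb) = (N : Qb) ^ 12 * (s : Qb) ^ q ^ K := by
  have hN1 := hN.out.one_lt
  obtain ⟨x, hx⟩ := hK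
  obtain ⟨G, r, s, hG0, hG, hr0, hs0, o1, o2, e1, e2⟩ := exists_Hr (N := N) (x := x) (m := q ^ K)
    (by
      have h1 : ((N - 1 : ℕ) : ℤ) = N - 1 := by
        rw [Nat.cast_sub hN1.le, Nat.cast_one]
      rw [← h1, hx]
      push_cast
      ring)
  -- the function
  obtain ⟨h, hh'⟩ : ∃ h : (F0 Qb N)ˣ, h = Units.mk0 (HF N) HF_ne_zero * (Units.mk0 G hG0) ^ q ^ K :=
    ⟨_, rfl⟩
  have hh : (h : F0 Qb N) = HF N * G ^ q ^ K := by
    rw [hh', Units.val_mul, Units.val_pow_eq_pow_val, Units.val_mk0, Units.val_mk0]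
  have hZ : h ∈ ZK N q K := by
    rw [hh']
    exact (ZK N q K).mul_mem ⟨HF_mem_selZ ⟨x, hx⟩, HF_mem ⟨x, hx⟩⟩ (pow_mem_ZK K _)
  have hU : h ∈ UG ({cO, cI} : Set (FixPl N)) := by
    rintro a (rfl | ha)
    · rw [hh]; exact o2
    · rw [Set.mem_singleton_iff] at ha
      subst ha
      rw [hh]; exact o1
  refine ⟨⟨h, hU⟩, r, s, hZ, fun σ => ?_, hr0, hs0, ?_, ?_⟩
  · apply Subtype.ext
    apply Units.ext
    rw [coe_smul_UG]
    change galF0 N σ • (h : F0 Qb N) = h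
    rw [hh, smul_mul', smul_pow', galF0_HF, hG]
  · rw [coe_evU, ← e1, ← hh]
    rfl
  · rw [coe_evU, ← e2, ← hh]
    rfl

/-- rational values -/
theorem dvd_of_value {m : ℕ} {a r s : ℚ} (hr0 : r ≠ 0) (hs0 : s ≠ 0)
    (h5 : ((a : ℚ) : Qb) ^ m = (N : Qb) ^ 12 * (s : Qb) ^ m * ((r : Qb) ^ m)⁻¹) : m ∣ 12 := by
  have h6 : (a * r / s) ^ m = (N : ℚ) ^ 12 := by
    have h7 : (a : ℚ) ^ m = (N : ℚ) ^ 12 * s ^ m * (r ^ m)⁻¹ := by exact_mod_cast h5
    have hr' := pow_ne_zero m hr0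
    have hs' := pow_ne_zero m hs0
    rw [div_pow, mul_pow, h7]
    field_simp
  exact dvd_of_pow_eq hN.out h6

/-- The value of an equivariant splitting at an invariant element is rational. -/
theorem exists_value {U : Type} [CommGroup U] [MulDistribMulAction GQ U] (F : ZFam U q)
    {y : U →* Qbˣ} {k : ℕ} {t : F.Z k →* Qbˣ} (ht : ESpl F y k t) (hteq : AEq F k ⊤ 1 t)
    {h : U} (hZ : h ∈ F.Z k) (hfix : ∀ σ : GQ, σ • h = h) :
    ∃ u : ℚ, (u : Qb) ^ q ^ k = (y h : Qb) := by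
  obtain ⟨u, hu⟩ : ∃ u : ℚ, (u : Qb) = (t ⟨h, hZ⟩ : Qb) := by
    apply WP.exists_rat_of_fixed
    intro σ
    have h1 := hteq σ (Subgroup.mem_top σ) ⟨h, hZ⟩
    rw [pow_one, pow_one] at h1
    have h2 : (⟨σ • h, F.smul_mem k σ h hZ⟩ : F.Z k) = ⟨h, hZ⟩ := Subtype.ext (hfix σ)
    have h3 : t ⟨h, hZ⟩ = uact σ (t ⟨h, hZ⟩) := (congrArg t h2).symm.trans h1
    exact (congrArg Units.val h3).symm
  refine ⟨u, ?_⟩
  rw [hu]
  exact congrArg Units.val (ht.pow ⟨h, hZ⟩)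

/-- **The end of the argument.** -/
theorem end_contra {K : ℕ} (hK : q ^ K ∣ N - 1) (h12 : ¬ q ^ K ∣ 12)
    (hT : ({cO, cI} : Set (FixPl N)).Finite) (t : (eisFam q ({cO, cI} : Set (FixPl N)) hT).Z K →* Qbˣ)
    (ht : ESpl (eisFam q ({cO, cI} : Set (FixPl N)) hT)
      (evU (cO : FixPl N) cO_mem * (evU (cI : FixPl N) cI_mem)⁻¹) K t)
    (hteq : AEq (eisFam q ({cO, cI} : Set (FixPl N)) hT) K ⊤ 1 t) : False := by
  obtain ⟨h, r, s, hZ, hfix, hr0, hs0, e1, e2⟩ := exists_endF (N := N) hK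
  have hZ' : h ∈ (eisFam q ({cO, cI} : Set (FixPl N)) hT).Z K := by
    change h ∈ (ZK N q K).subgroupOf _
    rw [Subgroup.mem_subgroupOf]
    exact hZ
  obtain ⟨u, h4⟩ := exists_value _ ht hteq hZ' hfix
  rw [MonoidHom.mul_apply, MonoidHom.inv_apply, Units.val_mul, Units.val_inv_eq_inv_val,
    e1, e2] at h4
  exact h12 (dvd_of_value (N := N) hr0 hs0 h4)

end Fermat.Agent.Mzr
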