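import Fermat.Agent.Pet.Gamma0

/-!
`1 + l` is not an eigenvalue of `T_l` on cusp forms of weight two.
-/

set_option autoImplicit false

open MeasureTheory Set Filter Asymptotics
open UpperHalfPlane hiding I
open Matrix.SpecialLinearGroup CongruenceSubgroup
open Fermat.Agent.ES Fermat.Agent.ESCore Fermat.Agent.ESCore.UnivG Fermat.Agent.ESCore.Gal
open Fermat.Agent.Pet
open scoped MatrixGroups Modular ModularForm Topology

namespace Fermat.Agent.Mzr

noncomputable section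

theorem decays_tendsto {w : ℝ} (hw : 0 < w) {h : ℍ → ℂ} (hh : Decays w h) :
    Tendsto (fun τ : ℍ => ‖h τ‖ * τ.im) atImInfty (𝓝 0) := by
  have h1 := hh.zero.exp_decay_atImInfty hw hh.per hh.holo hh.zero.isBoundedAtImInfty
  have h2 : (fun τ : ℍ => ‖h τ‖ * τ.im) =O[atImInfty]
      fun τ => Real.exp (-2 * Real.pi * τ.im / w) * τ.im := h1.norm_left.mul (isBigO_refl _ _)
  have h3 : (fun t : ℝ => Real.exp (-2 * Real.pi * t / w) * t) =O[atTop]
      fun t => t ^ (-1 : ℝ) := by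
    have hc : 0 < 2 * Real.pi / w := by positivity
    have h4 := isLittleO_exp_neg_mul_rpow_atTop (a := 2 * Real.pi / w) hc (-2)
    have h5 : (fun t : ℝ => Real.exp (-2 * Real.pi * t / w) * t) =ᶠ[atTop]
        fun t => Real.exp (-(2 * Real.pi / w) * t) * t := by
      refine Eventually.of_forall fun t => ?_
      beta_reduce
      congr 2
      ring
    refine h5.trans_isBigO ?_
    have h6 : (fun t : ℝ => Real.exp (-(2 * Real.pi / w) * t) * t) =O[atTop]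
        fun t => t ^ (-2 : ℝ) * t := h4.isBigO.mul (isBigO_refl _ _)
    refine h6.trans (EventuallyEq.isBigO ?_)
    filter_upwards [eventually_gt_atTop 0] with t ht
    have h7 : t ^ (-2 : ℝ) * t = t ^ (-2 : ℝ) * t ^ (1 : ℝ) := by rw [Real.rpow_one]
    rw [h7, ← Real.rpow_add ht]
    norm_num
  have h4 : Tendsto (fun t : ℝ => t ^ (-1 : ℝ)) atTop (𝓝 0) := tendsto_rpow_neg_atTop one_pos
  exact h2.trans_tendsto ((h3.trans_tendsto h4).comp tendsto_comap)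

variable {N : ℕ} [NeZero N]

/-- the invariant norm attains its maximum -/
theorem exists_max {f : ℍ → ℂ} (hf : f ∈ S2 (Gamma0 N)) (hf0 : f ≠ 0) :
    ∃ τ₀ : ℍ, 0 < ‖f τ₀‖ * τ₀.im ∧ ∀ τ : ℍ, ‖f τ‖ * τ.im ≤ ‖f τ₀‖ * τ₀.im := by
  classical
  have h1 : Gamma1 N ≤ Gamma0 N := Gamma1_in_Gamma0 N
  have hN := Nat.pos_of_ne_zero (NeZero.ne N)
  have hc : Continuous f := hf.1.1.continuous
  set g : ℍ → ℝ := fun τ => ‖f τ‖ * τ.im with hg
  have hgc : Continuous g := hc.norm.mul UpperHalfPlane.continuous_im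
  have h2 : ∀ (A : SL(2, ℤ)) (τ : ℍ), g (A • τ) = ‖(f ∣[(2 : ℤ)] A) τ‖ * τ.im := by
    intro A τ
    rw [hg]
    beta_reduce
    rw [sl_smul_eq, ← norm_slash_im f (A := mapGL ℝ A) (by simp)]
    rfl
  have hginv : ∀ γ ∈ Gamma0 N, ∀ τ : ℍ, g (γ • τ) = g τ := by
    intro γ hγ τ
    rw [h2, S2_inv hf ⟨γ, hγ⟩]
  let ι := SL(2, ℤ) ⧸ Gamma0 N
  have : Finite ι := Subgroup.finite_quotient_of_finiteIndex
  have := Fintype.ofFinite ι
  let r : ι → SL(2, ℤ) := fun q => (Quotient.out q)⁻¹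
  have hr : ∀ A : SL(2, ℤ), ∃ q : ι, ∃ γ ∈ Gamma0 N, A = γ * r q := by
    intro A
    refine ⟨((A⁻¹ : SL(2, ℤ)) : ι), A * Quotient.out ((A⁻¹ : SL(2, ℤ)) : ι), ?_, ?_⟩
    · have h1 : ((Quotient.out ((A⁻¹ : SL(2, ℤ)) : ι) : SL(2, ℤ)) : ι) = ((A⁻¹ : SL(2, ℤ)) : ι) :=
        QuotientGroup.out_eq' _
      have h2 := QuotientGroup.eq.mp h1.symm
      simpa using h2
    · simp [r]
  obtain ⟨τ₁, hτ₁⟩ := Function.ne_iff.mp hf0
  have hg1 : 0 < g τ₁ := mul_pos (norm_pos_iff.mpr hτ₁) τ₁.im_pos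
  -- small near the cusps
  have h3 : ∀ q : ι, ∃ C : ℝ, ∀ τ : ℍ, C ≤ τ.im → g (r q • τ) < g τ₁ := by
    intro q
    have h4 := decays_tendsto (by exact_mod_cast hN) (S2_decays hN h1 hf (r q))
    have h5 := h4.eventually (gt_mem_nhds hg1)
    rw [atImInfty, eventually_comap] at h5
    obtain ⟨C, hC⟩ := (eventually_atTop.mp h5)
    refine ⟨C, fun τ hτ => ?_⟩
    rw [h2]
    exact hC τ.im hτ τ rfl
  choose C hC using h3
  obtain ⟨C₀, hC₀⟩ : ∃ C₀ : ℝ, ∀ q, C q ≤ C₀ := by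
    refine ⟨∑ q, |C q|, fun q => (le_abs_self _).trans ?_⟩
    exact Finset.single_le_sum (f := fun q => |C q|) (fun i _ => abs_nonneg _) (Finset.mem_univ q)
  set K := ModularGroup.truncatedFundamentalDomain C₀ with hK
  have hKc : IsCompact K := ModularGroup.isCompact_truncatedFundamentalDomain C₀
  -- every value occurs on the fundamental domain
  have h4 : ∀ τ : ℍ, ∃ (q : ι) (w : ℍ), w ∈ 𝒟 ∧ g τ = g (r q • w) := by
    intro τ
    obtain ⟨A, hA⟩ := ModularGroup.exists_smul_mem_fd τ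
    obtain ⟨q, γ, hγ, hAγ⟩ := hr A⁻¹
    refine ⟨q, A • τ, hA, ?_⟩
    have h5 : τ = γ • (r q • (A • τ)) := by
      rw [← mul_smul, ← hAγ, inv_smul_smul]
    conv_lhs => rw [h5]
    exact hginv γ hγ _
  have h5 : ∀ τ : ℍ, g τ₁ ≤ g τ → ∃ (q : ι) (w : ℍ), w ∈ K ∧ g τ = g (r q • w) := by
    intro τ hτ
    obtain ⟨q, w, hw, h6⟩ := h4 τ
    refine ⟨q, w, ⟨hw, ?_⟩, h6⟩
    by_contra hlt
    push Not at hlt
    have h7 := hC q w ((hC₀ q).trans hlt.le)
    rw [← h6] at h7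
    exact absurd hτ (not_le.mpr h7)
  obtain ⟨q₁, w₁, hw₁, e₁⟩ := h5 τ₁ le_rfl
  have hmax : ∀ q : ι, ∃ w ∈ K, ∀ w' ∈ K, g (r q • w') ≤ g (r q • w) := by
    intro q
    have hcq : Continuous fun τ : ℍ => g (r q • τ) := by
      have h7 : (fun τ : ℍ => g (r q • τ)) = fun τ => ‖(f ∣[(2 : ℤ)] r q) τ‖ * τ.im := by
        funext τ
        exact h2 (r q) τ
      rw [h7]
      exact (S2_decays hN h1 hf (r q)).holo.continuous.norm.mul UpperHalfPlane.continuous_im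
    obtain ⟨w, hw, h6⟩ := hKc.exists_isMaxOn ⟨w₁, hw₁⟩ hcq.continuousOn
    exact ⟨w, hw, fun w' hw' => h6 hw'⟩
  choose w hw hwmax using hmax
  have : Nonempty ι := ⟨q₁⟩
  obtain ⟨q₀, hq₀⟩ := Finite.exists_max (fun q : ι => g (r q • w q))
  have h6 : g τ₁ ≤ g (r q₀ • w q₀) := by
    rw [e₁]
    exact (hwmax q₁ w₁ hw₁).trans (hq₀ q₁)
  refine ⟨r q₀ • w q₀, hg1.trans_le h6, fun τ => ?_⟩
  change g τ ≤ g (r q₀ • w q₀)
  rcases le_total (g τ) (g τ₁) with h7 | h7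
  · exact h7.trans h6
  · obtain ⟨q, w', hw', e⟩ := h5 τ h7
    rw [e]
    exact (hwmax q w' hw').trans (hq₀ q)

/-- **`1 + l` is not an eigenvalue of `T_l`.** -/
theorem hecke_ne_one_add {l : ℕ} (hl : l.Prime) (hlN : ¬ l ∣ N) {f : CuspForm (Gamma0 N) 2}
    (h : CuspForm.heckeTLin 2 hl hlN f = (1 + l : ℂ) • f) : f = 0 := by
  by_contra hf0
  have hf : (⇑f : ℍ → ℂ) ∈ S2 (Gamma0 N) := cusp_mem_S2 f
  have hne : (⇑f : ℍ → ℂ) ≠ 0 := fun h0 => hf0 (DFunLike.coe_injective h0)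
  obtain ⟨τ₀, hpos, hmax⟩ := exists_max hf hne
  have hl0 := hl.ne_zero
  set g : ℍ → ℝ := fun τ => ‖f τ‖ * τ.im with hg
  have hT : (1 + l : ℂ) • (⇑f : ℍ → ℂ) = ∑ x, (⇑f : ℍ → ℂ) ∣[(2 : ℤ)] hdelta l x := by
    have h1 : (⇑(CuspForm.heckeTLin 2 hl hlN f) : ℍ → ℂ) =
        ∑ x, (⇑f : ℍ → ℂ) ∣[(2 : ℤ)] hdelta l x := by
      rw [CuspForm.coe_heckeTLin_apply]
      exact heckeT_eq_sum_hdelta l _
    rw [← h1, h]
    rfl
  -- the maximum propagates
  have key : ∀ τ : ℍ, g τ = g τ₀ → g (ModularForm.heckeDiagMatrix l • τ) = g τ₀ := by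
    intro τ hτ
    have h1 : (1 + l : ℝ) * g τ₀ ≤ ∑ x, g (hdelta l x • τ) := by
      have h2 := congrFun hT τ
      have h3 : ‖((1 + l : ℂ) • (⇑f : ℍ → ℂ)) τ‖ * τ.im = (1 + l : ℝ) * g τ := by
        rw [Pi.smul_apply, smul_eq_mul, norm_mul, hg]
        have : ‖(1 + l : ℂ)‖ = 1 + l := by
          have : (1 + l : ℂ) = ((1 + l : ℕ) : ℂ) := by push_cast; rfl
          rw [this, Complex.norm_natCast]
          push_cast
          rfl
        rw [this, mul_assoc]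
      rw [← hτ, ← h3, h2, Finset.sum_apply]
      refine (mul_le_mul_of_nonneg_right (norm_sum_le _ _) τ.im_pos.le).trans ?_
      rw [Finset.sum_mul]
      refine Finset.sum_le_sum fun x _ => ?_
      rw [norm_slash_im _ (hdelta_pos l x)]
    have h2 : ∀ x, g (hdelta l x • τ) ≤ g τ₀ := fun x => hmax _
    have h3 : ∑ x : Option (Fin l), g (hdelta l x • τ) ≤
        g (hdelta l none • τ) + l * g τ₀ := by
      rw [Fintype.sum_option]
      have h4 : ∑ i : Fin l, g (hdelta l (some i) • τ) ≤ ∑ _i : Fin l, g τ₀ :=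
        Finset.sum_le_sum fun i _ => h2 (some i)
      rw [Finset.sum_const, Finset.card_univ, Fintype.card_fin, nsmul_eq_mul] at h4
      linarith
    have h4 : g τ₀ ≤ g (hdelta l none • τ) := by nlinarith
    exact le_antisymm (h2 none) h4
  have hiter : ∀ n : ℕ, ∃ τ : ℍ, g τ = g τ₀ ∧ τ.im = (l : ℝ) ^ n * τ₀.im := by
    intro n
    induction n with
    | zero => exact ⟨τ₀, rfl, by rw [pow_zero, one_mul]⟩
    | succ n ih =>
      obtain ⟨τ, h1, h2⟩ := ih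
      refine ⟨ModularForm.heckeDiagMatrix l • τ, key τ h1, ?_⟩
      have h3 := congrArg Complex.im (ModularForm.coe_heckeDiagMatrix_smul hl0 τ)
      rw [Complex.mul_im] at h3
      simp only [Complex.natCast_re, Complex.natCast_im, zero_mul, add_zero] at h3
      have h4 : (ModularForm.heckeDiagMatrix l • τ).im = l * τ.im := h3
      rw [h4, h2]
      ring
  have h1 := decays_tendsto (by exact_mod_cast Nat.pos_of_ne_zero (NeZero.ne N))
    (S2_decays (Nat.pos_of_ne_zero (NeZero.ne N)) (Gamma1_in_Gamma0 N) hf 1)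
  have h2 := h1.eventually (gt_mem_nhds hpos)
  rw [atImInfty, eventually_comap] at h2
  obtain ⟨C, hC⟩ := (eventually_atTop.mp h2)
  have hl1 : (1 : ℝ) < l := by exact_mod_cast hl.one_lt
  obtain ⟨n, hn⟩ := pow_unbounded_of_one_lt (C / τ₀.im) hl1
  obtain ⟨τ, h3, h4⟩ := hiter n
  have h5 : C ≤ τ.im := by
    rw [h4]
    rw [div_lt_iff₀ τ₀.im_pos] at hn
    exact hn.le
  have h6 := hC τ.im h5 τ rfl
  rw [SlashAction.slash_one] at h6
  exact absurd h3 (ne_of_lt h6)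

end

end Fermat.Agent.Mzr
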