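import Fermat.Agent.Mzr.Nil
import Fermat.Agent.Mzr.Max
import Fermat.Agent.Pet.Par
import Fermat.Agent.ESCore.PointNew

/-!
`T_l - 1 - l` is surjective up to a bounded constant on the Eisenstein part.
-/

set_option autoImplicit false

noncomputable section

namespace Fermat.Agent.Mzr

open CongruenceSubgroup Polynomial UpperHalfPlane
open Fermat.Agent.ESCore Fermat.Agent.ESCore.ModP Fermat.Agent.ESCore.Univ
open Fermat.Agent.ESCore.UnivG
open Fermat.Agent.Pet (SepInt sepInt_genS2 toS2 toS2_hecke toS2_injective opX aeval_opX_eq_zero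
  aeval_intertwine opX_inl IsParab)
open scoped MatrixGroups ModularForm

/-- The field of algebraic numbers. -/
local notation "Qb" => AlgebraicClosure ℚ
/-- The absolute Galois group. -/
local notation "GQ" => (AlgebraicClosure ℚ ≃ₐ[ℚ] AlgebraicClosure ℚ)

variable {N : ℕ} [NeZero N]

theorem toS2_surj (f : S2 (Gamma0 N)) : ∃ g : CuspForm (Gamma0 N) 2, toS2 g = f :=
  ⟨toCusp f.2.1 f.2.2, Subtype.ext rfl⟩

theorem heckeS2_ne_one_add {l : ℕ} (hl : l.Prime) (hlN : ¬ l ∣ N) {f : S2 (Gamma0 N)}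
    (h : heckeS2 (Gamma1_in_Gamma0 N) le_rfl hl hlN f = (1 + l : ℂ) • f) : f = 0 := by
  obtain ⟨g, rfl⟩ := toS2_surj f
  rw [← toS2_hecke] at h
  have h1 : CuspForm.heckeTLin 2 hl hlN g = (1 + l : ℂ) • g := toS2_injective (h.trans rfl)
  rw [hecke_ne_one_add hl hlN h1]
  rfl

/-- an integral polynomial which kills `T_l` and does not vanish at `1 + l` -/
theorem exists_Q {S : Finset ℕ} (i : Idx N S) : ∃ Q : ℤ[X], Q.eval ((1 + i.1 : ℕ) : ℤ) ≠ 0 ∧
    aeval (genS2 (Gamma1_in_Gamma0 N) le_rfl S (Sum.inl i)) Q = 0 := by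
  obtain ⟨P, hP, hP0⟩ := sepInt_genS2 (Gamma1_in_Gamma0 N) le_rfl S (Sum.inl i)
  have hPne : P ≠ 0 := by
    rintro rfl
    rw [Polynomial.map_zero] at hP
    exact Polynomial.not_separable_zero hP
  obtain ⟨Q, hQ, hnd⟩ := exists_eq_pow_rootMultiplicity_mul_and_not_dvd P hPne
    ((1 + i.1 : ℕ) : ℤ)
  refine ⟨Q, fun h0 => hnd (dvd_iff_isRoot.mpr h0), ?_⟩
  generalize rootMultiplicity ((1 + i.1 : ℕ) : ℤ) P = m at hQ
  rw [hQ, map_mul, map_pow] at hP0
  set g : Module.End ℂ (S2 (Gamma0 N)) := genS2 (Gamma1_in_Gamma0 N) le_rfl S (Sum.inl i) with hg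
  have hinj : ∀ f : S2 (Gamma0 N), (aeval g) (X - C ((1 + i.1 : ℕ) : ℤ)) f = 0 → f = 0 := by
    intro f hf
    rw [map_sub, aeval_X, aeval_C, LinearMap.sub_apply, sub_eq_zero] at hf
    refine heckeS2_ne_one_add i.2.1 i.2.2.1 (hf.trans ?_)
    have h1 : ((1 + i.1 : ℂ)) = (((1 + i.1 : ℕ) : ℤ) : ℂ) := by push_cast; rfl
    rw [h1]
    exact (Int.cast_smul_eq_zsmul ℂ ((1 + i.1 : ℕ) : ℤ) f).symm
  have hinj2 : ∀ (n : ℕ) (f : S2 (Gamma0 N)),
      ((aeval g) (X - C ((1 + i.1 : ℕ) : ℤ)) ^ n) f = 0 → f = 0 := by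
    intro n
    induction n with
    | zero => exact fun f hf => hf
    | succ n ih =>
      intro f hf
      rw [pow_succ, Module.End.mul_apply] at hf
      exact hinj _ (ih _ hf)
  exact LinearMap.ext fun f => hinj2 m _ (by rw [← Module.End.mul_apply, hP0]; rfl)

variable {q : ℕ} [NeZero q]

/-- the operators on characters with values in `ℂˣ` -/
def toXC {k : ℕ} : Additive (Gamma0 N →* Multiplicative ℤ) →+ XC N where
  toFun φ := XC.of ((zH (q ^ k)).comp φ.toMul)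
  map_zero' := congrArg XC.of (MonoidHom.comp_one (zH (q ^ k)))
  map_add' φ ψ := congrArg XC.of (MonoidHom.comp_mul (zH (q ^ k)) φ.toMul ψ.toMul)

omit [NeZero q] in
theorem toXC_hecke {S : Finset ℕ} (i : Idx N S) {k : ℕ}
    (φ : Additive (Gamma0 N →* Multiplicative ℤ)) :
    toXC (q := q) (k := k) (opX (Gamma1_in_Gamma0 N) le_rfl S (Multiplicative ℤ) (Sum.inl i) φ) =
      hkC i (toXC (q := q) (k := k) φ) := by
  rw [opX_inl, heckeCharG_eq, hkC_apply]
  exact congrArg XC.of (heckeChar_comp i.2.1 i.2.2.1 (zH (q ^ k)) φ.toMul).symm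

theorem aeval_hkC {S : Finset ℕ} (i : Idx N S) {Q : ℤ[X]}
    (hQ : aeval (genS2 (Gamma1_in_Gamma0 N) le_rfl S (Sum.inl i)) Q = 0) {x : XC N}
    (hx : x ∈ Dinf N q) : aeval (hkC i) Q x = 0 := by
  obtain ⟨k, φ, hφ, e⟩ := hx
  have h1 : IsParab φ := fun γ hγ => hφ γ (by
    rw [← hγ, LG.trS, Matrix.trace_fin_two])
  have h2 := aeval_opX_eq_zero (A := ℤ) hQ h1
  have h3 := aeval_intertwine (toXC (N := N) (q := q) (k := k)) (fun m => toXC_hecke i m) Q
    (Additive.ofMul φ)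
  rw [h2, map_zero] at h3
  have h4 : x = toXC (q := q) (k := k) (Additive.ofMul φ) := XC.ext fun γ => DFunLike.congr_fun e γ
  rw [h4]
  exact h3.symm

theorem aeval_mem {M : Type*} [AddCommGroup M] (D : AddSubgroup M) (s : Module.End ℤ M)
    (h : ∀ x ∈ D, s x ∈ D) (P : ℤ[X]) {x : M} (hx : x ∈ D) : aeval s P x ∈ D := by
  induction P using Polynomial.induction_on' with
  | add p q hp hq =>
    rw [map_add, LinearMap.add_apply]
    exact D.add_mem hp hq
  | monomial n a =>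
    rw [aeval_monomial, Module.End.mul_apply, Module.algebraMap_end_apply]
    refine D.zsmul_mem ?_ a
    induction n with
    | zero => exact hx
    | succ n ih =>
      rw [pow_succ', Module.End.mul_apply]
      exact h _ ih

theorem natAbs_smul_of_neg {M : Type*} [AddCommGroup M] {a : ℤ} {x y : M} (h : a • x = -y)
    (ha : a < 0) : a.natAbs • x = y := by
  rw [← natCast_zsmul, Int.natCast_natAbs, abs_of_neg ha, neg_zsmul, h, neg_neg]

theorem natAbs_smul_of_pos {M : Type*} [AddCommGroup M] {a : ℤ} {x y : M} (h : a • x = y)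
    (ha : 0 < a) : a.natAbs • x = y := by
  rw [← natCast_zsmul, Int.natCast_natAbs, abs_of_pos ha, h]

/-- `T_l - 1 - l` is surjective up to a constant on the characters -/
theorem exists_tC_inv {S : Finset ℕ} (i : Idx N S) : ∃ (c : ℕ) (R : ℤ[X]), 0 < c ∧
    ∀ (q : ℕ) [NeZero q] (x : XC N), x ∈ Dinf N q → c • x = tC i (aeval (hkC i) R x) := by
  obtain ⟨Q, hQ0, hQ⟩ := exists_Q i
  obtain ⟨R, hR⟩ := X_sub_C_dvd_sub_C_eval (a := ((1 + i.1 : ℕ) : ℤ)) (p := Q)
  have key : ∀ (q : ℕ) [NeZero q] (x : XC N), x ∈ Dinf N q →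
      (Q.eval ((1 + i.1 : ℕ) : ℤ)) • x = - tC i (aeval (hkC i) R x) := by
    intro q _ x hx
    have h1 : Q = C (Q.eval ((1 + i.1 : ℕ) : ℤ)) + (X - C ((1 + i.1 : ℕ) : ℤ)) * R := by
      rw [← hR]
      ring
    have h2 := aeval_hkC i hQ hx
    rw [h1, map_add, map_mul, LinearMap.add_apply, Module.End.mul_apply, aeval_C,
      Module.algebraMap_end_apply, map_sub, aeval_X, aeval_C] at h2
    rw [eq_neg_of_add_eq_zero_left h2, LinearMap.sub_apply, tC_apply,
      Module.algebraMap_end_apply, natCast_zsmul]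
  rcases lt_or_gt_of_ne hQ0 with hneg | hpos
  · exact ⟨(Q.eval ((1 + i.1 : ℕ) : ℤ)).natAbs, R, Int.natAbs_pos.mpr hQ0, fun q _ x hx =>
      natAbs_smul_of_neg (key q x hx) hneg⟩
  · refine ⟨(Q.eval ((1 + i.1 : ℕ) : ℤ)).natAbs, -R, Int.natAbs_pos.mpr hQ0, fun q _ x hx => ?_⟩
    refine natAbs_smul_of_pos ((key q x hx).trans ?_) hpos
    rw [map_neg, LinearMap.neg_apply, map_neg]

/-- **(P9)** -/
theorem exists_tE_inv (i : Idx N {q}) : ∃ c : ℕ, 0 < c ∧ ∀ (k : ℕ) (x : EX N q k),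
    ∃ y : EX N q k, c • x = tE k i y := by
  obtain ⟨c, R, hc, h⟩ := exists_tC_inv i
  refine ⟨c, hc, fun k x => ?_⟩
  have h1 : aeval (hkC i) R (inE k x) ∈ eisD N q :=
    aeval_mem _ _ (fun y hy => hkC_mem_eisD i hy) R (inE_mem k x)
  have h2 : q ^ k • aeval (hkC i) R (inE k x) = 0 := by
    rw [← map_nsmul, inE_tors, map_zero]
  obtain ⟨y, hy⟩ := exists_inE h1 h2
  refine ⟨y, inE_injective k ?_⟩
  rw [map_nsmul, inE_tE, hy]
  exact h q _ (eisD_le (inE_mem k x))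

end Fermat.Agent.Mzr
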