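import Fermat.Agent.Mzr.EisFam
import Fermat.Agent.Mzr.Eta
import Fermat.Agent.Mzr.Cusps
import Fermat.Agent.WP.TF

/-!
The operator `η = T_l / (l + 1)` on functions.
-/

set_option autoImplicit false
set_option linter.unusedSectionVars false

noncomputable section

namespace Fermat.Agent.Mzr

open AlgebraicCurve
open CongruenceSubgroup (Gamma0)
open Fermat.Agent.FunField Fermat.Agent.Flat Fermat.Agent.LG Fermat.Agent.ModFun
open Fermat.Agent.Geo Fermat.Agent.WP Fermat.Agent.MZ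
open Fermat.Agent.ESCore (ιC heckeChar XG)
open Fermat.Agent.ESCore.Univ (Idx)

/-- The field of algebraic numbers. -/
local notation "Qb" => AlgebraicClosure ℚ
/-- The absolute Galois group. -/
local notation "GQ" => (AlgebraicClosure ℚ ≃ₐ[ℚ] AlgebraicClosure ℚ)

variable {N : ℕ} [NeZero N] {q : ℕ} [NeZero q]

/-- **Membership in the group of Eisenstein functions.** -/
theorem mem_ZK_iff {k : ℕ} {f : (F0 Qb N)ˣ} : f ∈ ZK N q k ↔
    ∃ χ : Gamma0 N →* ℂˣ, XC.of χ ∈ eisD N q ∧ ∃ z : LaurentSeries Qb, MSer N χ z ∧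
      ((f : F0 Qb N) : LaurentSeries Qb) = z ^ q ^ k := by
  constructor
  · rintro ⟨h, h'⟩
    exact (mk_mem_eisS_iff _).mp h'
  · rintro ⟨χ, hχ, z, hz, hz'⟩
    have h1 : χ ^ (q ^ k) = 1 :=
      (hz.pow (q ^ k)).eq_one_of_mem (by rw [← hz']; exact Subtype.prop _)
    obtain ⟨u, y, hu, hy0, hy, rfl⟩ := hz
    let ψ : XG N (q ^ k) := ⟨χ, Dinf_mem_XG hχ.1 h1⟩
    have h2 : f ∈ SelZ Qb (F0 Qb N) (q ^ k) := by
      intro v
      have h3 : (f : F0 Qb N) = u ^ q ^ k * powF ψ hy := Subtype.ext (by rw [hz', mul_pow]; rfl)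
      rw [h3, v.ord_mul (pow_ne_zero _ hu) (powF_ne_zero ψ hy hy0), Flat.ord_pow]
      exact dvd_add (dvd_mul_right _ _) (powF_dvdE ψ (Dinf_parE hχ.1) hy hy0 v)
    exact ⟨h2, (mk_mem_eisS_iff ⟨f, h2⟩).mpr ⟨χ, hχ, _, ⟨u, y, hu, hy0, hy, rfl⟩, hz'⟩⟩

/-- functions with the same character -/
theorem exists_of_char {k : ℕ} {f g : (F0 Qb N)ˣ} {χ : Gamma0 N →* ℂˣ} (hχ : XC.of χ ∈ eisD N q)
    {z w : LaurentSeries Qb} (hz : MSer N χ z) (hf : ((f : F0 Qb N) : LaurentSeries Qb) = z ^ q ^ k)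
    (hw : MSer N χ w) (hg : ((g : F0 Qb N) : LaurentSeries Qb) = w ^ q ^ k) :
    ∃ u : (F0 Qb N)ˣ, f = g * u ^ q ^ k := by
  have h1 : χ ^ (q ^ k) = 1 :=
    (hz.pow (q ^ k)).eq_one_of_mem (by rw [← hf]; exact Subtype.prop _)
  let x : Additive (XG N (q ^ k)) := Additive.ofMul ⟨χ, Dinf_mem_XG hχ.1 h1⟩
  have hf' : f ∈ SelZ Qb (F0 Qb N) (q ^ k) := (mem_ZK_iff.mpr ⟨χ, hχ, z, hz, hf⟩).1
  have hg' : g ∈ SelZ Qb (F0 Qb N) (q ^ k) := (mem_ZK_iff.mpr ⟨χ, hχ, w, hw, hg⟩).1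
  have hx : x ∈ eisX N q k := hχ
  have e1 := (mk_eq_selE_iff (pos_pow q k) (liftE k ⟨x, hx⟩) ⟨f, hf'⟩).mpr ⟨z, hz, hf⟩
  have e2 := (mk_eq_selE_iff (pos_pow q k) (liftE k ⟨x, hx⟩) ⟨g, hg'⟩).mpr ⟨w, hw, hg⟩
  have h5 : Sel.mk (⟨f, hf'⟩ * ⟨g, hg'⟩⁻¹ : SelZ Qb (F0 Qb N) (q ^ k)) = 0 := by
    have h6 : Sel.mk (⟨f, hf'⟩ * ⟨g, hg'⟩⁻¹ : SelZ Qb (F0 Qb N) (q ^ k)) =
      Sel.mk ⟨f, hf'⟩ - Sel.mk ⟨g, hg'⟩ := rfl
    exact h6.trans (sub_eq_zero.mpr (e1.trans e2.symm))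
  obtain ⟨u, hu0, hu⟩ := Sel.mk_eq_zero.mp h5
  refine ⟨Units.mk0 u hu0, ?_⟩
  have h7 : f * g⁻¹ = (Units.mk0 u hu0) ^ q ^ k := Units.ext (by
    rw [Units.val_pow_eq_pow_val]; exact hu)
  rw [← h7, mul_comm f, mul_inv_cancel_left]

variable {l : ℕ} [NeZero l] (hl : l.Prime) (hlN : ¬ l ∣ N)

/-- Hecke operators on meromorphic functions with a character -/
theorem MSer.tN {χ : Gamma0 N →* ℂˣ} {z : LaurentSeries Qb} (hz : MSer N χ z) :
    MSer N (heckeChar hl hlN χ) (MZ.tN l (zl l) z) := by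
  obtain ⟨u, y, hu, hy0, hy, rfl⟩ := hz
  exact ⟨TF N hl hlN u, MZ.tN l (zl l) y, TF_ne_zero hl hlN hu, tN_ne_zero (zl_spec l) hy0,
    hy.tN hl hlN (zl_spec l), tN_mul (zl_spec l) _ _⟩

variable (N) in
/-- the Hecke operator on the nonzero functions -/
def TFU : (F0 Qb N)ˣ →* (F0 Qb N)ˣ := Units.map (TF N hl hlN)

theorem coe_TFU (f : (F0 Qb N)ˣ) : ((TFU N hl hlN f : (F0 Qb N)ˣ) : F0 Qb N) =
    TF N hl hlN (f : F0 Qb N) := rfl

/-- the character of the image under the Hecke operator -/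
theorem TFU_spec {k : ℕ} {f : (F0 Qb N)ˣ} {χ : Gamma0 N →* ℂˣ} {z : LaurentSeries Qb}
    (hz : MSer N χ z) (hf : ((f : F0 Qb N) : LaurentSeries Qb) = z ^ q ^ k) :
    MSer N (heckeChar hl hlN χ) (MZ.tN l (zl l) z) ∧
      ((TFU N hl hlN f : F0 Qb N) : LaurentSeries Qb) = MZ.tN l (zl l) z ^ q ^ k := by
  refine ⟨hz.tN hl hlN, ?_⟩
  rw [coe_TFU, coe_TF, hf, tN_pow (zl_spec l)]

variable (N) in
/-- **The operator `η`** -/
def etaU : (F0 Qb N)ˣ →* (F0 Qb N)ˣ := TFU N hl hlN / powMonoidHom (l + 1)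

theorem etaU_apply (f : (F0 Qb N)ˣ) : etaU N hl hlN f = TFU N hl hlN f / f ^ (l + 1) := rfl

theorem etaU_gal (σ : GQ) (f : (F0 Qb N)ˣ) :
    etaU N hl hlN (galU N σ f) = galU N σ (etaU N hl hlN f) := by
  rw [etaU_apply, etaU_apply, map_div, map_pow]
  congr 1
  apply Units.ext
  rw [coe_TFU, coe_galU, coe_galU, coe_TFU]
  exact TF_galF0 hl hlN σ f

theorem ord_etaU {v : Place Qb (F0 Qb N)} {f : (F0 Qb N)ˣ}
    (h : v.ord (TF N hl hlN (f : F0 Qb N)) = (l + 1) * v.ord (f : F0 Qb N)) :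
    v.ord (etaU N hl hlN f : F0 Qb N) = 0 := by
  rw [etaU_apply, div_eq_mul_inv, Units.val_mul, v.ord_mul (Units.ne_zero _) (Units.ne_zero _),
    Units.val_inv_eq_inv_val, v.ord_inv, ord_upow, coe_TFU, h]
  push_cast
  ring

section Prime

variable [Fact N.Prime]

theorem etaU_mem (f : (F0 Qb N)ˣ) : etaU N hl hlN f ∈ UG ({cO, cI} : Set (FixPl N)) := by
  intro a ha
  rcases ha with rfl | rfl
  · exact ord_etaU hl hlN (cZero_ord_TF hl hlN _)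
  · exact ord_etaU hl hlN (cInf_ord_TF hl hlN _)

variable (N) in
/-- **The operator `η`** on functions with values at the cusps -/
def etaG : UG ({cO, cI} : Set (FixPl N)) →* UG ({cO, cI} : Set (FixPl N)) :=
  ((etaU N hl hlN).codRestrict _ (etaU_mem hl hlN)).comp (UG ({cO, cI} : Set (FixPl N))).subtype

theorem coe_etaG (u : UG ({cO, cI} : Set (FixPl N))) :
    (etaG N hl hlN u : (F0 Qb N)ˣ) = etaU N hl hlN u := rfl

theorem TFU_mem (u : UG ({cO, cI} : Set (FixPl N))) :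
    TFU N hl hlN u ∈ UG ({cO, cI} : Set (FixPl N)) := by
  have h1 : TFU N hl hlN u = etaU N hl hlN u * (u : (F0 Qb N)ˣ) ^ (l + 1) := by
    rw [etaU_apply, div_mul_cancel]
  rw [h1]
  exact (UG _).mul_mem (etaU_mem hl hlN _) ((UG _).pow_mem u.2 _)

theorem evU_etaG {a : FixPl N} (ha : a ∈ ({cO, cI} : Set (FixPl N)))
    (h : ∀ f : F0 Qb N, 0 ≤ a.pl.ord f → evp a.pl (TF N hl hlN f) = evp a.pl f ^ (l + 1))
    (u : UG ({cO, cI} : Set (FixPl N))) : evU a ha (etaG N hl hlN u) = 1 := by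
  have h1 : etaG N hl hlN u = ⟨TFU N hl hlN u, TFU_mem hl hlN u⟩ / u ^ (l + 1) := rfl
  rw [h1, map_div, map_pow, div_eq_one]
  apply Units.ext
  rw [coe_evU, Units.val_pow_eq_pow_val, coe_evU, ← h _ (u.2 a ha).ge]
  rfl

/-- **(W3)** -/
theorem exists_eta [Fact q.Prime] (hl : l.Prime) (hlN : l ≠ N) (hlq : l ≠ q) :
    ∃ (η : UG ({cO, cI} : Set (FixPl N)) →* UG ({cO, cI} : Set (FixPl N))) (c' : ℕ), 0 < c' ∧
      (∀ (σ : GQ) u, η (σ • u) = σ • η u) ∧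
      (∀ k, ∀ f ∈ (eisFam q ({cO, cI} : Set (FixPl N)) finite_cusps).Z k,
        η f ∈ (eisFam q ({cO, cI} : Set (FixPl N)) finite_cusps).Z k) ∧
      (∀ u, evU cO cO_mem (η u) = 1 ∧ evU cI cI_mem (η u) = 1) ∧
      ∀ k, ∀ f ∈ (eisFam q ({cO, cI} : Set (FixPl N)) finite_cusps).Z k,
        ∃ g ∈ (eisFam q ({cO, cI} : Set (FixPl N)) finite_cusps).Z k,
        ∃ u, f ^ c' = η g * u ^ q ^ k := by
  have hN : N.Prime := Fact.out
  have hlN' : ¬ l ∣ N := fun h => hlN ((Nat.prime_dvd_prime_iff_eq hl hN).mp h)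
  let i : Idx N {q} := ⟨l, hl, hlN', fun h => hlq (Finset.mem_singleton.mp h)⟩
  obtain ⟨c, hc, hinv⟩ := exists_tE_inv i
  have hTZ : ∀ (k : ℕ) (f : (F0 Qb N)ˣ), f ∈ ZK N q k → TFU N hl hlN' f ∈ ZK N q k := by
    intro k f hf
    obtain ⟨χ, hχ, z, hz, hz'⟩ := mem_ZK_iff.mp hf
    obtain ⟨h1, h2⟩ := TFU_spec hl hlN' hz hz'
    exact mem_ZK_iff.mpr ⟨_, hkC_mem_eisD i hχ, _, h1, h2⟩
  refine ⟨etaG N hl hlN', c, hc, ?_, ?_, ?_, ?_⟩
  · intro σ u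
    exact Subtype.ext (etaU_gal hl hlN' σ u)
  · intro k f hf
    change etaU N hl hlN' f ∈ ZK N q k
    rw [etaU_apply]
    exact (ZK N q k).div_mem (hTZ k f hf) ((ZK N q k).pow_mem hf _)
  · intro u
    exact ⟨evU_etaG hl hlN' cO_mem (fun f hf => evp_cZero_TF hl hlN' hf) u,
      evU_etaG hl hlN' cI_mem (fun f hf => evp_cInf_TF hl hlN' hf) u⟩
  · intro k f hf
    have hf' : (f : (F0 Qb N)ˣ) ∈ ZK N q k := hf
    obtain ⟨χ, hχ, z, hz, hz'⟩ := mem_ZK_iff.mp hf'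
    have h1 : χ ^ (q ^ k) = 1 :=
      (hz.pow (q ^ k)).eq_one_of_mem (by rw [← hz']; exact Subtype.prop _)
    obtain ⟨x, hx⟩ := exists_inE (k := k) hχ (congrArg XC.of h1)
    obtain ⟨y, hy⟩ := hinv k x
    have h2 := congrArg (inE k) hy
    rw [map_nsmul, hx, inE_tE, tC_apply] at h2
    have h3 : χ ^ c * (inE k y).ch ^ (1 + l) = heckeChar hl hlN' (inE k y).ch := by
      have h4 : c • XC.of χ + (1 + l) • inE k y = hkC i (inE k y) := by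
        rw [h2]
        exact sub_add_cancel _ _
      exact congrArg XC.ch h4
    -- a function with character `y`
    obtain ⟨w, hw0, hw⟩ := exists_xSer (pos_pow q k) y.ch
    have hM : MSer N (inE k y).ch w := ⟨1, w, one_ne_zero, hw0, hw, (one_mul w).symm⟩
    let g : (F0 Qb N)ˣ := Units.mk0 (powF y.ch hw) (powF_ne_zero y.ch hw hw0)
    have hg : ((g : F0 Qb N) : LaurentSeries Qb) = w ^ q ^ k := rfl
    have hgZ : g ∈ ZK N q k := mem_ZK_iff.mpr ⟨_, inE_mem k y, w, hM, hg⟩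
    obtain ⟨h5, h6⟩ := TFU_spec hl hlN' hM hg
    have h7 : MSer N (heckeChar hl hlN' (inE k y).ch) (z ^ c * w ^ (1 + l)) := by
      rw [← h3]
      exact (hz.pow c).mul (hM.pow (1 + l))
    have h8 : ((((f : (F0 Qb N)ˣ) ^ c * g ^ (1 + l) : (F0 Qb N)ˣ) : F0 Qb N) :
        LaurentSeries Qb) = (z ^ c * w ^ (1 + l)) ^ q ^ k := by
      rw [Units.val_mul, Units.val_pow_eq_pow_val, Units.val_pow_eq_pow_val]
      change (((f : (F0 Qb N)ˣ) : F0 Qb N) : LaurentSeries Qb) ^ c *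
        ((g : F0 Qb N) : LaurentSeries Qb) ^ (1 + l) = _
      rw [hz', hg, mul_pow, pow_right_comm, pow_right_comm w]
    obtain ⟨u, hu⟩ := exists_of_char (k := k) (hkC_mem_eisD i (inE_mem k y)) h7 h8 h5 h6
    obtain ⟨v, hv, hvZ⟩ := exists_move_ZK finite_cusps hgZ
    refine ⟨⟨g * v ^ q ^ k, hv⟩, hvZ, ?_⟩
    have h9 : (f : (F0 Qb N)ˣ) ^ c = etaU N hl hlN' (g * v ^ q ^ k) *
        (u * (etaU N hl hlN' v)⁻¹) ^ q ^ k := by
      rw [map_mul, map_pow, mul_pow, inv_pow]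
      have h10 : (f : (F0 Qb N)ˣ) ^ c = etaU N hl hlN' g * u ^ q ^ k := by
        rw [etaU_apply, div_mul_eq_mul_div, ← hu, add_comm 1 l, mul_div_cancel_right]
      rw [h10]
      have h11 : ∀ a b c : (F0 Qb N)ˣ, a * c = a * b * (c * b⁻¹) := fun a b c => by
        rw [mul_assoc, mul_left_comm b, mul_inv_cancel, mul_one]
      exact h11 _ _ _
    have h10 : (u * (etaU N hl hlN' v)⁻¹) ^ q ^ k ∈ UG ({cO, cI} : Set (FixPl N)) := by
      have h11 : (u * (etaU N hl hlN' v)⁻¹) ^ q ^ k =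
          (etaU N hl hlN' (g * v ^ q ^ k))⁻¹ * (f : (F0 Qb N)ˣ) ^ c := by
        rw [h9, inv_mul_cancel_left]
      rw [h11]
      exact (UG _).mul_mem ((UG _).inv_mem (etaU_mem hl hlN' _)) ((UG _).pow_mem f.2 _)
    exact ⟨⟨_, mem_UG_of_pow (pos_pow q k).ne' h10⟩, Subtype.ext h9⟩

end Prime

end Fermat.Agent.Mzr
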