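import Mathlib
import Fermat.Agent.Mzr.Coc

/-!
# Duality with roots of unity
-/

set_option autoImplicit false
set_option linter.unusedSectionVars false

noncomputable section

namespace Fermat.Agent.Mzr

/-- The field of algebraic numbers. -/
local notation "Qb" => AlgebraicClosure ℚ
/-- The absolute Galois group. -/
local notation "GQ" => (AlgebraicClosure ℚ ≃ₐ[ℚ] AlgebraicClosure ℚ)

section

variable {T : Type} [AddCommGroup T] {m : ℕ}

/-- Homomorphisms to the roots of unity. -/
def homEquiv (hT : ∀ t : T, m • t = 0) : (T →+ Mu m) ≃ (Multiplicative T →* Qbˣ) where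
  toFun v := 
    { toFun := fun t => ((Additive.toMul (v (Multiplicative.toAdd t)) : rootsOfUnity m Qb) : Qbˣ)
      map_one' := by rw [toAdd_one, map_zero]; rfl
      map_mul' := fun s t => by rw [toAdd_mul, map_add]; rfl }
  invFun f :=
    { toFun := fun t => Additive.ofMul ⟨f (Multiplicative.ofAdd t), by
        rw [mem_rootsOfUnity, ← map_pow, ← ofAdd_nsmul, hT, ofAdd_zero, map_one]⟩
      map_zero' := by
        apply Mu.ext
        change ((f (Multiplicative.ofAdd 0) : Qbˣ) : Qb) = 1
        rw [ofAdd_zero, map_one, Units.val_one]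
      map_add' := fun s t => by
        apply Mu.ext
        change ((f (Multiplicative.ofAdd (s + t)) : Qbˣ) : Qb) =
          (f (Multiplicative.ofAdd s) : Qb) * (f (Multiplicative.ofAdd t) : Qb)
        rw [ofAdd_add, map_mul, Units.val_mul] }
  left_inv v := by ext t; rfl
  right_inv f := by ext t; rfl

theorem card_hom [Finite T] (hT : ∀ t : T, m • t = 0) :
    Nat.card (T →+ Mu m) = Nat.card T := by
  rw [Nat.card_congr (homEquiv hT)]
  haveI : NeZero (Monoid.exponent (Multiplicative T)) :=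
    ⟨Monoid.exponent_ne_zero_of_finite⟩
  rw [CommGroup.card_monoidHom_of_hasEnoughRootsOfUnity (Multiplicative T) Qb]
  rfl

/-- Extension of homomorphisms. -/
theorem exists_extend {S : Type} [AddCommGroup S] (hm : m ≠ 0) (hS : ∀ s : S, m • s = 0)
    (P : AddSubgroup S) (g : P →+ Mu m) : ∃ v : S →+ Mu m, ∀ p : P, v p = g p := by
  have hroot : ∀ (n : ℤ), n ≠ 0 → ∀ u : Qbˣ, ∃ w : Qbˣ, w ^ n = u := by
    have key : ∀ (n : ℕ), n ≠ 0 → ∀ u : Qbˣ, ∃ w : Qbˣ, w ^ n = u := by
      intro n hn u
      obtain ⟨w, hw⟩ := IsAlgClosed.exists_pow_nat_eq (u : Qb) (Nat.pos_of_ne_zero hn)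
      have hw0 : w ≠ 0 := by
        rintro rfl
        rw [zero_pow hn] at hw
        exact u.ne_zero hw.symm
      exact ⟨Units.mk0 w hw0, Units.ext (by rw [Units.val_pow_eq_pow_val]; exact hw)⟩
    intro n hn u
    obtain ⟨w, hw⟩ := key n.natAbs (Int.natAbs_ne_zero.mpr hn) u
    rcases Int.natAbs_eq n with h | h
    · exact ⟨w, by rw [h, zpow_natCast, hw]⟩
    · exact ⟨w⁻¹, by rw [h, zpow_neg, inv_zpow, inv_inv, zpow_natCast, hw]⟩
  letI : DivisibleBy (Additive Qbˣ) ℤ :=
    divisibleByOfSMulRightSurj (Additive Qbˣ) ℤ (fun {n} hn u => by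
      obtain ⟨w, hw⟩ := hroot n hn u.toMul
      exact ⟨Additive.ofMul w, by
        change Additive.ofMul (w ^ n) = u
        rw [hw]; rfl⟩)
  have hB : Module.Baer ℤ (Additive Qbˣ) := Module.Baer.of_divisible _
  let g' : P →+ Additive Qbˣ :=
    { toFun := fun t => Additive.ofMul ((Additive.toMul (g t) : rootsOfUnity m Qb) : Qbˣ)
      map_zero' := by rw [map_zero]; rfl
      map_add' := fun s t => by rw [map_add]; rfl }
  obtain ⟨h, hh⟩ := hB.extension_property_addMonoidHom P.subtype P.subtype_injective g'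
  refine ⟨(homEquiv hS).symm (AddMonoidHom.toMultiplicativeLeft h), fun p => ?_⟩
  apply Mu.ext
  have h1 := DFunLike.congr_fun hh p
  change h p = Additive.ofMul ((Additive.toMul (g p) : rootsOfUnity m Qb) : Qbˣ) at h1
  change (((Additive.toMul (h (p : S))) : Qbˣ) : Qb) = _
  rw [h1]
  rfl

end

end Fermat.Agent.Mzr
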