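import Mathlib
import Fermat.Agent.ESCore.Cyclo
import Fermat.Agent.RT.TWPrimes

/-!
# Eigenvectors in modules with two characters
-/

set_option autoImplicit false
set_option linter.unusedSectionVars false

noncomputable section

namespace Fermat.Agent.Mzr

open Fermat.Agent.ESCore Fermat.Agent.RT

/-- The field of algebraic numbers. -/
local notation "Qb" => AlgebraicClosure ℚ
/-- The absolute Galois group. -/
local notation "GQ" => (AlgebraicClosure ℚ ≃ₐ[ℚ] AlgebraicClosure ℚ)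

section Unip

variable {G T : Type*} [Group G] [AddCommGroup T] [DistribMulAction G T]

theorem smul_nsmul' (g : G) (n : ℕ) (t : T) : g • n • t = n • g • t :=
  map_nsmul (DistribMulAction.toAddMonoidHom T g) n t

/-- the difference operator -/
def dlt (g : G) (t : T) : T := g • t - t

theorem dlt_add (g : G) (s t : T) : dlt g (s + t) = dlt g s + dlt g t := by
  simp only [dlt, smul_add]; abel

theorem pow_smul_of_fixed {g : G} {t : T} (h : g • t = t) (n : ℕ) : g ^ n • t = t := by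
  induction n with
  | zero => rw [pow_zero, one_smul]
  | succ n ih => rw [pow_succ, mul_smul, h, ih]

theorem pow_smul_of_dlt {g : G} {t : T} (h : g • dlt g t = dlt g t) (n : ℕ) :
    g ^ n • t = t + n • dlt g t := by
  induction n with
  | zero => rw [pow_zero, one_smul, zero_smul, add_zero]
  | succ n ih =>
    have h1 : g • t = t + dlt g t := by rw [dlt]; abel
    rw [pow_succ', mul_smul, ih, smul_add, smul_nsmul', h, h1, succ_nsmul]
    abel

/-- Unipotent elements have `q`-power order. -/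
theorem unip_pow {q k : ℕ} (hT : ∀ t : T, q ^ k • t = 0) (g : G) (n : ℕ) :
    ∀ t : T, (dlt g)^[n] t = 0 → g ^ q ^ (n * k) • t = t := by
  induction n with
  | zero =>
    intro t ht
    have : t = 0 := ht
    rw [this, smul_zero]
  | succ n ih =>
    intro t ht
    rw [Function.iterate_succ_apply] at ht
    have h1 := ih _ ht
    set h : G := g ^ q ^ (n * k) with hh
    have h2 : g • dlt h t = dlt h t := by
      have h3 : h • (g • t) - h • t = g • t - t := by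
        rw [← smul_sub]; exact h1
      have h4 : g • (h • t) = h • (g • t) := by
        rw [← mul_smul, ← mul_smul, hh, ← pow_succ, ← pow_succ']
      rw [dlt, smul_sub, h4, sub_eq_sub_iff_add_eq_add]
      have h5 := sub_eq_sub_iff_add_eq_add.mp h3
      rw [add_comm (h • t)]
      rw [← sub_eq_zero] at h3 ⊢
      rw [← h3]
      abel
    have h3 : h • dlt h t = dlt h t := pow_smul_of_fixed h2 _
    have h4 := pow_smul_of_dlt h3 (q ^ k)
    rw [hT, add_zero, hh, ← pow_mul, ← pow_add] at h4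
    rw [Nat.succ_mul]
    exact h4

end Unip

/-- `σ` acts on the `q`-th roots of unity as the power `a`. -/
def CycExp (q : ℕ) (σ : GQ) (a : ℕ) : Prop := ∀ ζ : Qb, ζ ^ q = 1 → σ ζ = ζ ^ a

/-- The operator `(σ - 1)(σ - a)`. -/
def quad {T : Type*} [AddCommGroup T] [DistribMulAction GQ T] (σ : GQ) (a : ℕ) (t : T) : T :=
  σ • (σ • t - a • t) - (σ • t - a • t)

/-- The two characters occurring are `1` and the cyclotomic one. -/
def TwoChar (q : ℕ) (T : Type*) [AddCommGroup T] [DistribMulAction GQ T] : Prop :=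
  ∀ (σ : GQ) (a : ℕ), CycExp q σ a → ∃ n : ℕ, ∀ t : T, (quad σ a)^[n] t = 0

theorem cycExp_cyc (q : ℕ) [NeZero q] (σ : GQ) :
    CycExp q σ ((cyc q σ : (ZMod q)ˣ) : ZMod q).val := fun _ hζ => cyc_spec σ hζ

theorem CycExp.modEq {q : ℕ} (hq : 0 < q) {σ : GQ} {a b : ℕ} (ha : CycExp q σ a)
    (hb : CycExp q σ b) : a ≡ b [MOD q] := by
  haveI : NeZero q := ⟨hq.ne'⟩
  obtain ⟨ζ, hζ⟩ := HasEnoughRootsOfUnity.exists_primitiveRoot Qb q
  have h1 := ha ζ hζ.pow_eq_one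
  rw [hb ζ hζ.pow_eq_one] at h1
  have h0 : ζ ≠ 0 := hζ.ne_zero hq.ne'
  have h2 : ζ ^ ((a : ℤ) - b) = 1 := by
    rw [zpow_sub₀ h0, zpow_natCast, zpow_natCast, ← h1, div_self (pow_ne_zero _ h0)]
  have h3 := (hζ.zpow_eq_one_iff_dvd _).mp h2
  exact (Int.natCast_modEq_iff.mp (Int.modEq_iff_dvd.mpr h3)).symm

theorem CycExp.mul {q : ℕ} {σ τ : GQ} {a b : ℕ} (ha : CycExp q σ a)
    (hb : CycExp q τ b) : CycExp q (σ * τ) (a * b) := by
  intro ζ hζ
  change σ (τ ζ) = _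
  rw [hb ζ hζ, map_pow, ha ζ hζ, ← pow_mul]

theorem CycExp.pow {q : ℕ} {σ : GQ} {a : ℕ} (ha : CycExp q σ a) (n : ℕ) :
    CycExp q (σ ^ n) (a ^ n) := by
  induction n with
  | zero => intro ζ _; rw [pow_zero, pow_zero, pow_one]; rfl
  | succ n ih => rw [pow_succ, pow_succ]; exact ih.mul ha

theorem nsmul_eq_of_modEq {T : Type*} [AddCommGroup T] {q : ℕ} {t : T} (ht : q • t = 0) {a b : ℕ}
    (h : a ≡ b [MOD q]) : a • t = b • t := by
  have h1 : ∀ c : ℕ, c • t = (c % q) • t := by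
    intro c
    conv_lhs => rw [← Nat.div_add_mod c q, add_smul, mul_comm, mul_smul, ht, smul_zero, zero_add]
  rw [h1 a, h1 b, h]

/-- An eigenvector. -/
theorem exists_eigen {q : ℕ} (hq : q.Prime) {T : Type*} [AddCommGroup T] [Finite T]
    [DistribMulAction GQ T] [Nontrivial T] {k : ℕ} (hT : ∀ t : T, q ^ k • t = 0)
    (hN : TwoChar q T) : ∃ t : T, t ≠ 0 ∧ q • t = 0 ∧
      ((∀ σ : GQ, σ • t = t) ∨ ∀ (σ : GQ) (a : ℕ), CycExp q σ a → σ • t = a • t) := by
  classical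
  haveI : Fact q.Prime := ⟨hq⟩
  haveI : NeZero q := ⟨hq.ne_zero⟩
  -- the `q`-torsion
  let W₀ : AddSubgroup T := (nsmulAddMonoidHom q : T →+ T).ker
  have hW₀ : ∀ {t : T}, t ∈ W₀ ↔ q • t = 0 := Iff.rfl
  let H : Subgroup GQ := (cyc q).ker
  have hH : ∀ {σ : GQ}, σ ∈ H ↔ CycExp q σ 1 := by
    intro σ
    rw [MonoidHom.mem_ker]
    constructor
    · intro h
      have h1 := cycExp_cyc q σ
      rw [h, Units.val_one] at h1
      intro ζ hζ
      rw [h1 ζ hζ, pow_one]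
      rcases Nat.lt_or_ge 1 q with h2 | h2
      · haveI : Fact (1 < q) := ⟨h2⟩
        rw [ZMod.val_one, pow_one]
      · exact absurd hq.one_lt (by omega)
    · intro h
      apply Units.ext
      rw [Units.val_one]
      have h1 := (cycExp_cyc q σ).modEq hq.pos h
      have h2 := (ZMod.natCast_eq_natCast_iff _ _ _).mpr h1
      rw [ZMod.natCast_zmod_val, Nat.cast_one] at h2
      exact h2
  have hst : ∀ (g : GQ), ∀ t ∈ W₀, g • t ∈ W₀ := by
    intro g t ht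
    rw [hW₀] at ht ⊢
    rw [← smul_nsmul', ht, smul_zero]
  letI actW : MulAction GQ W₀ :=
    { smul := fun g t => ⟨g • (t : T), hst g t t.2⟩
      one_smul := fun t => Subtype.ext (one_smul _ _)
      mul_smul := fun g h t => Subtype.ext (mul_smul _ _ _) }
  have hcoe : ∀ (g : GQ) (t : W₀), ((g • t : W₀) : T) = g • (t : T) := fun _ _ => rfl
  let Γ : Subgroup (Equiv.Perm W₀) := ((MulAction.toPermHom GQ W₀).comp H.subtype).range
  have hΓ : IsPGroup q Γ := by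
    rintro ⟨_, ⟨σ, hσ⟩, rfl⟩
    obtain ⟨n, hn⟩ := hN σ 1 (hH.mp hσ)
    have h1 : ∀ t : T, quad σ 1 t = dlt σ (dlt σ t) := by
      intro t
      rw [quad, dlt, dlt, one_smul]
    have h2 : ∀ t : T, (dlt σ)^[2 * n] t = 0 := by
      intro t
      rw [Function.iterate_mul]
      have h3 : ((dlt σ)^[2] : T → T) = quad σ 1 := by
        funext t
        rw [h1]
        rfl
      rw [h3]
      exact hn t
    refine ⟨2 * n * k, ?_⟩
    apply Subtype.ext
    apply Equiv.ext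
    intro t
    have h3 := unip_pow hT σ (2 * n) (t : T) (h2 t)
    have h4 : (((MulAction.toPermHom GQ W₀).comp H.subtype) ⟨σ, hσ⟩ ^ q ^ (2 * n * k)) t = t := by
      rw [← map_pow]
      apply Subtype.ext
      exact h3
    exact h4
  have hnt : ∃ t : W₀, t ≠ 0 := by
    obtain ⟨t, ht⟩ := exists_ne (0 : T)
    have hex : ∃ j : ℕ, q ^ j • t = 0 := ⟨k, hT t⟩
    set j := Nat.find hex with hj
    have hj1 : q ^ j • t = 0 := Nat.find_spec hex
    have hj0 : j ≠ 0 := by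
      intro h0
      rw [h0, pow_zero, one_smul] at hj1
      exact ht hj1
    have hj2 : q ^ (j - 1) • t ≠ 0 := Nat.find_min hex (by omega)
    refine ⟨⟨q ^ (j - 1) • t, ?_⟩, fun h => hj2 (congrArg Subtype.val h)⟩
    rw [hW₀, ← mul_smul, ← pow_succ', Nat.sub_add_cancel (Nat.one_le_iff_ne_zero.mpr hj0)]
    exact hj1
  have hcard : q ∣ Nat.card W₀ := by
    obtain ⟨t, ht⟩ := hnt
    have h1 : addOrderOf t = q := by
      rw [addOrderOf_eq_prime_iff]
      exact ⟨Subtype.ext (hW₀.mp t.2), ht⟩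
    rw [← h1]
    exact addOrderOf_dvd_natCard t
  have h0fix : (0 : W₀) ∈ MulAction.fixedPoints Γ W₀ := by
    rintro ⟨_, ⟨σ, hσ⟩, rfl⟩
    apply Subtype.ext
    change (σ : GQ) • (0 : T) = 0
    rw [smul_zero]
  obtain ⟨b, hb, hb0⟩ := hΓ.exists_fixed_point_of_prime_dvd_card_of_fixed_point W₀ hcard h0fix
  have hbH : ∀ σ ∈ H, σ • (b : T) = b := by
    intro σ hσ
    have h1 := hb ⟨_, ⟨⟨σ, hσ⟩, rfl⟩⟩
    exact congrArg Subtype.val h1
  -- the fixed vectors
  let Wf : Set T := {t | q • t = 0 ∧ ∀ σ ∈ H, σ • t = t}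
  have hWfs : ∀ (g : GQ), ∀ t ∈ Wf, g • t ∈ Wf := by
    rintro g t ⟨h1, h2⟩
    refine ⟨hst g t h1, fun σ hσ => ?_⟩
    have h3 : g⁻¹ * σ * g ∈ H := by
      have := (inferInstance : H.Normal).conj_mem σ hσ g⁻¹
      simpa using this
    have h4 := h2 _ h3
    rw [mul_smul, mul_smul, inv_smul_eq_iff] at h4
    exact h4
  have hWfn : ∀ (a : ℕ), ∀ t ∈ Wf, a • t ∈ Wf := by
    rintro a t ⟨h1, h2⟩
    refine ⟨by rw [smul_comm, h1, smul_zero], fun σ hσ => ?_⟩
    rw [smul_nsmul', h2 σ hσ]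
  have hWfsub : ∀ s ∈ Wf, ∀ t ∈ Wf, s - t ∈ Wf := by
    rintro s ⟨h1, h2⟩ t ⟨h3, h4⟩
    refine ⟨by rw [smul_sub, h1, h3, sub_zero], fun σ hσ => ?_⟩
    rw [smul_sub, h2 σ hσ, h4 σ hσ]
  have hbW : (b : T) ∈ Wf := ⟨b.2, hbH⟩
  have hb0' : (b : T) ≠ 0 := fun h => hb0 (Subtype.ext h.symm)
  -- a generator
  obtain ⟨⟨_, σ₀, rfl⟩, hgen⟩ := (inferInstance : IsCyclic (cyc q).range).exists_generator
  set a₀ : ℕ := ((cyc q σ₀ : (ZMod q)ˣ) : ZMod q).val with ha₀
  have hσ₀ : CycExp q σ₀ a₀ := cycExp_cyc q σ₀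
  obtain ⟨n, hn⟩ := hN σ₀ a₀ hσ₀
  have hquadW : ∀ t ∈ Wf, quad σ₀ a₀ t ∈ Wf := by
    intro t ht
    have h1 := hWfsub _ (hWfs σ₀ t ht) _ (hWfn a₀ t ht)
    exact hWfsub _ (hWfs σ₀ _ h1) _ h1
  have hexw : ∃ w ∈ Wf, w ≠ 0 ∧ quad σ₀ a₀ w = 0 := by
    have hex : ∃ j : ℕ, (quad σ₀ a₀)^[j] (b : T) = 0 := ⟨n, hn b⟩
    set j := Nat.find hex with hj
    have hj1 : (quad σ₀ a₀)^[j] (b : T) = 0 := Nat.find_spec hex
    have hj0 : j ≠ 0 := by
      intro h0
      rw [h0] at hj1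
      exact hb0' hj1
    have hj2 : (quad σ₀ a₀)^[j - 1] (b : T) ≠ 0 := Nat.find_min hex (by omega)
    refine ⟨(quad σ₀ a₀)^[j - 1] (b : T), ?_, hj2, ?_⟩
    · have : ∀ i, (quad σ₀ a₀)^[i] (b : T) ∈ Wf := by
        intro i
        induction i with
        | zero => exact hbW
        | succ i ih => rw [Function.iterate_succ_apply']; exact hquadW _ ih
      exact this _
    · have h1 := Function.iterate_succ_apply' (quad σ₀ a₀) (j - 1) (b : T)
      rw [Nat.succ_eq_add_one, Nat.sub_add_cancel (Nat.one_le_iff_ne_zero.mpr hj0)] at h1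
      rw [← h1]
      exact hj1
  obtain ⟨w, hw, hw0, hqw⟩ := hexw
  -- powers of `σ₀`
  have hdec : ∀ σ : GQ, ∃ i : ℕ, ∃ h ∈ H, σ = σ₀ ^ i * h := by
    intro σ
    obtain ⟨i, hi⟩ := (mem_powers_iff_mem_zpowers.mpr (hgen ⟨cyc q σ, σ, rfl⟩) :
      (⟨cyc q σ, σ, rfl⟩ : (cyc q).range) ∈ Submonoid.powers
        (⟨cyc q σ₀, σ₀, rfl⟩ : (cyc q).range))
    have h1 : cyc q σ₀ ^ i = cyc q σ := congrArg Subtype.val hi
    refine ⟨i, (σ₀ ^ i)⁻¹ * σ, ?_, by group⟩
    rw [MonoidHom.mem_ker, map_mul, map_inv, map_pow, h1, inv_mul_cancel]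
  by_cases hcase : σ₀ • w - a₀ • w = 0
  · refine ⟨w, hw0, hw.1, Or.inr fun σ a ha => ?_⟩
    obtain ⟨i, h, hh, rfl⟩ := hdec σ
    have h1 : σ₀ • w = a₀ • w := sub_eq_zero.mp hcase
    have h2 : ∀ i : ℕ, σ₀ ^ i • w = (a₀ ^ i) • w := by
      intro i
      induction i with
      | zero => rw [pow_zero, pow_zero, one_smul, one_smul]
      | succ i ih => rw [pow_succ, mul_smul, h1, smul_nsmul', ih, ← mul_smul, pow_succ, mul_comm]
    rw [mul_smul, hw.2 h hh, h2]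
    refine nsmul_eq_of_modEq hw.1 ?_
    have h3 : CycExp q (σ₀ ^ i * h) (a₀ ^ i * 1) := (hσ₀.pow i).mul (hH.mp hh)
    rw [mul_one] at h3
    exact h3.modEq hq.pos ha
  · have hw' := hWfsub _ (hWfs σ₀ w hw) _ (hWfn a₀ w hw)
    refine ⟨σ₀ • w - a₀ • w, hcase, hw'.1, Or.inl fun σ => ?_⟩
    have h1 : σ₀ • (σ₀ • w - a₀ • w) = σ₀ • w - a₀ • w := sub_eq_zero.mp hqw
    obtain ⟨i, h, hh, rfl⟩ := hdec σ
    rw [mul_smul, hw'.2 h hh]
    exact pow_smul_of_fixed h1 i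

end Fermat.Agent.Mzr
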