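import Mathlib
import Fermat.Agent.GCFT.Basic
import Fermat.Agent.GCFT.Mod
import Fermat.Agent.Coh.GalDict
import Fermat.Agent.LG.InertField

/-!
# Kummer theory over the rationals
-/

set_option autoImplicit false
set_option linter.unusedSectionVars false

noncomputable section

namespace Fermat.Agent.Mzr

open Fermat.Agent.Coh Fermat.Agent.GCFT Fermat.Agent.GaloisBasics Fermat.Agent.LG

/-- The field of algebraic numbers. -/
local notation "Qb" => AlgebraicClosure ℚ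
/-- The absolute Galois group. -/
local notation "GQ" => (AlgebraicClosure ℚ ≃ₐ[ℚ] AlgebraicClosure ℚ)

/-- Hilbert 90 over the rationals. -/
theorem exists_kummer (f : GQ → Qb) (hf0 : ∀ σ, f σ ≠ 0)
    (hf : ∀ σ τ, f (σ * τ) = σ (f τ) * f σ) {U : Subgroup GQ} (hU : IsOpen (U : Set GQ))
    (hUf : ∀ u ∈ U, f u = 1) : ∃ b : Qb, b ≠ 0 ∧ ∀ σ, σ b = f σ * b := by
  let a : GQ →* (Qb ≃+* Qb) :=
    { toFun := fun g => (g : Qb ≃+* Qb)
      map_one' := rfl
      map_mul' := fun _ _ => rfl }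
  obtain ⟨W, hW, hWU⟩ : ∃ W ∈ (GalD.fam ℚ Qb), W ≤ U := by
    obtain ⟨K, hK, hKU⟩ : ∃ K : IntermediateField ℚ Qb, FiniteDimensional ℚ K ∧
        K.fixingSubgroup ≤ U := by
      obtain ⟨K, h1, h2⟩ := krullTopology_mem_nhds_one_iff ℚ Qb (U : Set GQ) |>.mp
        (hU.mem_nhds U.one_mem)
      exact ⟨K, h1, h2⟩
    haveI := hK
    obtain ⟨W, hW, hWK⟩ := GalD.fam_isOpen_of_finite (k := ℚ) (Ω := Qb) K
    exact ⟨W, hW, hWK.trans hKU⟩
  obtain ⟨b, hb⟩ := h90 (GalD.fam ℚ Qb) a (by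
    rintro _ ⟨L, hL1, hL2, rfl⟩ g hg
    intro x
    exact hg x fun w hw => hw x) (fun g => Units.mk0 (f g) (hf0 g)) (by
      refine ⟨W, hW, fun g u hu => ?_⟩
      apply Units.ext
      change f (g * u) = f g
      rw [hf, hUf u (hWU hu), map_one, one_mul]) (by
      intro g h
      exact hf g h)
  refine ⟨b, b.ne_zero, fun σ => ?_⟩
  have h1 := hb σ
  change f σ = σ b / b at h1
  rw [h1, div_mul_cancel₀ _ b.ne_zero]

/-- An element fixed by the Galois group is rational. -/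
theorem exists_rat {x : Qb} (hx : ∀ σ : GQ, σ x = x) : ∃ r : ℚ, x = algebraMap ℚ Qb r := by
  have h1 : x ∈ (⊥ : IntermediateField ℚ Qb) := by
    rw [← InfiniteGalois.fixedField_bot, IntermediateField.mem_fixedField_iff]
    intro σ _
    exact hx σ
  obtain ⟨r, hr⟩ := IntermediateField.mem_bot.mp h1
  exact ⟨r, hr.symm⟩

/-- Powers in the rationals. -/
theorem exists_pow_of_val {q : ℕ} (hq : 0 < q) (u : ℚ) (hu : u ≠ 0)
    (h : ∀ ℓ : ℕ, ℓ.Prime → (q : ℤ) ∣ padicValRat ℓ u) : ∃ w : ℚ, u = w ^ q ∨ u = - w ^ q := by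
  have hnat : ∀ n : ℕ, n ≠ 0 → (∀ ℓ : ℕ, ℓ.Prime → q ∣ padicValNat ℓ n) → ∃ w : ℕ, n = w ^ q := by
    intro n hn hℓ
    refine ⟨n.factorization.prod fun ℓ k => ℓ ^ (k / q), ?_⟩
    conv_lhs => rw [← Nat.prod_factorization_pow_eq_self hn]
    rw [Finsupp.prod, Finsupp.prod, ← Finset.prod_pow]
    refine Finset.prod_congr rfl fun ℓ hm => ?_
    have hℓp : ℓ.Prime := Nat.prime_of_mem_primeFactors (by
      rwa [Nat.support_factorization] at hm)
    have h1 := hℓ ℓ hℓp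
    rw [← Nat.factorization_def n hℓp] at h1
    rw [← pow_mul, Nat.div_mul_cancel h1]
  have hnum : u.num.natAbs ≠ 0 := by
    rw [Ne, Int.natAbs_eq_zero, Rat.num_eq_zero]
    exact hu
  have hcop : ∀ ℓ : ℕ, ℓ.Prime → padicValNat ℓ u.num.natAbs = 0 ∨ padicValNat ℓ u.den = 0 := by
    intro ℓ hℓ
    by_contra hcon
    push Not at hcon
    have h1 : ℓ ∣ u.num.natAbs := dvd_of_one_le_padicValNat (Nat.one_le_iff_ne_zero.mpr hcon.1)
    have h2 : ℓ ∣ u.den := dvd_of_one_le_padicValNat (Nat.one_le_iff_ne_zero.mpr hcon.2)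
    exact hℓ.one_lt.ne' (Nat.eq_one_of_dvd_coprimes u.reduced h1 h2)
  have hval : ∀ ℓ : ℕ, ℓ.Prime → padicValRat ℓ u =
      (padicValNat ℓ u.num.natAbs : ℤ) - padicValNat ℓ u.den := by
    intro ℓ hℓ
    rfl
  obtain ⟨a, ha⟩ := hnat u.num.natAbs hnum (by
    intro ℓ hℓ
    have h1 := h ℓ hℓ
    rw [hval ℓ hℓ] at h1
    rcases hcop ℓ hℓ with h2 | h2
    · rw [h2]; exact dvd_zero q
    · rw [h2, Nat.cast_zero, sub_zero] at h1
      exact_mod_cast h1)
  obtain ⟨b, hb⟩ := hnat u.den u.den_ne_zero (by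
    intro ℓ hℓ
    have h1 := h ℓ hℓ
    rw [hval ℓ hℓ] at h1
    rcases hcop ℓ hℓ with h2 | h2
    · rw [h2, Nat.cast_zero, zero_sub, dvd_neg] at h1
      exact_mod_cast h1
    · rw [h2]; exact dvd_zero q)
  refine ⟨(a : ℚ) / b, ?_⟩
  have h3 : u = (u.num : ℚ) / u.den := (Rat.num_div_den u).symm
  have h4 : ((u.den : ℕ) : ℚ) = (b : ℚ) ^ q := by
    conv_lhs => rw [hb]
    push_cast
    rfl
  rcases Int.natAbs_eq u.num with h5 | h5
  · left
    rw [div_pow, ← h4]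
    conv_lhs => rw [h3, h5, ha]
    push_cast
    rfl
  · right
    rw [div_pow, ← h4]
    conv_lhs => rw [h3, h5, ha]
    push_cast
    ring

theorem val_nat {A : ValuationSubring Qb} {ℓ : ℕ} (hℓ : ℓ.Prime) (hA : A.LiesOverPrime ℓ) {n : ℕ}
    (hn : n ≠ 0) : A.valuation (n : Qb) = A.valuation (ℓ : Qb) ^ padicValNat ℓ n := by
  have : Fact ℓ.Prime := ⟨hℓ⟩
  obtain ⟨k, m, hk, h1⟩ := Nat.exists_eq_pow_mul_and_not_dvd hn ℓ hℓ.ne_one
  have hm0 : m ≠ 0 := by rintro rfl; exact hk (dvd_zero _)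
  have h3 : padicValNat ℓ n = k := by
    rw [h1, padicValNat.mul (pow_ne_zero _ hℓ.ne_zero) hm0,
      padicValNat.prime_pow, padicValNat.eq_zero_of_not_dvd hk, add_zero]
  rw [h3, h1]
  push_cast
  rw [map_mul, map_pow, EC.v_nat_eq_one hℓ hA hk, mul_one]

/-- The valuation of a rational number. -/
theorem val_rat {A : ValuationSubring Qb} {ℓ : ℕ} (hℓ : ℓ.Prime) (hA : A.LiesOverPrime ℓ) {u : ℚ}
    (hu : u ≠ 0) : A.valuation (algebraMap ℚ Qb u) = A.valuation (ℓ : Qb) ^ padicValRat ℓ u := by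
  have hvℓ : A.valuation (ℓ : Qb) ≠ 0 :=
    (Valuation.ne_zero_iff _).mpr (by exact_mod_cast hℓ.ne_zero)
  have hnum : u.num.natAbs ≠ 0 := by
    rw [Ne, Int.natAbs_eq_zero, Rat.num_eq_zero]
    exact hu
  have h1 : algebraMap ℚ Qb u = (u.num : Qb) / (u.den : Qb) := by
    conv_lhs => rw [← Rat.num_div_den u]
    rw [map_div₀, map_intCast, map_natCast]
  have h2 : A.valuation (u.num : Qb) = A.valuation ((u.num.natAbs : ℕ) : Qb) := by
    rcases Int.natAbs_eq u.num with h | h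
    · conv_lhs => rw [h]
      rw [Int.cast_natCast]
    · conv_lhs => rw [h]
      rw [Int.cast_neg, Int.cast_natCast, Valuation.map_neg]
  have h3 : padicValRat ℓ u = (padicValNat ℓ u.num.natAbs : ℤ) - padicValNat ℓ u.den := rfl
  rw [h1, map_div₀, h2, val_nat hℓ hA hnum, val_nat hℓ hA u.den_ne_zero, h3, zpow_sub₀ hvℓ,
    zpow_natCast, zpow_natCast]

end Fermat.Agent.Mzr
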