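import Mathlib
import Fermat.Agent.Mzr.Coc
import Fermat.Agent.Mzr.Kum
import Fermat.Agent.Mzr.Eig
import Fermat.Agent.Flat.Unram4

/-!
# Extensions which are locally trivial split
-/

set_option autoImplicit false
set_option linter.unusedSectionVars false

noncomputable section

namespace Fermat.Agent.Mzr

open Module Fermat.Agent.Flat Fermat.Agent.LG Fermat.Agent.Conn Fermat.Agent.Inertia

/-- The field of algebraic numbers. -/
local notation "Qb" => AlgebraicClosure ℚ
/-- The absolute Galois group. -/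
local notation "GQ" => (AlgebraicClosure ℚ ≃ₐ[ℚ] AlgebraicClosure ℚ)

section Quo

variable {G V : Type*} [Group G] [AddCommGroup V] [DistribMulAction G V]

variable (G) in
/-- The action on a quotient. -/
@[reducible] def quoAct (B : AddSubgroup V) (hB : ∀ (g : G), ∀ v ∈ B, g • v ∈ B) :
    DistribMulAction G (V ⧸ B) where
  smul g := QuotientAddGroup.map B B (DistribSMul.toAddMonoidHom V g) (fun v hv => hB g v hv)
  one_smul x := by
    obtain ⟨v, rfl⟩ := QuotientAddGroup.mk_surjective x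
    change ((((1 : G) • v : V)) : V ⧸ B) = v
    rw [one_smul]
  mul_smul g h x := by
    obtain ⟨v, rfl⟩ := QuotientAddGroup.mk_surjective x
    change ((((g * h) • v : V)) : V ⧸ B) = ((g • h • v : V) : V ⧸ B)
    rw [mul_smul]
  smul_zero g := map_zero _
  smul_add g x y := map_add _ _ _

theorem IsFlat_quo {R Ω : Type*} [CommRing R] [IsDomain R] [IsPrincipalIdealRing R] [Field Ω]
    [CharZero Ω] [Algebra R Ω] [MulSemiringAction G Ω] [Finite V] (hD : Desc R G Ω) (hV : IsFlat R G V Ω)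
    (B : AddSubgroup V) (hB : ∀ (g : G), ∀ v ∈ B, g • v ∈ B) :
    letI := quoAct G B hB
    IsFlat R G (V ⧸ B) Ω := by
  letI := quoAct G B hB
  exact hV.of_surjective hD (QuotientAddGroup.mk' B) (QuotientAddGroup.mk'_surjective B)
    fun _ _ => rfl

theorem hopf_value_mem {Ω : Type*} [Field Ω] [MulSemiringAction G Ω] {A : ValuationSubring Ω}
    {H : Subalgebra (fixA G A) (V → Ω)}
    (hH : IsHopfOrder (fixA G A) G H) {f : V → Ω} (hf : f ∈ H) (v : V) : f v ∈ A := by
  have h1 : IsIntegral (fixA G A) f := IsIntegral.of_mem_of_fg H hH.fg f hf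
  have h2 : IsIntegral (fixA G A) (f v) :=
    h1.map (Pi.evalAlgHom (fixA G A) (fun _ : V => Ω) v)
  have h3 : IsIntegral A (f v) := by
    obtain ⟨p, hp, hpv⟩ := h2
    let φ : fixA G A →+* A := (fixA G A).subtype.codRestrict A.toSubring fun a => a.2.1
    refine ⟨p.map φ, hp.map φ, ?_⟩
    rw [Polynomial.eval₂_map]
    exact hpv
  obtain ⟨w, hw⟩ := IsIntegrallyClosed.isIntegral_iff.mp h3
  rw [← hw]
  exact w.2

end Quo

section

variable {A : ValuationSubring Qb} {q : ℕ}

/-- **L2** for inertia groups. -/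
theorem exists_zpow_of_isFlat (hq : q.Prime) (hA : A.LiesOverPrime q) {V : Type*} [AddCommGroup V]
    [DistribMulAction (A.inertiaSubgroupIn ℚ) V]
    (hflat : IsFlat (OI A) (A.inertiaSubgroupIn ℚ) V Qb)
    {b : V} {ξ : Qb} (hξ0 : ξ ≠ 0)
    (hξp : ∀ g : A.inertiaSubgroupIn ℚ, g • ξ ^ q = ξ ^ q)
    (hb : ∀ g : A.inertiaSubgroupIn ℚ, g • ξ = ξ → g • b = b)
    (hb' : ∀ g : A.inertiaSubgroupIn ℚ, g • b = b → g • ξ = ξ)
    (hpb : ∀ g : A.inertiaSubgroupIn ℚ, q • (g • b - b) = 0) :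
    ∃ n : ℤ, A.valuation ξ = A.valuation (q : Qb) ^ n := by
  obtain ⟨H, hH⟩ := hflat
  refine exists_zpow_of_flat (unr_inertia hq hA) (fun x hx hx0 => ?_) hH
    (fun f hf w => hopf_value_mem hH hf w) hξ0 hξp hb hb' hpb
  exact exists_zpow A hq hA (mem_KI.mpr fun σ hσ => hx ⟨σ, hσ⟩) hx0

end

section Main

variable {S : Type} [AddCommGroup S] [DistribMulAction GQ S] {m : ℕ}
variable {c : GQ → S →+ Mu m} (hc : IsCoc c)

include hc in
theorem IsCoc.inv_smul (g : GQ) (x : S) : g • c g⁻¹ (g⁻¹ • x) = - c g x := by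
  have h := hc g g⁻¹ x
  rw [mul_inv_cancel, hc.one, AddMonoidHom.zero_apply] at h
  exact (neg_eq_of_add_eq_zero_right h.symm).symm

variable (c) in
/-- the part on which the cocycle is trivial -/
def cker : AddSubgroup S where
  carrier := {x | ∀ σ, c σ x = 0}
  zero_mem' σ := map_zero _
  add_mem' {x y} hx hy σ := by rw [map_add, hx, hy, add_zero]
  neg_mem' {x} hx σ := by rw [map_neg, hx, neg_zero]

include hc in
theorem cker_smul (g : GQ) {x : S} (hx : x ∈ cker c) : g • x ∈ cker c := by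
  intro σ
  have h := hc g⁻¹ σ x
  rw [hx, hx, zero_add, inv_inv] at h
  have h2 := congrArg (fun z => g • z) h
  rw [smul_zero, smul_inv_smul] at h2
  exact h2.symm

variable (c) in
/-- the part on which the cocycle has invariant values -/
def cinv (q : ℕ) : AddSubgroup S where
  carrier := {x | ∀ g h : GQ, h • c g (h⁻¹ • x) = c g x ∧ q • c g x = 0}
  zero_mem' g h := by simp
  add_mem' {x y} hx hy g h := by
    rw [smul_add, map_add, map_add, smul_add, (hx g h).1, (hy g h).1, smul_add, (hx g h).2,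
      (hy g h).2, add_zero]
    exact ⟨rfl, rfl⟩
  neg_mem' {x} hx g h := by
    rw [smul_neg, map_neg, map_neg, smul_neg, (hx g h).1, smul_neg, (hx g h).2, neg_zero]
    exact ⟨rfl, rfl⟩

theorem cinv_apply {q : ℕ} {x : S} (hx : x ∈ cinv c q) (g h : GQ) : c g (h • x) = h • c g x := by
  have h1 := (hx g h⁻¹).1
  rw [inv_inv, inv_smul_eq_iff] at h1
  exact h1

theorem cinv_smul {q : ℕ} (h' : GQ) {x : S} (hx : x ∈ cinv c q) : h' • x ∈ cinv c q := by
  intro g h
  rw [cinv_apply hx, ← mul_smul h⁻¹, cinv_apply hx, ← mul_smul, mul_inv_cancel_left]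
  refine ⟨rfl, ?_⟩
  rw [← smul_nsmul', (hx g h).2, smul_zero]

/-- the projection to the roots of unity -/
def prMu (E₁ : AddSubgroup (Ext c hc)) : AddChar E₁ Qb where
  toFun p := Mu.val (p : Ext c hc).2
  map_zero_eq_one' := rfl
  map_add_eq_mul' _ _ := rfl

/-- **L1** for cocycles. -/
theorem coc_inertia [Finite S] [NeZero m] {q : ℕ} (hq : q.Prime) (hq2 : q ≠ 2)
    {A : ValuationSubring Qb}
    (hA : A.LiesOverPrime q) (hflat : IsFlat (OI A) (A.inertiaSubgroupIn ℚ) (Ext c hc) Qb)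
    {x : S} (hx : x ∈ cinv c q) {g : GQ} (hg : g ∈ A.inertiaSubgroupIn ℚ) : c g x = 0 := by
  classical
  have hdvr := isDVR_OI hq hA
  let G := A.inertiaSubgroupIn ℚ
  let E₁ : AddSubgroup (Ext c hc) :=
    { carrier := {p | p.1 ∈ cinv c q}
      zero_mem' := (cinv c q).zero_mem
      add_mem' := fun ha hb => (cinv c q).add_mem ha hb
      neg_mem' := fun ha => (cinv c q).neg_mem ha }
  have hE₁ : ∀ (g : G), ∀ v ∈ E₁, g • v ∈ E₁ := by
    intro g v hv
    exact cinv_smul (g : GQ) hv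
  letI := subAct G E₁ hE₁
  have hfl : IsFlat (OI A) G E₁ Qb :=
    hflat.of_injective E₁.subtype E₁.subtype_injective fun _ _ => rfl
  obtain ⟨H, hH⟩ := hfl
  haveI : Finite E₁ := inferInstance
  haveI := Fintype.ofFinite E₁
  have h0 : ∀ f ∈ H, ∃ r : OI A, algebraMap (OI A) Qb r = f 0 := fun f hf =>
    hopf_zero hH (fun f hf w => hopf_value_mem hH hf w) f hf
  have hHD := dual_isHopfOrder desc_fixA hH h0
  letI := dualAct G E₁ Qb
  let ψ : Additive (AddChar E₁ Qb) := Additive.ofMul (prMu hc E₁)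
  have hact : ∀ (g : G) (p : E₁), (g • ψ).toMul p =
      Mu.val ((p : Ext c hc).2 - c g (p : Ext c hc).1) := by
    intro g p
    change (g : GQ) (Mu.val ((g : GQ)⁻¹ • (p : Ext c hc).2 +
      c (g : GQ)⁻¹ ((g : GQ)⁻¹ • (p : Ext c hc).1))) = _
    rw [← Mu.val_smul, smul_add, smul_inv_smul, hc.inv_smul, sub_eq_add_neg]
  have hκ : ∀ (g : G) (p : E₁), (g • ψ - ψ).toMul p = Mu.val (- c g (p : Ext c hc).1) := by
    intro g p
    have h1 : (g • ψ - ψ).toMul p = (g • ψ).toMul p * (ψ.toMul p)⁻¹ := by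
      have h2 : (g • ψ - ψ) + ψ = g • ψ := sub_add_cancel _ _
      have h3 : (g • ψ - ψ).toMul p * ψ.toMul p = (g • ψ).toMul p := by
        rw [← AddChar.mul_apply, ← toMul_add, h2]
      have h4 : ψ.toMul p ≠ 0 := Mu.val_ne _
      rw [← h3, mul_assoc, mul_inv_cancel₀ h4, mul_one]
    rw [h1, hact]
    change _ * (Mu.val (p : Ext c hc).2)⁻¹ = _
    rw [← Mu.val_neg, ← Mu.val_add]
    congr 1
    abel
  have hL := smul_sub_eq_zero (unr_inertia hq hA) hq2 hHD
    (fun f hf w => hopf_value_mem hHD hf w) (⟨g, hg⟩ : G) ψ (by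
      apply Additive.toMul.injective
      ext p
      have h1 : ((q • ((⟨g, hg⟩ : G) • ψ - ψ)).toMul) p =
          (((⟨g, hg⟩ : G) • ψ - ψ).toMul p) ^ q := by
        rw [toMul_nsmul, AddChar.pow_apply]
      rw [h1, hκ, ← Mu.val_nsmul, smul_neg, (p.2 g 1).2, neg_zero]
      rfl) (by
      intro h
      apply Additive.toMul.injective
      ext p
      change (h : GQ) (((⟨g, hg⟩ : G) • ψ - ψ).toMul (h⁻¹ • p)) = _
      rw [hκ, hκ, ← Mu.val_smul, smul_neg]
      congr 2
      exact (p.2 g h).1)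
  have h1 := congrArg (fun φ : Additive (AddChar E₁ Qb) =>
    φ.toMul ⟨Ext.mk hc x 0, hx⟩) hL
  change ((⟨g, hg⟩ : G) • ψ).toMul _ = Mu.val (0 : Mu m) at h1
  rw [hact] at h1
  have h2 := Mu.ext h1
  change (0 : Mu m) - c g x = 0 at h2
  rw [zero_sub, neg_eq_zero] at h2
  exact h2

end Main

end Fermat.Agent.Mzr
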