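import Mathlib
import Fermat.Agent.Mzr.Thm3

/-!
# Sums of flat extensions
-/

set_option autoImplicit false
set_option linter.unusedSectionVars false

noncomputable section

namespace Fermat.Agent.Mzr

open Module Fermat.Agent.Flat Fermat.Agent.LG Fermat.Agent.Conn Fermat.Agent.Inertia

/-- The field of algebraic numbers. -/
local notation "Qb" => AlgebraicClosure ℚ
/-- The absolute Galois group. -/
local notation "GQ" => (AlgebraicClosure ℚ ≃ₐ[ℚ] AlgebraicClosure ℚ)

section Coc

variable {S : Type} [AddCommGroup S] [DistribMulAction GQ S] {m : ℕ}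

/-- the action on the dual -/
def vact (σ : GQ) (v : S →+ Mu m) : S →+ Mu m where
  toFun x := σ • v (σ⁻¹ • x)
  map_zero' := by rw [smul_zero, map_zero, smul_zero]
  map_add' x y := by rw [smul_add, map_add, smul_add]

theorem vact_apply (σ : GQ) (v : S →+ Mu m) (x : S) : vact σ v x = σ • v (σ⁻¹ • x) := rfl

theorem vact_mul (σ τ : GQ) (v : S →+ Mu m) : vact (σ * τ) v = vact σ (vact τ v) := by
  ext x
  simp only [vact_apply, mul_inv_rev, mul_smul]

theorem vact_one (v : S →+ Mu m) : vact 1 v = v := by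
  ext x
  simp only [vact_apply, inv_one, one_smul]

theorem vact_add (σ : GQ) (v w : S →+ Mu m) : vact σ (v + w) = vact σ v + vact σ w := by
  ext x
  simp only [vact_apply, AddMonoidHom.add_apply, smul_add]

theorem vact_zero (σ : GQ) : vact σ (0 : S →+ Mu m) = 0 := by
  ext x
  simp only [vact_apply, AddMonoidHom.zero_apply, smul_zero]

theorem vact_neg (σ : GQ) (v : S →+ Mu m) : vact σ (-v) = - vact σ v := by
  ext x
  simp only [vact_apply, AddMonoidHom.neg_apply, smul_neg]

theorem vact_sub (σ : GQ) (v w : S →+ Mu m) : vact σ (v - w) = vact σ v - vact σ w := by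
  rw [sub_eq_add_neg, vact_add, vact_neg, ← sub_eq_add_neg]

theorem vact_nsmul (σ : GQ) (n : ℕ) (v : S →+ Mu m) : vact σ (n • v) = n • vact σ v := by
  induction n with
  | zero => rw [zero_smul, zero_smul, vact_zero]
  | succ n ih => rw [succ_nsmul, succ_nsmul, vact_add, ih]

/-- coboundaries -/
def cob (v : S →+ Mu m) (σ : GQ) : S →+ Mu m := vact σ v - v

theorem isCoc_iff {c : GQ → S →+ Mu m} : IsCoc c ↔ ∀ σ τ, c (σ * τ) = c σ + vact σ (c τ) := by
  constructor
  · intro h σ τ
    ext x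
    exact h σ τ x
  · intro h σ τ x
    rw [h]
    rfl

theorem isCoc_cob (v : S →+ Mu m) : IsCoc (cob v) := by
  rw [isCoc_iff]
  intro σ τ
  rw [cob, cob, cob, vact_mul, vact_sub]
  abel

theorem IsCoc.add {c c' : GQ → S →+ Mu m} (hc : IsCoc c) (hc' : IsCoc c') : IsCoc (c + c') := by
  rw [isCoc_iff] at hc hc' ⊢
  intro σ τ
  simp only [Pi.add_apply]
  rw [hc, hc', vact_add]
  abel

theorem IsCoc.neg {c : GQ → S →+ Mu m} (hc : IsCoc c) : IsCoc (-c) := by
  rw [isCoc_iff] at hc ⊢
  intro σ τ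
  simp only [Pi.neg_apply]
  rw [hc, vact_neg]
  abel

theorem isCoc_zero : IsCoc (0 : GQ → S →+ Mu m) := by
  rw [isCoc_iff]
  intro σ τ
  simp only [Pi.zero_apply]
  rw [vact_zero, add_zero]

end Coc

section Flat

variable {S : Type} [AddCommGroup S] [Finite S] [DistribMulAction GQ S] {m q : ℕ} [NeZero m]
variable {c c' : GQ → S →+ Mu m} {A : ValuationSubring Qb}

/-- the extension is flat -/
def FlatC (A : ValuationSubring Qb) (c : GQ → S →+ Mu m) : Prop :=
  ∃ hc : IsCoc c, IsFlat (OI A) (A.inertiaSubgroupIn ℚ) (Ext c hc) Qb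

theorem FlatC.add (hq : q.Prime) (hA : A.LiesOverPrime q) (h : FlatC A c) (h' : FlatC A c') :
    FlatC A (c + c') := by
  obtain ⟨hc, hfl⟩ := h
  obtain ⟨hc', hfl'⟩ := h'
  have hdvr := isDVR_OI hq hA
  let G := A.inertiaSubgroupIn ℚ
  refine ⟨hc.add hc', ?_⟩
  let P : AddSubgroup (Ext c hc × Ext c' hc') :=
    { carrier := {p | p.1.1 = p.2.1}
      zero_mem' := rfl
      add_mem' := fun {a b} ha hb => by
        change a.1.1 + b.1.1 = a.2.1 + b.2.1
        rw [show a.1.1 = a.2.1 from ha, show b.1.1 = b.2.1 from hb]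
      neg_mem' := fun {a} ha => by
        change -a.1.1 = -a.2.1
        rw [show a.1.1 = a.2.1 from ha] }
  have hP : ∀ (g : G), ∀ v ∈ P, g • v ∈ P := by
    intro g v hv
    change (g : GQ) • v.1.1 = (g : GQ) • v.2.1
    rw [show v.1.1 = v.2.1 from hv]
  letI := subAct G P hP
  have hprod := hfl.prod hfl'
  have hflP : IsFlat (OI A) G P Qb :=
    hprod.of_injective P.subtype P.subtype_injective fun _ _ => rfl
  let φ : P →+ Ext (c + c') (hc.add hc') :=
    { toFun := fun p => Ext.mk (hc.add hc') (p : Ext c hc × Ext c' hc').1.1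
        ((p : Ext c hc × Ext c' hc').1.2 + (p : Ext c hc × Ext c' hc').2.2)
      map_zero' := by
        change ((0 : S), (0 : Mu m) + 0) = 0
        rw [add_zero]; rfl
      map_add' := fun a b => by
        refine Prod.ext rfl ?_
        change (_ + _) + (_ + _) = (_ + _) + (_ + _)
        exact add_add_add_comm _ _ _ _ }
  haveI : Finite (Ext c hc × Ext c' hc') := inferInstance
  refine hflP.of_surjective desc_fixA φ ?_ ?_
  · intro p
    refine ⟨⟨(Ext.mk hc p.1 p.2, Ext.mk hc' p.1 0), rfl⟩, ?_⟩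
    refine Prod.ext rfl ?_
    exact add_zero _
  · intro g p
    refine Prod.ext rfl ?_
    have hp : (p : Ext c hc × Ext c' hc').1.1 = (p : Ext c hc × Ext c' hc').2.1 := p.2
    change ((g : GQ) • (p : Ext c hc × Ext c' hc').1.2 +
        c g ((g : GQ) • (p : Ext c hc × Ext c' hc').1.1)) +
      ((g : GQ) • (p : Ext c hc × Ext c' hc').2.2 +
        c' g ((g : GQ) • (p : Ext c hc × Ext c' hc').2.1)) =
      (g : GQ) • ((p : Ext c hc × Ext c' hc').1.2 + (p : Ext c hc × Ext c' hc').2.2) +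
        (c g ((g : GQ) • (p : Ext c hc × Ext c' hc').1.1) +
          c' g ((g : GQ) • (p : Ext c hc × Ext c' hc').1.1))
    rw [hp, smul_add]
    exact add_add_add_comm _ _ _ _

theorem FlatC.neg (h : FlatC A c) : FlatC A (-c) := by
  obtain ⟨hc, hfl⟩ := h
  refine ⟨hc.neg, ?_⟩
  let φ : Ext (-c) hc.neg →+ Ext c hc :=
    { toFun := fun p => Ext.mk hc p.1 (-p.2)
      map_zero' := by
        change ((0 : S), -(0 : Mu m)) = 0
        rw [neg_zero]; rfl
      map_add' := fun a b => Prod.ext rfl (neg_add _ _) }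
  refine hfl.of_injective φ ?_ ?_
  · intro a b hab
    have h1 : (a.1, -a.2) = ((b.1, -b.2) : S × Mu m) := hab
    obtain ⟨h2, h3⟩ := Prod.mk.inj h1
    exact Prod.ext h2 (neg_injective h3)
  · intro g p
    refine Prod.ext rfl ?_
    change -((g : GQ) • p.2 + -(c g ((g : GQ) • p.1))) = (g : GQ) • -p.2 + c g ((g : GQ) • p.1)
    rw [smul_neg, neg_add, neg_neg]

theorem FlatC.zero (hq : q.Prime) (hA : A.LiesOverPrime q) (h : FlatC A c) :
    FlatC A (0 : GQ → S →+ Mu m) := by
  have := h.add hq hA h.neg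
  rwa [add_neg_cancel] at this

theorem FlatC.cob (hq : q.Prime) (hA : A.LiesOverPrime q) (h : FlatC A c) (v : S →+ Mu m) :
    FlatC A (cob v) := by
  obtain ⟨h0, hfl⟩ := h.zero hq hA
  refine ⟨isCoc_cob v, ?_⟩
  let φ : Ext (Mzr.cob v) (isCoc_cob v) →+ Ext 0 h0 :=
    { toFun := fun p => Ext.mk h0 p.1 (p.2 + v p.1)
      map_zero' := by
        change ((0 : S), (0 : Mu m) + v 0) = 0
        rw [map_zero, add_zero]; rfl
      map_add' := fun a b => by
        refine Prod.ext rfl ?_
        change (a.2 + b.2) + v (a.1 + b.1) = _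
        rw [map_add]
        exact add_add_add_comm _ _ _ _ }
  refine hfl.of_injective φ ?_ ?_
  · intro a b hab
    have h0 : (a.1, a.2 + v a.1) = ((b.1, b.2 + v b.1) : S × Mu m) := hab
    obtain ⟨h1, h2⟩ := Prod.mk.inj h0
    rw [h1] at h2
    exact Prod.ext h1 (add_right_cancel h2)
  · intro g p
    refine Prod.ext rfl ?_
    change ((g : GQ) • p.2 + ((g : GQ) • v ((g : GQ)⁻¹ • (g : GQ) • p.1) - v ((g : GQ) • p.1))) +
      v ((g : GQ) • p.1) = (g : GQ) • (p.2 + v p.1) + 0
    rw [inv_smul_smul, smul_add, add_zero, add_assoc, sub_add_cancel]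

end Flat

end Fermat.Agent.Mzr
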