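import Mathlib
import Fermat.Agent.RT.LocGen3
import Fermat.Agent.PT.Conc

/-!
# Tame inertia acting on a finite module
-/

set_option autoImplicit false
set_option linter.unusedSectionVars false

noncomputable section

namespace Fermat.Agent.Mzr

open Fermat.Agent.RT Fermat.Agent.GCFT Fermat.Agent.LocalCFT Fermat.Agent.GalD Fermat.Agent.Coh

/-- The field of algebraic numbers. -/
local notation "Qb" => AlgebraicClosure ℚ
/-- The absolute Galois group. -/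
local notation "GQ" => (AlgebraicClosure ℚ ≃ₐ[ℚ] AlgebraicClosure ℚ)

theorem exists_tame {E : Type} [AddCommGroup E] [DistribMulAction GQ E] {q : ℕ} (hq : q.Prime)
    {N : Nat.Primes} (hqN : q ≠ N) {U : Subgroup GQ} (hU : IsOpen (U : Set GQ))
    (hUE : ∀ u ∈ U, ∀ e : E, u • e = e)
    (hpp : ∀ σ ∈ (padicPlace (N : ℕ)).inertiaSubgroupIn ℚ, ∃ n : ℕ, ∀ e : E, σ ^ q ^ n • e = e) :
    ∃ σ₀ ∈ (padicPlace (N : ℕ)).inertiaSubgroupIn ℚ, ∃ φ : GQ,
      (padicPlace (N : ℕ)).IsFrobeniusAt φ N ∧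
      (∀ σ ∈ (padicPlace (N : ℕ)).inertiaSubgroupIn ℚ, ∃ k : ℤ, ∀ e : E, σ • e = σ₀ ^ k • e) ∧
      ∀ e : E, (φ * σ₀ * φ⁻¹) • e = σ₀ ^ (N : ℕ) • e := by
  let h : Gl N →* Equiv.Perm E := (MulAction.toPermHom GQ E).comp (rl N)
  let W : Subgroup (Gl N) := U.comap (rl N)
  have hW : (LF (N : ℕ)).IsOpen W := PT.rl_cont hU
  have hhW : ∀ g ∈ W, h g = 1 := by
    intro g hg
    apply Equiv.ext
    intro e
    exact hUE _ hg e
  have hpp' : ∀ g ∈ Il (N : ℕ), ∃ n, h g ^ q ^ n = 1 := by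
    intro g hg
    obtain ⟨n, hn⟩ := hpp _ (rl_mem_inertia hg)
    refine ⟨n, ?_⟩
    rw [← map_pow]
    apply Equiv.ext
    intro e
    have := hn e
    rw [← map_pow] at this
    exact this
  obtain ⟨τ, hτ, hgen⟩ := exists_tame_gen (N : ℕ) hq hqN
  obtain ⟨φ, hφ⟩ := exists_isFrobL (l := (N : ℕ))
  have hz : ∀ (k : ℤ) (e : E), (h τ ^ k) e = (rl N τ) ^ k • e := by
    intro k e
    rw [← map_zpow]
    change rl N (τ ^ k) • e = _
    rw [map_zpow]
  refine ⟨rl N τ, rl_mem_inertia hτ, rl N φ, rl_isFrobeniusAt hφ, fun σ hσ => ?_, fun e => ?_⟩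
  · obtain ⟨s, hs, u, hu, rfl⟩ := exists_rl_inertia hU hσ
    obtain ⟨k, hk⟩ := Subgroup.mem_zpowers_iff.mp (hgen (Equiv.Perm E) h W hW hhW hpp' s hs)
    refine ⟨k, fun e => ?_⟩
    rw [mul_smul, hUE u hu, ← hz, hk]
    rfl
  · have h1 := frob_tame hq hqN hW hhW hpp' hφ hτ
    have h2 := congrArg (fun p : Equiv.Perm E => p e) h1
    have h3 : (h τ ^ (N : ℕ)) e = (rl N τ) ^ (N : ℕ) • e := by
      rw [← map_pow]
      change rl N (τ ^ (N : ℕ)) • e = _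
      rw [map_pow]
    have h4 : (h (φ * τ * φ⁻¹)) e = (rl N φ * rl N τ * (rl N φ)⁻¹) • e := by
      change rl N (φ * τ * φ⁻¹) • e = _
      rw [map_mul, map_mul, map_inv]
    rw [← h4, ← h3]
    exact h2

end Fermat.Agent.Mzr
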