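import Mathlib
import Fermat.Agent.Mzr.Thm3
import Fermat.Agent.Inertia.Minkowski

/-!
# Extensions which are locally trivial split, II
-/

set_option autoImplicit false
set_option linter.unusedSectionVars false

noncomputable section

namespace Fermat.Agent.Mzr

open Module Fermat.Agent.Flat Fermat.Agent.LG Fermat.Agent.Conn Fermat.Agent.Inertia

/-- The field of algebraic numbers. -/
local notation "Qb" => AlgebraicClosure ℚ
/-- The absolute Galois group. -/
local notation "GQ" => (AlgebraicClosure ℚ ≃ₐ[ℚ] AlgebraicClosure ℚ)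

theorem zpow_inj_of_lt {Γ₀ : Type*} [LinearOrderedCommGroupWithZero Γ₀] {a : Γ₀} (ha0 : a ≠ 0)
    (ha : a < 1) {m n : ℤ} (h : a ^ m = a ^ n) : m = n := by
  have key : ∀ n : ℤ, a ^ n = 1 → n = 0 := by
    intro n hn
    by_contra h0
    have h1 : ∀ k : ℕ, a ^ (k + 1) ≠ 1 := fun k => (pow_lt_one₀ zero_le ha (Nat.succ_ne_zero k)).ne
    rcases lt_or_gt_of_ne h0 with h2 | h2
    · obtain ⟨k, hk⟩ : ∃ k : ℕ, n = -((k : ℤ) + 1) := ⟨(-n - 1).toNat, by omega⟩
      apply h1 k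
      rw [hk, zpow_neg, inv_eq_one] at hn
      exact_mod_cast hn
    · obtain ⟨k, hk⟩ : ∃ k : ℕ, n = (k : ℤ) + 1 := ⟨(n - 1).toNat, by omega⟩
      apply h1 k
      rw [hk] at hn
      exact_mod_cast hn
  have h1 := key (m - n) (by rw [zpow_sub₀ ha0, h, div_self (zpow_ne_zero _ ha0)])
  omega

section Main

variable {S : Type} [AddCommGroup S] [Finite S] [DistribMulAction GQ S] {m q : ℕ} [NeZero m]
variable {c : GQ → S →+ Mu m} (hc : IsCoc c)

/-- The case of a trivial character. -/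
theorem case_one (hq : q.Prime)
    {U : Subgroup GQ} (hU : IsOpen (U : Set GQ)) (hUc : ∀ u ∈ U, c u = 0)
    {A : ValuationSubring Qb} (hA : A.LiesOverPrime q)
    (hflat : IsFlat (OI A) (A.inertiaSubgroupIn ℚ) (Ext c hc) Qb)
    (hunr : ∀ ℓ : ℕ, ℓ.Prime → ℓ ≠ q → ∃ A' : ValuationSubring Qb, A'.LiesOverPrime ℓ ∧
      ∀ σ ∈ A'.inertiaSubgroupIn ℚ, c σ = 0)
    {τ : GQ} (hτ : ∀ (ζ : Qb) (n : ℕ), 0 < n → ζ ^ n = 1 → τ ζ = ζ⁻¹) (hcτ : c τ = 0)
    {x : S} (hqx : q • x ∈ cker c) (hx : ∀ σ : GQ, σ • x - x ∈ cker c) : x ∈ cker c := by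
  have hmul : ∀ σ τ : GQ, c σ (τ • x) = c σ x := by
    intro σ τ
    have h1 := hx τ σ
    rw [map_sub, sub_eq_zero] at h1
    exact h1
  have hdq : ∀ σ, (c σ x).val ^ q = 1 := by
    intro σ
    rw [← Mu.val_nsmul, ← map_nsmul, hqx σ, Mu.val_zero]
  obtain ⟨ξ, hξ0, hξ⟩ := exists_kummer (fun σ => (c σ x).val) (fun σ => Mu.val_ne _)
    (fun σ τ => by
      change (c (σ * τ) x).val = σ (c τ x).val * (c σ x).val
      rw [hc, hmul, Mu.val_add, Mu.val_smul, mul_comm]) hU (fun u hu => by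
      change (c u x).val = 1
      rw [hUc u hu]; rfl)
  have hfix : ∀ σ : GQ, σ (ξ ^ q) = ξ ^ q := by
    intro σ
    rw [map_pow, hξ, mul_pow, hdq, one_mul]
  obtain ⟨r, hr⟩ := exists_rat hfix
  have hr0 : r ≠ 0 := by
    rintro rfl
    rw [map_zero] at hr
    exact pow_ne_zero _ hξ0 hr
  -- from `v ξ` a power of `v ℓ`
  have hconc : ∀ (ℓ : ℕ), ℓ.Prime → ∀ A' : ValuationSubring Qb, A'.LiesOverPrime ℓ →
      (∃ n : ℤ, A'.valuation ξ = A'.valuation (ℓ : Qb) ^ n) → (q : ℤ) ∣ padicValRat ℓ r := by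
    rintro ℓ hℓ A' hA' ⟨n, hn⟩
    have h1 := congrArg A'.valuation hr
    have hvℓ : A'.valuation (ℓ : Qb) ≠ 0 :=
      (Valuation.ne_zero_iff _).mpr (by exact_mod_cast hℓ.ne_zero)
    rw [map_pow, hn, val_rat hℓ hA' hr0, ← zpow_natCast, ← zpow_mul] at h1
    have h2 := zpow_inj_of_lt hvℓ hA' h1
    rw [← h2]
    exact dvd_mul_left _ _
  have hall : ∀ ℓ : ℕ, ℓ.Prime → (q : ℤ) ∣ padicValRat ℓ r := by
    intro ℓ hℓ
    by_cases hℓq : ℓ = q
    · subst hℓq
      refine hconc ℓ hℓ A hA ?_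
      -- the quotient by the split part
      have hdvr := isDVR_OI hℓ hA
      let B : AddSubgroup (Ext c hc) :=
        { carrier := {p | p.1 ∈ cker c ∧ p.2 = 0}
          zero_mem' := ⟨(cker c).zero_mem, rfl⟩
          add_mem' := by
            rintro a b ⟨ha, ha'⟩ ⟨hb, hb'⟩
            refine ⟨(cker c).add_mem ha hb, ?_⟩
            change a.2 + b.2 = 0
            rw [ha', hb', add_zero]
          neg_mem' := by
            rintro a ⟨ha, ha'⟩
            refine ⟨(cker c).neg_mem ha, ?_⟩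
            change -a.2 = 0
            rw [ha', neg_zero] }
      have hB : ∀ (g : A.inertiaSubgroupIn ℚ), ∀ v ∈ B, g • v ∈ B := by
        rintro g v ⟨h1, h2⟩
        have h3 := cker_smul hc (g : GQ) h1
        refine ⟨h3, ?_⟩
        change (g : GQ) • v.2 + c g ((g : GQ) • v.1) = 0
        rw [h2, smul_zero, zero_add]
        exact h3 _
      letI := quoAct (A.inertiaSubgroupIn ℚ) B hB
      have hfl := IsFlat_quo desc_fixA hflat B hB
      have hsub : ∀ g : A.inertiaSubgroupIn ℚ,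
          g • (QuotientAddGroup.mk (Ext.mk hc x 0) : Ext c hc ⧸ B) -
            QuotientAddGroup.mk (Ext.mk hc x 0) =
          QuotientAddGroup.mk (Ext.mk hc ((g : GQ) • x - x) (c g x)) := by
        intro g
        change (QuotientAddGroup.mk ((g : GQ) • Ext.mk hc x 0) : Ext c hc ⧸ B) -
            QuotientAddGroup.mk (Ext.mk hc x 0) = _
        rw [Ext.smul_mk, smul_zero, zero_add, hmul, ← QuotientAddGroup.mk_sub, Ext.mk_sub, sub_zero]
      have hmem : ∀ (y : S) (z : Mu m), Ext.mk hc y z ∈ B ↔ y ∈ cker c ∧ z = 0 := fun _ _ => Iff.rfl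
      have hiff : ∀ g : A.inertiaSubgroupIn ℚ,
          g • (QuotientAddGroup.mk (Ext.mk hc x 0) : Ext c hc ⧸ B) =
            QuotientAddGroup.mk (Ext.mk hc x 0) ↔ c g x = 0 := by
        intro g
        rw [← sub_eq_zero, hsub, QuotientAddGroup.eq_zero_iff, hmem]
        exact ⟨fun h => h.2, fun h => ⟨hx g, h⟩⟩
      have hiff2 : ∀ g : A.inertiaSubgroupIn ℚ, g • ξ = ξ ↔ c g x = 0 := by
        intro g
        change (g : GQ) ξ = ξ ↔ _
        rw [hξ]
        constructor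
        · intro h
          apply Mu.ext
          rw [Mu.val_zero]
          exact mul_right_cancel₀ hξ0 (by rw [h, one_mul])
        · intro h
          rw [h, Mu.val_zero, one_mul]
      refine exists_zpow_of_isFlat hℓ hA hfl (b := QuotientAddGroup.mk (Ext.mk hc x 0)) hξ0
        (fun g => hfix g) (fun g hg => (hiff g).mpr ((hiff2 g).mp hg))
        (fun g hg => (hiff2 g).mpr ((hiff g).mp hg)) fun g => ?_
      rw [hsub, ← QuotientAddGroup.mk_nsmul, QuotientAddGroup.eq_zero_iff, Ext.nsmul_mk, hmem]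
      refine ⟨(cker c).nsmul_mem (hx g) _, ?_⟩
      rw [← map_nsmul]
      exact hqx g
    · obtain ⟨A', hA', hI⟩ := hunr ℓ hℓ hℓq
      refine hconc ℓ hℓ A' hA' (exists_zpow A' hℓ hA' (mem_KI.mpr fun σ hσ => ?_) hξ0)
      rw [hξ, hI σ hσ]
      change (0 : Mu m).val * ξ = ξ
      rw [Mu.val_zero, one_mul]
  obtain ⟨w, hw⟩ := exists_pow_of_val hq.pos r hr0 hall
  have hw0 : w ≠ 0 := by
    rintro rfl
    rw [zero_pow hq.ne_zero, neg_zero, or_self] at hw
    exact hr0 hw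
  set w' : Qb := algebraMap ℚ Qb w with hw'
  have hw'0 : w' ≠ 0 := by
    rw [hw', Ne, map_eq_zero]
    exact hw0
  have hwfix : ∀ σ : GQ, σ w' = w' := fun σ => σ.commutes w
  have h2 : (ξ / w') ^ (2 * q) = 1 := by
    rw [mul_comm, pow_mul, div_pow, hr]
    rcases hw with h | h
    · rw [h, map_pow, ← hw', div_self (pow_ne_zero _ hw'0), one_pow]
    · rw [h, map_neg, map_pow, ← hw', neg_div, div_self (pow_ne_zero _ hw'0)]
      norm_num
  have h3 := hτ _ _ (by have := hq.pos; omega) h2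
  have h4 : τ ξ = ξ := by
    rw [hξ, hcτ]
    change (0 : Mu m).val * ξ = ξ
    rw [Mu.val_zero, one_mul]
  rw [map_div₀, hwfix, h4, inv_div] at h3
  have h5 : ξ ^ 2 = w' ^ 2 := by
    rw [div_eq_div_iff hw'0 hξ0] at h3
    rw [sq, sq, h3]
  have h6 : ∀ σ : GQ, σ ξ = ξ := by
    rcases sq_eq_sq_iff_eq_or_eq_neg.mp h5 with h | h
    · rw [h]; exact hwfix
    · intro σ
      rw [h, map_neg, hwfix]
  intro σ
  apply Mu.ext
  rw [Mu.val_zero]
  have h7 := hξ σ
  rw [h6] at h7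
  exact (mul_right_cancel₀ hξ0 (by rw [one_mul]; exact h7)).symm

/-- The case of the cyclotomic character. -/
theorem case_cyc (hq : q.Prime) (hq2 : q ≠ 2)
    {U : Subgroup GQ} (hU : IsOpen (U : Set GQ)) (hUc : ∀ u ∈ U, c u = 0)
    {A : ValuationSubring Qb} (hA : A.LiesOverPrime q)
    (hflat : IsFlat (OI A) (A.inertiaSubgroupIn ℚ) (Ext c hc) Qb)
    (hunr : ∀ ℓ : ℕ, ℓ.Prime → ℓ ≠ q → ∃ A' : ValuationSubring Qb, A'.LiesOverPrime ℓ ∧
      ∀ σ ∈ A'.inertiaSubgroupIn ℚ, c σ = 0)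
    {x : S} (hqx : q • x ∈ cker c)
    (hx : ∀ (σ : GQ) (a : ℕ), CycExp q σ a → σ • x - a • x ∈ cker c) : x ∈ cker c := by
  haveI : NeZero q := ⟨hq.ne_zero⟩
  have hmul : ∀ (σ τ : GQ) (a : ℕ), CycExp q τ a → c σ (τ • x) = a • c σ x := by
    intro σ τ a ha
    have h1 := hx τ a ha σ
    rw [map_sub, sub_eq_zero, map_nsmul] at h1
    exact h1
  have hqz : ∀ σ, q • c σ x = 0 := by
    intro σ
    rw [← map_nsmul]
    exact hqx σ
  have hcyc : ∀ (τ : GQ) (a : ℕ), CycExp q τ a → ∀ z : Mu m, q • z = 0 → τ • z = a • z := by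
    intro τ a ha z hz
    apply Mu.ext
    rw [Mu.val_smul, Mu.val_nsmul]
    exact ha _ (by rw [← Mu.val_nsmul, hz, Mu.val_zero])
  have hinv : ∀ g h : GQ, h • c g (h⁻¹ • x) = c g x := by
    intro g h
    rw [hmul g h⁻¹ _ (cycExp_cyc q h⁻¹), ← hcyc h⁻¹ _ (cycExp_cyc q h⁻¹) _ (hqz g),
      smul_inv_smul]
  have hxinv : x ∈ cinv c q := fun g h => ⟨hinv g h, hqz g⟩
  have hhom : ∀ σ τ : GQ, c (σ * τ) x = c σ x + c τ x := by
    intro σ τ
    rw [hc, hinv]
  let K : Subgroup GQ :=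
    { carrier := {σ | c σ x = 0}
      one_mem' := by
        change c 1 x = 0
        rw [hc.one]; rfl
      mul_mem' := fun {a b} ha hb => by
        change c (a * b) x = 0
        rw [hhom, show c a x = 0 from ha, show c b x = 0 from hb, add_zero]
      inv_mem' := fun {a} ha => by
        change c a⁻¹ x = 0
        have h1 := hhom a a⁻¹
        rw [mul_inv_cancel, hc.one, show c a x = 0 from ha, zero_add] at h1
        exact h1.symm }
  have hK : K = ⊤ := by
    refine eq_top_of_inertia_le K ?_ ?_ ?_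
    · refine Subgroup.isOpen_mono (H₁ := U) (fun u hu => ?_) hU
      change c u x = 0
      rw [hUc u hu]; rfl
    · constructor
      intro n hn g
      change c (g * n * g⁻¹) x = 0
      have h1 : c (g * g⁻¹) x = 0 := by rw [mul_inv_cancel, hc.one]; rfl
      rw [hhom] at h1
      rw [hhom, hhom, show c n x = 0 from hn, add_zero]
      exact h1
    · intro ℓ hℓ
      by_cases hℓq : ℓ = q
      · subst hℓq
        exact ⟨A, hA, fun σ hσ => coc_inertia hc hℓ hq2 hA hflat hxinv hσ⟩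
      · obtain ⟨A', hA', hI⟩ := hunr ℓ hℓ hℓq
        refine ⟨A', hA', fun σ hσ => ?_⟩
        change c σ x = 0
        rw [hI σ hσ]; rfl
  intro σ
  have h1 : σ ∈ K := by rw [hK]; exact Subgroup.mem_top σ
  exact h1

/-- **Theorem 3** -/
theorem coc_eq_zero (hq : q.Prime) {k : ℕ} (hS : ∀ x : S, q ^ k • x = 0)
    {U : Subgroup GQ} (hU : IsOpen (U : Set GQ)) (hUc : ∀ u ∈ U, c u = 0)
    (hN : TwoChar q S)
    {A : ValuationSubring Qb} (hA : A.LiesOverPrime q)
    (hflat : IsFlat (OI A) (A.inertiaSubgroupIn ℚ) (Ext c hc) Qb)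
    (hunr : ∀ ℓ : ℕ, ℓ.Prime → ℓ ≠ q → ∃ A' : ValuationSubring Qb, A'.LiesOverPrime ℓ ∧
      ∀ σ ∈ A'.inertiaSubgroupIn ℚ, c σ = 0)
    {τ : GQ} (hτ : ∀ (ζ : Qb) (n : ℕ), 0 < n → ζ ^ n = 1 → τ ζ = ζ⁻¹) (hcτ : c τ = 0)
    (σ : GQ) : c σ = 0 := by
  haveI : NeZero q := ⟨hq.ne_zero⟩
  suffices h : cker c = ⊤ by
    ext x
    have h1 : x ∈ cker c := by rw [h]; exact AddSubgroup.mem_top x
    rw [h1 σ]
    rfl
  by_contra hne
  have hst : ∀ (g : GQ), ∀ v ∈ cker c, g • v ∈ cker c := fun g v hv => cker_smul hc g hv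
  letI := quoAct GQ (cker c) hst
  have hmk : ∀ (g : GQ) (x : S), g • (QuotientAddGroup.mk x : S ⧸ cker c) =
      QuotientAddGroup.mk (g • x) := fun _ _ => rfl
  haveI : Nontrivial (S ⧸ cker c) := by
    rw [QuotientAddGroup.nontrivial_iff]
    exact hne
  obtain ⟨t, ht0, hqt, ht⟩ := exists_eigen hq (T := S ⧸ cker c) (k := k) (by
      intro t
      obtain ⟨x, rfl⟩ := QuotientAddGroup.mk_surjective t
      rw [← QuotientAddGroup.mk_nsmul, hS]
      rfl) (by
      intro σ a ha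
      obtain ⟨n, hn⟩ := hN σ a ha
      refine ⟨n, fun t => ?_⟩
      obtain ⟨x, rfl⟩ := QuotientAddGroup.mk_surjective t
      have h1 : ∀ (i : ℕ) (x : S), (quad σ a)^[i] (QuotientAddGroup.mk x : S ⧸ cker c) =
          QuotientAddGroup.mk ((quad σ a)^[i] x) := by
        intro i
        induction i with
        | zero => intro x; rfl
        | succ i ih =>
          intro x
          rw [Function.iterate_succ_apply, Function.iterate_succ_apply, ← ih]
          rfl
      rw [h1, hn]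
      rfl)
  obtain ⟨x, rfl⟩ := QuotientAddGroup.mk_surjective t
  have hx0 : x ∉ cker c := fun h => ht0 ((QuotientAddGroup.eq_zero_iff x).mpr h)
  have hqx : q • x ∈ cker c := by
    rw [← QuotientAddGroup.mk_nsmul, QuotientAddGroup.eq_zero_iff] at hqt
    exact hqt
  have hone : (∀ σ : GQ, σ • x - x ∈ cker c) → False := fun h =>
    hx0 (case_one hc hq hU hUc hA hflat hunr hτ hcτ hqx h)
  rcases ht with ht | ht
  · apply hone
    intro σ
    rw [← QuotientAddGroup.eq_zero_iff, QuotientAddGroup.mk_sub, ← hmk, ht, sub_self]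
  · have ht' : ∀ (σ : GQ) (a : ℕ), CycExp q σ a → σ • x - a • x ∈ cker c := by
      intro σ a ha
      rw [← QuotientAddGroup.eq_zero_iff, QuotientAddGroup.mk_sub, ← hmk, ht σ a ha,
        QuotientAddGroup.mk_nsmul, sub_self]
    by_cases hq2 : q = 2
    · apply hone
      intro σ
      have h1 : CycExp q σ 1 := by
        intro ζ hζ
        rw [hq2, sq, mul_self_eq_one_iff] at hζ
        rw [pow_one]
        rcases hζ with h | h
        · rw [h, map_one]
        · rw [h, map_neg, map_one]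
      have h2 := ht' σ 1 h1
      rwa [one_smul] at h2
    · exact hx0 (case_cyc hc hq hq2 hU hUc hA hflat hunr hqx ht')

end Main

end Fermat.Agent.Mzr
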