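import Mathlib
import Fermat.Agent.Mzr.ExtFlat
import Fermat.Agent.Mzr.Dual2
import Fermat.Agent.Mzr.Tame
import Fermat.Agent.Mzr.Thm3b
import Fermat.Agent.Flat.Unram3

/-!
# Counting classes of extensions
-/

set_option autoImplicit false
set_option linter.unusedSectionVars false

noncomputable section

namespace Fermat.Agent.Mzr

open Module Fermat.Agent.Flat Fermat.Agent.LG Fermat.Agent.Conn Fermat.Agent.Inertia
  Fermat.Agent.ESCore Fermat.Agent.RT Fermat.Agent.GCFT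

/-- The field of algebraic numbers. -/
local notation "Qb" => AlgebraicClosure ℚ
/-- The absolute Galois group. -/
local notation "GQ" => (AlgebraicClosure ℚ ≃ₐ[ℚ] AlgebraicClosure ℚ)

section Lin

variable {S : Type} [AddCommGroup S] [Finite S] [DistribMulAction GQ S] {m : ℕ} [NeZero m]

instance : Finite (S →+ Mu m) := DFunLike.finite _

/-- the operator `σ⁻¹ - 1` -/
def dl (σ : GQ) : S →+ S where
  toFun x := σ⁻¹ • x - x
  map_zero' := by rw [smul_zero, sub_zero]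
  map_add' x y := by rw [smul_add]; abel

/-- the operator `1 + σ⁻¹` -/
def sm (σ : GQ) : S →+ S where
  toFun x := σ⁻¹ • x + x
  map_zero' := by rw [smul_zero, add_zero]
  map_add' x y := by rw [smul_add]; abel

/-- the operator `σ - 1` on the dual -/
def Dl (σ : GQ) : (S →+ Mu m) →+ (S →+ Mu m) where
  toFun v := vact σ v - v
  map_zero' := by rw [vact_zero, sub_zero]
  map_add' v w := by rw [vact_add]; abel

theorem Dl_apply (σ : GQ) (v : S →+ Mu m) : Dl σ v = cob v σ := rfl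

/-- the coboundary map -/
def cobHom : (S →+ Mu m) →+ (GQ → S →+ Mu m) where
  toFun v := cob v
  map_zero' := by
    funext σ
    change vact σ 0 - 0 = 0
    rw [vact_zero, sub_zero]
  map_add' v w := by
    funext σ
    exact map_add (Dl σ) v w

theorem card_ker_mul_range {A B : Type*} [AddCommGroup A] [AddCommGroup B] (f : A →+ B) :
    Nat.card A = Nat.card f.range * Nat.card f.ker := by
  rw [AddSubgroup.card_eq_card_quotient_mul_card_addSubgroup f.ker,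
    Nat.card_congr (QuotientAddGroup.quotientKerEquivRange f).toEquiv]

/-- A factorisation criterion bounding the size of an image. -/
theorem card_range_le (hS : ∀ s : S, m • s = 0) (f : S →+ S)
    (g : (S →+ Mu m) →+ (S →+ Mu m))
    (h : ∀ v : S →+ Mu m, (∀ x, v (f x) = 0) → g v = 0) :
    Nat.card g.range ≤ Nat.card f.range := by
  have hT : ∀ t : f.range, m • t = 0 := fun t => Subtype.ext (hS t)
  rw [← card_hom hT]
  haveI : Finite (f.range →+ Mu m) := DFunLike.finite _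
  choose w hw using fun x : g.range => x.2
  refine Nat.card_le_card_of_injective
    (fun x : g.range => (w x).comp f.range.subtype) fun x y hxy => ?_
  apply Subtype.ext
  rw [← hw x, ← hw y, ← sub_eq_zero, ← map_sub]
  apply h
  intro z
  have h1 := DFunLike.congr_fun hxy ⟨f z, z, rfl⟩
  change w x (f z) = w y (f z) at h1
  rw [AddMonoidHom.sub_apply, h1, sub_self]

/-- Solving `σ v - v = f`. -/
theorem exists_solve (hS : ∀ s : S, m • s = 0) {σ : GQ} (hσ : ∀ z : Mu m, σ • z = z)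
    {f : S →+ Mu m} (hf : ∀ x : S, σ • x = x → f x = 0) : ∃ v : S →+ Mu m, Dl σ v = f := by
  have hker : (dl σ : S →+ S).rangeRestrict.ker ≤ f.ker := by
    intro x hx
    rw [AddMonoidHom.mem_ker] at hx ⊢
    have h1 : σ⁻¹ • x - x = 0 := congrArg Subtype.val hx
    apply hf
    rw [sub_eq_zero, inv_smul_eq_iff] at h1
    exact h1.symm
  let g : (dl σ : S →+ S).range →+ Mu m :=
    (AddMonoidHom.liftOfSurjective (dl σ : S →+ S).rangeRestrict
      (AddMonoidHom.rangeRestrict_surjective _)) ⟨f, hker⟩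
  have hg : ∀ x, g ((dl σ : S →+ S).rangeRestrict x) = f x := fun x =>
    AddMonoidHom.liftOfRightInverse_comp_apply _ _ _ ⟨f, hker⟩ x
  obtain ⟨v, hv⟩ := exists_extend (NeZero.ne m) hS (dl σ : S →+ S).range g
  refine ⟨v, ?_⟩
  ext x
  change σ • v (σ⁻¹ • x) - v x = f x
  rw [hσ, ← map_sub, ← hg, ← hv]
  rfl

end Lin

section Main

variable {S : Type} [AddCommGroup S] [Finite S] [DistribMulAction GQ S] {q N : Nat.Primes} {k : ℕ}
  [NeZero ((q : ℕ) ^ k)]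

theorem q_pow_not_dvd (hqN : q ≠ N) : ¬ (N : ℕ) ∣ (q : ℕ) ^ k := by
  intro h
  apply hqN
  have h1 := N.2.dvd_of_dvd_pow h
  exact Subtype.ext ((Nat.prime_dvd_prime_iff_eq N.2 q.2).mp h1).symm

theorem inertia_Mu {ℓ : Nat.Primes} (hqN : q ≠ ℓ) {σ : GQ}
    (hσ : σ ∈ (padicPlace (ℓ : ℕ)).inertiaSubgroupIn ℚ) (z : Mu ((q : ℕ) ^ k)) : σ • z = z :=
  Mu.ext (inertia_root (nonunits_padicPlace ℓ) ℓ.2 hσ (q_pow_not_dvd hqN) z.val_pow)

theorem IsCoc.zero_mul {c : GQ → S →+ Mu ((q : ℕ) ^ k)} (hc : IsCoc c) {σ τ : GQ} (h : c σ = 0)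
    (h' : c τ = 0) : c (σ * τ) = 0 := by
  rw [isCoc_iff] at hc
  rw [hc, h, h', vact_zero, add_zero]

theorem IsCoc.zero_inv {c : GQ → S →+ Mu ((q : ℕ) ^ k)} (hc : IsCoc c) {σ : GQ} (h : c σ = 0) :
    c σ⁻¹ = 0 := by
  have h1 := isCoc_iff.mp hc σ⁻¹ σ
  rw [inv_mul_cancel, hc.one, h, vact_zero, add_zero] at h1
  exact h1.symm

/-- Making the cocycle trivial on the inertia group at `N`. -/
theorem exists_trivial_at (hqN : q ≠ N) (hS : ∀ x : S, (q : ℕ) ^ k • x = 0)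
    {U₀ : Subgroup GQ} (hU₀ : IsOpen (U₀ : Set GQ)) (hU₀S : ∀ u ∈ U₀, ∀ x : S, u • x = x)
    (hlg : ∀ σ ∈ (padicPlace (N : ℕ)).inertiaSubgroupIn ℚ,
      ∀ σ' ∈ (padicPlace (N : ℕ)).inertiaSubgroupIn ℚ, ∀ x : S, dlt σ (dlt σ' x) = 0)
    {b : ℕ} (hb : ∀ φ : GQ, (padicPlace (N : ℕ)).IsFrobeniusAt φ N → ∀ s : S,
      (∀ σ ∈ (padicPlace (N : ℕ)).inertiaSubgroupIn ℚ, σ • s = s) →
      ∃ s' : S, (∀ σ ∈ (padicPlace (N : ℕ)).inertiaSubgroupIn ℚ, σ • s' = s') ∧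
        b • s = φ • s' - s')
    {c : GQ → S →+ Mu ((q : ℕ) ^ k)} (hc : IsCoc c)
    {U : Subgroup GQ} (hU : IsOpen (U : Set GQ)) (hUc : ∀ u ∈ U, c u = 0) :
    ∃ σ₀ ∈ (padicPlace (N : ℕ)).inertiaSubgroupIn ℚ,
      ∃ v : S →+ Mu ((q : ℕ) ^ k),
      (∀ σ ∈ (padicPlace (N : ℕ)).inertiaSubgroupIn ℚ, b • c σ = cob v σ) ∧
      ∀ w : S →+ Mu ((q : ℕ) ^ k), vact σ₀ w = w →
        ∀ σ ∈ (padicPlace (N : ℕ)).inertiaSubgroupIn ℚ, vact σ w = w := by
  have hNpos := N.2.pos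
  let V₁ : Subgroup GQ := U₀ ⊓ U ⊓ (cyc ((q : ℕ) ^ k)).ker
  have hV₁ : IsOpen (V₁ : Set GQ) := (hU₀.inter hU).inter (isOpen_ker_cyc _)
  have hV₁E : ∀ u ∈ V₁, ∀ e : Ext c hc, u • e = e := by
    rintro u ⟨⟨hu1, hu2⟩, hu3⟩ e
    refine Prod.ext (hU₀S u hu1 e.1) ?_
    change u • e.2 + c u (u • e.1) = e.2
    rw [hUc u hu2, AddMonoidHom.zero_apply, add_zero]
    apply Mu.ext
    rw [Mu.val_smul]
    have h1 := cyc_spec u e.2.val_pow
    rw [h1, MonoidHom.mem_ker.mp hu3, Units.val_one]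
    rcases Nat.lt_or_ge 1 ((q : ℕ) ^ k) with h2 | h2
    · haveI : Fact (1 < (q : ℕ) ^ k) := ⟨h2⟩
      rw [ZMod.val_one, pow_one]
    · have h3 : (q : ℕ) ^ k = 1 := le_antisymm h2 (Nat.one_le_iff_ne_zero.mpr (NeZero.ne _))
      have h5 : ∀ z : Qb, z ^ (q : ℕ) ^ k = 1 → z = 1 := by
        intro z hz
        rwa [h3, pow_one] at hz
      have h4 : e.2.val = 1 := h5 _ e.2.val_pow
      rw [h4, one_pow]
  have hE : ∀ e : Ext c hc, (q : ℕ) ^ k • e = 0 := fun e =>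
    Prod.ext (hS e.1) (Mu.smul_eq_zero e.2)
  have hpp : ∀ σ ∈ (padicPlace (N : ℕ)).inertiaSubgroupIn ℚ, ∃ n : ℕ, ∀ e : Ext c hc,
      σ ^ (q : ℕ) ^ n • e = e := by
    intro σ hσ
    refine ⟨3 * k, fun e => unip_pow hE σ 3 e ?_⟩
    change dlt σ (dlt σ (dlt σ e)) = 0
    have h1 : (dlt σ (dlt σ e)).1 = 0 := hlg σ hσ σ hσ e.1
    set e' := dlt σ (dlt σ e) with he'
    refine Prod.ext ?_ ?_
    · change σ • e'.1 - e'.1 = 0
      rw [h1, smul_zero, sub_zero]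
    · change σ • e'.2 + c σ (σ • e'.1) - e'.2 = 0
      rw [h1, smul_zero, map_zero, add_zero, inertia_Mu hqN hσ, sub_self]
  obtain ⟨σ₀, hσ₀, φ, hφ, hgen, hrel⟩ := exists_tame (E := Ext c hc) q.2
    (fun h => hqN (Subtype.ext h)) hV₁ hV₁E hpp
  -- consequences for `S` and for `c`
  have hgenS : ∀ σ ∈ (padicPlace (N : ℕ)).inertiaSubgroupIn ℚ, ∃ j : ℤ,
      (∀ x : S, σ • x = σ₀ ^ j • x) ∧ c σ = c (σ₀ ^ j) := by
    intro σ hσ
    obtain ⟨j, hj⟩ := hgen σ hσ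
    have h1 : ∀ x : S, σ • x = σ₀ ^ j • x := fun x =>
      congrArg Prod.fst (hj (Ext.mk hc x 0))
    refine ⟨j, h1, ?_⟩
    ext x
    have h2 := congrArg Prod.snd (hj (Ext.mk hc (σ⁻¹ • x) 0))
    change σ • (0 : Mu _) + c σ (σ • σ⁻¹ • x) =
      σ₀ ^ j • (0 : Mu _) + c (σ₀ ^ j) (σ₀ ^ j • σ⁻¹ • x) at h2
    rw [← h1, smul_inv_smul, smul_zero, smul_zero, zero_add, zero_add] at h2
    exact h2
  have hI : ∀ j : ℤ, σ₀ ^ j ∈ (padicPlace (N : ℕ)).inertiaSubgroupIn ℚ := fun j =>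
    Subgroup.zpow_mem _ hσ₀ j
  have hfixI : ∀ x : S, σ₀ • x = x →
      ∀ σ ∈ (padicPlace (N : ℕ)).inertiaSubgroupIn ℚ, σ • x = x := by
    intro x hx σ hσ
    obtain ⟨j, hj, -⟩ := hgenS σ hσ
    rw [hj]
    have h1 : σ₀ ∈ MulAction.stabilizer GQ x := hx
    exact Subgroup.zpow_mem _ h1 j
  have hφI : ∀ (x : S), (∀ σ ∈ (padicPlace (N : ℕ)).inertiaSubgroupIn ℚ, σ • x = x) →
      ∀ ψ ∈ (padicPlace (N : ℕ)).decompositionSubgroup ℚ,
      ∀ σ ∈ (padicPlace (N : ℕ)).inertiaSubgroupIn ℚ, σ • ψ • x = ψ • x := by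
    intro x hx ψ hψ σ hσ
    have h1 : ψ⁻¹ * σ * ψ ∈ (padicPlace (N : ℕ)).inertiaSubgroupIn ℚ :=
      Fermat.Agent.Flat.inertia_conj hψ hσ
    have h2 := hx _ h1
    rw [mul_smul, mul_smul, inv_smul_eq_iff] at h2
    exact h2
  have hφD : φ ∈ (padicPlace (N : ℕ)).decompositionSubgroup ℚ := hφ.mem_decompositionSubgroup
  have hφMu : ∀ z : Mu ((q : ℕ) ^ k), φ • z = (N : ℕ) • z := by
    intro z
    apply Mu.ext
    rw [Mu.val_smul, Mu.val_nsmul]
    exact frob_root (nonunits_padicPlace N) N.2 hφ (q_pow_not_dvd hqN) z.val_pow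
  -- the key relation
  have hpow : ∀ (s : S), σ₀ • s = s → ∀ n : ℕ, c (σ₀ ^ n) s = n • c σ₀ s := by
    intro s hs n
    induction n with
    | zero => rw [pow_zero, hc.one, zero_smul]; rfl
    | succ n ih =>
      have h1 : σ₀⁻¹ • s = s := by rw [inv_smul_eq_iff, hs]
      rw [pow_succ', hc, h1, inertia_Mu hqN hσ₀, ih, succ_nsmul, add_comm]
  have hkey : ∀ s : S, (∀ σ ∈ (padicPlace (N : ℕ)).inertiaSubgroupIn ℚ, σ • s = s) →
      c σ₀ (φ • s) = c σ₀ s := by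
    intro s hs
    set t := φ • s with ht
    have hts : ∀ σ ∈ (padicPlace (N : ℕ)).inertiaSubgroupIn ℚ, σ • t = t := hφI s hs φ hφD
    have h1 := congrArg Prod.snd (hrel (Ext.mk hc t 0))
    have e1 : σ₀ ^ (N : ℕ) • t = t := hts _ (Subgroup.pow_mem _ hσ₀ _)
    have hφt : φ⁻¹ • t = s := by rw [ht, inv_smul_smul]
    have e2 : (φ * σ₀ * φ⁻¹) • t = t := by
      rw [mul_smul, mul_smul, hφt, hs σ₀ hσ₀]
    change (φ * σ₀ * φ⁻¹) • (0 : Mu _) + c (φ * σ₀ * φ⁻¹) ((φ * σ₀ * φ⁻¹) • t) =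
      σ₀ ^ (N : ℕ) • (0 : Mu _) + c (σ₀ ^ (N : ℕ)) (σ₀ ^ (N : ℕ) • t) at h1
    rw [e1, e2, smul_zero, smul_zero, zero_add, zero_add, hpow t (hts σ₀ hσ₀)] at h1
    have e3 : c (φ * σ₀ * φ⁻¹) t = φ • c σ₀ s := by
      have hs' : σ₀⁻¹ • s = s := by rw [inv_smul_eq_iff, hs σ₀ hσ₀]
      rw [mul_assoc, hc, hφt, hc, hs', inertia_Mu hqN hσ₀, smul_add]
      have e4 : φ • c φ⁻¹ s = - c φ t := by
        have := hc.inv_smul φ t
        rwa [hφt] at this
      rw [e4]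
      abel
    rw [e3, hφMu] at h1
    have hcop : (N : ℕ).Coprime ((q : ℕ) ^ k) :=
      (Nat.Prime.coprime_iff_not_dvd N.2).mpr (q_pow_not_dvd hqN)
    have h2 : (N : ℕ) • (c σ₀ s - c σ₀ t) = 0 := by rw [smul_sub, h1, sub_self]
    have h3 : c σ₀ s - c σ₀ t = 0 := by
      have h4 : addOrderOf (c σ₀ s - c σ₀ t) ∣ (N : ℕ) := addOrderOf_dvd_of_nsmul_eq_zero h2
      have h5 : addOrderOf (c σ₀ s - c σ₀ t) ∣ (q : ℕ) ^ k :=
        addOrderOf_dvd_of_nsmul_eq_zero (Mu.smul_eq_zero _)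
      rw [← AddMonoid.addOrderOf_eq_one_iff]
      exact Nat.eq_one_of_dvd_coprimes hcop h4 h5
    exact (sub_eq_zero.mp h3).symm
  obtain ⟨v, hv⟩ := exists_solve hS (inertia_Mu hqN hσ₀) (f := b • c σ₀) (by
    intro s hs
    obtain ⟨s', hs', hbs⟩ := hb φ hφ s (hfixI s hs)
    rw [AddMonoidHom.nsmul_apply, ← map_nsmul, hbs, map_sub, hkey s' hs', sub_self])
  refine ⟨σ₀, hσ₀, v, fun σ hσ => ?_, fun w hw σ hσ => ?_⟩
  · obtain ⟨j, hj1, hj2⟩ := hgenS σ hσ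
    -- the cocycle `b c - cob v` vanishes at `σ₀`
    have hc' : IsCoc (b • c - cob v) := by
      rw [sub_eq_add_neg]
      refine IsCoc.add ?_ (isCoc_cob v).neg
      rw [isCoc_iff] at hc ⊢
      intro σ τ
      change b • c (σ * τ) = b • c σ + vact σ (b • c τ)
      rw [hc, smul_add, vact_nsmul]
    have h0 : (b • c - cob v) σ₀ = 0 := by
      change b • c σ₀ - cob v σ₀ = 0
      rw [← Dl_apply, hv, sub_self]
    have hz : ∀ n : ℕ, (b • c - cob v) (σ₀ ^ n) = 0 := by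
      intro n
      induction n with
      | zero => rw [pow_zero]; exact hc'.one
      | succ n ih => rw [pow_succ]; exact hc'.zero_mul ih h0
    have hz' : (b • c - cob v) (σ₀ ^ j) = 0 := by
      rcases Int.eq_nat_or_neg j with ⟨n, rfl | rfl⟩
      · rw [zpow_natCast]; exact hz n
      · rw [zpow_neg, zpow_natCast]; exact hc'.zero_inv (hz n)
    have h1 : b • c (σ₀ ^ j) = cob v (σ₀ ^ j) := sub_eq_zero.mp hz'
    rw [hj2, h1]
    ext x
    change σ₀ ^ j • v ((σ₀ ^ j)⁻¹ • x) - v x = σ • v (σ⁻¹ • x) - v x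
    have h2 : σ⁻¹ • x = (σ₀ ^ j)⁻¹ • x := by
      rw [inv_smul_eq_iff, hj1, smul_inv_smul]
    rw [h2, inertia_Mu hqN (hI j), inertia_Mu hqN hσ]
  · obtain ⟨j, hj1, -⟩ := hgenS σ hσ
    have h1 : ∀ x, w (σ₀ • x) = w x := by
      intro x
      have h2 := DFunLike.congr_fun hw (σ₀ • x)
      rw [vact_apply, inv_smul_smul, inertia_Mu hqN hσ₀] at h2
      exact h2.symm
    have h3 : ∀ (n : ℕ) (x : S), w (σ₀ ^ n • x) = w x := by
      intro n
      induction n with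
      | zero => intro x; rw [pow_zero, one_smul]
      | succ n ih => intro x; rw [pow_succ', mul_smul, h1, ih]
    have h4 : ∀ x, w (σ₀ ^ j • x) = w x := by
      intro x
      rcases Int.eq_nat_or_neg j with ⟨n, rfl | rfl⟩
      · rw [zpow_natCast]; exact h3 n x
      · rw [zpow_neg, zpow_natCast]
        have := h3 n ((σ₀ ^ n)⁻¹ • x)
        rw [smul_inv_smul] at this
        exact this.symm
    ext x
    rw [vact_apply, inertia_Mu hqN hσ]
    have h5 := h4 (σ⁻¹ • x)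
    rw [← hj1, smul_inv_smul] at h5
    exact h5.symm

end Main

end Fermat.Agent.Mzr
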