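import Mathlib
import Fermat.Agent.Mzr.Count

/-!
# Counting classes of extensions, II
-/

set_option autoImplicit false
set_option linter.unusedSectionVars false
set_option maxHeartbeats 1600000

noncomputable section

namespace Fermat.Agent.Mzr

open Module Fermat.Agent.Flat Fermat.Agent.LG Fermat.Agent.Conn Fermat.Agent.Inertia
  Fermat.Agent.ESCore Fermat.Agent.RT Fermat.Agent.GCFT

/-- The field of algebraic numbers. -/
local notation "Qb" => AlgebraicClosure ℚ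
/-- The absolute Galois group. -/
local notation "GQ" => (AlgebraicClosure ℚ ≃ₐ[ℚ] AlgebraicClosure ℚ)

variable {S : Type} [AddCommGroup S] [Finite S] [DistribMulAction GQ S] {q N : Nat.Primes} {k : ℕ}
  [NeZero ((q : ℕ) ^ k)]

variable (S q N k) in
/-- The group of cocycles satisfying the local conditions. -/
structure LocC (τ : GQ) (c : GQ → S →+ Mu ((q : ℕ) ^ k)) : Prop where
  flat : FlatC (padicPlace (q : ℕ)) c
  smooth : ∃ U : Subgroup GQ, IsOpen (U : Set GQ) ∧ ∀ u ∈ U, c u = 0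
  unr : ∀ ℓ : Nat.Primes, ℓ ≠ q → ∀ σ ∈ (padicPlace (ℓ : ℕ)).inertiaSubgroupIn ℚ, c σ = 0
  real : ∃ v : S →+ Mu ((q : ℕ) ^ k), c τ = Dl τ v

theorem LocC.add {τ : GQ} {c c' : GQ → S →+ Mu ((q : ℕ) ^ k)} (h : LocC S q k τ c)
    (h' : LocC S q k τ c') : LocC S q k τ (c + c') where
  flat := h.flat.add q.2 (nonunits_padicPlace q) h'.flat
  smooth := by
    obtain ⟨U, hU, hc⟩ := h.smooth
    obtain ⟨U', hU', hc'⟩ := h'.smooth
    exact ⟨U ⊓ U', hU.inter hU', fun u hu => by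
      rw [Pi.add_apply, hc u hu.1, hc' u hu.2, add_zero]⟩
  unr ℓ hℓ σ hσ := by rw [Pi.add_apply, h.unr ℓ hℓ σ hσ, h'.unr ℓ hℓ σ hσ, add_zero]
  real := by
    obtain ⟨v, hv⟩ := h.real
    obtain ⟨v', hv'⟩ := h'.real
    exact ⟨v + v', by rw [Pi.add_apply, hv, hv', map_add]⟩

theorem LocC.neg {τ : GQ} {c : GQ → S →+ Mu ((q : ℕ) ^ k)} (h : LocC S q k τ c) :
    LocC S q k τ (-c) where
  flat := h.flat.neg
  smooth := by
    obtain ⟨U, hU, hc⟩ := h.smooth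
    exact ⟨U, hU, fun u hu => by rw [Pi.neg_apply, hc u hu, neg_zero]⟩
  unr ℓ hℓ σ hσ := by rw [Pi.neg_apply, h.unr ℓ hℓ σ hσ, neg_zero]
  real := by
    obtain ⟨v, hv⟩ := h.real
    exact ⟨-v, by rw [Pi.neg_apply, hv, map_neg]⟩

/-- **The class is killed by a bounded number.** -/
theorem exists_cob (hqN : q ≠ N) (hS : ∀ x : S, (q : ℕ) ^ k • x = 0)
    {U₀ : Subgroup GQ} (hU₀ : IsOpen (U₀ : Set GQ)) (hU₀S : ∀ u ∈ U₀, ∀ x : S, u • x = x)
    (hN2 : TwoChar (q : ℕ) S)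
    (hunrS : ∀ ℓ : Nat.Primes, ℓ ≠ q → ℓ ≠ N →
      ∀ σ ∈ (padicPlace (ℓ : ℕ)).inertiaSubgroupIn ℚ, ∀ x : S, σ • x = x)
    (hlg : ∀ σ ∈ (padicPlace (N : ℕ)).inertiaSubgroupIn ℚ,
      ∀ σ' ∈ (padicPlace (N : ℕ)).inertiaSubgroupIn ℚ, ∀ x : S, dlt σ (dlt σ' x) = 0)
    {b : ℕ} (hb : ∀ φ : GQ, (padicPlace (N : ℕ)).IsFrobeniusAt φ N → ∀ s : S,
      (∀ σ ∈ (padicPlace (N : ℕ)).inertiaSubgroupIn ℚ, σ • s = s) →
      ∃ s' : S, (∀ σ ∈ (padicPlace (N : ℕ)).inertiaSubgroupIn ℚ, σ • s' = s') ∧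
        b • s = φ • s' - s')
    {τ : GQ} (hτ : ∀ (ζ : Qb) (n : ℕ), 0 < n → ζ ^ n = 1 → τ ζ = ζ⁻¹) (hτ2 : τ * τ = 1)
    (hτS : Nat.card (sm τ : S →+ S).range ^ 2 ≤ Nat.card S)
    {C₀ : ℕ} (hC₀ : Nat.card {v : S →+ Mu ((q : ℕ) ^ k) // ∀ σ, vact σ v = v} ≤ C₀)
    {c : GQ → S →+ Mu ((q : ℕ) ^ k)} (hflat : FlatC (padicPlace (q : ℕ)) c)
    {U : Subgroup GQ} (hU : IsOpen (U : Set GQ)) (hUc : ∀ u ∈ U, c u = 0)
    (hunr : ∀ ℓ : Nat.Primes, ℓ ≠ q → ℓ ≠ N →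
      ∀ σ ∈ (padicPlace (ℓ : ℕ)).inertiaSubgroupIn ℚ, c σ = 0) :
    ∃ v : S →+ Mu ((q : ℕ) ^ k), ∀ σ, (2 * b * C₀.factorial) • c σ = cob v σ := by
  classical
  have hqA := nonunits_padicPlace q
  obtain ⟨hc, -⟩ := id hflat
  obtain ⟨σ₀, hσ₀, v₁, hv₁, hσ₀I⟩ := exists_trivial_at hqN hS hU₀ hU₀S hlg hb hc hU hUc
  -- the group of cocycles
  let Z₁ : AddSubgroup (GQ → S →+ Mu ((q : ℕ) ^ k)) :=
    { carrier := {d | LocC S q k τ d}
      zero_mem' := by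
        refine ⟨hflat.zero q.2 hqA, ⟨⊤, isOpen_univ, fun _ _ => rfl⟩, fun _ _ _ _ => rfl, 0, ?_⟩
        rw [map_zero]; rfl
      add_mem' := fun h h' => h.add h'
      neg_mem' := fun h => h.neg }
  -- Theorem 3
  have hinj : ∀ d ∈ Z₁, d τ = 0 → d = 0 := by
    intro d hd hdτ
    obtain ⟨hcd, hfl⟩ := hd.flat
    obtain ⟨U', hU', hd'⟩ := hd.smooth
    funext σ
    refine coc_eq_zero hcd q.2 hS hU' hd' hN2 hqA hfl (fun ℓ hℓ hℓq => ?_) hτ hdτ σ
    let ℓ' : Nat.Primes := ⟨ℓ, hℓ⟩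
    haveI : Fact (Nat.Prime (ℓ' : ℕ)) := ⟨hℓ⟩
    exact ⟨padicPlace (ℓ' : ℕ), nonunits_padicPlace ℓ',
      fun σ hσ => hd.unr ℓ' (fun h => hℓq (congrArg Subtype.val h)) σ hσ⟩
  -- evaluation at `τ`
  let ev : Z₁ → (Dl τ : (S →+ Mu ((q : ℕ) ^ k)) →+ (S →+ Mu ((q : ℕ) ^ k))).range :=
    fun d => ⟨(d : GQ → S →+ Mu ((q : ℕ) ^ k)) τ, by
      obtain ⟨v, hv⟩ := (show LocC S q k τ d from d.2).real
      exact ⟨v, hv.symm⟩⟩
  have hev : Function.Injective ev := by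
    intro d d' h
    apply Subtype.ext
    rw [← sub_eq_zero]
    refine hinj _ (Z₁.sub_mem d.2 d'.2) ?_
    have h1 : (d : GQ → S →+ Mu ((q : ℕ) ^ k)) τ = (d' : GQ → S →+ Mu ((q : ℕ) ^ k)) τ :=
      congrArg Subtype.val h
    rw [Pi.sub_apply, h1, sub_self]
  haveI : Finite Z₁ := Finite.of_injective ev hev
  have hinvτ : ∀ z : Mu ((q : ℕ) ^ k), τ • z = -z := by
    intro z
    apply Mu.ext
    rw [Mu.val_smul, Mu.val_neg]
    exact hτ _ _ (Nat.pos_of_ne_zero (NeZero.ne _)) z.val_pow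
  have ha : Nat.card Z₁ ≤ Nat.card (sm τ : S →+ S).range := by
    refine (Nat.card_le_card_of_injective ev hev).trans (card_range_le hS (sm τ) _ ?_)
    intro v hv
    ext x
    have h1 := hv x
    change v (τ⁻¹ • x + x) = 0 at h1
    change τ • v (τ⁻¹ • x) - v x = 0
    rw [hinvτ, ← neg_add', ← map_add, h1, neg_zero]
  -- the coboundaries
  let K₀ : AddSubgroup (S →+ Mu ((q : ℕ) ^ k)) :=
    (Dl σ₀ : (S →+ Mu ((q : ℕ) ^ k)) →+ (S →+ Mu ((q : ℕ) ^ k))).ker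
  have hK₀ : ∀ v ∈ K₀, cobHom v ∈ Z₁ := by
    intro v hv
    have hv' : vact σ₀ v = v := by
      rw [AddMonoidHom.mem_ker] at hv
      exact sub_eq_zero.mp hv
    have hvI := hσ₀I v hv'
    refine ⟨hflat.cob q.2 hqA v, ?_, ?_, v, rfl⟩
    · refine ⟨U₀ ⊓ (cyc ((q : ℕ) ^ k)).ker, hU₀.inter (isOpen_ker_cyc _), fun u hu => ?_⟩
      have hMu : ∀ z : Mu ((q : ℕ) ^ k), u • z = z := by
        intro z
        apply Mu.ext
        rw [Mu.val_smul]
        have h1 := cyc_spec u z.val_pow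
        rw [h1, MonoidHom.mem_ker.mp hu.2, Units.val_one]
        rcases Nat.lt_or_ge 1 ((q : ℕ) ^ k) with h2 | h2
        · haveI : Fact (1 < (q : ℕ) ^ k) := ⟨h2⟩
          rw [ZMod.val_one, pow_one]
        · have h3 : (q : ℕ) ^ k = 1 := le_antisymm h2 (Nat.one_le_iff_ne_zero.mpr (NeZero.ne _))
          have h5 : ∀ z : Qb, z ^ (q : ℕ) ^ k = 1 → z = 1 := by
            intro z hz
            rwa [h3, pow_one] at hz
          rw [h5 _ z.val_pow, one_pow]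
      ext x
      change u • v (u⁻¹ • x) - v x = 0
      rw [hMu, hU₀S _ (U₀.inv_mem hu.1), sub_self]
    · intro ℓ hℓq σ hσ
      by_cases hℓN : ℓ = N
      · subst hℓN
        change vact σ v - v = 0
        rw [hvI σ hσ, sub_self]
      · ext x
        change σ • v (σ⁻¹ • x) - v x = 0
        rw [inertia_Mu (fun h => hℓq h.symm) hσ,
          hunrS ℓ hℓq hℓN _ (Subgroup.inv_mem _ hσ), sub_self]
  let B₁ : AddSubgroup Z₁ :=
    { carrier := {d | ∃ v ∈ K₀, cobHom v = (d : GQ → S →+ Mu ((q : ℕ) ^ k))}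
      zero_mem' := ⟨0, K₀.zero_mem, map_zero _⟩
      add_mem' := by
        rintro d d' ⟨v, hv, h⟩ ⟨v', hv', h'⟩
        exact ⟨v + v', K₀.add_mem hv hv', by rw [map_add, h, h']; rfl⟩
      neg_mem' := by
        rintro d ⟨v, hv, h⟩
        exact ⟨-v, K₀.neg_mem hv, by rw [map_neg, h]; rfl⟩ }
  let f : K₀ →+ B₁ :=
    { toFun := fun v => ⟨⟨cobHom (v : S →+ Mu ((q : ℕ) ^ k)), hK₀ v v.2⟩, v, v.2, rfl⟩
      map_zero' := by
        apply Subtype.ext; apply Subtype.ext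
        exact map_zero cobHom
      map_add' := fun v w => by
        apply Subtype.ext; apply Subtype.ext
        exact map_add cobHom _ _ }
  have hK₀card : Nat.card K₀ ≤ Nat.card B₁ * C₀ := by
    rw [card_ker_mul_range f]
    have h1 : Nat.card f.range ≤ Nat.card B₁ := Nat.card_le_card_of_injective _ f.range.subtype_injective
    have h2 : Nat.card f.ker ≤ C₀ := by
      refine le_trans ?_ hC₀
      refine Nat.card_le_card_of_injective
        (fun v : f.ker => (⟨((v : K₀) : S →+ Mu ((q : ℕ) ^ k)), fun σ => ?_⟩ :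
          {v : S →+ Mu ((q : ℕ) ^ k) // ∀ σ, vact σ v = v})) ?_
      · have h3 : f (v : K₀) = 0 := v.2
        have h4 : cobHom (((v : K₀) : S →+ Mu ((q : ℕ) ^ k))) = 0 :=
          congrArg (fun z : B₁ => ((z : Z₁) : GQ → S →+ Mu ((q : ℕ) ^ k))) h3
        exact sub_eq_zero.mp (congrFun h4 σ)
      · intro v w h
        apply Subtype.ext; apply Subtype.ext
        exact Subtype.mk.inj h
    exact Nat.mul_le_mul h1 h2
  -- the size of the dual
  have hVcard : Nat.card S ≤ Nat.card (dl σ₀ : S →+ S).range * Nat.card K₀ := by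
    rw [← card_hom hS, card_ker_mul_range (Dl σ₀ : (S →+ Mu ((q : ℕ) ^ k)) →+ _)]
    refine Nat.mul_le_mul_right _ (card_range_le hS (dl σ₀) _ ?_)
    intro v hv
    ext x
    have h1 := hv x
    change v (σ₀⁻¹ • x - x) = 0 at h1
    change σ₀ • v (σ₀⁻¹ • x) - v x = 0
    rw [inertia_Mu hqN hσ₀, ← map_sub, h1]
  have hdl : Nat.card (dl σ₀ : S →+ S).range ^ 2 ≤ Nat.card S := by
    rw [card_ker_mul_range (dl σ₀ : S →+ S), sq]
    refine Nat.mul_le_mul_left _ (Nat.card_le_card_of_injective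
      (fun x : (dl σ₀ : S →+ S).range => (⟨x, ?_⟩ : (dl σ₀ : S →+ S).ker)) ?_)
    · obtain ⟨_, y, rfl⟩ := x
      exact hlg _ (Subgroup.inv_mem _ hσ₀) _ (Subgroup.inv_mem _ hσ₀) y
    · intro x y h
      exact Subtype.ext (Subtype.mk.inj h)
  -- the index
  have hind : Nat.card (Z₁ ⧸ B₁) ≤ C₀ := by
    set s := Nat.card S with hs
    set a := Nat.card (sm τ : S →+ S).range with haa
    set a' := Nat.card (dl σ₀ : S →+ S).range with haa'
    set ix := Nat.card (Z₁ ⧸ B₁) with hix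
    have h1 : Nat.card Z₁ = ix * Nat.card B₁ := AddSubgroup.card_eq_card_quotient_mul_card_addSubgroup B₁
    have hs0 : 0 < s := Nat.card_pos
    have h2 : a * a' ≤ s := by
      have h3 : (a * a') ^ 2 ≤ s ^ 2 := by
        rw [mul_pow, sq s]
        exact Nat.mul_le_mul hτS hdl
      exact (Nat.pow_le_pow_iff_left two_ne_zero).mp h3
    have h3 : s ≤ a' * (Nat.card B₁ * C₀) := hVcard.trans (Nat.mul_le_mul_left _ hK₀card)
    have h4 : ix * s ≤ C₀ * s := by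
      calc ix * s ≤ ix * (a' * (Nat.card B₁ * C₀)) := Nat.mul_le_mul_left _ h3
        _ = (ix * Nat.card B₁) * a' * C₀ := by ring
        _ ≤ a * a' * C₀ := by
            rw [← h1]
            exact Nat.mul_le_mul_right _ (Nat.mul_le_mul_right _ ha)
        _ ≤ s * C₀ := Nat.mul_le_mul_right _ h2
        _ = C₀ * s := mul_comm _ _
    exact Nat.le_of_mul_le_mul_right h4 hs0
  -- the class
  set d : GQ → S →+ Mu ((q : ℕ) ^ k) := b • c - cob v₁ with hd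
  have hcd : IsCoc d := by
    rw [hd, sub_eq_add_neg]
    refine IsCoc.add ?_ (isCoc_cob v₁).neg
    rw [isCoc_iff] at hc ⊢
    intro σ τ
    change b • c (σ * τ) = b • c σ + vact σ (b • c τ)
    rw [hc, smul_add, vact_nsmul]
  have hflb : ∀ n : ℕ, FlatC (padicPlace (q : ℕ)) (n • c) := by
    intro n
    induction n with
    | zero => rw [zero_smul]; exact hflat.zero q.2 hqA
    | succ n ih => rw [succ_nsmul]; exact ih.add q.2 hqA hflat
  have hfld : FlatC (padicPlace (q : ℕ)) d := by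
    rw [hd, sub_eq_add_neg]
    exact (hflb b).add q.2 hqA (hflat.cob q.2 hqA v₁).neg
  have hdsm : ∃ U : Subgroup GQ, IsOpen (U : Set GQ) ∧ ∀ u ∈ U, d u = 0 := by
    refine ⟨U ⊓ (U₀ ⊓ (cyc ((q : ℕ) ^ k)).ker), hU.inter (hU₀.inter (isOpen_ker_cyc _)),
      fun u hu => ?_⟩
    have hMu : ∀ z : Mu ((q : ℕ) ^ k), u • z = z := by
      intro z
      apply Mu.ext
      rw [Mu.val_smul]
      have h1 := cyc_spec u z.val_pow
      rw [h1, MonoidHom.mem_ker.mp hu.2.2, Units.val_one]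
      rcases Nat.lt_or_ge 1 ((q : ℕ) ^ k) with h2 | h2
      · haveI : Fact (1 < (q : ℕ) ^ k) := ⟨h2⟩
        rw [ZMod.val_one, pow_one]
      · have h3 : (q : ℕ) ^ k = 1 := le_antisymm h2 (Nat.one_le_iff_ne_zero.mpr (NeZero.ne _))
        have h5 : ∀ z : Qb, z ^ (q : ℕ) ^ k = 1 → z = 1 := by
          intro z hz
          rwa [h3, pow_one] at hz
        rw [h5 _ z.val_pow, one_pow]
    ext x
    change b • c u x - (u • v₁ (u⁻¹ • x) - v₁ x) = 0
    rw [hUc u hu.1, AddMonoidHom.zero_apply, smul_zero, hMu, hU₀S _ (U₀.inv_mem hu.2.1), sub_self,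
      sub_zero]
  have hdunr : ∀ ℓ : Nat.Primes, ℓ ≠ q →
      ∀ σ ∈ (padicPlace (ℓ : ℕ)).inertiaSubgroupIn ℚ, d σ = 0 := by
    intro ℓ hℓq σ hσ
    by_cases hℓN : ℓ = N
    · subst hℓN
      change b • c σ - cob v₁ σ = 0
      rw [hv₁ σ hσ, sub_self]
    · ext x
      change b • c σ x - (σ • v₁ (σ⁻¹ • x) - v₁ x) = 0
      rw [hunr ℓ hℓq hℓN σ hσ, AddMonoidHom.zero_apply, smul_zero,
        inertia_Mu (fun h => hℓq h.symm) hσ,
        hunrS ℓ hℓq hℓN _ (Subgroup.inv_mem _ hσ), sub_self, sub_zero]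
  have hdZ : (2 : ℕ) • d ∈ Z₁ := by
    refine ⟨?_, ?_, ?_, ?_⟩
    · rw [two_nsmul]
      exact hfld.add q.2 hqA hfld
    · obtain ⟨U', hU', h⟩ := hdsm
      exact ⟨U', hU', fun u hu => by rw [Pi.smul_apply, h u hu, smul_zero]⟩
    · intro ℓ hℓ σ hσ
      rw [Pi.smul_apply, hdunr ℓ hℓ σ hσ, smul_zero]
    · refine ⟨-d τ, ?_⟩
      have h1 := isCoc_iff.mp hcd τ τ
      rw [hτ2, hcd.one] at h1
      change (2 : ℕ) • d τ = vact τ (-d τ) - (-d τ)
      have h2 : vact τ (d τ) = - d τ := (neg_eq_of_add_eq_zero_right h1.symm).symm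
      rw [vact_neg, h2, two_nsmul]
      abel
  haveI : Finite (Z₁ ⧸ B₁) := inferInstance
  have hn : 0 < Nat.card (Z₁ ⧸ B₁) := Nat.card_pos
  obtain ⟨r, hr⟩ := Nat.dvd_factorial hn hind
  have h1 : (C₀.factorial • (⟨(2 : ℕ) • d, hdZ⟩ : Z₁)) ∈ B₁ := by
    rw [← QuotientAddGroup.eq_zero_iff, QuotientAddGroup.mk_nsmul, hr, mul_comm, mul_smul,
      card_nsmul_eq_zero', smul_zero]
  obtain ⟨v, -, hv⟩ := h1
  have hv' : cob v = C₀.factorial • ((2 : ℕ) • d) := hv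
  refine ⟨v + (2 * C₀.factorial) • v₁, fun σ => ?_⟩
  have h2 : cob (v + (2 * C₀.factorial) • v₁) σ = cob v σ + (2 * C₀.factorial) • cob v₁ σ := by
    rw [← Dl_apply, ← Dl_apply, ← Dl_apply, map_add, map_nsmul]
  rw [h2, hv']
  change _ = C₀.factorial • ((2 : ℕ) • (b • c σ - cob v₁ σ)) + _
  rw [smul_sub, smul_sub, ← mul_smul, ← mul_smul, ← mul_smul, mul_comm C₀.factorial 2,
    sub_add_cancel]
  congr 1
  ring

end Fermat.Agent.Mzr
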