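import Mathlib

/-!
A criterion for a finite abelian group to be free over `ℤ/q^k`.
-/

set_option autoImplicit false

noncomputable section

namespace Fermat.Agent.Mzr

theorem pow_card_le_tors {ι : Type*} [Fintype ι] {n : ι → ℕ} {q : ℕ} (hq : 0 < q)
    (hn : ∀ i, 0 < n i) (h : ∀ i, q ∣ n i) :
    q ^ Fintype.card ι ≤ Nat.card {x : (i : ι) → ZMod (n i) // q • x = 0} := by
  classical
  haveI : ∀ i, NeZero (n i) := fun i => ⟨(hn i).ne'⟩
  have h1 : q ^ Fintype.card ι = Nat.card (ι → Fin q) := by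
    rw [Nat.card_fun, Nat.card_eq_fintype_card, Nat.card_eq_fintype_card, Fintype.card_fin]
  rw [h1]
  refine Nat.card_le_card_of_injective (fun x => ⟨fun i => (((x i : ℕ) * (n i / q) : ℕ) :
    ZMod (n i)), ?_⟩) ?_
  · funext i
    change q • (((x i : ℕ) * (n i / q) : ℕ) : ZMod (n i)) = 0
    rw [nsmul_eq_mul, ← Nat.cast_mul, mul_left_comm, Nat.mul_div_cancel' (h i), Nat.cast_mul,
      ZMod.natCast_self, mul_zero]
  · intro x y hxy
    funext i
    have h2 := congrFun (congrArg Subtype.val hxy) i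
    change (((x i : ℕ) * (n i / q) : ℕ) : ZMod (n i)) = (((y i : ℕ) * (n i / q) : ℕ) :
      ZMod (n i)) at h2
    have hpos : 0 < n i / q := Nat.div_pos (Nat.le_of_dvd (hn i) (h i)) hq
    have hlt : ∀ z : Fin q, (z : ℕ) * (n i / q) < n i := by
      intro z
      calc (z : ℕ) * (n i / q) < q * (n i / q) := Nat.mul_lt_mul_of_pos_right z.2 hpos
        _ = n i := Nat.mul_div_cancel' (h i)
    have h3 := congrArg ZMod.val h2
    rw [ZMod.val_natCast_of_lt (hlt _), ZMod.val_natCast_of_lt (hlt _)] at h3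
    exact Fin.ext (Nat.eq_of_mul_eq_mul_right hpos h3)

/-- **Freeness criterion** -/
theorem free_of_card {G : Type} [AddCommGroup G] [Finite G] {q k d : ℕ} (hq : q.Prime)
    (hk : ∀ x : G, q ^ k • x = 0) (hcard : Nat.card G = (q ^ k) ^ d)
    (htors : Nat.card {x : G // q • x = 0} ≤ q ^ d) : Nonempty (G ≃+ (Fin d → ZMod (q ^ k))) := by
  classical
  haveI : NeZero (q ^ k) := ⟨pow_ne_zero _ hq.ne_zero⟩
  rcases Nat.eq_zero_or_pos k with rfl | hk0
  · have h1 : Nat.card G = 1 := by rw [hcard]; simp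
    haveI : Subsingleton G := (Nat.card_eq_one_iff_unique.mp h1).1
    have h2 : Subsingleton (Fin d → ZMod (q ^ 0)) := by
      rw [pow_zero]
      infer_instance
    exact ⟨{ toFun := fun _ => 0, invFun := fun _ => 0,
             left_inv := fun _ => Subsingleton.elim _ _,
             right_inv := fun _ => Subsingleton.elim _ _,
             map_add' := fun _ _ => Subsingleton.elim _ _ }⟩
  obtain ⟨ι, hι, n, hn, ⟨e⟩⟩ := AddCommGroup.equiv_directSum_zmod_of_finite' G
  haveI := hι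
  let e' : G ≃+ ((i : ι) → ZMod (n i)) := e.trans (DirectSum.addEquivProd _)
  have hn0 : ∀ i, 0 < n i := fun i => (Nat.zero_lt_one.trans (hn i))
  haveI : ∀ i, NeZero (n i) := fun i => ⟨(hn0 i).ne'⟩
  have hdvd : ∀ i, n i ∣ q ^ k := by
    intro i
    have h1 := hk (e'.symm (Pi.single i 1))
    rw [← map_nsmul, AddEquiv.map_eq_zero_iff] at h1
    have h2 := congrFun h1 i
    rw [Pi.smul_apply, Pi.single_eq_same, nsmul_one, Pi.zero_apply,
      ZMod.natCast_eq_zero_iff] at h2
    exact h2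
  have hqn : ∀ i, q ∣ n i := by
    intro i
    obtain ⟨j, hj, hji⟩ := (Nat.dvd_prime_pow hq).mp (hdvd i)
    rw [hji]
    refine dvd_pow_self q ?_
    rintro rfl
    rw [pow_zero] at hji
    exact (hn i).ne' hji
  have hc1 : q ^ Fintype.card ι ≤ q ^ d := by
    refine le_trans (pow_card_le_tors hq.pos hn0 hqn) (le_trans (le_of_eq ?_) htors)
    refine Nat.card_congr (e'.symm.toEquiv.subtypeEquiv fun x => ?_)
    change q • x = 0 ↔ q • e'.symm x = 0
    rw [← map_nsmul, AddEquiv.map_eq_zero_iff]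
  have hc2 : Fintype.card ι ≤ d := (Nat.pow_le_pow_iff_right hq.one_lt).mp hc1
  have hc3 : Nat.card G = ∏ i, n i := by
    rw [Nat.card_congr e'.toEquiv, Nat.card_pi]
    exact Finset.prod_congr rfl fun i _ => Nat.card_zmod _
  have hle : ∀ i, n i ≤ q ^ k := fun i => Nat.le_of_dvd (pow_pos hq.pos k) (hdvd i)
  have hqk : 1 < q ^ k := Nat.one_lt_pow hk0.ne' hq.one_lt
  have hc4 : (q ^ k) ^ d ≤ (q ^ k) ^ Fintype.card ι := by
    rw [← hcard, hc3]
    refine (Finset.prod_le_prod' fun i _ => hle i).trans ?_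
    rw [Finset.prod_const, Finset.card_univ]
  have hc5 : Fintype.card ι = d := le_antisymm hc2 ((Nat.pow_le_pow_iff_right hqk).mp hc4)
  have hall : ∀ i, n i = q ^ k := by
    by_contra hcon
    push Not at hcon
    obtain ⟨i, hi⟩ := hcon
    have h1 : ∏ i, n i < ∏ _i : ι, q ^ k :=
      Finset.prod_lt_prod (fun i _ => hn0 i) (fun i _ => hle i)
        ⟨i, Finset.mem_univ i, lt_of_le_of_ne (hle i) hi⟩
    rw [← hc3, hcard, Finset.prod_const, Finset.card_univ, hc5] at h1
    exact lt_irrefl _ h1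
  obtain rfl : n = fun _ => q ^ k := funext hall
  let e2 : ι ≃ Fin d := Fintype.equivFinOfCardEq hc5
  exact ⟨e'.trans (AddEquiv.arrowCongr e2 (AddEquiv.refl (ZMod (q ^ k))))⟩

end Fermat.Agent.Mzr
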