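import Mathlib
import Fermat.Agent.Mzr.Pair
import Fermat.Agent.Mzr.Count2

/-!
# From extensions to cocycles
-/

set_option autoImplicit false
set_option linter.unusedSectionVars false

noncomputable section

namespace Fermat.Agent.Mzr

open Module Fermat.Agent.Flat Fermat.Agent.LG Fermat.Agent.Conn Fermat.Agent.Inertia

/-- The field of algebraic numbers. -/
local notation "Qb" => AlgebraicClosure ℚ
/-- The absolute Galois group. -/
local notation "GQ" => (AlgebraicClosure ℚ ≃ₐ[ℚ] AlgebraicClosure ℚ)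

variable {U : Type} [CommGroup U] [MulDistribMulAction GQ U] {m : ℕ} (D : PD U m)

theorem sec_aux {m : ℕ} {S E : Type} [AddCommGroup S] [AddCommGroup E] (hS : ∀ x : S, m • x = 0)
    (hE : ∀ x : E, m • x = 0) (π : E →+ S) (hπ : Function.Surjective π) {d : ℕ}
    (e : S ≃+ (Fin d → ZMod m)) : ∃ s : S →+ E, ∀ x, π (s x) = x := by
  letI := AddCommGroup.zmodModule (n := m) hS
  letI := AddCommGroup.zmodModule (n := m) hE
  let e' : (Fin d → ZMod m) ≃ₗ[ZMod m] S := (LinearEquiv.ofBijective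
    (AddMonoidHom.toZModLinearMap m (e : S →+ (Fin d → ZMod m))) e.bijective).symm
  haveI : Module.Free (ZMod m) S := Module.Free.of_equiv e'
  obtain ⟨s, hs⟩ := Module.projective_lifting_property (AddMonoidHom.toZModLinearMap m π)
    (LinearMap.id : S →ₗ[ZMod m] S) hπ
  exact ⟨s.toAddMonoidHom, fun x => LinearMap.congr_fun hs x⟩

namespace PD

/-- A section over a free module. -/
theorem exists_section (hm : m ≠ 0) {d : ℕ} (e : D.S ≃+ (Fin d → ZMod m)) :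
    ∃ s : D.S →+ D.E, ∀ x, D.π (s x) = x :=
  sec_aux D.smul_S D.smul_E D.π (D.π_surj hm) e

variable {D} {s : D.S →+ D.E} (hs : ∀ x, D.π (s x) = x)

include hs in
theorem sec_exact (σ : GQ) (x : D.S) : ∃ z, D.ι z = σ • s (σ⁻¹ • x) - s x :=
  D.exact (by rw [map_sub, D.π_smul, hs, hs, smul_inv_smul, sub_self])

/-- The cocycle of a section. -/
def coc (σ : GQ) : D.S →+ Mu m where
  toFun x := (sec_exact hs σ x).choose
  map_zero' := by
    apply D.ι_inj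
    rw [(sec_exact hs σ 0).choose_spec, smul_zero, map_zero, smul_zero, sub_zero, map_zero]
  map_add' x y := by
    apply D.ι_inj
    rw [(sec_exact hs σ (x + y)).choose_spec, map_add D.ι, (sec_exact hs σ x).choose_spec,
      (sec_exact hs σ y).choose_spec, smul_add, map_add, map_add, smul_add]
    abel

theorem ι_coc (σ : GQ) (x : D.S) : D.ι (coc hs σ x) = σ • s (σ⁻¹ • x) - s x :=
  (sec_exact hs σ x).choose_spec

theorem smul_sec (σ : GQ) (x : D.S) : σ • s x = s (σ • x) + D.ι (coc hs σ (σ • x)) := by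
  rw [ι_coc, inv_smul_smul]
  abel

theorem isCoc_coc : IsCoc (coc hs) := by
  intro σ τ x
  apply D.ι_inj
  rw [map_add, D.ι_smul, ι_coc, ι_coc, ι_coc, smul_sub, mul_inv_rev, mul_smul, mul_smul]
  abel

/-- The comparison. -/
def cmp : Ext (coc hs) (isCoc_coc hs) →+ D.E where
  toFun p := s p.1 + D.ι p.2
  map_zero' := by
    change s 0 + D.ι 0 = 0
    rw [map_zero, map_zero, add_zero]
  map_add' a b := by
    change s (a.1 + b.1) + D.ι (a.2 + b.2) = _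
    rw [map_add, map_add]
    abel

theorem cmp_inj : Function.Injective (cmp hs) := by
  rw [injective_iff_map_eq_zero]
  intro a ha
  have h0 : s a.1 + D.ι a.2 = 0 := ha
  have h1 := congrArg D.π h0
  rw [map_add, hs, D.π_ι, add_zero, map_zero] at h1
  rw [h1, map_zero, zero_add] at h0
  exact Prod.ext h1 (D.ι_inj (h0.trans (map_zero D.ι).symm))

theorem cmp_smul (σ : GQ) (p : Ext (coc hs) (isCoc_coc hs)) :
    cmp hs (σ • p) = σ • cmp hs p := by
  change s (σ • p.1) + D.ι (σ • p.2 + coc hs σ (σ • p.1)) = σ • (s p.1 + D.ι p.2)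
  rw [smul_add, smul_sec hs, map_add, D.ι_smul]
  abel

/-- Flatness of the cocycle. -/
theorem flatC_coc {A : ValuationSubring Qb}
    (hflat : IsFlat (OI A) (A.inertiaSubgroupIn ℚ) D.E Qb) : FlatC A (coc hs) :=
  ⟨isCoc_coc hs, hflat.of_injective (cmp hs) (cmp_inj hs) fun g p => cmp_smul hs (g : GQ) p⟩

theorem coc_eq_zero_of_fix {σ : GQ} (h : ∀ e : D.E, σ • e = e) : coc hs σ = 0 := by
  ext x
  apply D.ι_inj
  have h1 : σ⁻¹ • x = x := by
    have h2 := h (s x)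
    have h3 := congrArg D.π h2
    rw [D.π_smul, hs] at h3
    rw [inv_smul_eq_iff, h3]
  rw [ι_coc, h1, h, sub_self]
  exact (map_zero _).symm

/-- The element of the extension above a function. -/
theorem exists_eta {e : D.E} {f : D.Z} (h : D.π e = D.cls f) :
    ∃ η : Qbˣ, ∃ hη : ((f : U), η) ∈ D.EZ, D.ecl ⟨_, hη⟩ = e := by
  obtain ⟨p, rfl⟩ := D.ecl_surj e
  rw [D.π_ecl, D.cls_eq] at h
  obtain ⟨u, hu⟩ := h
  have hu' : (p : U × Qbˣ).1 = f * u ^ m := hu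
  have hp := p.2.2
  refine ⟨(p : U × Qbˣ).2 * (D.y u)⁻¹, ⟨f.2, ?_⟩, ?_⟩
  · change ((p : U × Qbˣ).2 * (D.y u)⁻¹) ^ m = D.y (f : U)
    rw [mul_pow, hp, hu', map_mul, map_pow, inv_pow, mul_inv_cancel_right]
  · rw [← sub_eq_zero, sub_eq_add_neg, ← D.ecl_inv, ← D.ecl_mul, D.ecl_eq_zero]
    refine ⟨u⁻¹, Prod.ext ?_ ?_⟩
    · change (f : U) * ((p : U × Qbˣ).1)⁻¹ = u⁻¹ ^ m
      rw [hu', mul_inv, mul_inv_cancel_left, inv_pow]
    · change ((p : U × Qbˣ).2 * (D.y u)⁻¹) * ((p : U × Qbˣ).2)⁻¹ = D.y u⁻¹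
      rw [map_inv, mul_comm, inv_mul_cancel_left]

theorem eta_unique {f : U} {η η' : Qbˣ} (h : (f, η) ∈ D.EZ) (h' : (f, η') ∈ D.EZ)
    (he : D.ecl ⟨_, h⟩ = D.ecl ⟨_, h'⟩) : η = η' := by
  rw [← sub_eq_zero, sub_eq_add_neg, ← D.ecl_inv, ← D.ecl_mul, D.ecl_eq_zero] at he
  obtain ⟨u, hu⟩ := he
  have h1 : f * f⁻¹ = u ^ m := congrArg Prod.fst hu
  have h2 : η * η'⁻¹ = D.y u := congrArg Prod.snd hu
  rw [mul_inv_cancel] at h1
  rw [D.y_tors u h1.symm] at h2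
  exact mul_inv_eq_one.mp h2

/-- **Splittings from coboundaries.** -/
theorem spl_of_cob {n : ℕ} {v : D.S →+ Mu m} (hv : ∀ σ, n • coc hs σ = cob v σ) :
    D.Spl n ⊤ := by
  let s' : D.S →+ D.E := n • s - D.ι.comp v
  have hs' : ∀ x, s' x = n • s x - D.ι (v x) := fun x => rfl
  have hπ : ∀ f : D.Z, D.π (s' (D.cls f)) = D.cls (f ^ n) := by
    intro f
    rw [hs', map_sub, map_nsmul, hs, D.π_ι, sub_zero]
    rfl
  have heq : ∀ (σ : GQ) (x : D.S), s' (σ • x) = σ • s' x := by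
    intro σ x
    have h1 := DFunLike.congr_fun (hv σ) (σ • x)
    change n • coc hs σ (σ • x) = σ • v (σ⁻¹ • σ • x) - v (σ • x) at h1
    rw [inv_smul_smul] at h1
    have h2 := congrArg D.ι h1
    rw [map_nsmul, map_sub, D.ι_smul] at h2
    rw [hs', hs', smul_sub, smul_nsmul', smul_sec hs, smul_add, h2]
    abel
  choose η hη hηe using fun f : D.Z => exists_eta (hπ f)
  refine ⟨{ toFun := η, map_one' := ?_, map_mul' := fun f g => ?_ }, fun f => ?_, fun u => ?_,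
    fun σ _ f => ?_⟩
  · have h0 : ((1 : U), (1 : Qbˣ)) ∈ D.EZ := D.EZ.one_mem
    have h1 : (((1 : D.Z) ^ n : D.Z) : U) = 1 := by rw [one_pow]; rfl
    have h2 : ((1 : U), η 1) ∈ D.EZ := by have := hη 1; rwa [h1] at this
    refine eta_unique h2 h0 ?_
    have h3 : D.ecl ⟨_, h2⟩ = D.ecl ⟨_, hη 1⟩ := by
      congr 1
      exact Subtype.ext (Prod.ext h1.symm rfl)
    rw [h3, hηe 1, D.cls_one, map_zero]
    rfl
  · have h1 : (((f * g) ^ n : D.Z) : U) = ((f ^ n : D.Z) : U) * ((g ^ n : D.Z) : U) := by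
      rw [mul_pow]; rfl
    have h2 : (((f ^ n : D.Z) : U) * ((g ^ n : D.Z) : U), η f * η g) ∈ D.EZ :=
      D.EZ.mul_mem (hη f) (hη g)
    have h3 : (((f ^ n : D.Z) : U) * ((g ^ n : D.Z) : U), η (f * g)) ∈ D.EZ := by
      have := hη (f * g); rwa [h1] at this
    refine eta_unique h3 h2 ?_
    have h4 : D.ecl ⟨_, h3⟩ = D.ecl ⟨_, hη (f * g)⟩ := by
      congr 1
      exact Subtype.ext (Prod.ext h1.symm rfl)
    have h5 : D.ecl ⟨_, h2⟩ = D.ecl ⟨_, hη f⟩ + D.ecl ⟨_, hη g⟩ := rfl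
    rw [h4, h5, hηe, hηe, hηe, D.cls_mul, map_add]
  · have h1 := (hη f).2
    change η f ^ m = D.y ((f ^ n : D.Z) : U) at h1
    change η f ^ m = _
    rw [h1]
    change D.y ((f : U) ^ n) = _
    rw [map_pow]
  · change η ⟨u ^ m, D.pow_mem u⟩ = _
    have h1 : (((⟨u ^ m, D.pow_mem u⟩ : D.Z) ^ n : D.Z) : U) = (u ^ n) ^ m := by
      change (u ^ m) ^ n = _
      rw [← pow_mul, ← pow_mul, mul_comm]
    have h2 : ((u ^ n) ^ m, η ⟨u ^ m, D.pow_mem u⟩) ∈ D.EZ := by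
      have := hη ⟨u ^ m, D.pow_mem u⟩; rwa [h1] at this
    have h3 : ((u ^ n) ^ m, D.y u ^ n) ∈ D.EZ := by
      refine ⟨D.pow_mem _, ?_⟩
      change (D.y u ^ n) ^ m = D.y ((u ^ n) ^ m)
      rw [map_pow, map_pow]
    refine eta_unique h2 h3 ?_
    have h4 : D.ecl ⟨_, h2⟩ = D.ecl ⟨_, hη ⟨u ^ m, D.pow_mem u⟩⟩ := by
      congr 1
      exact Subtype.ext (Prod.ext h1.symm rfl)
    have h5 : D.cls ⟨u ^ m, D.pow_mem u⟩ = 0 := D.cls_eq_zero.mpr ⟨u, rfl⟩
    have h6 : D.ecl ⟨_, h3⟩ = 0 := D.ecl_eq_zero.mpr ⟨u ^ n, Prod.ext rfl (map_pow _ _ _).symm⟩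
    rw [h4, hηe, h5, map_zero, h6]
  · change η (D.actZ σ f) = uact σ (η f)
    have h1 : ((D.actZ σ f ^ n : D.Z) : U) = σ • ((f ^ n : D.Z) : U) := by
      rw [← map_pow]; rfl
    have h2 : (σ • ((f ^ n : D.Z) : U), uact σ (η f)) ∈ D.EZ := (D.actEZ σ ⟨_, hη f⟩).2
    have h3 : (σ • ((f ^ n : D.Z) : U), η (D.actZ σ f)) ∈ D.EZ := by
      have := hη (D.actZ σ f); rwa [h1] at this
    refine eta_unique h3 h2 ?_
    have h4 : D.ecl ⟨_, h3⟩ = D.ecl ⟨_, hη (D.actZ σ f)⟩ := by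
      congr 1
      exact Subtype.ext (Prod.ext h1.symm rfl)
    have h5 : D.ecl ⟨_, h2⟩ = σ • D.ecl ⟨_, hη f⟩ := rfl
    rw [h4, h5, hηe, hηe, ← D.smul_cls, heq]

end PD

end Fermat.Agent.Mzr
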