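import Fermat.Agent.Mzr.CjD

/-!
Complex conjugation on the Eisenstein part: the count.
-/

set_option autoImplicit false

noncomputable section

namespace Fermat.Agent.Mzr

open CongruenceSubgroup Module
open Fermat.Agent.ESCore Fermat.Agent.ESCore.ModP Fermat.Agent.ESCore.Univ
open Fermat.Agent.ESCore.UnivG Fermat.Agent.ESG
open Fermat.Agent.Flat (galF0 selHom Sel)
open Fermat.Agent.ModFun (F0)
open ModularCurve.Period
open Multiplicative (toAdd ofAdd)
open scoped MatrixGroups

/-- The field of algebraic numbers. -/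
local notation "Qb" => AlgebraicClosure ℚ

variable {N : ℕ} [NeZero N] {q : ℕ} [NeZero q] [hq : Fact q.Prime]

omit [NeZero q] hq in
theorem jC_tC {S : Finset ℕ} (i : Idx N S) : Commute (tC (N := N) i) jC := by
  refine LinearMap.ext fun x => ?_
  change tC i (jC x) = jC (tC i x)
  have h1 : x = pfC (MonoidHom.id ℂˣ) (Additive.ofMul x.ch) := rfl
  have h2 : ∀ z : Additive (Gamma0 N →* ℂˣ), pfC (MonoidHom.id ℂˣ) (jB ℂˣ z) =
      jC (pfC (MonoidHom.id ℂˣ) z) := fun _ => rfl
  rw [h1, ← h2, ← pfC_tB, ← pfC_tB, ← jB_tB, h2]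

/-- a bounded quotient of exponentials -/
theorem le_of_pow_le {q a b C : ℕ} (hq : 1 < q) (h : ∀ k : ℕ, (q ^ k) ^ a ≤ C * (q ^ k) ^ b) :
    a ≤ b := by
  by_contra hab
  rw [not_le] at hab
  obtain ⟨k, hk⟩ : ∃ k, C < q ^ k := ⟨C, Nat.lt_pow_self hq⟩
  have h1 := h k
  have h2 : C * (q ^ k) ^ b < q ^ k * (q ^ k) ^ b :=
    Nat.mul_lt_mul_of_pos_right hk (by positivity)
  have h3 : q ^ k * (q ^ k) ^ b = (q ^ k) ^ (b + 1) := by rw [pow_succ, mul_comm]
  have h4 : (q ^ k) ^ (b + 1) ≤ (q ^ k) ^ a :=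
    Nat.pow_le_pow_right (by positivity) hab
  omega

/-- the corank of the sign parts -/
theorem exists_corank (N q : ℕ) [NeZero N] [NeZero q] [Fact q.Prime] : ∃ t : ℕ,
    ∀ ε : ℤ, ε * ε = 1 → ∃ (n : ℕ) (π : Gamma0 N →* Multiplicative (Fin n → ℤ)), PiD N ε n π ∧
      ∀ k, Nat.card (tors (nilp (Dpi q π) (thE N q)) (q ^ k)) = (q ^ k) ^ t := by
  obtain ⟨n, π, h⟩ := exists_piD N 1
  obtain ⟨M, hM⟩ := h.exists_M (thM N q) (thL N q)
  obtain ⟨hfin, hc⟩ := charpoly_eq (by norm_num) h (thM N q) (thL N q) hM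
  refine ⟨((matM M).map (Int.castRingHom (ZMod q))).charpoly.natTrailingDegree, fun ε hε => ?_⟩
  obtain ⟨n', π', h'⟩ := exists_piD N ε
  obtain ⟨M', hM'⟩ := h'.exists_M (thM N q) (thL N q)
  obtain ⟨-, hc'⟩ := charpoly_eq hε h' (thM N q) (thL N q) hM'
  refine ⟨n', π', h', fun k => ?_⟩
  have h1 := card_Dpi h' hM' (q := q) k
  have h2 := trailing_eq (q := q) (matM M') (matM M) (hc'.trans hc.symm)
  rw [h2] at h1
  exact h1

omit hq in
theorem finite_tors_nilp (h : ∀ k : ℕ, Finite (tors (Dinf N q) (q ^ k))) {D : AddSubgroup (XC N)}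
    (hD : D ≤ Dinf N q) (k : ℕ) : Finite (tors (nilp D (thE N q)) (q ^ k)) := by
  have := h k
  have hle : tors (nilp D (thE N q)) (q ^ k) ≤ tors (Dinf N q) (q ^ k) :=
    fun x hx => ⟨hD hx.1.1, hx.2⟩
  exact Finite.of_injective (AddSubgroup.inclusion hle) (AddSubgroup.inclusion_injective _)

/-- `1 + τ`, `τ` the complex conjugation -/
def ccE (N q : ℕ) [NeZero N] [NeZero q] [Fact q.Prime] (k : ℕ) : EX N q k →+ EX N q k where
  toFun x := x + gE k complexConjugation x
  map_zero' := by rw [map_zero, add_zero]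
  map_add' x y := by
    rw [map_add]
    abel

theorem ccE_apply (k : ℕ) (x : EX N q k) : ccE N q k x = x + gE k complexConjugation x := rfl

/-- **(P6)** -/
theorem card_range_cc (k : ℕ) :
    Nat.card (ccE N q k).range ^ 2 ≤ Nat.card (EX N q k) := by
  obtain ⟨t, ht⟩ := exists_corank N q
  obtain ⟨n, π, h, hc⟩ := ht 1 (by norm_num)
  obtain ⟨n', π', h', hc'⟩ := ht (-1) (by norm_num)
  obtain ⟨d, hd⟩ := exists_card N q
  have hfin : ∀ k : ℕ, Finite (tors (Dinf N q) (q ^ k)) := fun k =>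
    finite_tors_Dinf (pow_ne_zero k (NeZero.ne q))
  have hf : ∀ k, Finite (tors (nilp (Dpi q π) (thE N q)) (q ^ k)) :=
    finite_tors_nilp hfin (Dpi_le h)
  have hf' : ∀ k, Finite (tors (nilp (Dpi q π') (thE N q)) (q ^ k)) :=
    finite_tors_nilp hfin (Dpi_le h')
  have hfe : ∀ k, Finite (tors (eisD N q) (q ^ k)) := fun k =>
    finite_tors_eisD (pow_ne_zero k (NeZero.ne q))
  have hf2 : Finite (tors (Dinf N q) 2) := finite_tors_Dinf two_ne_zero
  -- the two signs
  have hle : t + t ≤ d := by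
    refine le_of_pow_le (C := Nat.card (tors (Dinf N q) 2)) hq.out.one_lt fun k => ?_
    have := hf k
    have := hf' k
    have := hfe k
    let f : (tors (nilp (Dpi q π) (thE N q)) (q ^ k)) ×
        (tors (nilp (Dpi q π') (thE N q)) (q ^ k)) →+ tors (eisD N q) (q ^ k) :=
      { toFun := fun x => ⟨(x.1 : XC N) + x.2, (eisD N q).add_mem
            ⟨Dpi_le h x.1.2.1.1, x.1.2.1.2⟩ ⟨Dpi_le h' x.2.2.1.1, x.2.2.1.2⟩, by
            rw [smul_add, x.1.2.2, x.2.2.2, add_zero]⟩
        map_zero' := Subtype.ext (add_zero _)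
        map_add' := fun x y => Subtype.ext (by
          change ((x.1 : XC N) + y.1) + (x.2 + y.2) = (x.1 + x.2) + (y.1 + y.2)
          abel) }
    have h1 := AddSubgroup.card_eq_card_quotient_mul_card_addSubgroup f.ker
    have h2 : Nat.card (_ ⧸ f.ker) ≤ Nat.card (tors (eisD N q) (q ^ k)) := by
      rw [Nat.card_congr (QuotientAddGroup.quotientKerEquivRange f).toEquiv]
      exact Nat.card_le_card_of_injective _ (Subtype.val_injective)
    have h3 : Nat.card f.ker ≤ Nat.card (tors (Dinf N q) 2) := by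
      have key : ∀ x : f.ker, ((x.1.1 : XC N)) = -x.1.2 ∧ 2 • (x.1.1 : XC N) = 0 := by
        intro x
        have e1 : (x.1.1 : XC N) + x.1.2 = 0 := congrArg Subtype.val x.2
        have e2 : (x.1.1 : XC N) = -x.1.2 := eq_neg_of_add_eq_zero_left e1
        refine ⟨e2, ?_⟩
        have e3 := Dpi_sgn h x.1.1.2.1.1
        have e4 := Dpi_sgn h' x.1.2.2.1.1
        rw [one_smul] at e3
        rw [neg_one_zsmul] at e4
        have e5 : jC (x.1.1 : XC N) = -(x.1.1 : XC N) := by
          rw [e2, map_neg, e4]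
        rw [e3] at e5
        rw [two_smul]
        nth_rw 1 [e5]
        exact neg_add_cancel _
      refine Nat.card_le_card_of_injective
        (fun x : f.ker => (⟨x.1.1, Dpi_le h x.1.1.2.1.1, (key x).2⟩ : tors (Dinf N q) 2)) ?_
      intro x y hxy
      have e1 : (x.1.1 : XC N) = (y.1.1 : XC N) :=
        congrArg (fun z : tors (Dinf N q) 2 => (z : XC N)) hxy
      have e2 : (x.1.2 : XC N) = (y.1.2 : XC N) := by
        have a1 := (key x).1
        have a2 := (key y).1
        rw [a1, a2] at e1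
        exact neg_injective e1
      exact Subtype.ext (Prod.ext (Subtype.ext e1) (Subtype.ext e2))
    rw [Nat.card_prod, hc, hc'] at h1
    rw [pow_add, h1, ← hd, mul_comm]
    exact Nat.mul_le_mul h3 h2
  -- the image
  have h4 : Nat.card (ccE N q k).range ≤ (q ^ k) ^ t := by
    have := hf' k
    rw [← hc' k]
    refine Nat.card_le_card_of_injective (fun x => ⟨inE k x.1, ?_⟩) ?_
    · obtain ⟨y, hy⟩ := x.2
      have e1 : inE k x.1 = inE k y + (-1 : ℤ) • jC (inE k y) := by
        rw [← hy]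
        change inE k (y + gE k complexConjugation y) = _
        rw [map_add, inE_gE_cc, neg_one_zsmul]
      refine ⟨⟨?_, ?_⟩, inE_tors k x.1⟩
      · rw [e1]
        exact add_mem_Dpi (by norm_num) h' (eisD_le (inE_mem k y))
      · exact (inE_mem k x.1).2
    · intro x y hxy
      have e1 : inE k x.1 = inE k y.1 := congrArg
        (fun z : tors (nilp (Dpi q π') (thE N q)) (q ^ k) => (z : XC N)) hxy
      exact Subtype.ext (inE_injective k e1)
  have h5 : Nat.card (EX N q k) = (q ^ k) ^ d := by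
    rw [← hd k]
    exact Nat.card_congr (eisXEquiv k).toEquiv
  rw [h5]
  calc _ ≤ ((q ^ k) ^ t) ^ 2 := Nat.pow_le_pow_left h4 2
    _ = (q ^ k) ^ (t + t) := by rw [← pow_mul, mul_two]
    _ ≤ (q ^ k) ^ d := Nat.pow_le_pow_right (pos_pow q k) hle

/-- **(P6)** for the classes of functions -/
theorem card_range_cc_sel (k : ℕ) (T : AddMonoid.End (eisS N q k))
    (hT : ∀ s : eisS N q k, (T s : Sel Qb (F0 Qb N) (q ^ k)) =
      s + selHom (q ^ k) (galF0 N) complexConjugation s) :
    Nat.card (T : eisS N q k →+ eisS N q k).range ^ 2 ≤ Nat.card (eisS N q k) := by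
  have h1 := card_range_cc (N := N) (q := q) k
  have h2 : Nat.card (EX N q k) = Nat.card (eisS N q k) := Nat.card_congr (eisEquiv k).toEquiv
  rw [← h2]
  refine le_trans (Nat.pow_le_pow_left (le_of_eq ?_) 2) h1
  symm
  refine Nat.card_congr (Equiv.subtypeEquiv (eisEquiv k).toEquiv fun x => ?_)
  have key : ∀ y : EX N q k, eisEquiv k (y + gE k complexConjugation y) = T (eisEquiv k y) := by
    intro y
    apply Subtype.ext
    rw [hT]
    have e1 := eisEquiv_gal k complexConjugation y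
    rw [← e1]
    exact congrArg Subtype.val (map_add (eisEquiv k) y (gE k complexConjugation y))
  constructor
  · rintro ⟨y, rfl⟩
    exact ⟨eisEquiv k y, (key y).symm⟩
  · rintro ⟨z, hz⟩
    obtain ⟨y, rfl⟩ := (eisEquiv k).surjective z
    refine ⟨y, (eisEquiv k).injective ?_⟩
    exact (key y).trans hz

end Fermat.Agent.Mzr
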