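import Fermat.Agent.Mzr.Inert
import Fermat.Agent.MP.UW
import Fermat.Agent.MZ.WHecke
import Fermat.Agent.RT.LGbW
import Fermat.Agent.NF.Res
import Fermat.Agent.LG.MazProps

/-!
Frobenius at `N` on the part of the Eisenstein part which is fixed by inertia.
-/

set_option autoImplicit false

noncomputable section

namespace Fermat.Agent.Mzr

open CongruenceSubgroup Polynomial
open Fermat.Agent.ESCore Fermat.Agent.ESCore.ModP Fermat.Agent.ESCore.Univ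
open Fermat.Agent.LG (GoodLev IsPar Bez)
open scoped MatrixGroups

/-- The field of algebraic numbers. -/
local notation "Qb" => AlgebraicClosure ℚ
/-- The absolute Galois group. -/
local notation "GQ" => (AlgebraicClosure ℚ ≃ₐ[ℚ] AlgebraicClosure ℚ)

section

variable {N : ℕ} [NeZero N] {q : ℕ} [NeZero q]

theorem inE_aeval (k : ℕ) (i : Idx N {q}) (R : ℤ[X]) (x : EX N q k) :
    inE k ((aeval (hE k i) R : AddMonoid.End (EX N q k)) x) = aeval (hkC i) R (inE k x) := by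
  induction R using Polynomial.induction_on' with
  | add p q hp hq =>
    rw [map_add, map_add, LinearMap.add_apply, ← hp, ← hq]
    exact map_add (inE k) _ _
  | monomial n a =>
    rw [aeval_monomial, aeval_monomial, Module.End.mul_apply, Module.algebraMap_end_apply]
    have h1 : ∀ n, inE k ((hE k i ^ n) x) = (hkC i ^ n) (inE k x) := by
      intro n
      induction n with
      | zero => rfl
      | succ n ih =>
        rw [pow_succ', pow_succ', Module.End.mul_apply, ← ih]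
        rfl
    rw [← h1, ← map_zsmul (inE k)]
    congr 1

theorem commute_aeval {E : Type*} [Ring E] {a b : E} (h : Commute a b) (R : ℤ[X]) :
    Commute (aeval a R) b := by
  induction R using Polynomial.induction_on' with
  | add p q hp hq =>
    rw [map_add]
    exact hp.add_left hq
  | monomial n c =>
    rw [aeval_monomial]
    exact Commute.mul_left (Algebra.commutes c b) (h.pow_left n)

variable [hq : Fact q.Prime]

/-- **(P9)**, second form -/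
theorem exists_tE_inv' (i : Idx N {q}) : ∃ (c : ℕ) (ρ : ∀ k, AddMonoid.End (EX N q k)), 0 < c ∧
    (∀ k σ, Commute (ρ k) (gE k σ)) ∧ ∀ k x, c • x = tE k i (ρ k x) := by
  obtain ⟨c, R, hc, h⟩ := exists_tC_inv i
  refine ⟨c, fun k => aeval (hE k i) R, hc, fun k σ => commute_aeval (hE_comm_gE k i σ) R,
    fun k x => inE_injective k ?_⟩
  rw [map_nsmul, inE_tE, inE_aeval]
  exact h q _ (eisD_le (inE_mem k x))

end

section W

variable {N M m : ℕ} [NeZero N] [NeZero M] [NeZero (N * M)]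

/-- `w` on parabolic characters -/
def wXp (B : Bez N M) (x : XG (N * M) m) (hx : IsPar x.1) : XG (N * M) m :=
  ⟨B.wChar dvd_rfl rfl x.1, (B.wChar_isPar dvd_rfl rfl hx).mem_XG (by
    rw [← B.wChar_pow]
    have : x.1 ^ m = 1 := x.2.1
    rw [this, B.wChar_one])⟩

theorem wXp_isPar (B : Bez N M) (x : XG (N * M) m) (hx : IsPar x.1) : IsPar (wXp B x hx).1 :=
  B.wChar_isPar dvd_rfl rfl hx

theorem wChar_inv' (B : Bez N M) (c : Gamma0 (N * M) →* ℂˣ) :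
    B.wChar dvd_rfl rfl c⁻¹ = (B.wChar dvd_rfl rfl c)⁻¹ := by
  ext1 γ
  obtain ⟨γ', h1, -⟩ := B.exists_wChar dvd_rfl rfl γ
  refine (B.wChar_apply dvd_rfl rfl c⁻¹ h1).trans ?_
  change (c γ')⁻¹ = (B.wChar dvd_rfl rfl c γ)⁻¹
  rw [B.wChar_apply dvd_rfl rfl c h1]

theorem zpow_aux {G : Type*} [CommGroup G] (a b : G) (n : ℤ) (k : ℕ) :
    (a * (b ^ k)⁻¹) ^ n = a ^ n * ((b ^ n) ^ k)⁻¹ := by
  rw [mul_zpow, inv_zpow, ← zpow_natCast b k, ← zpow_natCast (b ^ n) k, ← zpow_mul, ← zpow_mul,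
    mul_comm (k : ℤ) n]

theorem prod_aux {G : Type*} [CommGroup G] (T : G →* G) (a b : G) (l : ℕ) :
    T (a ^ 2) * ((a ^ 2) ^ l)⁻¹ =
      (T (a * b⁻¹) * ((a * b⁻¹) ^ l)⁻¹) * (T (a * b) * ((a * b) ^ l)⁻¹) := by
  have h4 : a ^ 2 = (a * b⁻¹) * (a * b) := by
    rw [mul_mul_mul_comm, inv_mul_cancel, mul_one, sq]
  rw [h4, map_mul, mul_pow, mul_inv]
  exact mul_mul_mul_comm _ _ _ _

theorem prod_aux2 {G F : Type*} [CommGroup G] [FunLike F G G] [MonoidHomClass F G G] (P : F)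
    (u v : G) (e n : ℕ) (h1 : P (u ^ e) = (u ^ e) ^ n) (h2 : P (v ^ e) = (v ^ e) ^ n) :
    P ((u * v) ^ e) = ((u * v) ^ e) ^ n := by
  rw [mul_pow, map_mul, h1, h2, mul_pow]

theorem four_key [hN : Fact N.Prime] (hN2 : N ≠ 2) [NeZero (N * 4)]
    (hMZ : LG.MZcPropT) : ∃ e : ℕ, 0 < e ∧ ∀ {m : ℕ} (hm : 0 < m) (_ : ¬ N ∣ m)
      {A : ValuationSubring Qb} (_ : A.LiesOverPrime N) {φ : GQ} (_ : A.IsFrobeniusAt φ N)
      {l : ℕ} (hl : l.Prime) (hlN : ¬ l ∣ N * 4) (ψ : XG (N * 4) m) (_ : IsPar ψ.1)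
      (_ : ∀ σ ∈ A.inertiaSubgroupIn ℚ, galX (N * 4) hm σ ψ = ψ),
      galX (N * 4) hm (φ * φ) ((heckeX hl hlN m (ψ ^ 2) * ((ψ ^ 2) ^ (l + 1))⁻¹) ^ e) =
        ((heckeX hl hlN m (ψ ^ 2) * ((ψ ^ 2) ^ (l + 1))⁻¹) ^ e) ^ (N ^ 2) := by
  have hN4 : ¬ N ∣ 4 := by
    intro h
    have h2 : N ∣ 2 ^ 2 := h
    exact hN2 ((Nat.prime_dvd_prime_iff_eq hN.out Nat.prime_two).mp (hN.out.dvd_of_dvd_pow h2))
  obtain ⟨e, he, H⟩ := hMZ (q := N) (M := 4) (N := N * 4) hN.out hN4 (goodLev_four hN2) rfl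
    (dvd_mul_right _ _)
  obtain ⟨B⟩ := LG.nonempty_bez (q := N) (M := 4) ((Nat.Prime.coprime_iff_not_dvd hN.out).mpr hN4)
  refine ⟨e, he, ?_⟩
  intro m hm hNm A hA φ hφ l hl hlN ψ hψ hfix
  have hnoE : LG.NoEll (N * 4) := (goodLev_four hN2).noEll rfl
  have hwfix : ∀ σ ∈ A.inertiaSubgroupIn ℚ, galX (N * 4) hm σ (wXp B ψ hψ) = wXp B ψ hψ := by
    intro σ hσ
    apply Subtype.ext
    have h1 := RT.wChar_galX' B hN.out rfl hm σ (χ := ψ) (χ' := wXp B ψ hψ) hψ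
      (LG.isPar_galX hnoE hm σ ψ hψ) rfl
    rw [hfix σ hσ] at h1
    exact h1.symm
  have hww : ∀ c : Gamma0 (N * 4) →* ℂˣ, B.wChar dvd_rfl rfl (B.wChar dvd_rfl rfl c) = c :=
    fun c => RT.Bez.wChar_wChar B dvd_rfl rfl c
  have key : ∀ (ε : ℤ) (hε : ε = 1 ∨ ε = -1) (ψ' : XG (N * 4) m) (hψ' : IsPar ψ'.1)
      (_ : ∀ σ ∈ A.inertiaSubgroupIn ℚ, galX (N * 4) hm σ ψ' = ψ')
      (_ : B.wChar dvd_rfl rfl ψ'.1 = (ψ' ^ (-ε)).1),
      galX (N * 4) hm (φ * φ) ((heckeX hl hlN m ψ' * (ψ' ^ (l + 1))⁻¹) ^ e) =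
        ((heckeX hl hlN m ψ' * (ψ' ^ (l + 1))⁻¹) ^ e) ^ (N ^ 2) := by
    intro ε hε ψ' hψ' hfix' hw'
    have hpar : IsPar (heckeX hl hlN m ψ' * (ψ' ^ (l + 1))⁻¹).1 := by
      intro γ hγ
      change heckeChar hl hlN ψ'.1 γ * ((ψ'.1 γ) ^ (l + 1))⁻¹ = 1
      rw [MZ.isPar_heckeChar hl hlN hψ' γ hγ, hψ' γ hγ, one_pow, inv_one, mul_one]
    have hw2 : B.wChar dvd_rfl rfl (heckeX hl hlN m ψ' * (ψ' ^ (l + 1))⁻¹).1 =
        ((heckeX hl hlN m ψ' * (ψ' ^ (l + 1))⁻¹) ^ (-ε)).1 := by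
      change B.wChar dvd_rfl rfl (heckeChar hl hlN ψ'.1 * (ψ'.1 ^ (l + 1))⁻¹) = _
      rw [B.wChar_mul, wChar_inv', B.wChar_pow, MZ.wChar_hecke B hN.out rfl hm hψ' hl hlN, hw']
      have h1 : (heckeX hl hlN m ψ' * (ψ' ^ (l + 1))⁻¹) ^ (-ε) =
          heckeX hl hlN m (ψ' ^ (-ε)) * ((ψ' ^ (-ε)) ^ (l + 1))⁻¹ := by
        rw [map_zpow]
        exact zpow_aux _ _ _ _
      rw [h1]
      rfl
    refine H hm hNm hA B _ ε hε hpar ?_ hw2 ?_ ⟨l, hl, hlN, ψ', hψ', hfix', rfl⟩ φ hφ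
    · apply Subtype.ext
      rw [heckeXU_coe, MP.heckeCharU_eq hN.out B rfl (dvd_mul_right _ _) hpar, hw2, zpow_neg]
      exact inv_inv (((heckeX hl hlN m ψ' * (ψ' ^ (l + 1))⁻¹) ^ ε).1)
    · intro σ hσ
      rw [map_mul, map_inv, map_pow, hfix' σ hσ]
      congr 1
      have h1 := gal_hecke_comm hm hl hlN σ ψ'
      rw [hfix' σ hσ] at h1
      exact h1.symm
  set w := wXp B ψ hψ with hw
  have hwpar := wXp_isPar B ψ hψ
  have k1 := key 1 (Or.inl rfl) (ψ * w⁻¹)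
    (fun γ hγ => by
      change ψ.1 γ * (w.1 γ)⁻¹ = 1
      rw [hψ γ hγ, hwpar γ hγ, inv_one, mul_one])
    (fun σ hσ => by rw [map_mul, map_inv, hfix σ hσ, hwfix σ hσ])
    (by
      change B.wChar dvd_rfl rfl (ψ.1 * (B.wChar dvd_rfl rfl ψ.1)⁻¹) = _
      rw [B.wChar_mul, wChar_inv', hww, zpow_neg, zpow_one, mul_inv, inv_inv]
      exact mul_comm (B.wChar dvd_rfl rfl ψ.1) (ψ.1)⁻¹)
  have k2 := key (-1) (Or.inr rfl) (ψ * w)
    (fun γ hγ => by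
      change ψ.1 γ * (w.1 γ) = 1
      rw [hψ γ hγ, hwpar γ hγ, mul_one])
    (fun σ hσ => by rw [map_mul, hfix σ hσ, hwfix σ hσ])
    (by
      change B.wChar dvd_rfl rfl (ψ.1 * (B.wChar dvd_rfl rfl ψ.1)) = _
      rw [B.wChar_mul, hww, neg_neg, zpow_one]
      exact mul_comm (B.wChar dvd_rfl rfl ψ.1) ψ.1)
  rw [prod_aux (heckeX hl hlN m) ψ w (l + 1)]
  exact prod_aux2 _ _ _ _ _ k1 k2

end W

theorem conj_inertia {A : ValuationSubring Qb} {φ : GQ} (hφ : φ ∈ A.decompositionSubgroup ℚ)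
    {σ : GQ} (hσ : σ ∈ A.inertiaSubgroupIn ℚ) : φ⁻¹ * σ * φ ∈ A.inertiaSubgroupIn ℚ := by
  obtain ⟨σ', hσ', rfl⟩ := hσ
  have hn : (A.inertiaSubgroup ℚ).Normal := MonoidHom.normal_ker _
  refine ⟨(⟨φ, hφ⟩ : A.decompositionSubgroup ℚ)⁻¹ * σ' * ⟨φ, hφ⟩, ?_, rfl⟩
  have h1 := hn.conj_mem σ' hσ' (⟨φ, hφ⟩ : A.decompositionSubgroup ℚ)⁻¹
  rwa [inv_inv] at h1

theorem exists_idx (N q : ℕ) [NeZero N] [NeZero q] : ∃ (l : ℕ) (_ : l.Prime), ¬ l ∣ N ∧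
    l ∉ ({q} : Finset ℕ) ∧ ¬ l ∣ N * 4 := by
  obtain ⟨l, hl, hlp⟩ := Nat.exists_infinite_primes (N * 4 * q + 1)
  have h4 : 0 < N * 4 * q := Nat.pos_of_ne_zero (mul_ne_zero (mul_ne_zero (NeZero.ne N)
    (by norm_num)) (NeZero.ne q))
  have hd : ∀ d : ℕ, d ∣ N * 4 * q → ¬ l ∣ d := by
    intro d hd h
    have := Nat.le_of_dvd h4 (h.trans hd)
    omega
  refine ⟨l, hlp, hd N ((dvd_mul_right N 4).trans (dvd_mul_right _ _)), ?_,
    hd _ (dvd_mul_right _ _)⟩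
  rw [Finset.mem_singleton]
  rintro rfl
  exact hd l (dvd_mul_left _ _) dvd_rfl

section

variable {N : ℕ} [NeZero N] {q : ℕ} [NeZero q]

theorem ex_of_res {d : ℕ} (hres : ∀ χ : Gamma0 N →* ℂˣ,
      resChar (dvd_mul_right N 4) χ = 1 → χ ^ d = 1)
    {k : ℕ} {x : EX N q k} (h : resX (dvd_mul_right N 4) (q ^ k) x.ch = 1) : d • x = 0 := by
  have h3 := hres x.ch.1 (congrArg Subtype.val h)
  refine EX.ext (Subtype.ext ?_)
  rw [EX.ch_nsmul, EX.ch_zero]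
  exact h3

omit [NeZero N] in
theorem res_hecke {N' : ℕ} (hdvd : N ∣ N') {l : ℕ} (hl : l.Prime) (hlN : ¬ l ∣ N)
    (hlN' : ¬ l ∣ N') {m : ℕ} (χ : XG N m) :
    resX hdvd m (heckeX hl hlN m χ) = heckeX hl hlN' m (resX hdvd m χ) :=
  Subtype.ext (NF.heckeChar_resC hdvd hl hlN' hlN χ.1).symm

theorem res_aux {G H : Type*} [CommGroup G] [CommGroup H] (f : G →* H) (T : G →* G) (T' : H →* H)
    (h : ∀ x, f (T x) = T' (f x)) (z : G) (l : ℕ) :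
    f (T (z ^ 2) * ((z ^ 2) ^ l)⁻¹) = T' (f z ^ 2) * ((f z ^ 2) ^ l)⁻¹ := by
  rw [map_mul, map_inv, map_pow f (z ^ 2), h, map_pow f z]

variable [hq : Fact q.Prime]

/-- **(P10)** -/
theorem exists_frob_fixed [hN : Fact N.Prime] (hN2 : N ≠ 2) (hNq : N ≠ q)
    (hMZ : LG.MZcPropT) : ∃ b : ℕ, 0 < b ∧ ∀ (k : ℕ) {A : ValuationSubring Qb}
      (_ : A.LiesOverPrime N) {φ : GQ} (_ : A.IsFrobeniusAt φ N) (x : EX N q k)
      (_ : ∀ σ ∈ A.inertiaSubgroupIn ℚ, gE k σ x = x), ∃ y : EX N q k,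
        (∀ σ ∈ A.inertiaSubgroupIn ℚ, gE k σ y = y) ∧ b • x = gE k φ y - y := by
  have : NeZero (N * 4) := ⟨mul_ne_zero (NeZero.ne N) (by norm_num)⟩
  have hdvd : N ∣ N * 4 := dvd_mul_right _ _
  obtain ⟨d, hd, hres⟩ := exists_pow_res hdvd
  obtain ⟨e, he, H⟩ := four_key hN2 hMZ
  obtain ⟨l, hl, hlN, hlq, hlN4⟩ := exists_idx N q
  let i : Idx N {q} := ⟨l, hl, hlN, hlq⟩
  obtain ⟨c, ρ, hc, hρ, hcρ⟩ := exists_tE_inv' (N := N) (q := q) i
  have hN1 := hN.out.one_lt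
  refine ⟨(N ^ 2 - 1) * (2 * c * e * d), ?_, ?_⟩
  · have : 0 < N ^ 2 - 1 := Nat.sub_pos_of_lt (Nat.one_lt_pow two_ne_zero hN1)
    positivity
  intro k A hA φ hφ x hx
  have hNm : ¬ N ∣ q ^ k := fun h =>
    hNq ((Nat.prime_dvd_prime_iff_eq hN.out hq.out).mp (hN.out.dvd_of_dvd_pow h))
  set z : EX N q k := ρ k x with hz
  have hzfix : ∀ σ ∈ A.inertiaSubgroupIn ℚ, gE k σ z = z := by
    intro σ hσ
    have h1 : gE k σ (ρ k x) = ρ k (gE k σ x) := (DFunLike.congr_fun (hρ k σ) x).symm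
    rw [hz, h1, hx σ hσ]
  have hψ : IsPar (resX hdvd (q ^ k) z.ch).1 := ParC.res hdvd (fun γ hγ => ex_isPar z γ hγ)
  have h1 := H (pos_pow q k) hNm hA hφ hl hlN4 (resX hdvd (q ^ k) z.ch) hψ (fun σ hσ => by
    rw [galX_res, ← gE_ch, hzfix σ hσ])
  set X : EX N q k := (2 * c * e * d) • x with hX
  have h2 : gE k φ (gE k φ X) = N ^ 2 • X := by
    have e1 : heckeX hl hlN4 (q ^ k) (resX hdvd (q ^ k) z.ch ^ 2) *
        ((resX hdvd (q ^ k) z.ch ^ 2) ^ (l + 1))⁻¹ = resX hdvd (q ^ k) ((2 * c) • x).ch := by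
      have e2 : ((2 * c) • x).ch = heckeX hl hlN (q ^ k) (z.ch ^ 2) *
          ((z.ch ^ 2) ^ (l + 1))⁻¹ := by
        have e3 : (2 * c) • x = hE k i (2 • z) - (l + 1) • (2 • z) := by
          rw [mul_smul, hcρ, tE_apply, smul_sub, ← map_nsmul (hE k i), smul_comm 2, add_comm]
        rw [e3]
        exact div_eq_mul_inv _ _
      rw [e2]
      exact (res_aux (resX hdvd (q ^ k)) (heckeX hl hlN (q ^ k)) (heckeX hl hlN4 (q ^ k))
        (res_hecke hdvd hl hlN hlN4) z.ch (l + 1)).symm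
    rw [e1] at h1
    have e4 : resX hdvd (q ^ k) (gE k φ (gE k φ ((2 * c * e) • x)) - N ^ 2 • (2 * c * e) • x).ch
        = 1 := by
      have e5 : (gE k φ (gE k φ ((2 * c * e) • x)) - N ^ 2 • (2 * c * e) • x).ch =
          galX N (pos_pow q k) (φ * φ) (((2 * c) • x).ch ^ e) / (((2 * c) • x).ch ^ e) ^ (N ^ 2) := by
        rw [mul_comm (2 * c) e, mul_smul e, map_mul]
        rfl
      rw [e5]
      refine quot_aux2 _ _ _ ?_
      rw [← galX_res, map_pow, h1, map_pow, map_pow]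
    have e6 := ex_of_res hres e4
    rw [smul_sub, sub_eq_zero, smul_comm d (N ^ 2), ← map_nsmul (gE k φ), ← map_nsmul (gE k φ),
      smul_smul d, mul_comm d] at e6
    exact e6
  refine ⟨gE k φ X + X, ?_, ?_⟩
  · intro σ hσ
    have h3 : gE k σ X = X := by rw [hX, map_nsmul, hx σ hσ]
    have h4 : gE k σ (gE k φ X) = gE k φ X := by
      have h5 : gE (N := N) (q := q) k σ * gE k φ = gE k φ * gE k (φ⁻¹ * σ * φ) := by
        rw [← gE_mul, ← gE_mul]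
        congr 1
        group
      have h6 := DFunLike.congr_fun h5 X
      refine h6.trans ?_
      change gE k φ (gE k (φ⁻¹ * σ * φ) X) = gE k φ X
      rw [hX, map_nsmul (gE k (φ⁻¹ * σ * φ)), hx _ (conj_inertia hφ.mem_decompositionSubgroup hσ)]
    rw [map_add, h4, h3]
  · rw [map_add, h2, mul_smul, ← hX, add_sub_add_comm, sub_add_sub_cancel, eq_sub_iff_add_eq,
      ← succ_nsmul]
    congr 1
    have : 0 < N ^ 2 := by positivity
    omega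

end

end Fermat.Agent.Mzr
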