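import Fermat.Agent.Mzr.Inert
import Fermat.Agent.Mzr.FrobN
import Fermat.Agent.Mzr.CjMain
import Fermat.Agent.Mzr.HEis2
import Fermat.Agent.MZ.MZc

/-!
The Eisenstein part inside the Selmer group: transport of the properties of the Galois action.
-/

set_option autoImplicit false

noncomputable section

namespace Fermat.Agent.Mzr

open AlgebraicCurve
open Fermat.Agent.LG Fermat.Agent.ModFun Fermat.Agent.Geo Fermat.Agent.Flat
open Fermat.Agent.ESCore Fermat.Agent.ESCore.ModP Fermat.Agent.ESCore.Univ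
open CongruenceSubgroup (Gamma0)

/-- The field of algebraic numbers. -/
local notation "Qb" => AlgebraicClosure ℚ
/-- The absolute Galois group. -/
local notation "GQ" => (AlgebraicClosure ℚ ≃ₐ[ℚ] AlgebraicClosure ℚ)

/-- transport of endomorphisms -/
def cjE {M M' : Type*} [AddCommGroup M] [AddCommGroup M'] (e : M ≃+ M') :
    AddMonoid.End M →+* AddMonoid.End M' where
  toFun f := (e : M →+ M').comp (AddMonoidHom.comp f (e.symm : M' →+ M))
  map_one' := DFunLike.ext _ _ fun x => e.apply_symm_apply x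
  map_mul' f g := DFunLike.ext _ _ fun x => by
    change e (f (g (e.symm x))) = e (f (e.symm (e (g (e.symm x)))))
    rw [e.symm_apply_apply]
  map_zero' := DFunLike.ext _ _ fun x => map_zero e
  map_add' f g := DFunLike.ext _ _ fun x => map_add e _ _

theorem cjE_apply {M M' : Type*} [AddCommGroup M] [AddCommGroup M'] (e : M ≃+ M')
    (f : AddMonoid.End M) (x : M') : cjE e f x = e (f (e.symm x)) := rfl

theorem cjE_apply' {M M' : Type*} [AddCommGroup M] [AddCommGroup M'] (e : M ≃+ M')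
    (f : AddMonoid.End M) (x : M) : cjE e f (e x) = e (f x) := by
  rw [cjE_apply, e.symm_apply_apply]

variable {N : ℕ} [NeZero N] {q : ℕ} [NeZero q]

variable (N q) in
/-- the Eisenstein part of the Selmer group, as a type -/
def SX (k : ℕ) : Type := eisS N q k

instance instSX (k : ℕ) : AddCommGroup (SX N q k) := inferInstanceAs (AddCommGroup (eisS N q k))

instance finite_SX (k : ℕ) : Finite (SX N q k) := inferInstanceAs (Finite (eisS N q k))

/-- the underlying class -/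
def SX.cl {k : ℕ} : SX N q k →+ Sel Qb (F0 Qb N) (q ^ k) := (eisS N q k).subtype

theorem SX.cl_mem {k : ℕ} (s : SX N q k) : s.cl ∈ eisS N q k := Subtype.prop (p := (· ∈ eisS N q k)) s

theorem SX.ext {k : ℕ} {s t : SX N q k} (h : s.cl = t.cl) : s = t := Subtype.ext h

theorem SX.exists_of_mem {k : ℕ} {c : Sel Qb (F0 Qb N) (q ^ k)} (hc : c ∈ eisS N q k) :
    ∃ s : SX N q k, s.cl = c := ⟨⟨c, hc⟩, rfl⟩

/-- the two incarnations -/
def eqE (k : ℕ) : EX N q k ≃+ SX N q k := eisEquiv k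

/-- the Hecke operators minus `1 + l` -/
def tSX (k : ℕ) (i : Idx N {q}) : AddMonoid.End (SX N q k) := cjE (eqE k) (tE k i)

theorem tSX_nilpotent (k : ℕ) (i : Idx N {q}) : IsNilpotent (tSX (N := N) (q := q) k i) :=
  (tE_nilpotent k i).map (cjE (eqE k))

variable [hq : Fact q.Prime]

/-- the Galois action on the Eisenstein part -/
def gS (k : ℕ) (σ : GQ) : AddMonoid.End (SX N q k) where
  toFun s := ⟨selHom (q ^ k) (galF0 N) σ s.cl, eisS_gal σ s.cl_mem⟩
  map_zero' := Subtype.ext (map_zero (selHom (q ^ k) (galF0 N) σ))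
  map_add' s t := Subtype.ext (map_add (selHom (q ^ k) (galF0 N) σ) s.cl t.cl)

theorem gS_cl (k : ℕ) (σ : GQ) (s : SX N q k) :
    (gS k σ s).cl = selHom (q ^ k) (galF0 N) σ s.cl := rfl

theorem eqE_gE (k : ℕ) (σ : GQ) (x : EX N q k) : eqE k (gE k σ x) = gS k σ (eqE k x) :=
  Subtype.ext (eisEquiv_gal k σ x)

theorem gS_eq (k : ℕ) (σ : GQ) : gS (N := N) (q := q) k σ = cjE (eqE k) (gE k σ) :=
  DFunLike.ext _ _ fun s => by
    obtain ⟨x, rfl⟩ := (eqE k).surjective s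
    rw [cjE_apply', eqE_gE]

theorem gS_mul (k : ℕ) (σ τ : GQ) : gS (N := N) (q := q) k (σ * τ) = gS k σ * gS k τ := by
  rw [gS_eq, gS_eq, gS_eq, gE_mul, map_mul]

theorem gS_one (k : ℕ) : gS (N := N) (q := q) k 1 = 1 := by
  rw [gS_eq, gE_one, map_one]

/-- the action on the Eisenstein part -/
instance instActEisS (k : ℕ) : DistribMulAction GQ (SX N q k) where
  smul σ s := gS k σ s
  one_smul s := DFunLike.congr_fun (gS_one k) s
  mul_smul σ τ s := DFunLike.congr_fun (gS_mul k σ τ) s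
  smul_zero σ := map_zero (gS k σ)
  smul_add σ s t := map_add (gS k σ) s t

theorem smul_SX (k : ℕ) (σ : GQ) (s : SX N q k) : σ • s = gS k σ s := rfl

theorem smul_cl (k : ℕ) (σ : GQ) (s : SX N q k) :
    (σ • s).cl = selHom (q ^ k) (galF0 N) σ s.cl := rfl

theorem eqE_smul (k : ℕ) (σ : GQ) (x : EX N q k) : eqE k (gE k σ x) = σ • eqE k x := eqE_gE k σ x

/-- an open subgroup acts trivially -/
theorem exists_open_triv (k : ℕ) : ∃ U : Subgroup GQ, IsOpen (U : Set GQ) ∧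
    ∀ u ∈ U, ∀ s : SX N q k, u • s = s := by
  obtain ⟨L, hL, h⟩ := galX_continuous (N := N) (pos_pow q k)
  haveI := hL
  refine ⟨L.fixingSubgroup, L.fixingSubgroup_isOpen, fun u hu s => ?_⟩
  obtain ⟨x, rfl⟩ := (eqE k).surjective s
  rw [← eqE_smul, gE_eq_one (h u fun x hx => hu ⟨x, hx⟩)]
  rfl

theorem tSX_comm_gS (k : ℕ) (i : Idx N {q}) (σ : GQ) :
    Commute (tSX (N := N) (q := q) k i) (gS k σ) := by
  rw [gS_eq]
  exact (tE_comm_gE k i σ).map (cjE (eqE k))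

theorem tSX_smul (k : ℕ) (i : Idx N {q}) (σ : GQ) (s : SX N q k) :
    tSX k i (σ • s) = σ • tSX k i s := DFunLike.congr_fun (tSX_comm_gS k i σ) s

/-- **(P5)** -/
theorem nilpotent_gS (k : ℕ) (σ : GQ) (c : ℕ) (hc : ((cyc q σ : (ZMod q)ˣ) : ZMod q) = c) :
    IsNilpotent ((gS (N := N) (q := q) k σ - 1) *
      (gS k σ - ((c : ℕ) : AddMonoid.End (SX N q k)))) := by
  have h := (nilpotent_gE (N := N) k σ c hc).map (cjE (eqE k))
  rwa [map_mul, map_sub, map_sub, map_one, map_natCast, ← gS_eq] at h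

/-- **(P7)** -/
theorem inertia_sq_S [Fact N.Prime] (hN2 : N ≠ 2) (hNq : N ≠ q) (k : ℕ)
    {A : ValuationSubring Qb} (hA : A.LiesOverPrime N) {σ τ : GQ}
    (hσ : σ ∈ A.inertiaSubgroupIn ℚ) (hτ : τ ∈ A.inertiaSubgroupIn ℚ) (s : SX N q k) :
    σ • (τ • s - s) = τ • s - s := by
  have h := congrArg (cjE (eqE k)) (inertia_sq (N := N) (q := q) hN2 hNq k hA hσ hτ)
  rw [map_mul, map_sub, map_sub, map_one, ← gS_eq, ← gS_eq, map_zero] at h
  have h1 := DFunLike.congr_fun h s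
  change gS k σ (gS k τ s - s) - (gS k τ s - s) = 0 at h1
  exact sub_eq_zero.mp h1

/-- **(P8)** -/
theorem inertia_S (k : ℕ) {l : ℕ} (hl : l.Prime) (hlN : ¬ l ∣ N) (hlq : l ≠ q)
    {A : ValuationSubring Qb} (hA : A.LiesOverPrime l) {σ : GQ}
    (hσ : σ ∈ A.inertiaSubgroupIn ℚ) (s : SX N q k) : σ • s = s := by
  obtain ⟨x, rfl⟩ := (eqE k).surjective s
  rw [← eqE_smul, gE_inertia k hl hlN hlq hA hσ]
  rfl

/-- **The Eichler–Shimura relation.** `(φ - 1) (φ - l) = (T_l - 1 - l) φ` -/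
theorem es_S (k : ℕ) (i : Idx N {q}) {A : ValuationSubring Qb} (hA : A.LiesOverPrime i.1)
    {φ : GQ} (hφ : A.IsFrobeniusAt φ i.1) (s : SX N q k) :
    φ • φ • s - φ • s - i.1 • φ • s + i.1 • s = tSX k i (φ • s) := by
  have h := congrArg (cjE (eqE k)) (es_rel' (N := N) (q := q) k i hA hφ)
  rw [map_mul, map_mul, map_sub, map_sub, map_one, map_natCast, ← gS_eq] at h
  have h1 := DFunLike.congr_fun h s
  change gS k φ (gS k φ s - ((i.1 : ℕ) : AddMonoid.End (SX N q k)) s) -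
    (gS k φ s - ((i.1 : ℕ) : AddMonoid.End (SX N q k)) s) = tSX k i (φ • s) at h1
  rw [← h1, natEnd_apply, map_sub, map_nsmul]
  change φ • φ • s - φ • s - i.1 • φ • s + i.1 • s = φ • φ • s - i.1 • φ • s - (φ • s - i.1 • s)
  abel

/-- **(P9)** -/
theorem exists_tSX_inv (i : Idx N {q}) : ∃ (c : ℕ) (ρ : ∀ k, AddMonoid.End (SX N q k)), 0 < c ∧
    (∀ k (σ : GQ) (s : SX N q k), ρ k (σ • s) = σ • ρ k s) ∧
    ∀ k (s : SX N q k), c • s = tSX k i (ρ k s) := by
  obtain ⟨c, ρ, hc, hρ, h⟩ := exists_tE_inv' (N := N) (q := q) i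
  refine ⟨c, fun k => cjE (eqE k) (ρ k), hc, fun k σ s => ?_, fun k s => ?_⟩
  · obtain ⟨x, rfl⟩ := (eqE k).surjective s
    rw [← eqE_smul, cjE_apply', cjE_apply', ← eqE_smul]
    exact congrArg (eqE k) (DFunLike.congr_fun (hρ k σ) x)
  · obtain ⟨x, rfl⟩ := (eqE k).surjective s
    rw [cjE_apply', tSX, cjE_apply', ← map_nsmul, h]

/-- **(P10)** -/
theorem exists_frob_fixed_S [hN : Fact N.Prime] (hN2 : N ≠ 2) (hNq : N ≠ q) : ∃ b : ℕ, 0 < b ∧ ∀ (k : ℕ) {A : ValuationSubring Qb}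
      (_ : A.LiesOverPrime N) {φ : GQ} (_ : A.IsFrobeniusAt φ N) (s : SX N q k)
      (_ : ∀ σ ∈ A.inertiaSubgroupIn ℚ, σ • s = s), ∃ t : SX N q k,
        (∀ σ ∈ A.inertiaSubgroupIn ℚ, σ • t = t) ∧ b • s = φ • t - t := by
  obtain ⟨b, hb, h⟩ := exists_frob_fixed (N := N) (q := q) hN2 hNq Fermat.Agent.MZ.mzc_prop
  refine ⟨b, hb, fun k A hA φ hφ s hs => ?_⟩
  obtain ⟨x, rfl⟩ := (eqE k).surjective s
  obtain ⟨y, hy, hxy⟩ := h k hA hφ x fun σ hσ => (eqE k).injective (by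
    rw [eqE_smul]
    exact hs σ hσ)
  refine ⟨eqE k y, fun σ hσ => ?_, ?_⟩
  · rw [← eqE_smul, hy σ hσ]
  · rw [← eqE_smul, ← map_sub, ← hxy, map_nsmul]

/-- **(P6)** -/
theorem card_range_cc_S (k : ℕ) (T : SX N q k →+ SX N q k)
    (hT : ∀ s, T s = s + complexConjugation • s) :
    Nat.card T.range ^ 2 ≤ Nat.card (SX N q k) :=
  card_range_cc_sel k T fun s => congrArg SX.cl (hT s)

end Fermat.Agent.Mzr
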