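import Fermat.Agent.Mzr.EisFam
import Fermat.Agent.Mzr.SelX
import Fermat.Agent.Mzr.FreeZ
import Fermat.Agent.Mzr.Count2
import Fermat.Agent.Mzr.Sec

/-!
The classes of the data attached to Eisenstein functions.
-/

set_option autoImplicit false
set_option linter.unusedSectionVars false

noncomputable section

namespace Fermat.Agent.Mzr

open AlgebraicCurve Fermat.Agent.FunField Fermat.Agent.Flat Fermat.Agent.LG Fermat.Agent.ModFun
open Fermat.Agent.Geo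
open Fermat.Agent.ESCore (ιC)

/-- The field of algebraic numbers. -/
local notation "Qb" => AlgebraicClosure ℚ
/-- The absolute Galois group. -/
local notation "GQ" => (AlgebraicClosure ℚ ≃ₐ[ℚ] AlgebraicClosure ℚ)

variable {N : ℕ} [NeZero N] {q : ℕ} [NeZero q] [hq : Fact q.Prime]

/-- the class of an Eisenstein function -/
def SX.of {k : ℕ} (f : (F0 Qb N)ˣ) (hf : f ∈ ZK N q k) : SX N q k :=
  ⟨Sel.mk ⟨f, hf.1⟩, hf.2⟩

omit hq in
theorem SX.cl_of {k : ℕ} (f : (F0 Qb N)ˣ) (hf : f ∈ ZK N q k) :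
    (SX.of f hf).cl = Sel.mk ⟨f, hf.1⟩ := rfl

omit hq in
theorem SX.of_surj {k : ℕ} (s : SX N q k) : ∃ (f : (F0 Qb N)ˣ) (hf : f ∈ ZK N q k),
    SX.of f hf = s := by
  obtain ⟨⟨f, h⟩, hf⟩ := Sel.mk_surjective s.cl
  have h1 : Sel.mk ⟨f, h⟩ ∈ eisS N q k := by
    rw [hf]
    exact s.cl_mem
  exact ⟨f, ⟨h, h1⟩, SX.ext hf⟩

omit hq in
theorem SX.of_eq_zero {k : ℕ} {f : (F0 Qb N)ˣ} {hf : f ∈ ZK N q k} :
    SX.of f hf = 0 ↔ ∃ u : (F0 Qb N)ˣ, f = u ^ q ^ k := by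
  constructor
  · intro h
    have h1 : Sel.mk ⟨f, hf.1⟩ = 0 := congrArg SX.cl h
    obtain ⟨u, hu0, hu⟩ := Sel.mk_eq_zero.mp h1
    exact ⟨Units.mk0 u hu0, Units.ext (by rw [Units.val_pow_eq_pow_val]; exact hu)⟩
  · rintro ⟨u, hu⟩
    refine SX.ext ?_
    rw [SX.cl_of, map_zero]
    exact Sel.mk_eq_zero.mpr ⟨u, u.ne_zero, by rw [← Units.val_pow_eq_pow_val, ← hu]⟩

theorem SX.smul_of {k : ℕ} (σ : GQ) (f : (F0 Qb N)ˣ) (hf : f ∈ ZK N q k) :
    σ • SX.of f hf = SX.of (galU N σ f) (gal_mem_ZK σ hf) := rfl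

variable (T : Set (FixPl N)) (k : ℕ) (a b : FixPl N) (ha : a ∈ T) (hb : b ∈ T)

/-- the class, as a homomorphism -/
def clsHom : (eisPD (q := q) T k a b ha hb).Z →* Multiplicative (SX N q k) where
  toFun f := Multiplicative.ofAdd (SX.of ((f : UG T) : (F0 Qb N)ˣ) f.2)
  map_one' := rfl
  map_mul' _ _ := rfl

/-- the class, on the quotient -/
def isoHom : (eisPD (q := q) T k a b ha hb).S →+ SX N q k :=
  MonoidHom.toAdditiveLeft (QuotientGroup.lift _ (clsHom T k a b ha hb) (by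
    rintro f ⟨u, hu⟩
    have hu' : ((f : UG T) : (F0 Qb N)ˣ) = (u : (F0 Qb N)ˣ) ^ q ^ k :=
      congrArg Subtype.val hu
    exact congrArg Multiplicative.ofAdd (SX.of_eq_zero.mpr ⟨u, hu'⟩)))

theorem isoHom_cls (f : (eisPD (q := q) T k a b ha hb).Z) :
    isoHom T k a b ha hb ((eisPD (q := q) T k a b ha hb).cls f) =
      SX.of ((f : UG T) : (F0 Qb N)ˣ) f.2 := rfl

theorem isoHom_inj : Function.Injective (isoHom (q := q) T k a b ha hb) := by
  rw [injective_iff_map_eq_zero]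
  intro s hs
  obtain ⟨f, rfl⟩ := (eisPD (q := q) T k a b ha hb).cls_surj s
  rw [isoHom_cls] at hs
  obtain ⟨u, hu⟩ := SX.of_eq_zero.mp hs
  have hu' : u ∈ UG T := mem_UG_of_pow (pos_pow q k).ne' (by rw [← hu]; exact f.1.2)
  exact (eisPD (q := q) T k a b ha hb).cls_eq_zero.mpr ⟨⟨u, hu'⟩, Subtype.ext hu⟩

theorem isoHom_surj (hT : T.Finite) : Function.Surjective (isoHom (q := q) T k a b ha hb) := by
  intro s
  obtain ⟨f, hf, rfl⟩ := s.of_surj
  obtain ⟨w, hw, hw'⟩ := exists_move_ZK hT hf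
  let g : (eisPD (q := q) T k a b ha hb).Z := ⟨⟨f * w ^ q ^ k, hw⟩, hw'⟩
  refine ⟨(eisPD (q := q) T k a b ha hb).cls g, ?_⟩
  rw [isoHom_cls]
  have h1 : SX.of (f * w ^ q ^ k) hw' = SX.of f hf + SX.of (w ^ q ^ k) (pow_mem_ZK k w) := rfl
  refine h1.trans ?_
  rw [SX.of_eq_zero.mpr ⟨w, rfl⟩, add_zero]

/-- **(W1a)** The classes. -/
def isoS (hT : T.Finite) : (eisPD (q := q) T k a b ha hb).S ≃+ SX N q k :=
  AddEquiv.ofBijective (isoHom T k a b ha hb)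
    ⟨isoHom_inj T k a b ha hb, isoHom_surj T k a b ha hb hT⟩

theorem isoS_cls (hT : T.Finite) (f : (eisPD (q := q) T k a b ha hb).Z) :
    isoS T k a b ha hb hT ((eisPD (q := q) T k a b ha hb).cls f) =
      SX.of ((f : UG T) : (F0 Qb N)ˣ) f.2 := rfl

theorem isoS_smul (hT : T.Finite) (σ : GQ) (s : (eisPD (q := q) T k a b ha hb).S) :
    isoS T k a b ha hb hT (σ • s) = σ • isoS T k a b ha hb hT s := by
  obtain ⟨f, rfl⟩ := (eisPD (q := q) T k a b ha hb).cls_surj s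
  rfl

/-- the classes form a free module -/
theorem exists_free (N q : ℕ) [NeZero N] [NeZero q] [hq : Fact q.Prime] : ∃ d : ℕ, ∀ k : ℕ,
    Nonempty (SX N q k ≃+ (Fin d → ZMod (q ^ k))) ∧
      ∀ c : ℕ, 0 < c → Nat.card {x : SX N q k // c • x = 0} ≤ c ^ d := by
  obtain ⟨d, hd⟩ := eisS_card N q
  refine ⟨d, fun k => ⟨?_, (hd k).2⟩⟩
  refine free_of_card hq.out (fun x => SX.ext ?_) (hd k).1 ((hd k).2 q hq.out.pos)
  rw [map_nsmul, Sel.torsion, map_zero]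

end Fermat.Agent.Mzr
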