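import Mathlib
import Fermat.Agent.Mzr.EisPD

/-!
# Equivariant homomorphisms from the Eisenstein functions to roots of unity
-/

set_option autoImplicit false
set_option linter.unusedSectionVars false

noncomputable section

namespace Fermat.Agent.Mzr

open AlgebraicCurve Fermat.Agent.FunField Fermat.Agent.Flat Fermat.Agent.LG Fermat.Agent.ModFun
open Fermat.Agent.Geo
open Fermat.Agent.ESCore Fermat.Agent.ESCore.Univ

/-- The field of algebraic numbers. -/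
local notation "Qb" => AlgebraicClosure ℚ
/-- The absolute Galois group. -/
local notation "GQ" => (AlgebraicClosure ℚ ≃ₐ[ℚ] AlgebraicClosure ℚ)

variable {N : ℕ} [NeZero N] {q : ℕ} [NeZero q] [hq : Fact q.Prime]

/-- A homomorphism on which a Frobenius acts by `l` is killed by a bounded number. -/
theorem kill_of_frob (i : Idx N {q}) : ∃ c, 0 < c ∧ ∀ (k : ℕ) {A : ValuationSubring Qb}
    (_ : A.LiesOverPrime i.1) {φ : GQ} (_ : A.IsFrobeniusAt φ i.1) {B : Type} [AddCommGroup B]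
    (Om : SX N q k →+ B) (_ : ∀ s, Om (φ • s) = i.1 • Om s) (s : SX N q k), c • Om s = 0 := by
  obtain ⟨c, ρ, hc, -, h⟩ := exists_tSX_inv (N := N) (q := q) i
  refine ⟨c, hc, fun k A hA φ hφ B _ Om hOm s => ?_⟩
  rw [← map_nsmul, h k s]
  obtain ⟨s', hs'⟩ : ∃ s', φ • s' = ρ k s := ⟨φ⁻¹ • ρ k s, smul_inv_smul φ _⟩
  rw [← hs', ← es_S k i hA hφ s', map_add, map_sub, map_sub, map_nsmul, map_nsmul, hOm, hOm]
  abel

/-- the value depends only on the class -/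
theorem omega_congr {B : Type*} [CommGroup B] {T : Set (FixPl N)} {hT : T.Finite} {k : ℕ}
    (ω : (eisFam q T hT).Z k →* B)
    (hω2 : ∀ u : UG T, ω ⟨u ^ q ^ k, (eisFam q T hT).pow_mem k u⟩ = 1)
    {f g : (eisFam q T hT).Z k}
    (h : SX.of ((f : UG T) : (F0 Qb N)ˣ) f.2 = SX.of ((g : UG T) : (F0 Qb N)ˣ) g.2) :
    ω f = ω g := by
  have h1 : SX.of (((f * g⁻¹ : (eisFam q T hT).Z k) : UG T) : (F0 Qb N)ˣ) (f * g⁻¹).2 = 0 := by
    have e : SX.of (((f * g⁻¹ : (eisFam q T hT).Z k) : UG T) : (F0 Qb N)ˣ) (f * g⁻¹).2 =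
      SX.of ((f : UG T) : (F0 Qb N)ˣ) f.2 - SX.of ((g : UG T) : (F0 Qb N)ˣ) g.2 := rfl
    rw [e, h]
    exact sub_self _
  obtain ⟨u, hu⟩ := SX.of_eq_zero.mp h1
  have hu' : u ∈ UG T := by
    apply mem_UG_of_pow (pos_pow q k).ne'
    rw [← hu]
    exact ((f * g⁻¹ : (eisFam q T hT).Z k) : UG T).2
  have h2 : f * g⁻¹ = ⟨(⟨u, hu'⟩ : UG T) ^ q ^ k, (eisFam q T hT).pow_mem k _⟩ :=
    Subtype.ext (Subtype.ext hu)
  have h3 := congrArg ω h2
  rw [hω2, map_mul, map_inv, mul_inv_eq_one] at h3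
  exact h3

/-- representatives -/
theorem exists_rep {T : Set (FixPl N)} (hT : T.Finite) {k : ℕ} (s : SX N q k) :
    ∃ f : (eisFam q T hT).Z k, SX.of ((f : UG T) : (F0 Qb N)ˣ) f.2 = s := by
  obtain ⟨f, hf, rfl⟩ := s.of_surj
  obtain ⟨w, hw, hw'⟩ := exists_move_ZK hT hf
  refine ⟨⟨⟨f * w ^ q ^ k, hw⟩, hw'⟩, ?_⟩
  rw [← sub_eq_zero]
  have e : SX.of (f * w ^ q ^ k) hw' - SX.of f hf =
      SX.of (f * w ^ q ^ k * f⁻¹) ((ZK N q k).mul_mem hw' ((ZK N q k).inv_mem hf)) := rfl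
  refine e.trans (SX.of_eq_zero.mpr ⟨w, ?_⟩)
  rw [mul_comm f, mul_inv_cancel_right]

/-- the homomorphism induced on the classes -/
theorem exists_Om {B : Type} [CommGroup B] {T : Set (FixPl N)} {hT : T.Finite} {k : ℕ}
    (ω : (eisFam q T hT).Z k →* B)
    (hω2 : ∀ u : UG T, ω ⟨u ^ q ^ k, (eisFam q T hT).pow_mem k u⟩ = 1) :
    ∃ Om : SX N q k →+ Additive B, ∀ f : (eisFam q T hT).Z k,
      Om (SX.of ((f : UG T) : (F0 Qb N)ˣ) f.2) = Additive.ofMul (ω f) := by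
  choose rep hr using fun s : SX N q k => exists_rep hT s
  refine ⟨
    { toFun := fun s => Additive.ofMul (ω (rep s))
      map_zero' := ?_
      map_add' := fun s t => ?_ }, fun f => ?_⟩
  · have h1 : ω (rep 0) = ω 1 := omega_congr ω hω2 (hr 0)
    rw [h1, map_one]
    rfl
  · have h1 : ω (rep (s + t)) = ω (rep s * rep t) := omega_congr ω hω2 (by
      have e : SX.of (((rep s * rep t : (eisFam q T hT).Z k) : UG T) : (F0 Qb N)ˣ)
        (rep s * rep t).2 = SX.of ((rep s : UG T) : (F0 Qb N)ˣ) (rep s).2 +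
          SX.of ((rep t : UG T) : (F0 Qb N)ˣ) (rep t).2 := rfl
      rw [e, hr, hr, hr])
    rw [h1, map_mul]
    rfl
  · exact congrArg Additive.ofMul (omega_congr ω hω2 (hr _))

/-- **(W2a)** -/
theorem homKill_eis (i : Idx N {q}) : ∃ c, 0 < c ∧ ∀ (k : ℕ) (T : Set (FixPl N))
    (hT : T.Finite) (H : Subgroup GQ) {A : ValuationSubring Qb} (_ : A.LiesOverPrime i.1)
    {φ : GQ} (_ : A.IsFrobeniusAt φ i.1), φ ∈ H → HomKill (eisFam q T hT) k H c := by
  obtain ⟨c, hc, h⟩ := kill_of_frob (N := N) (q := q) i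
  refine ⟨c, hc, fun k T hT H A hA φ hφ hφH ω hω1 hω2 hω3 f => ?_⟩
  obtain ⟨Om, hOm⟩ := exists_Om ω hω2
  have hlq : ¬ i.1 ∣ q ^ k :=
    not_dvd_pow i.2.1 (fun h => i.2.2.2 (Finset.mem_singleton.mpr h)) k
  have hφOm : ∀ s, Om (φ • s) = i.1 • Om s := by
    intro s
    obtain ⟨g, rfl⟩ := exists_rep hT s
    have e1 : φ • SX.of ((g : UG T) : (F0 Qb N)ˣ) g.2 =
        SX.of (((⟨φ • (g : UG T), (eisFam q T hT).smul_mem k φ _ g.2⟩ :
          (eisFam q T hT).Z k) : UG T) : (F0 Qb N)ˣ)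
          (⟨φ • (g : UG T), (eisFam q T hT).smul_mem k φ _ g.2⟩ : (eisFam q T hT).Z k).2 := rfl
    rw [e1, hOm, hOm, hω3 φ hφH]
    have e2 : uact φ (ω g) = ω g ^ i.1 := by
      apply Units.ext
      rw [coe_uact, Units.val_pow_eq_pow_val]
      refine frob_root hA i.2.1 hφ hlq ?_
      rw [← Units.val_pow_eq_pow_val, hω1, Units.val_one]
    rw [e2]
    rfl
  have h2 := h k hA hφ Om hφOm (SX.of ((f : UG T) : (F0 Qb N)ˣ) f.2)
  rw [hOm] at h2
  exact h2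

end Fermat.Agent.Mzr
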