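import Fermat.Agent.Mzr.SelX
import Fermat.Agent.Mzr.Count

/-!
# Equivariant homomorphisms from the Eisenstein part to the roots of unity
-/

set_option autoImplicit false
set_option linter.unusedSectionVars false

noncomputable section

namespace Fermat.Agent.Mzr

open AlgebraicCurve
open Fermat.Agent.LG Fermat.Agent.ModFun Fermat.Agent.Geo Fermat.Agent.Flat
open Fermat.Agent.ESCore Fermat.Agent.ESCore.Univ Fermat.Agent.RT Fermat.Agent.GCFT

/-- The field of algebraic numbers. -/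
local notation "Qb" => AlgebraicClosure ℚ
/-- The absolute Galois group. -/
local notation "GQ" => (AlgebraicClosure ℚ ≃ₐ[ℚ] AlgebraicClosure ℚ)

variable {N : ℕ} [NeZero N] {q : ℕ} [NeZero q]

theorem nonempty_idx (N q : ℕ) [NeZero N] : Nonempty (Idx N {q}) := by
  obtain ⟨l, hl, hlp⟩ := Nat.exists_infinite_primes (N + q + 1)
  refine ⟨⟨l, hlp, fun h => ?_, fun h => ?_⟩⟩
  · have := Nat.le_of_dvd (Nat.pos_of_ne_zero (NeZero.ne N)) h
    omega
  · rw [Finset.mem_singleton] at h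
    omega

theorem idx_not_dvd_pow [hq : Fact q.Prime] (i : Idx N {q}) (k : ℕ) : ¬ i.1 ∣ q ^ k := by
  intro h
  have h1 := (Nat.prime_dvd_prime_iff_eq i.2.1 hq.out).mp (i.2.1.dvd_of_dvd_pow h)
  exact i.2.2.2 (Finset.mem_singleton.mpr h1)

theorem SX_torsion {k : ℕ} (s : SX N q k) : q ^ k • s = 0 :=
  SX.ext (by rw [map_nsmul, map_zero]; exact Sel.torsion s.cl)

/-- A homomorphism compatible with a Frobenius element kills the multiples of `c`. -/
theorem kill_frob [hq : Fact q.Prime] (i : Idx N {q}) {c : ℕ} {k : ℕ}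
    {ρ : AddMonoid.End (SX N q k)}
    (hρ : ∀ s : SX N q k, c • s = tSX k i (ρ s)) {A : ValuationSubring Qb}
    (hA : A.LiesOverPrime i.1) {φ : GQ} (hφ : A.IsFrobeniusAt φ i.1)
    (v : SX N q k →+ Mu (q ^ k)) (hv : ∀ s, v (φ • s) = φ • v s) (s : SX N q k) :
    v (c • s) = 0 := by
  have hMu : ∀ z : Mu (q ^ k), φ • z = i.1 • z := by
    intro z
    apply Mu.ext
    rw [Mu.val_smul, Mu.val_nsmul]
    exact frob_root hA i.2.1 hφ (idx_not_dvd_pow i k) z.val_pow
  have h1 : ∀ s : SX N q k, v (tSX k i s) = 0 := by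
    intro s
    have h2 := es_S k i hA hφ (φ⁻¹ • s)
    rw [smul_inv_smul] at h2
    rw [← h2, map_add, map_sub, map_sub, map_nsmul, map_nsmul, hv]
    have h3 : v s = i.1 • v (φ⁻¹ • s) := by
      rw [← hMu, ← hv, smul_inv_smul]
    rw [hMu, ← h3]
    abel
  rw [hρ, h1]

/-- **(W2b)** The number of equivariant homomorphisms is bounded. -/
theorem card_vfix (N q : ℕ) [NeZero N] [NeZero q] [hq : Fact q.Prime] : ∃ C₀ : ℕ, ∀ k : ℕ,
    Nat.card {v : SX N q k →+ Mu (q ^ k) // ∀ σ : GQ, vact σ v = v} ≤ C₀ := by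
  obtain ⟨i⟩ := nonempty_idx N q
  obtain ⟨c, ρ, hc, -, hρ⟩ := exists_tSX_inv (N := N) (q := q) i
  obtain ⟨d, hd⟩ := eisS_card N q
  have : Fact (Nat.Prime ((⟨i.1, i.2.1⟩ : Nat.Primes) : ℕ)) := ⟨i.2.1⟩
  obtain ⟨φ₀, hφ₀⟩ := exists_isFrobL ((⟨i.1, i.2.1⟩ : Nat.Primes) : ℕ)
  have hA := nonunits_padicPlace ⟨i.1, i.2.1⟩
  have hφ := rl_isFrobeniusAt hφ₀
  refine ⟨c ^ d, fun k => ?_⟩
  let R : AddSubgroup (SX N q k) := (nsmulAddMonoidHom c : SX N q k →+ SX N q k).range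
  have hR : Nat.card (SX N q k ⧸ R) ≤ c ^ d := by
    have h1 : Nat.card (SX N q k) = Nat.card (SX N q k ⧸ R) * Nat.card R :=
      AddSubgroup.card_eq_card_quotient_mul_card_addSubgroup R
    have h2 := eisS_card_mul (N := N) (q := q) k c
    have h3 : Nat.card (Set.range fun x : eisS N q k => c • x) = Nat.card R := rfl
    have h4 : Nat.card (eisS N q k) = Nat.card (SX N q k) := rfl
    rw [h3, h4, h1] at h2
    have h5 : 0 < Nat.card R := Nat.card_pos
    rw [Nat.eq_of_mul_eq_mul_right h5 h2]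
    exact (hd k).2 c hc
  have hT : ∀ t : SX N q k ⧸ R, q ^ k • t = 0 := by
    intro t
    obtain ⟨s, rfl⟩ := QuotientAddGroup.mk_surjective t
    rw [← QuotientAddGroup.mk_nsmul, SX_torsion, QuotientAddGroup.mk_zero]
  have : NeZero (q ^ k) := ⟨(pos_pow q k).ne'⟩
  have : Finite (SX N q k ⧸ R →+ Mu (q ^ k)) := DFunLike.finite _
  refine le_trans ?_ ((card_hom hT).le.trans hR)
  have hker : ∀ v : {v : SX N q k →+ Mu (q ^ k) // ∀ σ : GQ, vact σ v = v}, R ≤ v.1.ker := by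
    rintro ⟨v, hv⟩ _ ⟨s, rfl⟩
    refine kill_frob i (hρ k) hA hφ v (fun s => ?_) s
    have h1 := DFunLike.congr_fun (hv (rl _ φ₀)) (rl _ φ₀ • s)
    rw [vact_apply, inv_smul_smul] at h1
    exact h1.symm
  refine Nat.card_le_card_of_injective (fun v => QuotientAddGroup.lift R v.1 (hker v))
    fun v w hvw => Subtype.ext (DFunLike.ext _ _ fun s => ?_)
  exact DFunLike.congr_fun hvw (s : SX N q k ⧸ R)

end Fermat.Agent.Mzr
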