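import Mathlib

/-!
# Numerical lemmas for the choice of the Eisenstein prime
-/

set_option autoImplicit false

namespace Fermat.Agent.Mzr

theorem exists_prime_pow {N : ℕ} (hN : N.Prime) (hN' : N ∉ ({2, 3, 5, 7, 13} : Finset ℕ)) :
    ∃ q K : ℕ, q.Prime ∧ q ^ K ∣ N - 1 ∧ ¬ q ^ K ∣ 12 := by
  by_contra! h
  have h1 : N - 1 ∣ 12 := (Nat.dvd_iff_prime_pow_dvd_dvd 12 (N - 1)).mpr fun p k hp hk => h p k hp hk
  have h2 : N - 1 ≤ 12 := Nat.le_of_dvd (by norm_num) h1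
  have h3 := hN.two_le
  obtain ⟨n, rfl⟩ : ∃ n, N = n + 1 := ⟨N - 1, by omega⟩
  rw [Nat.add_sub_cancel] at h1 h2
  interval_cases n <;> revert h1 hN hN' <;> decide

theorem ne_of_dvd_sq_sub_one {N q ℓ : ℕ} (hN : N.Prime) (hN3 : 3 < N) (hq : q.Prime)
    (hqN : q ∣ N - 1) (h : N ∣ ℓ ^ 2 - 1) : ℓ ≠ q := by
  rintro rfl
  have h1 : ℓ ≤ N - 1 := Nat.le_of_dvd (by omega) hqN
  have h2 : ℓ ^ 2 - 1 = (ℓ + 1) * (ℓ - 1) := by
    have := Nat.sq_sub_sq ℓ 1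
    rwa [one_pow] at this
  rw [h2] at h
  have hl2 := hq.two_le
  rcases (hN.dvd_mul).mp h with h3 | h3
  · have h4 := Nat.le_of_dvd (by omega) h3
    have h5 : ℓ = N - 1 := by omega
    rcases hN.eq_two_or_odd with h6 | h6
    · omega
    · have h7 : 2 ∣ ℓ := by omega
      have h8 := (Nat.prime_dvd_prime_iff_eq Nat.prime_two hq).mp h7
      omega
  · have h4 := Nat.le_of_dvd (by omega) h3
    omega

theorem ne_of_pow_dvd {N q K : ℕ} (hN : N.Prime) (hK : q ^ K ∣ N - 1) (h12 : ¬ q ^ K ∣ 12) :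
    q ∣ N - 1 ∧ N ≠ q := by
  have hK0 : K ≠ 0 := by
    rintro rfl
    exact h12 (by rw [pow_zero]; exact one_dvd _)
  have h1 : q ∣ N - 1 := (dvd_pow_self q hK0).trans hK
  refine ⟨h1, ?_⟩
  rintro rfl
  have := Nat.le_of_dvd (by have := hN.two_le; omega) h1
  have := hN.two_le
  omega

theorem le_of_dvd_sq_sub_one {N ℓ : ℕ} (hN : N.Prime) (hℓ : 1 < ℓ) (h : N ∣ ℓ ^ 2 - 1) :
    N ≤ ℓ + 1 := by
  have h2 : ℓ ^ 2 - 1 = (ℓ + 1) * (ℓ - 1) := by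
    have := Nat.sq_sub_sq ℓ 1
    rwa [one_pow] at this
  rw [h2] at h
  rcases (hN.dvd_mul).mp h with h3 | h3
  · exact Nat.le_of_dvd (by omega) h3
  · have := Nat.le_of_dvd (by omega) h3
    omega

end Fermat.Agent.Mzr
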