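import Fermat.Agent.Mzr.EisPD

/-!
Splittings of the extensions attached to Eisenstein functions, up to a bounded number.
-/

set_option autoImplicit false
set_option linter.unusedSectionVars false

noncomputable section

namespace Fermat.Agent.Mzr

open AlgebraicCurve Fermat.Agent.FunField Fermat.Agent.Flat Fermat.Agent.LG Fermat.Agent.ModFun
open Fermat.Agent.Geo Fermat.Agent.RT Fermat.Agent.GCFT Fermat.Agent.ESCore Fermat.Agent.Conn
open Fermat.Agent.ESCore.ModP Fermat.Agent.ESCore.Univ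

/-- The field of algebraic numbers. -/
local notation "Qb" => AlgebraicClosure ℚ
/-- The absolute Galois group. -/
local notation "GQ" => (AlgebraicClosure ℚ ≃ₐ[ℚ] AlgebraicClosure ℚ)

variable {N : ℕ} [NeZero N]

/-! ### Smoothness -/

theorem exists_open_fix_alg (a : Qb) : ∃ U : Subgroup GQ, IsOpen (U : Set GQ) ∧
    ∀ u ∈ U, u a = a := by
  haveI : FiniteDimensional ℚ (IntermediateField.adjoin ℚ {a}) :=
    IntermediateField.adjoin.finiteDimensional (Algebra.IsIntegral.isIntegral a)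
  refine ⟨(IntermediateField.adjoin ℚ {a}).fixingSubgroup,
    (IntermediateField.adjoin ℚ {a}).fixingSubgroup_isOpen, fun u hu => ?_⟩
  exact (IntermediateField.mem_fixingSubgroup_iff _ _).mp hu a
    (IntermediateField.mem_adjoin_simple_self ℚ a)

theorem exists_open_fix_fun (f : F0 Qb N) : ∃ U : Subgroup GQ, IsOpen (U : Set GQ) ∧
    ∀ u ∈ U, galF0 N u • f = f := by
  obtain ⟨U, hU, h⟩ : ∃ U : Subgroup GQ, IsOpen (U : Set GQ) ∧ ∀ u ∈ U,
      ModularCurve.coeffMap ((u.toRingEquiv : Qb ≃+* Qb) : Qb →+* Qb) (f : LaurentSeries Qb) = f := by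
    have hf := f.2
    revert hf
    generalize (f : LaurentSeries Qb) = x
    intro hx
    induction hx using IntermediateField.adjoin_induction with
    | mem y hy =>
      refine ⟨⊤, isOpen_univ, fun u _ => ?_⟩
      obtain ⟨d, hd0, hd, rfl⟩ := hy
      rw [coeffMap_qExpand, coeffMap_jqModC]
    | algebraMap a =>
      obtain ⟨U, hU, h⟩ := exists_open_fix_alg a
      refine ⟨U, hU, fun u hu => ?_⟩
      rw [ModularCurve.coeffMap_algebraMap]
      congr 1
      exact h u hu
    | add x y _ _ hx hy =>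
      obtain ⟨U, hU, h⟩ := hx
      obtain ⟨V, hV, h'⟩ := hy
      refine ⟨U ⊓ V, hU.inter hV, fun u hu => ?_⟩
      rw [map_add, h u hu.1, h' u hu.2]
    | mul x y _ _ hx hy =>
      obtain ⟨U, hU, h⟩ := hx
      obtain ⟨V, hV, h'⟩ := hy
      refine ⟨U ⊓ V, hU.inter hV, fun u hu => ?_⟩
      rw [map_mul, h u hu.1, h' u hu.2]
    | inv x _ hx =>
      obtain ⟨U, hU, h⟩ := hx
      refine ⟨U, hU, fun u hu => ?_⟩
      rw [map_inv₀, h u hu]
  exact ⟨U, hU, fun u hu => Subtype.ext (h u hu)⟩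

theorem exists_open_fix_finite {S E : Type*} [Finite S] [SMul GQ E] (s : S → E)
    (h : ∀ x, ∃ U : Subgroup GQ, IsOpen (U : Set GQ) ∧ ∀ u ∈ U, u • s x = s x) :
    ∃ U : Subgroup GQ, IsOpen (U : Set GQ) ∧ ∀ u ∈ U, ∀ x, u • s x = s x := by
  choose U hU h using h
  refine ⟨⨅ x, U x, ?_, fun u hu x => h x u (Subgroup.mem_iInf.mp hu x)⟩
  rw [Subgroup.coe_iInf]
  exact isOpen_iInter_of_finite hU

variable {q : ℕ} [NeZero q] [hq : Fact q.Prime]

section
variable (T : Set (FixPl N)) (k : ℕ) (a b : FixPl N) (ha : a ∈ T) (hb : b ∈ T)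

theorem exists_open_fix_E (e : (eisPD (q := q) T k a b ha hb).E) :
    ∃ U : Subgroup GQ, IsOpen (U : Set GQ) ∧ ∀ u ∈ U, u • e = e := by
  obtain ⟨p, rfl⟩ := (eisPD (q := q) T k a b ha hb).ecl_surj e
  obtain ⟨U, hU, h⟩ := exists_open_fix_fun
    ((((p : UG T × Qbˣ).1 : UG T) : (F0 Qb N)ˣ) : F0 Qb N)
  obtain ⟨V, hV, h'⟩ := exists_open_fix_alg ((p : UG T × Qbˣ).2 : Qb)
  refine ⟨U ⊓ V, hU.inter hV, fun u hu => ?_⟩
  rw [PD.smul_ecl]
  congr 1
  exact Subtype.ext (Prod.ext (Subtype.ext (Units.ext (h u hu.1))) (Units.ext (h' u hu.2)))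

end

/-! ### Transport -/

section Transport

variable {S S' : Type} [AddCommGroup S] [AddCommGroup S'] [DistribMulAction GQ S]
  [DistribMulAction GQ S'] (e : S ≃+ S') (he : ∀ (σ : GQ) s, e (σ • s) = σ • e s)

include he in
theorem e_quad (σ : GQ) (c : ℕ) (s : S) : e (quad σ c s) = quad σ c (e s) := by
  rw [quad, quad, map_sub, he, map_sub, he, map_nsmul]

include he in
theorem e_quad_iter (σ : GQ) (c n : ℕ) (s : S) :
    e ((quad σ c)^[n] s) = (quad σ c)^[n] (e s) := by
  induction n generalizing s with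
  | zero => rfl
  | succ n ih => rw [Function.iterate_succ_apply, Function.iterate_succ_apply, ih, e_quad e he]

include he in
theorem twoChar_of_equiv {r : ℕ} (h : TwoChar r S') : TwoChar r S := by
  intro σ c hc
  obtain ⟨n, hn⟩ := h σ c hc
  refine ⟨n, fun t => e.injective ?_⟩
  rw [e_quad_iter e he, hn, map_zero]

include he in
theorem card_vact_of_equiv {m : ℕ} {C : ℕ}
    (h : Nat.card {v : S' →+ Mu m // ∀ σ : GQ, vact σ v = v} ≤ C) :
    Nat.card {v : S →+ Mu m // ∀ σ : GQ, vact σ v = v} ≤ C := by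
  refine le_trans (le_of_eq (Nat.card_congr (Equiv.subtypeEquiv
    { toFun := fun v => v.comp (e.symm : S' →+ S)
      invFun := fun v => v.comp (e : S →+ S')
      left_inv := fun v => by
        ext x
        change v (e.symm (e x)) = v x
        rw [e.symm_apply_apply]
      right_inv := fun v => by
        ext x
        change v (e (e.symm x)) = v x
        rw [e.apply_symm_apply] } fun v => ?_))) h
  have he' : ∀ (σ : GQ) (x : S'), e.symm (σ • x) = σ • e.symm x := by
    intro σ x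
    rw [AddEquiv.symm_apply_eq, he, e.apply_symm_apply]
  constructor
  · intro hv σ
    ext x
    have h1 := DFunLike.congr_fun (hv σ) (e.symm x)
    change σ • v (σ⁻¹ • e.symm x) = v (e.symm x) at h1
    change σ • v (e.symm (σ⁻¹ • x)) = v (e.symm x)
    rw [he', h1]
  · intro hv σ
    ext x
    have h1 := DFunLike.congr_fun (hv σ) (e x)
    change σ • v (e.symm (σ⁻¹ • e x)) = v (e.symm (e x)) at h1
    change σ • v (σ⁻¹ • x) = v x
    rw [he', e.symm_apply_apply] at h1
    exact h1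

include he in
theorem card_sm_of_equiv {τ : GQ} (h : Nat.card (sm τ : S' →+ S').range ^ 2 ≤ Nat.card S') :
    Nat.card (sm τ : S →+ S).range ^ 2 ≤ Nat.card S := by
  have h1 : Nat.card (sm τ : S →+ S).range = Nat.card (sm τ : S' →+ S').range := by
    refine Nat.card_congr (Equiv.subtypeEquiv e.toEquiv fun x => ?_)
    constructor
    · rintro ⟨y, rfl⟩
      refine ⟨e y, ?_⟩
      change τ⁻¹ • e y + e y = e (τ⁻¹ • y + y)
      rw [map_add, he]
    · rintro ⟨y, hy⟩
      refine ⟨e.symm y, e.injective ?_⟩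
      change e (τ⁻¹ • e.symm y + e.symm y) = e x
      rw [map_add, he, e.apply_symm_apply]
      exact hy
  rw [h1, Nat.card_congr e.toEquiv]
  exact h

end Transport

theorem twoChar_SX (k : ℕ) : TwoChar q (SX N q k) := by
  intro σ c hc
  have h1 := CycExp.modEq hq.out.pos hc (cycExp_cyc q σ)
  have h2 : ((cyc q σ : (ZMod q)ˣ) : ZMod q) = (c : ZMod q) := by
    rw [(ZMod.natCast_eq_natCast_iff _ _ _).mpr h1, ZMod.natCast_val, ZMod.cast_id]
  obtain ⟨n, hn⟩ := nilpotent_gS (N := N) k σ c h2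
  refine ⟨n, fun t => ?_⟩
  have h3 : ∀ (n : ℕ) (t : SX N q k), (quad σ c)^[n] t =
      (((gS (N := N) (q := q) k σ - 1) * (gS k σ - ((c : ℕ) : AddMonoid.End (SX N q k)))) ^ n :
        AddMonoid.End (SX N q k)) t := by
    intro n
    induction n with
    | zero => intro t; rfl
    | succ n ih =>
      intro t
      rw [Function.iterate_succ_apply, ih, pow_succ]
      refine congrArg _ ?_
      change _ = gS k σ (gS k σ t - ((c : ℕ) : AddMonoid.End (SX N q k)) t) -
        (gS k σ t - ((c : ℕ) : AddMonoid.End (SX N q k)) t)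
      rw [natEnd_apply]
      rfl
  rw [h3, hn]
  rfl

/-- **(W1b)** -/
theorem exists_spl_of [hN : Fact N.Prime] (hN2 : N ≠ 2) (hNq : N ≠ q) {C₀ : ℕ}
    (hC₀ : ∀ k, Nat.card {v : SX N q k →+ Mu (q ^ k) // ∀ σ : GQ, vact σ v = v} ≤ C₀) :
    ∃ n : ℕ, 0 < n ∧ ∀ (k : ℕ) (T : Set (FixPl N)) (_ : T.Finite) (a b : FixPl N) (ha : a ∈ T)
      (hb : b ∈ T),
      IsFlat (OI (padicPlace q)) ((padicPlace q).inertiaSubgroupIn ℚ)
        (eisPD (q := q) T k a b ha hb).E Qb →
      (∀ ℓ : Nat.Primes, (ℓ : ℕ) ≠ q → (ℓ : ℕ) ≠ N →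
        ∀ σ ∈ (padicPlace (ℓ : ℕ)).inertiaSubgroupIn ℚ,
          ∀ e : (eisPD (q := q) T k a b ha hb).E, σ • e = e) →
      (eisPD (q := q) T k a b ha hb).Spl n ⊤ := by
  obtain ⟨b₀, hb₀, hfrob⟩ := exists_frob_fixed_S (N := N) (q := q) hN2 hNq
  obtain ⟨d, hd⟩ := exists_free N q
  refine ⟨2 * b₀ * C₀.factorial, by positivity, ?_⟩
  intro k T hT a b ha hb hflat hunr
  let q' : Nat.Primes := ⟨q, hq.out⟩
  let N' : Nat.Primes := ⟨N, hN.out⟩
  set D := eisPD (q := q) T k a b ha hb with hD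
  let e := isoS (q := q) T k a b ha hb hT
  have he : ∀ (σ : GQ) (s : D.S), e (σ • s) = σ • e s := isoS_smul T k a b ha hb hT
  haveI : Finite D.S := Finite.of_equiv _ e.toEquiv.symm
  obtain ⟨fr⟩ := (hd k).1
  obtain ⟨s, hs⟩ := D.exists_section (pos_pow q k).ne' (e.trans fr)
  obtain ⟨U₀, hU₀, hU₀S⟩ := exists_open_triv (N := N) (q := q) k
  obtain ⟨U₁, hU₁, hU₁E⟩ := exists_open_fix_finite (fun x : D.S => s x)
    fun x => exists_open_fix_E T k a b ha hb (s x)
  have hU₀D : ∀ u ∈ U₀, ∀ x : D.S, u • x = x := fun u hu x => e.injective (by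
    rw [he, hU₀S u hu])
  have hτ2 : complexConjugation⁻¹ = complexConjugation :=
    inv_eq_of_mul_eq_one_left complexConjugation_mul_self
  obtain ⟨v, hv⟩ := exists_cob (S := D.S) (q := q') (N := N') (k := k)
    (fun h => hNq (congrArg Subtype.val h).symm)
    (fun x => D.smul_S x) hU₀ hU₀D
    (twoChar_of_equiv e he (twoChar_SX k))
    (fun ℓ hℓq hℓN σ hσ x => e.injective (by
      rw [he]
      exact inertia_S k ℓ.2 (fun h => hℓN (Subtype.ext
        ((Nat.prime_dvd_prime_iff_eq ℓ.2 hN.out).mp h))) (fun h => hℓq (Subtype.ext h))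
        (nonunits_padicPlace ℓ) hσ _))
    (fun σ hσ σ' hσ' x => by
      rw [dlt, sub_eq_zero]
      refine e.injective ?_
      rw [he, dlt, map_sub, he]
      exact inertia_sq_S hN2 hNq k (nonunits_padicPlace N') hσ hσ' _)
    (b := b₀)
    (fun φ hφ x hx => by
      obtain ⟨t, ht, ht'⟩ := hfrob k (nonunits_padicPlace N') hφ (e x) (fun σ hσ => by
        rw [← he, hx σ hσ])
      refine ⟨e.symm t, fun σ hσ => e.injective ?_, e.injective ?_⟩
      · rw [he, e.apply_symm_apply, ht σ hσ]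
      · rw [map_nsmul, map_sub, he, e.apply_symm_apply, ht'])
    (τ := complexConjugation) (fun ζ n hn hζ => complexConjugation_root hn.ne' hζ)
    complexConjugation_mul_self
    (card_sm_of_equiv e he (card_range_cc_S k _ fun s => by
      change complexConjugation⁻¹ • s + s = s + complexConjugation • s
      rw [hτ2, add_comm]))
    (C₀ := C₀) (card_vact_of_equiv e he (hC₀ k))
    (c := PD.coc hs) (PD.flatC_coc hs hflat)
    (U := U₀ ⊓ U₁) (hU₀.inter hU₁) (fun u hu => by
      ext x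
      apply D.ι_inj
      rw [PD.ι_coc, hU₀D _ (U₀.inv_mem hu.1), hU₁E u hu.2, sub_self]
      exact (map_zero _).symm)
    (fun ℓ hℓq hℓN σ hσ => PD.coc_eq_zero_of_fix hs
      (hunr ℓ (fun h => hℓq (Subtype.ext h)) (fun h => hℓN (Subtype.ext h)) σ hσ))
  exact PD.spl_of_cob hs hv

end Fermat.Agent.Mzr
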