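import Fermat.Agent.Mzr.Asm

/-!
# Transitivity of splittings
-/

set_option autoImplicit false
set_option linter.unusedSectionVars false

noncomputable section

namespace Fermat.Agent.Mzr

open AlgebraicCurve Fermat.Agent.FunField Fermat.Agent.Flat Fermat.Agent.LG Fermat.Agent.ModFun
open Fermat.Agent.Geo

/-- The field of algebraic numbers. -/
local notation "Qb" => AlgebraicClosure ℚ
/-- The absolute Galois group. -/
local notation "GQ" => (AlgebraicClosure ℚ ≃ₐ[ℚ] AlgebraicClosure ℚ)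

variable {N : ℕ} [NeZero N] {q : ℕ} [NeZero q] [Fact q.Prime]

theorem UG_mono {T T' : Set (FixPl N)} (h : T ⊆ T') : UG T' ≤ UG T := fun _ hf a ha =>
  hf a (h ha)

/-- restriction to a smaller set of points -/
def resU {T T' : Set (FixPl N)} (h : T ⊆ T') : UG T' →* UG T := Subgroup.inclusion (UG_mono h)

theorem coe_resU {T T' : Set (FixPl N)} (h : T ⊆ T') (u : UG T') :
    (resU h u : (F0 Qb N)ˣ) = u := rfl

theorem resU_smul {T T' : Set (FixPl N)} (h : T ⊆ T') (σ : GQ) (u : UG T') :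
    resU h (σ • u) = σ • resU h u := rfl

theorem resU_injective {T T' : Set (FixPl N)} (h : T ⊆ T') : Function.Injective (resU h) :=
  Subgroup.inclusion_injective _

theorem evU_resU {T T' : Set (FixPl N)} (h : T ⊆ T') (a : FixPl N) (ha : a ∈ T) (u : UG T') :
    evU a ha (resU h u) = evU a (h ha) u := rfl

/-- restriction on the Eisenstein functions -/
def resZ {T T' : Set (FixPl N)} (hT : T.Finite) (hT' : T'.Finite) (h : T ⊆ T') (k : ℕ) :
    (eisFam q T' hT').Z k →* (eisFam q T hT).Z k where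
  toFun f := ⟨resU h f, f.2⟩
  map_one' := rfl
  map_mul' _ _ := rfl

/-- restriction of exact splittings -/
theorem ESpl.res {T T' : Set (FixPl N)} {hT : T.Finite} (hT' : T'.Finite) (h : T ⊆ T') {k : ℕ}
    {y : UG T →* Qbˣ} {t : (eisFam q T hT).Z k →* Qbˣ} (ht : ESpl (eisFam q T hT) y k t) :
    ESpl (eisFam q T' hT') (y.comp (resU h)) k (t.comp (resZ hT hT' h k)) where
  pow f := ht.pow (resZ hT hT' h k f)
  pow' u := ht.pow' (resU h u)

theorem AEq.res {T T' : Set (FixPl N)} {hT : T.Finite} (hT' : T'.Finite) (h : T ⊆ T') {k n : ℕ}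
    {H : Subgroup GQ} {t : (eisFam q T hT).Z k →* Qbˣ} (ht : AEq (eisFam q T hT) k H n t) :
    AEq (eisFam q T' hT') k H n (t.comp (resZ hT hT' h k)) := fun σ hσ f =>
  ht σ hσ (resZ hT hT' h k f)

theorem espl_div {U : Type} [CommGroup U] [MulDistribMulAction GQ U] (F : ZFam U q)
    {y y' : U →* Qbˣ} {k : ℕ} {t t' : F.Z k →* Qbˣ} (ht : ESpl F y k t) (ht' : ESpl F y' k t') :
    ESpl F (y / y') k (t / t') where
  pow f := by rw [MonoidHom.div_apply, MonoidHom.div_apply, div_pow, ht.pow f, ht'.pow f]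
  pow' u := by rw [MonoidHom.div_apply, MonoidHom.div_apply, ht.pow' u, ht'.pow' u]

theorem aeq_div {U : Type} [CommGroup U] [MulDistribMulAction GQ U] (F : ZFam U q)
    {k n : ℕ} {H : Subgroup GQ} {t t' : F.Z k →* Qbˣ} (h : AEq F k H n t) (h' : AEq F k H n t') :
    AEq F k H n (t / t') := by
  intro σ hσ f
  have h1 := h σ hσ f
  have h2 := h' σ hσ f
  rw [MonoidHom.div_apply, MonoidHom.div_apply, map_div, div_pow, div_pow, h1, h2]

/-- **Transitivity** -/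
theorem spl_trans (x c₁ c₂ : FixPl N) {k : ℕ} {H : Subgroup GQ}
    {t₁ : (famP q x c₁).Z k →* Qbˣ} (ht₁ : ESpl (famP q x c₁) (chP x c₁) k t₁)
    (ht₁' : AEq (famP q x c₁) k H 1 t₁)
    {t₂ : (famP q x c₂).Z k →* Qbˣ} (ht₂ : ESpl (famP q x c₂) (chP x c₂) k t₂)
    (ht₂' : AEq (famP q x c₂) k H 1 t₂) :
    ∃ t₃ : (famP q c₁ c₂).Z k →* Qbˣ, ESpl (famP q c₁ c₂) (chP c₁ c₂) k t₃ ∧
      AEq (famP q c₁ c₂) k H 1 t₃ := by
  let T : Set (FixPl N) := {x, c₁, c₂}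
  have hT : T.Finite := Set.toFinite _
  have h1 : ({x, c₁} : Set (FixPl N)) ⊆ T := by
    rintro a (rfl | rfl)
    · exact Or.inl rfl
    · exact Or.inr (Or.inl rfl)
  have h2 : ({x, c₂} : Set (FixPl N)) ⊆ T := by
    rintro a (rfl | rfl)
    · exact Or.inl rfl
    · exact Or.inr (Or.inr rfl)
  have h3 : ({c₁, c₂} : Set (FixPl N)) ⊆ T := by
    rintro a (rfl | rfl)
    · exact Or.inr (Or.inl rfl)
    · exact Or.inr (Or.inr rfl)
  have e0 : (chP x c₂).comp (resU h2) / (chP x c₁).comp (resU h1) = (chP c₁ c₂).comp (resU h3) := by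
    refine MonoidHom.ext fun u => ?_
    change (evU x (h2 (memL x c₂)) u * (evU c₂ (h2 (memR x c₂)) u)⁻¹) /
      (evU x (h1 (memL x c₁)) u * (evU c₁ (h1 (memR x c₁)) u)⁻¹) =
      evU c₁ (h3 (memL c₁ c₂)) u * (evU c₂ (h3 (memR c₁ c₂)) u)⁻¹
    have key : ∀ a b c : Qbˣ, (a * b⁻¹) / (a * c⁻¹) = c * b⁻¹ := fun a b c => by
      rw [mul_div_mul_left_eq_div, div_inv_eq_mul, mul_comm]
    exact key _ _ _
  have e1 : ESpl (eisFam q T hT) ((chP c₁ c₂).comp (resU h3)) k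
      (t₂.comp (resZ (fin_pair x c₂) hT h2 k) / t₁.comp (resZ (fin_pair x c₁) hT h1 k)) := by
    rw [← e0]
    exact espl_div _ (ht₂.res hT h2) (ht₁.res hT h1)
  have e2 : AEq (eisFam q T hT) k H 1
      (t₂.comp (resZ (fin_pair x c₂) hT h2 k) / t₁.comp (resZ (fin_pair x c₁) hT h1 k)) :=
    aeq_div _ (ht₂'.res hT h2) (ht₁'.res hT h1)
  refine extend_spl (eisFam q T hT) (famP q c₁ c₂) (resU h3) (resU_injective h3)
    (resU_smul h3) (fun f => Iff.rfl) ?_ ?_ (chP_smul c₁ c₂) e1 e2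
  · intro f hf
    have hf' : (f : (F0 Qb N)ˣ) ∈ ZK N q k := hf
    obtain ⟨w, hw⟩ := exists_move hT hf'.1
    have hw' : w⁻¹ ∈ UG ({c₁, c₂} : Set (FixPl N)) := by
      refine (UG _).inv_mem (mem_UG_of_pow (pos_pow q k).ne' ?_)
      have h4 : w ^ q ^ k = (f : (F0 Qb N)ˣ)⁻¹ * ((f : (F0 Qb N)ˣ) * w ^ q ^ k) := by
        rw [inv_mul_cancel_left]
      rw [h4]
      exact (UG _).mul_mem ((UG _).inv_mem f.2) (UG_mono h3 hw)
    refine ⟨⟨_, hw⟩, ⟨w⁻¹, hw'⟩, Subtype.ext ?_⟩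
    change (f : (F0 Qb N)ˣ) = ((f : (F0 Qb N)ˣ) * w ^ q ^ k) * w⁻¹ ^ q ^ k
    rw [inv_pow, mul_inv_cancel_right]
  · intro w v hwv
    have h4 : (w : (F0 Qb N)ˣ) ^ q ^ k ∈ UG T := by
      have h5 : (w : (F0 Qb N)ˣ) ^ q ^ k = (v : (F0 Qb N)ˣ) := congrArg Subtype.val hwv
      rw [h5]
      exact v.2
    exact ⟨⟨w, mem_UG_of_pow (pos_pow q k).ne' h4⟩, rfl⟩

end Fermat.Agent.Mzr
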