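import Mathlib
import Fermat.Agent.Mzr.EisFam
import Fermat.Agent.GC.Emb

/-!
# Flatness of the extensions attached to the Eisenstein functions
-/

set_option autoImplicit false
set_option linter.unusedSectionVars false
set_option linter.style.haveILetI false
set_option synthInstance.maxHeartbeats 400000

noncomputable section

namespace Fermat.Agent.Mzr

open AlgebraicCurve IsDedekindDomain IntermediateField WithZero Module Fermat.Agent.FunField
open Fermat.Agent.Flat Fermat.Agent.MZ Fermat.Agent.Lf Fermat.Agent.MP Fermat.Agent.Conn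
open Fermat.Agent.LG Fermat.Agent.ModFun Fermat.Agent.Geo Fermat.Agent.GC Fermat.Agent.MX
open Fermat.Agent.ESCore (HauptFn haupt2 haupt3 ιC)
open IsLocalRing ModularCurve
open Polynomial (aeval)

/-- The field of algebraic numbers. -/
local notation "Qb" => AlgebraicClosure ℚ
/-- The absolute Galois group. -/
local notation "GQ" => (AlgebraicClosure ℚ ≃ₐ[ℚ] AlgebraicClosure ℚ)

section Emb

variable {N M : ℕ} [NeZero N] [NeZero M] (hle : F0 Qb N ≤ F0 Qb M)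
  {GG : Subgroup GQ} {T : Set (FixPl N)} {a b : FixPl N} (haT : a ∈ T) (hbT : b ∈ T)
  {a' b' : FPl M GG} {m : ℕ} [NeZero m]
  (ha : Abv (incF hle) a'.pl a.pl) (hb : Abv (incF hle) b'.pl b.pl)

include haT hbT in
/-- the map on functions -/
def incUT : UG T →* UP a' b' where
  toFun f := ⟨Units.map (incF hle : F0 Qb N →* F0 Qb M) f, by
    refine ⟨?_, ?_⟩
    · obtain ⟨e, -, he⟩ := ha
      change a'.pl.ord (incF hle ((f : (F0 Qb N)ˣ) : F0 Qb N)) = 0
      rw [he, f.2 a haT, mul_zero]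
    · obtain ⟨e, -, he⟩ := hb
      change b'.pl.ord (incF hle ((f : (F0 Qb N)ˣ) : F0 Qb N)) = 0
      rw [he, f.2 b hbT, mul_zero]⟩
  map_one' := Subtype.ext (map_one _)
  map_mul' f g := Subtype.ext (map_mul _ _ _)

theorem coe_incUT (f : UG T) :
    (((incUT hle haT hbT ha hb f : UP a' b') : (F0 Qb M)ˣ) : F0 Qb M) =
      incF hle ((f : (F0 Qb N)ˣ) : F0 Qb N) := rfl

theorem incUT_y (f : UG T) :
    (plPG a' b' m).y (incUT hle haT hbT ha hb f) = evU a haT f * (evU b hbT f)⁻¹ := by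
  change evL a' b' (incUT hle haT hbT ha hb f) * (evR a' b' (incUT hle haT hbT ha hb f))⁻¹ = _
  congr 1
  · apply Units.ext
    rw [coe_evL, coe_evU, coe_incUT]
    exact ha.evp_eq (incF_algebraMap hle) (rat_F0 _) (f.2 a haT).ge
  · rw [inv_inj]
    apply Units.ext
    rw [coe_evR, coe_evU, coe_incUT]
    exact hb.evp_eq (incF_algebraMap hle) (rat_F0 _) (f.2 b hbT).ge

variable (D : PD (UG T) m) (hZ : ∀ f ∈ D.Z, ((f : UG T) : (F0 Qb N)ˣ) ∈ SelZ Qb (F0 Qb N) m)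
  (hy : ∀ f, D.y f = evU a haT f * (evU b hbT f)⁻¹)

/-- the map on pairs -/
def incEZT : D.EZ →* (plPG a' b' m).EZ where
  toFun p := ⟨(incUT hle haT hbT ha hb p.1.1, p.1.2), by
    refine ⟨fun v' => incF_dvd hle (fun v => hZ _ p.2.1 v) v', ?_⟩
    change p.1.2 ^ m = (plPG a' b' m).y (incUT hle haT hbT ha hb p.1.1)
    rw [incUT_y, ← hy]
    exact p.2.2⟩
  map_one' := Subtype.ext (Prod.ext (map_one _) rfl)
  map_mul' p q := Subtype.ext (Prod.ext (map_mul _ _ _) rfl)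

/-- the map on extensions -/
def incET : D.E →+ (plPG a' b' m).E :=
  MonoidHom.toAdditive (QuotientGroup.map _ _ (incEZT hle haT hbT ha hb D hZ hy) (by
    rintro p ⟨u, hu⟩
    refine ⟨incUT hle haT hbT ha hb u, ?_⟩
    change (incUT hle haT hbT ha hb p.1.1, p.1.2) = _
    rw [hu, map_pow, incUT_y, ← hy]))

theorem incET_ecl (p : D.EZ) :
    incET hle haT hbT ha hb D hZ hy (D.ecl p) =
      (plPG a' b' m).ecl (incEZT hle haT hbT ha hb D hZ hy p) := rfl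

theorem incET_smul (σ : GG) (e : D.E) :
    incET hle haT hbT ha hb D hZ hy ((σ : GQ) • e) =
      σ • incET hle haT hbT ha hb D hZ hy e := by
  obtain ⟨p, rfl⟩ := D.ecl_surj e
  rfl

theorem incET_inj (hroot : ∀ f : F0 Qb N, f ≠ 0 → (∀ v : Place Qb (F0 Qb N), (m : ℤ) ∣ v.ord f) →
      ∀ w : F0 Qb M, incF hle f = w ^ m → ∃ u : F0 Qb N, incF hle u = w) :
    Function.Injective (incET hle haT hbT ha hb D hZ hy) := by
  rw [injective_iff_map_eq_zero]
  intro e he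
  obtain ⟨p, rfl⟩ := D.ecl_surj e
  rw [incET_ecl, PG.ecl_eq_zero] at he
  obtain ⟨w, hw⟩ := he
  have h1 : incUT hle haT hbT ha hb p.1.1 = w ^ m := congrArg Prod.fst hw
  have h2 : p.1.2 = (plPG a' b' m).y w := congrArg Prod.snd hw
  have h1' : incF hle (((p.1.1 : UG T) : (F0 Qb N)ˣ) : F0 Qb N) =
      (((w : UP a' b') : (F0 Qb M)ˣ) : F0 Qb M) ^ m := by
    rw [← coe_incUT hle haT hbT ha hb, h1]
    simp
  obtain ⟨u, hu⟩ := hroot _ (Units.ne_zero _) (fun v => hZ _ p.2.1 v) _ h1'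
  have hu0 : u ≠ 0 := by
    rintro rfl
    rw [map_zero] at hu
    exact Units.ne_zero _ hu.symm
  have hpu : (((p.1.1 : UG T) : (F0 Qb N)ˣ) : F0 Qb N) = u ^ m := by
    apply (incF hle).injective
    rw [h1', map_pow, hu]
  have hord : ∀ c ∈ T, c.pl.ord u = 0 := by
    intro c hc
    have h3 := p.1.1.2 c hc
    rw [hpu, Flat.ord_pow] at h3
    rcases mul_eq_zero.mp h3 with h4 | h4
    · exact absurd (by exact_mod_cast h4) (NeZero.ne m)
    · exact h4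
  let u' : UG T := ⟨Units.mk0 u hu0, hord⟩
  have hwu : incUT hle haT hbT ha hb u' = w := Subtype.ext (Units.ext hu)
  rw [PD.ecl_eq_zero]
  refine ⟨u', Prod.ext ?_ ?_⟩
  · apply Subtype.ext
    apply Units.ext
    rw [hpu]
    simp [u']
  · rw [hy, ← incUT_y (m := m) hle haT hbT ha hb, hwu]
    exact h2

end Emb

section Flat

variable {N M : ℕ} [NeZero N] [NeZero M] {A : ValuationSubring Qb} {q : ℕ} [Fact q.Prime]
  [NeZero q] {k : ℕ}
  {T : Set (FixPl N)} {a b : FixPl N}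

/-- flatness at a lower level -/
theorem eis_flat_of (hle : F0 Qb N ≤ F0 Qb M) (haT : a ∈ T) (hbT : b ∈ T)
    {a' b' : FPl M (A.inertiaSubgroupIn ℚ)}
    (ha : Abv (incF hle) a'.pl a.pl) (hb : Abv (incF hle) b'.pl b.pl)
    (hroot : ∀ f : F0 Qb N, f ≠ 0 →
      (∀ v : Place Qb (F0 Qb N), ((q ^ k : ℕ) : ℤ) ∣ v.ord f) →
      ∀ w : F0 Qb M, incF hle f = w ^ (q ^ k) → ∃ u : F0 Qb N, incF hle u = w)
    (h : Finite (plPG a' b' (q ^ k)).E ∧
      IsFlat (OI A) (A.inertiaSubgroupIn ℚ) (plPG a' b' (q ^ k)).E Qb) :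
    Finite (eisPD (q := q) T k a b haT hbT).E ∧
      IsFlat (OI A) (A.inertiaSubgroupIn ℚ) (eisPD (q := q) T k a b haT hbT).E Qb := by
  have hinj := incET_inj (m := q ^ k) hle haT hbT ha hb (eisPD (q := q) T k a b haT hbT)
    (fun f hf => ZK_le k hf) (fun f => rfl) hroot
  have := h.1
  exact ⟨Finite.of_injective _ hinj, h.2.of_injective (incET hle haT hbT ha hb
    (eisPD (q := q) T k a b haT hbT) (fun f hf => ZK_le k hf) (fun f => rfl)) hinj
    fun σ e => incET_smul hle haT hbT ha hb _ _ _ σ e⟩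

/-- **(a)**: residue characteristic `l ≥ 5` (including `l = q`). -/
theorem eis_flat_J {l : ℕ} (hl : l.Prime) (hl5 : 5 ≤ l) (hA : A.LiesOverPrime l) (hlN : ¬ l ∣ N)
    (haT : a ∈ T) (hbT : b ∈ T) :
    Finite (eisPD (q := q) T k a b haT hbT).E ∧
      IsFlat (OI A) (A.inertiaSubgroupIn ℚ) (eisPD (q := q) T k a b haT hbT).E Qb :=
  eis_flat_of (a' := FixPl.toF a _) (b' := FixPl.toF b _) (le_refl _) haT hbT (abv_refl a.pl)
    (abv_refl b.pl) (fun _ _ _ w _ => ⟨w, incF_refl w⟩) (flat_J hl hl5 hA hlN _ _)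

/-- **(b)**: inertia acts trivially at `l ≥ 5`, `l ∤ q N`. -/
theorem eis_unr_J {l : ℕ} (hl : l.Prime) (hl5 : 5 ≤ l) (hA : A.LiesOverPrime l) (hlN : ¬ l ∣ N)
    (hlq : l ≠ q) (haT : a ∈ T) (hbT : b ∈ T) (σ : GQ) (hσ : σ ∈ A.inertiaSubgroupIn ℚ)
    (e : (eisPD (q := q) T k a b haT hbT).E) : σ • e = e := by
  have hqp : q.Prime := Fact.out
  have hlm : ¬ l ∣ q ^ k := fun h =>
    hlq ((Nat.prime_dvd_prime_iff_eq hl hqp).mp (hl.dvd_of_dvd_pow h))
  have hinj := incET_inj (m := q ^ k) (le_refl (F0 Qb N)) haT hbT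
    (a' := FixPl.toF a (A.inertiaSubgroupIn ℚ)) (b' := FixPl.toF b (A.inertiaSubgroupIn ℚ))
    (abv_refl a.pl) (abv_refl b.pl) (eisPD (q := q) T k a b haT hbT)
    (fun f hf => ZK_le k hf) (fun f => rfl) (fun _ _ _ w _ => ⟨w, incF_refl w⟩)
  apply hinj
  exact (incET_smul _ haT hbT _ _ _ _ _ (⟨σ, hσ⟩ : A.inertiaSubgroupIn ℚ) e).trans
    (unr_J hl hl5 hA hlN hlm _ _ _ _)

/-- **(c)**: flatness from the level `rN`. -/
theorem eis_flat_low {r : ℕ} (hr : r.Prime) (hM : M = r * N) (hle : F0 Qb N ≤ F0 Qb M)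
    (haT : a ∈ T) (hbT : b ∈ T) {a' b' : FPl M (A.inertiaSubgroupIn ℚ)}
    (ha : Abv (incF hle) a'.pl a.pl) (hb : Abv (incF hle) b'.pl b.pl)
    (h : Finite (plPG a' b' (q ^ k)).E ∧
      IsFlat (OI A) (A.inertiaSubgroupIn ℚ) (plPG a' b' (q ^ k)).E Qb) :
    Finite (eisPD (q := q) T k a b haT hbT).E ∧
      IsFlat (OI A) (A.inertiaSubgroupIn ℚ) (eisPD (q := q) T k a b haT hbT).E Qb := by
  subst hM
  refine eis_flat_of hle haT hbT ha hb (fun f hf hdvd w hw => ?_) h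
  obtain ⟨u, hu⟩ := exists_root_low hr (NeZero.pos (q ^ k)) hf hdvd (w := w) (by
    rw [← coe_incF hle f, hw]
    rfl)
  exact ⟨u, Subtype.ext ((coe_incF hle u).trans hu)⟩

/-- **(c)**, even level `M = 2N`, values of `t⁻¹` in `A`. -/
theorem eis_flat_T2 {l : ℕ} (hl : l.Prime) (hA : A.LiesOverPrime l) (hlM : ¬ l ∣ M)
    (hM : M = 2 * N) (hpM : 2 ∣ M) (hle : F0 Qb N ≤ F0 Qb M) (haT : a ∈ T) (hbT : b ∈ T)
    {a' b' : FPl M (A.inertiaSubgroupIn ℚ)}
    (ha : Abv (incF hle) a'.pl a.pl) (hb : Abv (incF hle) b'.pl b.pl)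
    (hva : haveI : Fact (Nat.Prime 2) := ⟨Nat.prime_two⟩
      ∃ c : A, 0 < a'.pl.ord ((tF haupt2 hpM)⁻¹ - algebraMap Qb (F0 Qb M) c))
    (hvb : haveI : Fact (Nat.Prime 2) := ⟨Nat.prime_two⟩
      ∃ c : A, 0 < b'.pl.ord ((tF haupt2 hpM)⁻¹ - algebraMap Qb (F0 Qb M) c)) :
    Finite (eisPD (q := q) T k a b haT hbT).E ∧
      IsFlat (OI A) (A.inertiaSubgroupIn ℚ) (eisPD (q := q) T k a b haT hbT).E Qb :=
  eis_flat_low Nat.prime_two hM hle haT hbT ha hb (flat_T2 hpM hl hA hlM a' b' hva hvb)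

/-- **(c)**, level `M = 3N`, values of `t⁻¹` in `A`. -/
theorem eis_flat_T3 {l : ℕ} (hl : l.Prime) (hA : A.LiesOverPrime l) (hlM : ¬ l ∣ M)
    (hM : M = 3 * N) (hpM : 3 ∣ M) (hle : F0 Qb N ≤ F0 Qb M) (haT : a ∈ T) (hbT : b ∈ T)
    {a' b' : FPl M (A.inertiaSubgroupIn ℚ)}
    (ha : Abv (incF hle) a'.pl a.pl) (hb : Abv (incF hle) b'.pl b.pl)
    (hva : haveI : Fact (Nat.Prime 3) := ⟨Nat.prime_three⟩
      ∃ c : A, 0 < a'.pl.ord ((tF haupt3 hpM)⁻¹ - algebraMap Qb (F0 Qb M) c))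
    (hvb : haveI : Fact (Nat.Prime 3) := ⟨Nat.prime_three⟩
      ∃ c : A, 0 < b'.pl.ord ((tF haupt3 hpM)⁻¹ - algebraMap Qb (F0 Qb M) c)) :
    Finite (eisPD (q := q) T k a b haT hbT).E ∧
      IsFlat (OI A) (A.inertiaSubgroupIn ℚ) (eisPD (q := q) T k a b haT hbT).E Qb :=
  eis_flat_low Nat.prime_three hM hle haT hbT ha hb (flat_T3 hpM hl hA hlM a' b' hva hvb)

/-- inertia acts trivially as soon as the extension is flat (`l ≠ q`, any `l`) -/
theorem eis_unr {l : ℕ} (hl : l.Prime) (hA : A.LiesOverPrime l) (hlq : l ≠ q)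
    (haT : a ∈ T) (hbT : b ∈ T)
    (h : IsFlat (OI A) (A.inertiaSubgroupIn ℚ) (eisPD (q := q) T k a b haT hbT).E Qb)
    (σ : GQ) (hσ : σ ∈ A.inertiaSubgroupIn ℚ)
    (e : (eisPD (q := q) T k a b haT hbT).E) : σ • e = e := by
  have hqp : q.Prime := Fact.out
  have hlm : ¬ l ∣ q ^ k := fun h =>
    hlq ((Nat.prime_dvd_prime_iff_eq hl hqp).mp (hl.dvd_of_dvd_pow h))
  have hm1 : A.valuation ((q ^ k : ℕ) : Qb) = 1 := by
    by_contra hne
    have h1 : A.valuation ((q ^ k : ℕ) : Qb) < 1 :=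
      lt_of_le_of_ne (valuation_natCast_le A _) hne
    apply natCast_residue_ne hl hA hlm
    have h2 : residue A ((q ^ k : ℕ) : A) = 0 := by
      rw [residue_eq_zero_iff, A.valuation_lt_one_iff]
      exact_mod_cast h1
    rw [← h2, map_natCast]
  exact smul_eq_of_flat h (unr_inertia hl hA).res hm1
    (eisPD (q := q) T k a b haT hbT).smul_E ⟨σ, hσ⟩ e

end Flat

end Fermat.Agent.Mzr
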