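import Fermat.Agent.Mzr.Asm
import Fermat.Agent.Mzr.Can4
import Fermat.Agent.Mzr.EisFlat

/-!
# Splittings from canonical splittings at a higher level
-/

set_option autoImplicit false
set_option linter.unusedSectionVars false
set_option linter.style.haveILetI false
set_option synthInstance.maxHeartbeats 400000

noncomputable section

namespace Fermat.Agent.Mzr

open AlgebraicCurve Fermat.Agent.FunField Fermat.Agent.Flat Fermat.Agent.LG Fermat.Agent.ModFun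
open Fermat.Agent.Geo Fermat.Agent.GC Fermat.Agent.MX

/-- The field of algebraic numbers. -/
local notation "Qb" => AlgebraicClosure ℚ
/-- The absolute Galois group. -/
local notation "GQ" => (AlgebraicClosure ℚ ≃ₐ[ℚ] AlgebraicClosure ℚ)

/-- abstract form -/
theorem spl_pull {U : Type} [CommGroup U] [MulDistribMulAction GQ U] {q : ℕ} (F : ZFam U q)
    {D : Subgroup GQ} {U' : Type} [CommGroup U'] [MulDistribMulAction D U'] {k : ℕ}
    (P : PG D.subtype U' (q ^ k)) (j : U →* U') (hj : ∀ (σ : D) (u : U), j ((σ : GQ) • u) = σ • j u)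
    (hZ : ∀ f ∈ F.Z k, j f ∈ P.Z) (y : U →* Qbˣ) (hy : ∀ u, P.y (j u) = y u)
    {s : P.Z →* Qbˣ} (hs1 : ∀ f, s f ^ q ^ k = P.y f)
    (hs2 : ∀ u, s ⟨u ^ q ^ k, P.pow_mem u⟩ = P.y u)
    (hs3 : ∀ (σ : D) (f : P.Z), s ⟨σ • (f : U'), P.smul_mem σ f f.2⟩ = uact (σ : GQ) (s f)) :
    ∃ t : F.Z k →* Qbˣ, ESpl F y k t ∧ AEq F k D 1 t := by
  let j' : F.Z k →* P.Z :=
    { toFun := fun f => ⟨j f, hZ f f.2⟩
      map_one' := Subtype.ext (map_one j)
      map_mul' := fun f g => Subtype.ext (map_mul j _ _) }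
  have hj' : ∀ f : F.Z k, ((j' f : P.Z) : U') = j f := fun _ => rfl
  refine ⟨s.comp j', ⟨fun f => ?_, fun u => ?_⟩, fun σ hσ f => ?_⟩
  · rw [MonoidHom.comp_apply, hs1, hj', hy]
  · rw [MonoidHom.comp_apply]
    have h1 : j' ⟨u ^ q ^ k, F.pow_mem k u⟩ = ⟨j u ^ q ^ k, P.pow_mem _⟩ :=
      Subtype.ext (map_pow j _ _)
    rw [h1, hs2, hy]
  · rw [pow_one, pow_one, MonoidHom.comp_apply, MonoidHom.comp_apply]
    have h1 := hs3 ⟨σ, hσ⟩ (j' f)
    have h2 : j' ⟨σ • (f : U), F.smul_mem k σ f f.2⟩ =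
        ⟨(⟨σ, hσ⟩ : D) • ((j' f : P.Z) : U'), P.smul_mem _ _ (j' f).2⟩ :=
      Subtype.ext (hj ⟨σ, hσ⟩ f)
    rw [h2, h1]

variable {N : ℕ} [NeZero N] {q : ℕ} [NeZero q] [Fact q.Prime]

theorem incUT_smul {M : ℕ} [NeZero M] (hle : F0 Qb N ≤ F0 Qb M) {GG : Subgroup GQ}
    {T : Set (FixPl N)} {a b : FixPl N} (haT : a ∈ T) (hbT : b ∈ T) {a' b' : FPl M GG}
    (ha : Abv (incF hle) a'.pl a.pl) (hb : Abv (incF hle) b'.pl b.pl) (σ : GG) (u : UG T) :
    incUT hle haT hbT ha hb ((σ : GQ) • u) = σ • incUT hle haT hbT ha hb u := by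
  apply Subtype.ext
  apply Units.ext
  rw [coe_incUT, coe_smul_UP, coe_incUT, coe_smul_UG, incF_gal]

theorem incUT_mem {M : ℕ} [NeZero M] (hle : F0 Qb N ≤ F0 Qb M) {GG : Subgroup GQ}
    {T : Set (FixPl N)} {a b : FixPl N} (haT : a ∈ T) (hbT : b ∈ T) {a' b' : FPl M GG} {m : ℕ}
    [NeZero m]
    (ha : Abv (incF hle) a'.pl a.pl) (hb : Abv (incF hle) b'.pl b.pl) (f : UG T)
    (hf : (f : (F0 Qb N)ˣ) ∈ SelZ Qb (F0 Qb N) m) :
    incUT hle haT hbT ha hb f ∈ (plPG a' b' m).Z := by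
  have h1 : ∀ v' : Place Qb (F0 Qb M), (m : ℤ) ∣ v'.ord
      (incF hle ((f : (F0 Qb N)ˣ) : F0 Qb N)) := fun v' => incF_dvd hle (fun v => hf v) v'
  exact h1

/-- **(W6b)** -/
theorem hasSpl_of_can {M : ℕ} [NeZero M] (hle : F0 Qb N ≤ F0 Qb M) {D : Subgroup GQ}
    (a b : FixPl N) (a' b' : FPl M D) (ha : Abv (incF hle) a'.pl a.pl)
    (hb : Abv (incF hle) b'.pl b.pl)
    (h : ∀ k, haveI : NeZero (q ^ k) := ⟨(pos_pow q k).ne'⟩; CanSplit (q ^ k) a' b') :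
    HasSpl q a b D 1 := by
  intro k
  haveI : NeZero (q ^ k) := ⟨(pos_pow q k).ne'⟩
  obtain ⟨s, hs1, hs2, hs3⟩ := h k
  refine spl_pull (famP q a b) (plPG a' b' (q ^ k))
    (incUT hle (memL a b) (memR a b) ha hb) ?_ ?_ (chP a b) ?_ hs1 hs2 hs3
  · exact fun σ u => incUT_smul hle (memL a b) (memR a b) ha hb σ u
  · intro f hf
    exact incUT_mem hle (memL a b) (memR a b) ha hb f (ZK_le k (Subgroup.mem_subgroupOf.mp hf))
  · intro u
    exact incUT_y (m := q ^ k) hle (memL a b) (memR a b) ha hb u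

end Fermat.Agent.Mzr
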