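import Mathlib
import Fermat.Agent.Mzr.Asm
import Fermat.Agent.Mzr.NumL
import Fermat.Agent.Mzr.Cusps
import Fermat.Agent.Mzr.SplEx
import Fermat.Agent.Mzr.HKillB
import Fermat.Agent.Mzr.HKill
import Fermat.Agent.Mzr.EtaF
import Fermat.Agent.Mzr.EndC
import Fermat.Agent.Mzr.Trans
import Fermat.Agent.Mzr.Trans2

/-!
# Mazur's argument
-/

set_option autoImplicit false
set_option linter.unusedSectionVars false

noncomputable section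

namespace Fermat.Agent.Mzr

open AlgebraicCurve Fermat.Agent.FunField Fermat.Agent.Flat Fermat.Agent.LG Fermat.Agent.ModFun
open Fermat.Agent.Geo Fermat.Agent.ESCore.ModP
open Fermat.Agent.ESCore.Univ (Idx)

/-- The field of algebraic numbers. -/
local notation "Qb" => AlgebraicClosure ℚ
/-- The absolute Galois group. -/
local notation "GQ" => (AlgebraicClosure ℚ ≃ₐ[ℚ] AlgebraicClosure ℚ)

variable {N : ℕ} [NeZero N] [hN : Fact N.Prime] {q : ℕ} [NeZero q] [Fact q.Prime]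

/-- **The core of Mazur's argument.** -/
theorem mazur_core {K : ℕ} (hK : q ^ K ∣ N - 1) (h12 : ¬ q ^ K ∣ 12) (hN2 : N ≠ 2)
    (x c₁ c₂ : FixPl N) (hcc : (c₁ = cO ∧ c₂ = cI) ∨ (c₁ = cI ∧ c₂ = cO))
    (hflat : ∀ k, IsFlat (OI (padicPlace q)) ((padicPlace q).inertiaSubgroupIn ℚ)
      (eisPD (q := q) {x, c₁} k x c₁ (memL x c₁) (memR x c₁)).E Qb)
    (hunr : ∀ k (ℓ : Nat.Primes), (ℓ : ℕ) ≠ q → (ℓ : ℕ) ≠ N →
      ∀ σ ∈ (padicPlace (ℓ : ℕ)).inertiaSubgroupIn ℚ,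
      ∀ e : (eisPD (q := q) {x, c₁} k x c₁ (memL x c₁) (memR x c₁)).E, σ • e = e)
    {ℓ₁ : ℕ} (hℓ₁ : ℓ₁.Prime) (hℓ₁q : ℓ₁ ≠ q) (hℓ₁N : ℓ₁ ≠ N) {A₁ : ValuationSubring Qb}
    (hA₁ : A₁.LiesOverPrime ℓ₁) (h₁ : HasSpl q x c₁ (A₁.decompositionSubgroup ℚ) 1)
    {ℓ : ℕ} (hℓ : ℓ.Prime) (hℓq : ℓ ≠ q) (hℓN : ℓ ≠ N) {A : ValuationSubring Qb}
    (hA : A.LiesOverPrime ℓ) (h₂ : HasSpl q x c₂ (A.decompositionSubgroup ℚ) 1) : False := by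
  obtain ⟨hqN, hNq⟩ := ne_of_pow_dvd hN.out hK h12
  have hnd : ∀ {l : ℕ}, l.Prime → l ≠ N → ¬ l ∣ N := fun hl h h' =>
    h ((Nat.prime_dvd_prime_iff_eq hl hN.out).mp h')
  let i₁ : Idx N {q} := ⟨ℓ₁, hℓ₁, hnd hℓ₁ hℓ₁N, fun h => hℓ₁q (Finset.mem_singleton.mp h)⟩
  let i : Idx N {q} := ⟨ℓ, hℓ, hnd hℓ hℓN, fun h => hℓq (Finset.mem_singleton.mp h)⟩
  obtain ⟨e₁, he₁, hkill₁⟩ := homKill_eis i₁
  obtain ⟨e, he, hkill⟩ := homKill_eis i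
  obtain ⟨φ₁, hφ₁⟩ := Fermat.Agent.GaloisBasics.exists_isFrobeniusAt hℓ₁ A₁ hA₁
  obtain ⟨φ, hφ⟩ := Fermat.Agent.GaloisBasics.exists_isFrobeniusAt hℓ A hA
  obtain ⟨C₀, hC₀⟩ := card_vfix N q
  obtain ⟨n₀, hn₀, hspl⟩ := exists_spl_of (N := N) (q := q) hN2 hNq hC₀
  have hx : HasSpl q x c₁ ⊤ 1 := hasSpl_top x c₁ hn₀ he₁
    (fun k => hspl k _ (fin_pair x c₁) x c₁ _ _ (hflat k) (hunr k)) h₁
    (fun k => hkill₁ k _ (fin_pair x c₁) _ hA₁ hφ₁ hφ₁.mem_decompositionSubgroup)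
  have h3 : HasSpl q c₁ c₂ (A.decompositionSubgroup ℚ) 1 := by
    intro k
    obtain ⟨t₁, ht₁, ht₁'⟩ := (hx.mono (H' := A.decompositionSubgroup ℚ) le_top) k
    obtain ⟨t₂, ht₂, ht₂'⟩ := h₂ k
    exact spl_trans x c₁ c₂ ht₁ ht₁' ht₂ ht₂'
  have h3' : HasSpl q (cO : FixPl N) (cI : FixPl N) (A.decompositionSubgroup ℚ) 1 := by
    rcases hcc with ⟨rfl, rfl⟩ | ⟨rfl, rfl⟩
    · exact h3
    · exact h3.symm
  haveI : NeZero ℓ := ⟨hℓ.ne_zero⟩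
  obtain ⟨η, c', hc', hη, hηZ, hzη, hdiv⟩ := exists_eta (q := q) hℓ hℓN hℓq
  have h4 : HasSpl q (cO : FixPl N) (cI : FixPl N) ⊤ 1 := hasSpl_end cO cI he hc' h3'
    (fun k => hkill k _ (fin_pair cO cI) _ hA hφ hφ.mem_decompositionSubgroup)
    η hη hηZ (fun u => by
      have h5 := hzη u
      change evU cO _ (η u) * (evU cI _ (η u))⁻¹ = 1
      rw [h5.1, h5.2, inv_one, mul_one]) hdiv
  obtain ⟨t, ht, hteq⟩ := h4 K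
  exact end_contra hK h12 _ t ht hteq

end Fermat.Agent.Mzr
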