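import Mathlib
import Fermat.Agent.Mzr.Core
import Fermat.Agent.Mzr.EisFlat
import Fermat.Agent.Mzr.Can4
import Fermat.Agent.MX.Lv

/-!
# Mazur's argument, second part
-/

set_option autoImplicit false
set_option linter.unusedSectionVars false

noncomputable section

namespace Fermat.Agent.Mzr

open AlgebraicCurve Fermat.Agent.FunField Fermat.Agent.Flat Fermat.Agent.LG Fermat.Agent.ModFun
open Fermat.Agent.Geo Fermat.Agent.ESCore.ModP Fermat.Agent.MX Fermat.Agent.GC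
open Fermat.Agent.ESCore (HauptFn haupt2 haupt3 ιC)

/-- The field of algebraic numbers. -/
local notation "Qb" => AlgebraicClosure ℚ
/-- The absolute Galois group. -/
local notation "GQ" => (AlgebraicClosure ℚ ≃ₐ[ℚ] AlgebraicClosure ℚ)

variable {N : ℕ} [NeZero N]

/-- restriction to a smaller group -/
def FPl.res {M : ℕ} [NeZero M] {D D' : Subgroup GQ} (h : D' ≤ D) (a : FPl M D) : FPl M D' :=
  ⟨a.pl, fun σ hσ => a.fix σ (h hσ)⟩

/-- a rational point as a point fixed by a subgroup -/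
def FixPl.toF (a : FixPl N) (D : Subgroup GQ) : FPl N D := ⟨a.pl, fun σ _ => a.fix σ⟩

theorem inertia_le_dec (A : ValuationSubring Qb) :
    A.inertiaSubgroupIn ℚ ≤ A.decompositionSubgroup ℚ := Subgroup.map_subtype_le _

theorem ord_nonneg_of_sub {M : ℕ} [NeZero M] {v : Place Qb (F0 Qb M)} {t : F0 Qb M} {e : Qb}
    (h : 0 < v.ord (t - algebraMap Qb (F0 Qb M) e)) : 0 ≤ v.ord t := by
  apply ord_nonneg_of_mem v
  have h1 := mem_of_ord_nonneg v h.le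
  have h2 := v.algebraMap_mem' e
  have h3 := add_mem h1 h2
  rwa [sub_add_cancel] at h3

/-- Congruent lifts of two points to level `M`. -/
def LiftD {M : ℕ} [NeZero M] (A : ValuationSubring Qb) (t : F0 Qb M) (hNM : N ∣ M)
    (x c : FixPl N) : Prop :=
  ∃ x' c' : FPl M (A.decompositionSubgroup ℚ),
    Abv (incM hNM) x'.pl x.pl ∧ Abv (incM hNM) c'.pl c.pl ∧
    (∃ e : A, 0 < x'.pl.ord (t - algebraMap Qb (F0 Qb M) (e : Qb))) ∧
    (∃ e : A, 0 < c'.pl.ord (t - algebraMap Qb (F0 Qb M) (e : Qb))) ∧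
    Near A M t x'.pl c'.pl

variable [hN : Fact N.Prime]

/-- The hypotheses at the primes two and three. -/
structure Near23 (x c : FixPl N) : Prop where
  two : ∀ A : ValuationSubring Qb, A.LiesOverPrime 2 →
    haveI : Fact (Nat.Prime 3) := ⟨Nat.prime_three⟩
    haveI : NeZero (N * 3) := ⟨Nat.mul_ne_zero (NeZero.ne N) (by norm_num)⟩
    LiftD A (tF haupt3 (dvd_mul_left 3 N) : F0 Qb (N * 3))⁻¹ (dvd_mul_right N 3) x c
  three : ∀ A : ValuationSubring Qb, A.LiesOverPrime 3 →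
    haveI : Fact (Nat.Prime 2) := ⟨Nat.prime_two⟩
    haveI : NeZero (N * 2) := ⟨Nat.mul_ne_zero (NeZero.ne N) (by norm_num)⟩
    LiftD A (tF haupt2 (dvd_mul_left 2 N) : F0 Qb (N * 2))⁻¹ (dvd_mul_right N 2) x c

variable {q : ℕ} [NeZero q] [Fact q.Prime]

/-- Flatness at all places. -/
theorem flat_all (hN3 : 3 < N) {x c : FixPl N} (h23 : Near23 x c) {l : ℕ} (hl : l.Prime) (hlN : l ≠ N)
    {A : ValuationSubring Qb} (hA : A.LiesOverPrime l) (k : ℕ) :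
    IsFlat (OI A) (A.inertiaSubgroupIn ℚ)
      (eisPD (q := q) {x, c} k x c (memL x c) (memR x c)).E Qb := by
  have hlN' : ¬ l ∣ N := fun h => hlN ((Nat.prime_dvd_prime_iff_eq hl hN.out).mp h)
  by_cases h5 : 5 ≤ l
  · exact (eis_flat_J hl h5 hA hlN' _ _).2
  have h2 := hl.two_le
  have h4 : l ≠ 4 := by rintro rfl; exact absurd hl (by decide)
  obtain rfl | rfl : l = 2 ∨ l = 3 := by omega
  · haveI : Fact (Nat.Prime 3) := ⟨Nat.prime_three⟩
    haveI : NeZero (N * 3) := ⟨Nat.mul_ne_zero (NeZero.ne N) (by norm_num)⟩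
    obtain ⟨x', c', hx', hc', hvx, hvc, -⟩ := h23.two A hA
    refine (eis_flat_T3 (M := N * 3) hl hA ?_ (mul_comm N 3) (dvd_mul_left 3 N)
      (LG.F0_mono (dvd_mul_right N 3)) _ _ (a' := x'.res (inertia_le_dec A))
      (b' := c'.res (inertia_le_dec A)) hx' hc' hvx hvc).2
    intro h
    rcases (hl.dvd_mul).mp h with h' | h'
    · exact hlN' h'
    · exact absurd h' (by decide)
  · haveI : Fact (Nat.Prime 2) := ⟨Nat.prime_two⟩
    haveI : NeZero (N * 2) := ⟨Nat.mul_ne_zero (NeZero.ne N) (by norm_num)⟩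
    obtain ⟨x', c', hx', hc', hvx, hvc, -⟩ := h23.three A hA
    refine (eis_flat_T2 (M := N * 2) hl hA ?_ (mul_comm N 2) (dvd_mul_left 2 N)
      (LG.F0_mono (dvd_mul_right N 2)) _ _ (a' := x'.res (inertia_le_dec A))
      (b' := c'.res (inertia_le_dec A)) hx' hc' hvx hvc).2
    intro h
    rcases (hl.dvd_mul).mp h with h' | h'
    · exact hlN' h'
    · exact absurd h' (by decide)

/-- Canonical splittings at the primes two and three. -/
theorem hasSpl_23 (hN3 : 3 < N) {x c : FixPl N} (h23 : Near23 x c) {l : ℕ} (hl : l = 2 ∨ l = 3)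
    (hlq : l ≠ q) {A : ValuationSubring Qb} (hA : A.LiesOverPrime l) :
    HasSpl q x c (A.decompositionSubgroup ℚ) 1 := by
  have hq : q.Prime := Fact.out
  rcases hl with rfl | rfl
  · haveI : Fact (Nat.Prime 3) := ⟨Nat.prime_three⟩
    haveI : NeZero (N * 3) := ⟨Nat.mul_ne_zero (NeZero.ne N) (by norm_num)⟩
    have hlN' : ¬ 2 ∣ N := fun h => by
      have := (Nat.prime_dvd_prime_iff_eq Nat.prime_two hN.out).mp h
      omega
    obtain ⟨x', c', hx', hc', ⟨e, he⟩, ⟨e', he'⟩, hnear⟩ := h23.two A hA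
    refine hasSpl_of_can (LG.F0_mono (dvd_mul_right N 3)) x c x' c' hx' hc' fun k => ?_
    haveI : NeZero (q ^ k) := ⟨(pos_pow q k).ne'⟩
    refine can_T3 (dvd_mul_left 3 N) Nat.prime_two hA ?_ (not_dvd_pow Nat.prime_two hlq k) le_rfl
      x' c' he (ord_nonneg_of_sub he') hnear
    intro h
    rcases (Nat.prime_two.dvd_mul).mp h with h' | h'
    · exact hlN' h'
    · exact absurd h' (by decide)
  · haveI : Fact (Nat.Prime 2) := ⟨Nat.prime_two⟩
    haveI : NeZero (N * 2) := ⟨Nat.mul_ne_zero (NeZero.ne N) (by norm_num)⟩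
    have hlN' : ¬ 3 ∣ N := fun h => by
      have := (Nat.prime_dvd_prime_iff_eq Nat.prime_three hN.out).mp h
      omega
    obtain ⟨x', c', hx', hc', ⟨e, he⟩, ⟨e', he'⟩, hnear⟩ := h23.three A hA
    refine hasSpl_of_can (LG.F0_mono (dvd_mul_right N 2)) x c x' c' hx' hc' fun k => ?_
    haveI : NeZero (q ^ k) := ⟨(pos_pow q k).ne'⟩
    refine can_T2 (dvd_mul_left 2 N) Nat.prime_three hA ?_ (not_dvd_pow Nat.prime_three hlq k)
      le_rfl x' c' he (ord_nonneg_of_sub he') hnear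
    intro h
    rcases (Nat.prime_three.dvd_mul).mp h with h' | h'
    · exact hlN' h'
    · exact absurd h' (by decide)

theorem abv_refl {D : Subgroup GQ} (a : FixPl N) :
    Abv (incF (le_refl (F0 Qb N))) (a.toF D).pl a.pl := by
  refine ⟨1, le_rfl, fun f => ?_⟩
  have h1 : incF (le_refl (F0 Qb N)) f = f := Subtype.ext (coe_incF _ _)
  rw [h1, Nat.cast_one, one_mul]
  rfl

/-- Canonical splittings at the primes `≥ 5`. -/
theorem hasSpl_big {x c : FixPl N} {l : ℕ} (hl : l.Prime) (hl5 : 5 ≤ l) (hlN : l ≠ N)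
    (hlq : l ≠ q) {A : ValuationSubring Qb} (hA : A.LiesOverPrime l)
    (hvx : ∃ e : A, 0 < x.pl.ord ((jF Qb N)⁻¹ - algebraMap Qb (F0 Qb N) (e : Qb)))
    (hvc : 0 ≤ c.pl.ord (jF Qb N)⁻¹) (hnear : Near A N (jF Qb N)⁻¹ x.pl c.pl) :
    HasSpl q x c (A.decompositionSubgroup ℚ) 1 := by
  have hlN' : ¬ l ∣ N := fun h => hlN ((Nat.prime_dvd_prime_iff_eq hl hN.out).mp h)
  obtain ⟨e, he⟩ := hvx
  refine hasSpl_of_can le_rfl x c (x.toF _) (c.toF _) (abv_refl x) (abv_refl c) fun k => ?_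
  haveI : NeZero (q ^ k) := ⟨(pos_pow q k).ne'⟩
  exact can_J0 hl hl5 hA hlN' (not_dvd_pow hl hlq k) le_rfl (x.toF _) (c.toF _) he hvc hnear

/-- **The final form of Mazur's argument.** -/
theorem mazur_final (hN' : N ∉ ({2, 3, 5, 7, 13} : Finset ℕ)) (x c₁ c₂ : FixPl N)
    (hcc : (c₁ = cO ∧ c₂ = cI) ∨ (c₁ = cI ∧ c₂ = cO)) (h23 : Near23 x c₁)
    {ℓ : ℕ} (hℓ : ℓ.Prime) (hℓ5 : 5 ≤ ℓ) (hℓN : ℓ ≠ N) (hdvd : N ∣ ℓ ^ 2 - 1)
    {A : ValuationSubring Qb} (hA : A.LiesOverPrime ℓ)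
    (hvx : ∃ e : A, 0 < x.pl.ord ((jF Qb N)⁻¹ - algebraMap Qb (F0 Qb N) (e : Qb)))
    (hnear : Near A N (jF Qb N)⁻¹ x.pl c₂.pl) : False := by
  obtain ⟨q, K, hq, hK, h12⟩ := exists_prime_pow hN.out hN'
  haveI : Fact q.Prime := ⟨hq⟩
  haveI : NeZero q := ⟨hq.ne_zero⟩
  obtain ⟨hqN, hNq⟩ := ne_of_pow_dvd hN.out hK h12
  have hN2 : N ≠ 2 := by rintro rfl; exact hN' (by decide)
  have hN3' : N ≠ 3 := by rintro rfl; exact hN' (by decide)
  have hN3 : 3 < N := by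
    have := hN.out.two_le
    omega
  have hℓq := ne_of_dvd_sq_sub_one hN.out hN3 hq hqN hdvd
  have hvc : 0 ≤ c₂.pl.ord (jF Qb N)⁻¹ := by
    rw [c₂.pl.ord_inv]
    rcases hcc with ⟨-, rfl⟩ | ⟨-, rfl⟩
    · rw [cI_pl, WP.cInf_ord_jF]; norm_num
    · rw [cO_pl, WP.cZero_ord_jF]; simp
  have h₂ : HasSpl q x c₂ (A.decompositionSubgroup ℚ) 1 :=
    hasSpl_big hℓ hℓ5 hℓN hℓq hA hvx hvc hnear
  obtain ⟨ℓ₁, hℓ₁, hℓ₁q⟩ : ∃ l, (l = 2 ∨ l = 3) ∧ l ≠ q := by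
    by_cases h : q = 2
    · exact ⟨3, Or.inr rfl, by rw [h]; decide⟩
    · exact ⟨2, Or.inl rfl, Ne.symm h⟩
  have hℓ₁p : ℓ₁.Prime := by
    rcases hℓ₁ with rfl | rfl
    · exact Nat.prime_two
    · exact Nat.prime_three
  have hℓ₁N : ℓ₁ ≠ N := by
    rcases hℓ₁ with rfl | rfl
    · exact Ne.symm hN2
    · exact Ne.symm hN3'
  haveI : Fact ℓ₁.Prime := ⟨hℓ₁p⟩
  have hA₁ : (padicPlace ℓ₁).LiesOverPrime ℓ₁ :=
    Fermat.Agent.GCFT.nonunits_padicPlace ⟨ℓ₁, hℓ₁p⟩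
  refine mazur_core hK h12 hN2 x c₁ c₂ hcc (fun k => ?_) (fun k l hlq hlN σ hσ e => ?_)
    hℓ₁p hℓ₁q hℓ₁N hA₁ (hasSpl_23 hN3 h23 hℓ₁ hℓ₁q hA₁) hℓ hℓq hℓN hA h₂
  · exact flat_all hN3 h23 hq (Ne.symm hNq) (Fermat.Agent.GCFT.nonunits_padicPlace ⟨q, hq⟩) k
  · have hAl := Fermat.Agent.GCFT.nonunits_padicPlace l
    exact eis_unr l.2 hAl hlq _ _ (flat_all hN3 h23 l.2 hlN hAl k) σ hσ e

end Fermat.Agent.Mzr
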