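import Mathlib

/-!
Nilpotent parts of divisible groups.
-/

set_option autoImplicit false

noncomputable section

namespace Fermat.Agent.Mzr

open Module

/-- the operator `1 - ∏ (1 - tᵢ ^ m)` -/
def theta {ι M : Type*} [AddCommGroup M] (t : ι → Module.End ℤ M) (m : ℕ) (l : List ι) :
    Module.End ℤ M := 1 - (l.map fun i => 1 - t i ^ m).prod

theorem pow_intertwine {M M' : Type*} [AddCommGroup M] [AddCommGroup M'] {s : Module.End ℤ M}
    {t : Module.End ℤ M'} (φ : M →+ M') (h : ∀ m, φ (s m) = t (φ m)) (k : ℕ) (m : M) :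
    φ ((s ^ k) m) = (t ^ k) (φ m) := by
  induction k generalizing m with
  | zero => rfl
  | succ k ih => rw [pow_succ, pow_succ, Module.End.mul_apply, Module.End.mul_apply, ih, h]

theorem theta_intertwine {ι M M' : Type*} [AddCommGroup M] [AddCommGroup M']
    {t : ι → Module.End ℤ M} {t' : ι → Module.End ℤ M'} (φ : M →+ M')
    (h : ∀ i x, φ (t i x) = t' i (φ x)) (m : ℕ) (l : List ι) (x : M) :
    φ (theta t m l x) = theta t' m l (φ x) := by
  have h1 : ∀ x, φ ((l.map fun i => 1 - t i ^ m).prod x) =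
      (l.map fun i => 1 - t' i ^ m).prod (φ x) := by
    induction l with
    | nil => intro x; rfl
    | cons i l ih =>
      intro x
      rw [List.map_cons, List.prod_cons, List.map_cons, List.prod_cons, Module.End.mul_apply,
        Module.End.mul_apply, ← ih, LinearMap.sub_apply, LinearMap.sub_apply, map_sub,
        pow_intertwine φ (h i)]
      rfl
  rw [theta, theta, LinearMap.sub_apply, LinearMap.sub_apply, map_sub, h1]
  rfl

/-- `theta` kills the common kernel -/
theorem theta_apply_eq_zero {ι M : Type*} [AddCommGroup M] {t : ι → Module.End ℤ M} {m : ℕ}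
    (hm : 0 < m) {l : List ι} {x : M} (h : ∀ i ∈ l, t i x = 0) : theta t m l x = 0 := by
  have h1 : (l.map fun i => 1 - t i ^ m).prod x = x := by
    induction l with
    | nil => rfl
    | cons i l ih =>
      rw [List.map_cons, List.prod_cons, Module.End.mul_apply,
        ih fun j hj => h j (List.mem_cons_of_mem i hj), LinearMap.sub_apply]
      obtain ⟨k, rfl⟩ : ∃ k, m = k + 1 := ⟨m - 1, by omega⟩
      rw [pow_succ, Module.End.mul_apply, h i List.mem_cons_self, map_zero, sub_zero]
      rfl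
  rw [theta, LinearMap.sub_apply, h1]
  exact sub_self x

theorem theta_mem {ι M : Type*} [AddCommGroup M] {t : ι → Module.End ℤ M} {D : AddSubgroup M}
    (h : ∀ i, ∀ x ∈ D, t i x ∈ D) (m : ℕ) (l : List ι) {x : M} (hx : x ∈ D) :
    theta t m l x ∈ D := by
  have hp : ∀ i (k : ℕ), ∀ x ∈ D, (t i ^ k) x ∈ D := by
    intro i k
    induction k with
    | zero => intro x hx; exact hx
    | succ k ih => intro x hx; rw [pow_succ, Module.End.mul_apply]; exact ih _ (h i x hx)
  have h1 : ∀ x ∈ D, (l.map fun i => 1 - t i ^ m).prod x ∈ D := by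
    induction l with
    | nil => intro x hx; exact hx
    | cons i l ih =>
      intro x hx
      rw [List.map_cons, List.prod_cons, Module.End.mul_apply, LinearMap.sub_apply]
      exact D.sub_mem (ih x hx) (hp i m _ (ih x hx))
  exact D.sub_mem hx (h1 x hx)

theorem theta_commute {ι M : Type*} [AddCommGroup M] {t : ι → Module.End ℤ M}
    {s : Module.End ℤ M} (h : ∀ i, Commute (t i) s) (m : ℕ) (l : List ι) :
    Commute (theta t m l) s := by
  have h1 : Commute (l.map fun i => 1 - t i ^ m).prod s := by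
    induction l with
    | nil => exact Commute.one_left s
    | cons i l ih =>
      rw [List.map_cons, List.prod_cons]
      exact ((Commute.one_left s).sub_left ((h i).pow_left m)).mul_left ih
  exact (Commute.one_left s).sub_left h1

section Div

variable {X : Type*} [AddCommGroup X]

/-- elements killed by `n` in a subgroup -/
def tors (D : AddSubgroup X) (n : ℕ) : AddSubgroup X where
  carrier := {x | x ∈ D ∧ n • x = 0}
  zero_mem' := ⟨D.zero_mem, smul_zero n⟩
  add_mem' := by
    rintro a b ⟨h1, h2⟩ ⟨h3, h4⟩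
    exact ⟨D.add_mem h1 h3, by rw [smul_add, h2, h4, add_zero]⟩
  neg_mem' := by
    rintro a ⟨h1, h2⟩
    exact ⟨D.neg_mem h1, by rw [smul_neg, h2, neg_zero]⟩

theorem mem_tors {D : AddSubgroup X} {n : ℕ} {x : X} : x ∈ tors D n ↔ x ∈ D ∧ n • x = 0 := Iff.rfl

/-- elements killed by a power of an operator -/
def nilp (D : AddSubgroup X) (θ : Module.End ℤ X) : AddSubgroup X where
  carrier := {x | x ∈ D ∧ ∃ n : ℕ, (θ ^ n) x = 0}
  zero_mem' := ⟨D.zero_mem, 0, map_zero _⟩
  add_mem' := by
    rintro a b ⟨h1, n, h2⟩ ⟨h3, m, h4⟩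
    refine ⟨D.add_mem h1 h3, n + m, ?_⟩
    rw [map_add, pow_add, Module.End.mul_apply, Module.End.mul_apply, h4, map_zero, add_zero,
      ← Module.End.mul_apply, ← pow_add, add_comm, pow_add, Module.End.mul_apply, h2, map_zero]
  neg_mem' := by
    rintro a ⟨h1, n, h2⟩
    exact ⟨D.neg_mem h1, n, by rw [map_neg, h2, neg_zero]⟩

theorem mem_nilp {D : AddSubgroup X} {θ : Module.End ℤ X} {x : X} :
    x ∈ nilp D θ ↔ x ∈ D ∧ ∃ n : ℕ, (θ ^ n) x = 0 := Iff.rfl

theorem pow_mem_of {D : AddSubgroup X} {θ : Module.End ℤ X} (h : ∀ x ∈ D, θ x ∈ D) (n : ℕ) :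
    ∀ x ∈ D, (θ ^ n) x ∈ D := by
  induction n with
  | zero => intro x hx; exact hx
  | succ n ih => intro x hx; rw [pow_succ, Module.End.mul_apply]; exact ih _ (h x hx)

/-- a power of an endomorphism of a finite group is a projection -/
theorem exists_idem {T : AddSubgroup X} [Finite T] {θ : Module.End ℤ X}
    (h : ∀ x ∈ T, θ x ∈ T) : ∃ m : ℕ, 0 < m ∧ ∀ k : ℕ, 0 < k → ∀ x ∈ T,
      (θ ^ (m * k)) x = (θ ^ m) x := by
  have hpow := pow_mem_of h
  let f : ℕ → (T → T) := fun n x => ⟨(θ ^ n) x, hpow n x x.2⟩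
  obtain ⟨a, b, hab, e⟩ := Finite.exists_ne_map_eq_of_infinite f
  wlog hlt : a < b generalizing a b
  · exact this b a hab.symm e.symm (lt_of_le_of_ne (not_lt.mp hlt) hab.symm)
  have h1 : ∀ x ∈ T, (θ ^ a) x = (θ ^ b) x := fun x hx =>
    congrArg Subtype.val (congrFun e ⟨x, hx⟩)
  set p := b - a with hp
  have hp0 : 0 < p := by omega
  have h2 : ∀ n, a ≤ n → ∀ x ∈ T, (θ ^ (n + p)) x = (θ ^ n) x := by
    intro n hn x hx
    obtain ⟨c, rfl⟩ := Nat.exists_eq_add_of_le hn
    have e1 : a + c + p = c + b := by omega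
    rw [e1, add_comm a c, pow_add, pow_add, Module.End.mul_apply, Module.End.mul_apply, h1 x hx]
  have h3 : ∀ (j n : ℕ), a ≤ n → ∀ x ∈ T, (θ ^ (n + p * j)) x = (θ ^ n) x := by
    intro j
    induction j with
    | zero => intro n _ x _; rw [mul_zero, add_zero]
    | succ j ih =>
      intro n hn x hx
      rw [mul_add, mul_one, ← add_assoc, h2 _ (by omega) x hx, ih n hn x hx]
  refine ⟨p * (a + 1), Nat.mul_pos hp0 (Nat.succ_pos a), fun k hk x hx => ?_⟩
  obtain ⟨k, rfl⟩ : ∃ k', k = k' + 1 := ⟨k - 1, by omega⟩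
  have e1 : p * (a + 1) * (k + 1) = p * (a + 1) + p * ((a + 1) * k) := by ring
  rw [e1]
  refine h3 _ _ ?_ x hx
  nlinarith

variable {D : AddSubgroup X} {θ : Module.End ℤ X} {q : ℕ}

theorem tors_map (h : ∀ x ∈ D, θ x ∈ D) (n : ℕ) : ∀ x ∈ tors D n, θ x ∈ tors D n := by
  rintro x ⟨h1, h2⟩
  exact ⟨h x h1, by rw [← map_nsmul, h2, map_zero]⟩

/-- **The nilpotent part is divisible.** -/
theorem nilp_div (hθ : ∀ x ∈ D, θ x ∈ D) (hdiv : ∀ x ∈ D, ∃ y ∈ D, q • y = x)
    (hfin : ∀ k, Finite (tors D (q ^ k))) (htor : ∀ x ∈ D, ∃ k, q ^ k • x = 0) {x : X}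
    (hx : x ∈ nilp D θ) : ∃ y ∈ nilp D θ, q • y = x := by
  obtain ⟨y, hy, rfl⟩ := hdiv x hx.1
  obtain ⟨k, hk⟩ := htor y hy
  have := hfin k
  obtain ⟨m, hm, h1⟩ := exists_idem (tors_map hθ (q ^ k))
  obtain ⟨n, hn⟩ := hx.2
  have hxT : q • y ∈ tors D (q ^ k) := ⟨hx.1, by rw [smul_comm, hk, smul_zero]⟩
  have h2 : (θ ^ m) (q • y) = 0 := by
    rw [← h1 (n + 1) (Nat.succ_pos n) _ hxT]
    have e1 : m * (n + 1) = (m * (n + 1) - n) + n := by
      have : n ≤ m * (n + 1) := by nlinarith
      omega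
    rw [e1, pow_add, Module.End.mul_apply, hn, map_zero]
  have hyT : y ∈ tors D (q ^ k) := ⟨hy, hk⟩
  refine ⟨y - (θ ^ m) y, ⟨D.sub_mem hy (pow_mem_of hθ m y hy), m, ?_⟩, ?_⟩
  · rw [map_sub, ← Module.End.mul_apply, ← pow_add, ← two_mul, mul_comm, h1 2 two_pos y hyT,
      sub_self]
  · rw [smul_sub, ← map_nsmul, h2, sub_zero]

/-- the count for divisible groups -/
theorem card_tors {D : AddSubgroup X} (hdiv : ∀ x ∈ D, ∃ y ∈ D, q • y = x) (k : ℕ) :
    Nat.card (tors D (q ^ k)) = Nat.card (tors D q) ^ k := by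
  induction k with
  | zero =>
    rw [pow_zero, pow_zero]
    have : ∀ x : tors D 1, x = 0 := fun x => Subtype.ext (by
      have h := x.2.2
      rw [one_smul] at h
      exact h)
    have : Unique (tors D 1) := ⟨⟨0⟩, this⟩
    exact Nat.card_unique
  | succ k ih =>
    -- multiplication by `q`
    let f : tors D (q ^ (k + 1)) →+ tors D (q ^ k) :=
      { toFun := fun x => ⟨q • (x : X), D.nsmul_mem x.2.1 q, by
          rw [smul_smul, ← pow_succ]; exact x.2.2⟩
        map_zero' := Subtype.ext (smul_zero q)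
        map_add' := fun a b => Subtype.ext (smul_add q _ _) }
    have hf : Function.Surjective f := by
      rintro ⟨x, hx, hx'⟩
      obtain ⟨y, hy, hyx⟩ := hdiv x hx
      refine ⟨⟨y, hy, ?_⟩, Subtype.ext hyx⟩
      rw [pow_succ, mul_smul, hyx, hx']
    have h1 := AddSubgroup.card_eq_card_quotient_mul_card_addSubgroup f.ker
    have h2 : Nat.card (tors D (q ^ (k + 1)) ⧸ f.ker) = Nat.card (tors D (q ^ k)) :=
      Nat.card_congr (QuotientAddGroup.quotientKerEquivOfSurjective f hf).toEquiv
    have h3 : Nat.card f.ker = Nat.card (tors D q) := by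
      refine Nat.card_congr
        { toFun := fun x => ⟨(x : tors D (q ^ (k + 1))).1, x.1.2.1, congrArg Subtype.val x.2⟩
          invFun := fun x => ⟨⟨x.1, x.2.1, by rw [pow_succ, mul_smul, x.2.2, smul_zero]⟩,
            Subtype.ext x.2.2⟩
          left_inv := fun x => rfl
          right_inv := fun x => rfl }
    rw [h1, h2, h3, ih, pow_succ]

theorem nilp_map {s : Module.End ℤ X} (hs : ∀ x ∈ D, s x ∈ D) (h : Commute θ s) :
    ∀ x ∈ nilp D θ, s x ∈ nilp D θ := by
  rintro x ⟨h1, n, h2⟩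
  refine ⟨hs x h1, n, ?_⟩
  rw [← Module.End.mul_apply, (h.pow_left n).eq, Module.End.mul_apply, h2, map_zero]

/-- **Choice of the operator.** -/
theorem exists_theta {ι : Type*} {t : ι → Module.End ℤ X} (hcomm : ∀ i j, Commute (t i) (t j))
    (ht : ∀ i, ∀ x ∈ D, t i x ∈ D) [Finite (tors D q)] : ∃ (m : ℕ) (l : List ι), 0 < m ∧
    ∀ (i : ι) (k : ℕ), ∀ x ∈ nilp D (theta t m l), q ^ k • x = 0 → (t i ^ (m * k)) x = 0 := by
  classical
  set T := tors D q with hT
  have htT : ∀ i, ∀ x ∈ T, t i x ∈ T := fun i => tors_map (ht i) q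
  let f : ι → (T → T) := fun i x => ⟨t i x, htT i x x.2⟩
  -- representatives
  obtain ⟨l, hl⟩ : ∃ l : List ι, ∀ i, ∃ j ∈ l, ∀ x ∈ T, t i x = t j x := by
    have hfin : (Set.range f).Finite := Set.toFinite _
    choose g hg using fun y : Set.range f => y.2
    have := hfin.to_subtype
    have := Fintype.ofFinite (Set.range f)
    refine ⟨(Finset.univ.image g).toList, fun i => ⟨g ⟨f i, ⟨i, rfl⟩⟩, ?_, fun x hx => ?_⟩⟩
    · rw [Finset.mem_toList]
      exact Finset.mem_image_of_mem _ (Finset.mem_univ _)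
    · exact (congrArg Subtype.val (congrFun (hg ⟨f i, ⟨i, rfl⟩⟩) ⟨x, hx⟩)).symm
  -- a common exponent
  obtain ⟨m, hm, hid⟩ : ∃ m : ℕ, 0 < m ∧ ∀ j ∈ l, ∀ x ∈ T, (t j ^ (m * 2)) x = (t j ^ m) x := by
    clear hl
    induction l with
    | nil => exact ⟨1, one_pos, fun j hj => absurd hj (List.not_mem_nil)⟩
    | cons a l ih =>
      obtain ⟨m, hm, h1⟩ := ih
      obtain ⟨n, hn, h2⟩ := exists_idem (htT a)
      have hstep : ∀ j, (∀ x ∈ T, (t j ^ (m * 2)) x = (t j ^ m) x) → ∀ c : ℕ, 0 < c →
          ∀ x ∈ T, (t j ^ (m * c)) x = (t j ^ m) x := by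
        intro j hj c hc x hx
        obtain ⟨c, rfl⟩ : ∃ c', c = c' + 1 := ⟨c - 1, by omega⟩
        clear hc
        induction c with
        | zero => rw [zero_add, mul_one]
        | succ c ih =>
          have e1 : m * (c + 1 + 1) = m * c + m * 2 := by ring
          have e2 : m * (c + 1) = m * c + m := by ring
          rw [e1, pow_add, Module.End.mul_apply, hj x hx, ← Module.End.mul_apply, ← pow_add, ← e2,
            ih]
      refine ⟨m * n, Nat.mul_pos hm hn, fun j hj x hx => ?_⟩
      rcases List.mem_cons.mp hj with rfl | hj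
      · have e1 : m * n * 2 = n * (m * 2) := by ring
        rw [e1, h2 _ (by omega) x hx, mul_comm m n, h2 _ hm x hx]
      · rw [mul_assoc, hstep j (h1 j hj) _ (by omega) x hx, hstep j (h1 j hj) _ hn x hx]
  -- the complementary operator
  set u := (l.map fun i => 1 - t i ^ m).prod with hu
  have huc : ∀ i, Commute (t i) u := by
    intro i
    have h1 := (theta_commute (fun j => (hcomm j i)) m l)
    rw [theta, ← hu] at h1
    have h2 : Commute (1 - (1 - u)) (t i) := (Commute.one_left _).sub_left h1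
    rw [sub_sub_cancel] at h2
    exact h2.symm
  have hkill : ∀ j ∈ l, ∀ x ∈ T, (t j ^ m) (u x) = 0 := by
    rw [hu]
    clear hu huc hl
    clear u
    have hstab : ∀ (l' : List ι), ∀ x ∈ T, (l'.map fun i => 1 - t i ^ m).prod x ∈ T := by
      intro l'
      induction l' with
      | nil => intro x hx; exact hx
      | cons a l' ih =>
        intro x hx
        rw [List.map_cons, List.prod_cons, Module.End.mul_apply, LinearMap.sub_apply]
        exact T.sub_mem (ih x hx) (pow_mem_of (htT a) m _ (ih x hx))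
    induction l with
    | nil => intro j hj; exact absurd hj List.not_mem_nil
    | cons a l ih =>
      intro j hj x hx
      rw [List.map_cons, List.prod_cons, Module.End.mul_apply]
      rcases List.mem_cons.mp hj with rfl | hj'
      · rw [LinearMap.sub_apply, map_sub, ← Module.End.mul_apply (t j ^ m) (t j ^ m), ← pow_add,
          ← mul_two, hid j hj _ (hstab l x hx)]
        exact sub_self _
      · have h1 : Commute (t j ^ m) (1 - t a ^ m) :=
          (Commute.one_right _).sub_right ((hcomm j a).pow_pow m m)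
        rw [← Module.End.mul_apply, h1.eq, Module.End.mul_apply,
          ih (fun j hj => hid j (List.mem_cons_of_mem a hj)) j hj' x hx, map_zero]
  have hθ : theta t m l = 1 - u := rfl
  refine ⟨m, l, hm, fun i k => ?_⟩
  obtain ⟨j, hj, hij⟩ := hl i
  have hpowT : ∀ n, ∀ x ∈ T, (t i ^ n) x = (t j ^ n) x := by
    intro n
    induction n with
    | zero => intro x _; rfl
    | succ n ih =>
      intro x hx
      rw [pow_succ, pow_succ, Module.End.mul_apply, Module.End.mul_apply, hij x hx,
        ih _ (htT j x hx)]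
  have huD : ∀ x ∈ D, u x ∈ D := by
    intro x hx
    have h1 := theta_mem ht m l hx
    rw [hθ, LinearMap.sub_apply] at h1
    have h2 := D.sub_mem hx h1
    rw [Module.End.one_apply, sub_sub_cancel] at h2
    exact h2
  have hcθ : Commute (theta t m l) (t i) := theta_commute (fun a => hcomm a i) m l
  induction k with
  | zero =>
    intro x _ h0
    rw [pow_zero, one_smul] at h0
    rw [h0, map_zero]
  | succ k ih =>
    intro x hx h0
    have hxD : x ∈ D := hx.1
    have hxT : q ^ k • x ∈ T := ⟨D.nsmul_mem hxD _, by rw [smul_smul, ← pow_succ', h0]⟩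
    -- the intermediate element
    have huT : u (q ^ k • x) ∈ T := ⟨huD _ hxT.1, by rw [← map_nsmul, hxT.2, map_zero]⟩
    have h1 : q ^ k • ((t i ^ m) (u x)) = 0 := by
      rw [← map_nsmul, ← map_nsmul, hpowT m _ huT]
      exact hkill j hj _ hxT
    have hcu : Commute (theta t m l) u := by
      rw [hθ]
      exact (Commute.one_left u).sub_left (Commute.refl u)
    have h2 : (t i ^ m) (u x) ∈ nilp D (theta t m l) :=
      nilp_map (pow_mem_of (ht i) m) (hcθ.pow_right m) _ (nilp_map huD hcu x hx)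
    have h3 := ih _ h2 h1
    set z := (t i ^ (m * (k + 1))) x with hz
    have hzn : z ∈ nilp D (theta t m l) :=
      nilp_map (pow_mem_of (ht i) _) (hcθ.pow_right _) x hx
    have h4 : u z = 0 := by
      have h5 : Commute (t i ^ (m * k + m)) u := (huc i).pow_left _
      rw [← Module.End.mul_apply, ← pow_add, ← Module.End.mul_apply, h5.eq,
        Module.End.mul_apply] at h3
      rw [hz, mul_add, mul_one]
      exact h3
    obtain ⟨_, n, hn⟩ := hzn
    have h5 : theta t m l z = z := by
      rw [hθ, LinearMap.sub_apply, h4, sub_zero]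
      rfl
    have h6 : ∀ n : ℕ, (theta t m l ^ n) z = z := by
      intro n
      induction n with
      | zero => rfl
      | succ n ih => rw [pow_succ, Module.End.mul_apply, h5, ih]
    rw [h6] at hn
    exact hn

/-- the number of elements killed by `c` -/
theorem card_ker_le {S : Type*} [AddCommGroup S] [Finite S] {d k : ℕ} (hq : q.Prime)
    (hexp : ∀ x : S, q ^ k • x = 0)
    (hcard : ∀ v, v ≤ k → Nat.card {x : S // q ^ v • x = 0} = (q ^ v) ^ d) (c : ℕ) (hc : 0 < c) :
    Nat.card {x : S // c • x = 0} ≤ c ^ d := by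
  obtain ⟨v, hv, hgcd⟩ : ∃ v ≤ k, Nat.gcd c (q ^ k) = q ^ v :=
    (Nat.dvd_prime_pow hq).mp (Nat.gcd_dvd_right c (q ^ k))
  have h5 : ∀ x : S, c • x = 0 ↔ q ^ v • x = 0 := by
    intro x
    rw [← hgcd]
    constructor
    · intro h
      rw [← addOrderOf_dvd_iff_nsmul_eq_zero] at h ⊢
      exact Nat.dvd_gcd h (addOrderOf_dvd_iff_nsmul_eq_zero.mpr (hexp x))
    · intro h
      rw [← addOrderOf_dvd_iff_nsmul_eq_zero] at h ⊢
      exact h.trans (Nat.gcd_dvd_left c _)
  have h6 : Nat.card {x : S // c • x = 0} = (q ^ v) ^ d := by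
    rw [← hcard v hv]
    exact Nat.card_congr (Equiv.subtypeEquivRight h5)
  rw [h6]
  refine Nat.pow_le_pow_left ?_ d
  rw [← hgcd]
  exact Nat.gcd_le_left _ hc

/-- the number of multiples -/
theorem card_le_mul {S : Type*} [AddCommGroup S] [Finite S] (c : ℕ) :
    Nat.card S = Nat.card {x : S // c • x = 0} * Nat.card (Set.range fun x : S => c • x) := by
  let f : S →+ S := nsmulAddMonoidHom c
  have h2 := AddSubgroup.card_eq_card_quotient_mul_card_addSubgroup f.ker
  have h3 : Nat.card (S ⧸ f.ker) = Nat.card f.range :=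
    Nat.card_congr (QuotientAddGroup.quotientKerEquivRange f).toEquiv
  rw [h2, h3, mul_comm]
  rfl

theorem card_ker_congr {A B : Type*} [AddGroup A] [AddGroup B] (e : A ≃+ B) (c : ℕ) :
    Nat.card {x : A // c • x = 0} = Nat.card {x : B // c • x = 0} := by
  refine Nat.card_congr (e.toEquiv.subtypeEquiv fun x => ?_)
  have h1 : e.toEquiv x = e x := rfl
  rw [h1, ← map_nsmul]
  exact (e.map_eq_zero_iff (x := c • x)).symm

theorem card_range_congr {A B : Type*} [AddGroup A] [AddGroup B] (e : A ≃+ B) (c : ℕ) :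
    Nat.card (Set.range fun x : A => c • x) = Nat.card (Set.range fun x : B => c • x) := by
  refine Nat.card_congr (e.toEquiv.subtypeEquiv fun x => ?_)
  have h1 : e.toEquiv x = e x := rfl
  rw [h1]
  constructor
  · rintro ⟨y, rfl⟩
    exact ⟨e y, (map_nsmul e c y).symm⟩
  · rintro ⟨y, hy⟩
    refine ⟨e.symm y, e.injective ?_⟩
    have h4 : e (c • e.symm y) = c • y := by
      rw [map_nsmul, AddEquiv.apply_symm_apply]
    exact h4.trans hy

end Div

end Fermat.Agent.Mzr
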