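import Fermat.Agent.ESCore.GalGamma0
import Fermat.Agent.ESG.Pair

/-!
Complex conjugation on the characters of `Γ₀(N)`.
-/

set_option autoImplicit false
set_option linter.unusedSectionVars false

noncomputable section

namespace Fermat.Agent.Mzr

open UpperHalfPlane hiding I
open Filter Complex Matrix.SpecialLinearGroup CongruenceSubgroup ModularForm
open Fermat.Agent.ESCore Fermat.Agent.ESCore.Gal
open Fermat.Agent.ES (cj cj_mdiff J_smul_smul J_tendsto)
open Fermat.Agent.Eis16 (HasQ)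
open ModularCurve.Period
open scoped MatrixGroups Manifold ModularForm Topology ComplexConjugate

/-- The field of algebraic numbers. -/
local notation "Qb" => AlgebraicClosure ℚ
/-- The absolute Galois group. -/
local notation "GQ" => (AlgebraicClosure ℚ ≃ₐ[ℚ] AlgebraicClosure ℚ)

/-- complex conjugation as a ring automorphism -/
def ccE : ℂ ≃+* ℂ := Complex.conjAe.toRingEquiv

theorem ccE_apply (z : ℂ) : ccE z = conj z := rfl

/-- conjugation by `diag(1, -1)` on `Γ₀(N)` -/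
def jN (N : ℕ) : Gamma0 N →* Gamma0 N := ESG.jG (Gamma1_in_Gamma0 N) le_rfl

theorem coe_jN {N : ℕ} (g : Gamma0 N) : ((jN N g : Gamma0 N) : SL(2, ℤ)) = jConjSL g := rfl

theorem jN_jN {N : ℕ} (g : Gamma0 N) : jN N (jN N g) = g := ESG.jG_jG _ _ g

theorem conj_denom (A : SL(2, ℤ)) (z : ℍ) :
    conj (denom (jConjSL A : SL(2, ℤ)) ((J • z : ℍ) : ℂ)) = denom A z := by
  rw [ModularGroup.denom_apply, ModularGroup.denom_apply, coe_J_smul, map_add, map_mul]
  have e10 : ((jConjSL A : SL(2, ℤ)) 1 0) = - A 1 0 := by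
    change (jConjMat (A : Matrix (Fin 2) (Fin 2) ℤ)) 1 0 = _
    simp
  have e11 : ((jConjSL A : SL(2, ℤ)) 1 1) = A 1 1 := by
    change (jConjMat (A : Matrix (Fin 2) (Fin 2) ℤ)) 1 1 = _
    simp
  rw [e10, e11]
  simp

theorem cj_slash (F : ℍ → ℂ) (k : ℤ) (A : SL(2, ℤ)) :
    cj F ∣[k] A = cj (F ∣[k] (jConjSL A : SL(2, ℤ))) := by
  ext z
  rw [ModularForm.SL_slash_apply, cj, cj, ModularForm.SL_slash_apply, map_mul, J_smul_smul,
    map_zpow₀, conj_denom]

theorem cj_bdd {F : ℍ → ℂ} (h : IsBoundedAtImInfty F) : IsBoundedAtImInfty (cj F) := by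
  have h1 := (Asymptotics.IsBigO.comp_tendsto h J_tendsto)
  refine Asymptotics.IsBigO.trans ?_ h1
  refine Asymptotics.isBigO_of_le _ fun z => ?_
  simp [cj]

theorem cj_mem_mform {G : Subgroup SL(2, ℤ)} {χ χ' : G →* ℂˣ} {k : ℤ} {F : ℍ → ℂ}
    (hF : F ∈ mform χ k) (j : G → G) (hj : ∀ g : G, ((j g : G) : SL(2, ℤ)) = jConjSL g)
    (h : ∀ g, (χ' g : ℂ) = conj (χ (j g) : ℂ)) : cj F ∈ mform χ' k := by
  refine ⟨cj_mdiff hF.1, fun g => ?_, fun A => ?_⟩
  · rw [cj_slash, ← hj, hF.2.1]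
    ext z
    rw [Pi.smul_apply, cj, Pi.smul_apply, smul_eq_mul, smul_eq_mul, map_mul, h]
    rfl
  · rw [cj_slash]
    exact cj_bdd (hF.2.2 _)

theorem cj_hasQ {F : ℍ → ℂ} {P : PowerSeries ℂ} (h : HasQ 1 F P) :
    HasQ 1 (cj F) (P.map (ccE : ℂ →+* ℂ)) := by
  intro τ
  have h1 := (h (J • τ)).map (starRingEnd ℂ) Complex.continuous_conj
  have e : (fun n : ℕ => (P.map (ccE : ℂ →+* ℂ)).coeff n * Function.Periodic.qParam 1 τ ^ n) =
      (starRingEnd ℂ) ∘ fun n : ℕ => P.coeff n * Function.Periodic.qParam 1 ((J • τ : ℍ) : ℂ) ^ n := by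
    funext n
    rw [Function.comp_apply, map_mul, map_pow, PowerSeries.coeff_map]
    congr 2
    rw [Function.Periodic.qParam, Function.Periodic.qParam, ← Complex.exp_conj, coe_J_smul]
    congr 1
    simp only [map_div₀, map_mul, Complex.conj_I, Complex.conj_ofReal, map_neg, Complex.conj_conj,
      map_ofNat]
    ring
  rw [e]
  exact h1

theorem cj_ne_zero {F : ℍ → ℂ} (h : F ≠ 0) : cj F ≠ 0 := by
  intro h0
  apply h
  rw [← ES.cj_cj F, h0]
  funext z
  simp [cj]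

variable {N m : ℕ} [NeZero N]

/-- **Complex conjugation on the characters.** -/
theorem galX_conj {τ : GQ} (hτ : ∀ x : Qb, ιC (τ x) = conj (ιC x)) (hm : 0 < m) (χ : XG N m)
    (γ : Gamma0 N) : (galX N hm τ χ).1 γ = (χ.1 (jN N γ))⁻¹ := by
  let χ' : XGen (Gamma0 N) m := ⟨(χ.1.comp (jN N))⁻¹, by
    refine ⟨?_, fun g hg => ?_⟩
    · ext g
      have h1 := DFunLike.congr_fun χ.2.1 (jN N g)
      rw [MonoidHom.pow_apply] at h1
      rw [MonoidHom.pow_apply, MonoidHom.inv_apply, MonoidHom.comp_apply, inv_pow, h1]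
      simp
    · rw [MonoidHom.inv_apply, MonoidHom.comp_apply, χ.2.2 _ (by
        rw [coe_jN]
        change (jConjMat ((g : SL(2, ℤ)) : Matrix (Fin 2) (Fin 2) ℤ)) 1 0 = 0
        rw [jConjMat_apply_one_zero]
        exact neg_eq_zero.mpr hg), inv_one]⟩
  have key : autX (m := m) hm (conjStable_Gamma0 N) (T_mem_Gamma0 N) ccE χ = χ' := by
    obtain ⟨F, hF, hF0⟩ := exists_form_G hm χ.2
    have hF' : F ∈ mform χ.1 (12 * (1 : ℕ)) := mform_congr hF rfl (by norm_num)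
    have hQ := hasQ_mform_G (T_mem_Gamma0 N) χ.2.2 hF'
    refine autXf_eq hm (conjStable_Gamma0 N) (T_mem_Gamma0 N) ccE hF' hF0
      (cj_mem_mform hF' (jN N) (fun _ => rfl) fun g => ?_) ((cj_hasQ hQ).qExpansion_eq one_pos)
    have h1 := norm_char_eq_one hm χ.2 (jN N g)
    change (((χ.1 (jN N g))⁻¹ : ℂˣ) : ℂ) = _
    rw [Units.val_inv_eq_inv_val, Complex.inv_def, Complex.normSq_eq_norm_sq, h1]
    simp
  have h2 : galX N hm τ = autX (m := m) hm (conjStable_Gamma0 N) (T_mem_Gamma0 N) ccE :=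
    autX_congr hm (conjStable_Gamma0 N) (T_mem_Gamma0 N) fun x => by
      rw [ext_ιC, hτ]
      rfl
  rw [h2]
  exact DFunLike.congr_fun (congrArg Subtype.val key) γ

end Fermat.Agent.Mzr
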