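import Fermat.Agent.Mzr.DK3

/-!
The divisible group of characters killing a set.
-/

set_option autoImplicit false
set_option linter.unusedSectionVars false

noncomputable section

namespace Fermat.Agent.Mzr

open CongruenceSubgroup
open Fermat.Agent.ESCore Fermat.Agent.ESCore.ModP Fermat.Agent.ESCore.Univ
open scoped MatrixGroups

variable {N : ℕ}

/-- homomorphisms killing a set -/
def KX (X : Set (Gamma0 N)) {B : Type} [CommGroup B] (φ : Gamma0 N →* B) : Prop :=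
  ∀ x ∈ X, φ x = 1

section

variable {X : Set (Gamma0 N)} {B : Type} [CommGroup B]

theorem KX.comp {B' : Type} [CommGroup B'] {φ : Gamma0 N →* B} (h : KX X φ) (f : B →* B') :
    KX X (f.comp φ) := fun γ hγ => by rw [MonoidHom.comp_apply, h γ hγ, map_one]

theorem KX.mul {φ ψ : Gamma0 N →* B} (h : KX X φ) (h' : KX X ψ) : KX X (φ * ψ) :=
  fun γ hγ => by rw [MonoidHom.mul_apply, h γ hγ, h' γ hγ, one_mul]

theorem KX.inv {φ : Gamma0 N →* B} (h : KX X φ) : KX X φ⁻¹ :=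
  fun γ hγ => by rw [MonoidHom.inv_apply, h γ hγ, inv_one]

theorem KX.pow {φ : Gamma0 N →* B} (h : KX X φ) (n : ℕ) : KX X (φ ^ n) :=
  fun γ hγ => by rw [MonoidHom.pow_apply, h γ hγ, one_pow]

theorem KX.one : KX X (1 : Gamma0 N →* B) := fun _ _ => rfl

end

/-- the divisible group of characters of `q`-power order killing a set -/
def DX (X : Set (Gamma0 N)) (q : ℕ) [NeZero q] : AddSubgroup (XC N) where
  carrier := {x | ∃ (k : ℕ) (φ : Gamma0 N →* Multiplicative ℤ), KX X φ ∧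
    x.ch = (zH (q ^ k)).comp φ}
  zero_mem' := ⟨0, 1, KX.one, MonoidHom.ext fun γ => by
    rw [XC.ch_zero, MonoidHom.comp_apply, MonoidHom.one_apply, map_one]⟩
  add_mem' := by
    rintro x y ⟨k, φ, hφ, hx⟩ ⟨j, ψ, hψ, hy⟩
    have hq : q ≠ 0 := NeZero.ne q
    refine ⟨k + j, φ ^ (q ^ j) * ψ ^ (q ^ k), (hφ.pow _).mul (hψ.pow _), ?_⟩
    refine MonoidHom.ext fun γ => ?_
    rw [XC.ch_add, hx, hy]
    rw [MonoidHom.comp_apply, MonoidHom.comp_apply, MonoidHom.comp_apply,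
      MonoidHom.mul_apply, map_mul, MonoidHom.pow_apply, MonoidHom.pow_apply, map_pow, map_pow]
    have h1 : ∀ a, zH (q ^ (k + j)) a ^ q ^ j = zH (q ^ k) a := fun a => by
      rw [zH_apply, zH_apply, pow_add, ← zt_mul_pow (m := q ^ k) (n := q ^ j)
        (pow_ne_zero _ hq), ← zpow_natCast, ← zpow_natCast, ← zpow_mul, ← zpow_mul,
        mul_comm (Multiplicative.toAdd a)]
    have h2 : ∀ a, zH (q ^ (k + j)) a ^ q ^ k = zH (q ^ j) a := fun a => by
      rw [zH_apply, zH_apply, add_comm, pow_add, ← zt_mul_pow (m := q ^ j) (n := q ^ k)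
        (pow_ne_zero _ hq), ← zpow_natCast, ← zpow_natCast, ← zpow_mul, ← zpow_mul,
        mul_comm (Multiplicative.toAdd a)]
    rw [h1, h2]
  neg_mem' := by
    rintro x ⟨k, φ, hφ, hx⟩
    refine ⟨k, φ⁻¹, hφ.inv, ?_⟩
    refine MonoidHom.ext fun γ => ?_
    rw [XC.ch_neg, hx, MonoidHom.comp_apply, MonoidHom.comp_apply, MonoidHom.inv_apply, map_inv]

variable {q : ℕ} [NeZero q] {X : Set (Gamma0 N)}

theorem DX_div {x : XC N} (hx : x ∈ DX X q) : ∃ y ∈ DX X q, q • y = x := by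
  obtain ⟨k, φ, hφ, e⟩ := hx
  refine ⟨XC.of ((zH (q ^ (k + 1))).comp φ), ⟨k + 1, φ, hφ, rfl⟩, ?_⟩
  refine XC.ext fun γ => ?_
  rw [XC.ch_nsmul, XC.ch_of, e, MonoidHom.comp_apply, MonoidHom.comp_apply, pow_succ,
    zH_pow_of_mul (NeZero.ne q)]

theorem DX_tor {x : XC N} (hx : x ∈ DX X q) : ∃ k, q ^ k • x = 0 := by
  obtain ⟨k, φ, hφ, e⟩ := hx
  refine ⟨k, XC.ext fun γ => ?_⟩
  rw [XC.ch_nsmul, e, MonoidHom.comp_apply, zH_pow_self (pow_ne_zero _ (NeZero.ne q)), XC.ch_zero]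

/-- the elements of order dividing `q ^ k` -/
theorem DX_tors {x : XC N} (hx : x ∈ DX X q)
    {k : ℕ} (hk : q ^ k • x = 0) : ∃ φ : Gamma0 N →* Multiplicative ℤ, KX X φ ∧
      x.ch = (zH (q ^ k)).comp φ := by
  have hq : q ≠ 0 := NeZero.ne q
  obtain ⟨j, φ, hφ, e⟩ := hx
  have hk' : ∀ γ, (zH (q ^ j) (φ γ)) ^ (q ^ k) = 1 := by
    intro γ
    have h1 : (q ^ k • x).ch γ = 1 := by rw [hk]; rfl
    rwa [XC.ch_nsmul, e] at h1
  rcases le_total j k with hjk | hjk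
  · obtain ⟨i, rfl⟩ := Nat.exists_eq_add_of_le hjk
    refine ⟨φ ^ (q ^ i), hφ.pow _, ?_⟩
    rw [e]
    refine MonoidHom.ext fun γ => ?_
    rw [MonoidHom.comp_apply, MonoidHom.comp_apply, MonoidHom.pow_apply, map_pow, pow_add,
      zH_pow_of_mul (pow_ne_zero _ hq)]
  · obtain ⟨i, rfl⟩ := Nat.exists_eq_add_of_le hjk
    have h1 : ∀ γ, ((q ^ i : ℕ) : ℤ) ∣ Multiplicative.toAdd (φ γ) := by
      intro γ
      have h2 := hk' γ
      rw [← map_pow, zH_eq_one (pow_ne_zero _ hq), toAdd_pow, nsmul_eq_mul, pow_add] at h2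
      push_cast at h2 ⊢
      exact (mul_dvd_mul_iff_left (pow_ne_zero k (by exact_mod_cast hq : (q : ℤ) ≠ 0))).mp h2
    choose c hc using h1
    have hqi : ((q ^ i : ℕ) : ℤ) ≠ 0 := by exact_mod_cast pow_ne_zero _ hq
    let ψ : Gamma0 N →* Multiplicative ℤ := MonoidHom.mk' (fun γ => Multiplicative.ofAdd (c γ))
      (fun a b => by
        apply Multiplicative.toAdd.injective
        change c (a * b) = c a + c b
        apply mul_left_cancel₀ hqi
        rw [← hc, mul_add, ← hc, ← hc, map_mul]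
        rfl)
    refine ⟨ψ, fun γ hγ => ?_, ?_⟩
    · apply Multiplicative.toAdd.injective
      apply mul_left_cancel₀ hqi
      change _ * c γ = _ * 0
      rw [← hc, hφ γ hγ, mul_zero]
      rfl
    · rw [e]
      refine MonoidHom.ext fun γ => ?_
      rw [MonoidHom.comp_apply, MonoidHom.comp_apply, zH_apply, zH_apply]
      change zt (q ^ (k + i)) ^ (Multiplicative.toAdd (φ γ)) = zt (q ^ k) ^ c γ
      rw [hc γ, pow_add, ← zt_mul_pow (m := q ^ k) (n := q ^ i) (pow_ne_zero _ hq), ← zpow_natCast,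
        ← zpow_mul]

/-- the set of elements whose trace is `± 2` -/
def X2 (N : ℕ) : Set (Gamma0 N) := {γ | LG.trS (γ : SL(2, ℤ)) ^ 2 = 4}

theorem DX_le (h : X2 N ⊆ X) : DX X q ≤ Dinf N q := by
  rintro x ⟨k, φ, hφ, e⟩
  exact ⟨k, φ, fun γ hγ => hφ γ (h hγ), e⟩

theorem hkC_mem_DX {S : Finset ℕ} (i : Idx N S)
    (h : ∀ φ : Gamma0 N →* Multiplicative ℤ, KX X φ → KX X (heckeChar i.2.1 i.2.2.1 φ))
    {x : XC N} (hx : x ∈ DX X q) : hkC i x ∈ DX X q := by
  obtain ⟨k, φ, hφ, e⟩ := hx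
  refine ⟨k, heckeChar i.2.1 i.2.2.1 φ, h φ hφ, ?_⟩
  rw [hkC_apply, XC.ch_of, e, heckeChar_comp]

/-- stability under the Hecke operators -/
def HSt (X : Set (Gamma0 N)) (S : Finset ℕ) : Prop :=
  ∀ (i : Idx N S) (φ : Gamma0 N →* Multiplicative ℤ), KX X φ → KX X (heckeChar i.2.1 i.2.2.1 φ)

theorem tC_mem_DX {S : Finset ℕ} (h : HSt X S) (i : Idx N S)
    {x : XC N} (hx : x ∈ DX X q) : tC i x ∈ DX X q := by
  rw [tC_apply]
  exact (DX X q).sub_mem (hkC_mem_DX i (h i) hx) ((DX X q).nsmul_mem hx _)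

variable [NeZero N]

theorem thE_mem_DX (h : HSt X {q}) {x : XC N} (hx : x ∈ DX X q) : thE N q x ∈ DX X q :=
  theta_mem (fun i x hx => tC_mem_DX h i hx) _ _ hx

theorem finite_tors_DX (h : X2 N ⊆ X) {m : ℕ} (hm : m ≠ 0) : Finite (tors (DX X q) m) := by
  have := finite_tors_Dinf (N := N) (q := q) hm
  exact Finite.of_injective (AddSubgroup.inclusion (tors_le (DX_le h) m))
    (AddSubgroup.inclusion_injective _)

/-- the Eisenstein part -/
def EDX (X : Set (Gamma0 N)) (q : ℕ) [NeZero q] : AddSubgroup (XC N) := nilp (DX X q) (thE N q)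

theorem EDX_le (h : X2 N ⊆ X) : EDX X q ≤ eisD N q := fun _ hx => ⟨DX_le h hx.1, hx.2⟩

theorem EDX_div (h : HSt X {q}) (h2 : X2 N ⊆ X) {x : XC N} (hx : x ∈ EDX X q) :
    ∃ y ∈ EDX X q, q • y = x :=
  nilp_div (fun _ hx => thE_mem_DX h hx) (fun _ hx => DX_div hx)
    (fun k => finite_tors_DX h2 (pow_ne_zero k (NeZero.ne q))) (fun _ hx => DX_tor hx) hx

theorem card_tors_EDX (h : HSt X {q}) (h2 : X2 N ⊆ X) (k : ℕ) :
    Nat.card (tors (EDX X q) (q ^ k)) = Nat.card (tors (EDX X q) q) ^ k :=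
  card_tors (fun _ hx => EDX_div h h2 hx) k

end Fermat.Agent.Mzr
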