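import Fermat.Agent.Mzr.Cc2

/-!
The size of the nilpotent part of the characters of order `q` killing a set.
-/

set_option autoImplicit false
set_option linter.unusedSectionVars false

noncomputable section

namespace Fermat.Agent.Mzr

open CongruenceSubgroup Module
open Fermat.Agent.ESCore Fermat.Agent.ESCore.ModP Fermat.Agent.ESCore.Univ
open Multiplicative (toAdd ofAdd)
open scoped MatrixGroups

section ThR

variable {ι : Type*} {R R' M M' : Type*} [CommRing R] [CommRing R'] [AddCommGroup M]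
  [AddCommGroup M'] [Module R M] [Module R' M']

/-- the operator `1 - ∏ (1 - tᵢ ^ m)`, over a ring -/
def thR (t : ι → Module.End R M) (m : ℕ) (l : List ι) : Module.End R M :=
  1 - (l.map fun i => 1 - t i ^ m).prod

theorem pow_intertwine' {s : Module.End R M} {t : Module.End R' M'} (φ : M →+ M')
    (h : ∀ m, φ (s m) = t (φ m)) (k : ℕ) (m : M) : φ ((s ^ k) m) = (t ^ k) (φ m) := by
  induction k generalizing m with
  | zero => rfl
  | succ k ih => rw [pow_succ, pow_succ, Module.End.mul_apply, Module.End.mul_apply, ih, h]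

theorem thR_intertwine {t : ι → Module.End R M} {t' : ι → Module.End R' M'} (φ : M →+ M')
    (h : ∀ i x, φ (t i x) = t' i (φ x)) (m : ℕ) (l : List ι) (x : M) :
    φ (thR t m l x) = thR t' m l (φ x) := by
  have h1 : ∀ x, φ ((l.map fun i => 1 - t i ^ m).prod x) =
      (l.map fun i => 1 - t' i ^ m).prod (φ x) := by
    induction l with
    | nil => intro x; rfl
    | cons i l ih =>
      intro x
      rw [List.map_cons, List.prod_cons, List.map_cons, List.prod_cons, Module.End.mul_apply,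
        Module.End.mul_apply, ← ih, LinearMap.sub_apply, LinearMap.sub_apply, map_sub,
        pow_intertwine' φ (h i)]
      rfl
  rw [thR, thR, LinearMap.sub_apply, LinearMap.sub_apply, map_sub, h1]
  rfl

theorem thR_mem {t : ι → Module.End R M} {D : AddSubgroup M}
    (h : ∀ i, ∀ x ∈ D, t i x ∈ D) (m : ℕ) (l : List ι) {x : M} (hx : x ∈ D) :
    thR t m l x ∈ D := by
  have hp : ∀ i (k : ℕ), ∀ x ∈ D, (t i ^ k) x ∈ D := by
    intro i k
    induction k with
    | zero => intro x hx; exact hx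
    | succ k ih => intro x hx; rw [pow_succ, Module.End.mul_apply]; exact ih _ (h i x hx)
  have h1 : ∀ x ∈ D, (l.map fun i => 1 - t i ^ m).prod x ∈ D := by
    induction l with
    | nil => intro x hx; exact hx
    | cons i l ih =>
      intro x hx
      rw [List.map_cons, List.prod_cons, Module.End.mul_apply, LinearMap.sub_apply]
      exact D.sub_mem (ih x hx) (hp i m _ (ih x hx))
  exact D.sub_mem hx (h1 x hx)

end ThR

theorem natR_end_apply {R M : Type*} [CommRing R] [AddCommGroup M] [Module R M] (n : ℕ) (x : M) :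
    ((n : ℕ) : Module.End R M) x = n • x := Module.End.natCast_apply n x

variable {N : ℕ}

/-! ### Additive characters -/

section Add

variable {K K' : Type} [CommRing K] [CommRing K']

/-- from additive to multiplicative -/
def mC (c : Additive (Gamma0 N) →+ K) : Gamma0 N →* Multiplicative K :=
  MonoidHom.mk' (fun γ => ofAdd (c (Additive.ofMul γ))) fun a b => by
    rw [ofMul_mul, map_add, ofAdd_add]

/-- from multiplicative to additive -/
def aC (χ : Gamma0 N →* Multiplicative K) : Additive (Gamma0 N) →+ K :=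
  AddMonoidHom.mk' (fun γ => toAdd (χ γ.toMul)) fun a b => by
    rw [toMul_add, map_mul, toAdd_mul]

theorem aC_apply (χ : Gamma0 N →* Multiplicative K) (γ : Gamma0 N) :
    aC χ (Additive.ofMul γ) = toAdd (χ γ) := rfl

theorem mC_apply (c : Additive (Gamma0 N) →+ K) (γ : Gamma0 N) :
    mC c γ = ofAdd (c (Additive.ofMul γ)) := rfl

theorem mC_aC (χ : Gamma0 N →* Multiplicative K) : mC (aC χ) = χ := rfl

theorem aC_mC (c : Additive (Gamma0 N) →+ K) : aC (mC c) = c := rfl

theorem mC_add (c d : Additive (Gamma0 N) →+ K) : mC (c + d) = mC c * mC d := rfl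

theorem aC_mul (χ ψ : Gamma0 N →* Multiplicative K) : aC (χ * ψ) = aC χ + aC ψ := rfl

/-- the map on coefficients -/
def cV (f : K →+* K') : (Additive (Gamma0 N) →+ K) →+ (Additive (Gamma0 N) →+ K') where
  toFun c := (f : K →+ K').comp c
  map_zero' := AddMonoidHom.ext fun _ => map_zero f
  map_add' _ _ := AddMonoidHom.ext fun _ => map_add f _ _

theorem cV_apply (f : K →+* K') (c : Additive (Gamma0 N) →+ K) (γ : Additive (Gamma0 N)) :
    cV f c γ = f (c γ) := rfl

theorem mC_cV (f : K →+* K') (c : Additive (Gamma0 N) →+ K) :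
    mC (cV f c) = (AddMonoidHom.toMultiplicative (f : K →+ K')).comp (mC c) := rfl

variable (K) in
/-- the Hecke operators -/
def hV {S : Finset ℕ} (i : Idx N S) : Module.End K (Additive (Gamma0 N) →+ K) where
  toFun c := aC (heckeChar i.2.1 i.2.2.1 (mC c))
  map_add' c d := by rw [mC_add, heckeChar_mul, aC_mul]
  map_smul' a c := by
    have h1 : mC (a • c) = (AddMonoidHom.toMultiplicative (AddMonoidHom.mulLeft a)).comp (mC c) :=
      rfl
    rw [h1, heckeChar_comp]
    rfl

theorem hV_apply {S : Finset ℕ} (i : Idx N S) (c : Additive (Gamma0 N) →+ K) :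
    hV K i c = aC (heckeChar i.2.1 i.2.2.1 (mC c)) := rfl

variable (K) in
/-- `T_l - 1 - l` -/
def tV {S : Finset ℕ} (i : Idx N S) : Module.End K (Additive (Gamma0 N) →+ K) :=
  hV K i - ((1 + i.1 : ℕ) : Module.End K _)

theorem tV_apply {S : Finset ℕ} (i : Idx N S) (c : Additive (Gamma0 N) →+ K) :
    tV K i c = hV K i c - (1 + i.1) • c := by
  rw [tV, LinearMap.sub_apply, natR_end_apply]

theorem cV_tV (f : K →+* K') {S : Finset ℕ} (i : Idx N S) (c : Additive (Gamma0 N) →+ K) :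
    cV f (tV K i c) = tV K' i (cV f c) := by
  have h : cV f (hV K i c) = hV K' i (cV f c) := by
    rw [hV_apply, hV_apply, mC_cV, heckeChar_comp]
    rfl
  rw [tV_apply, tV_apply, map_sub, map_nsmul, h]

/-- the map to characters -/
def xV (m : ℕ) : (Additive (Gamma0 N) →+ ℤ) →+ XC N where
  toFun c := XC.of ((zH m).comp (mC c))
  map_zero' := XC.ext fun γ => map_one (zH m)
  map_add' c d := XC.ext fun γ => map_mul (zH m) _ _

theorem xV_ch (m : ℕ) (c : Additive (Gamma0 N) →+ ℤ) (γ : Gamma0 N) :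
    (xV m c).ch γ = zH m (mC c γ) := rfl

theorem xV_tV (m : ℕ) {S : Finset ℕ} (i : Idx N S) (c : Additive (Gamma0 N) →+ ℤ) :
    xV m (tV ℤ i c) = tC i (xV m c) := by
  have h : xV m (hV ℤ i c) = hkC i (xV m c) := by
    rw [hkC_apply]
    change XC.of ((zH m).comp (mC (hV ℤ i c))) = XC.of (heckeChar i.2.1 i.2.2.1 ((zH m).comp (mC c)))
    rw [heckeChar_comp]
    rfl
  rw [tV_apply, tC_apply, map_sub, map_nsmul, h]

end Add

/-! ### Coordinates -/

section Coord

variable {n : ℕ} (π : Gamma0 N →* Multiplicative (Fin n → ℤ)) {K K' : Type} [CommRing K]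
  [CommRing K']

variable (K) in
/-- the characters factoring through `π` -/
def eV : (Fin n → K) →ₗ[K] (Additive (Gamma0 N) →+ K) where
  toFun a := AddMonoidHom.mk' (fun γ => ∑ i, (toAdd (π γ.toMul) i : K) * a i) fun b c => by
    rw [← Finset.sum_add_distrib]
    refine Finset.sum_congr rfl fun i _ => ?_
    rw [toMul_add, map_mul, toAdd_mul, Pi.add_apply, Int.cast_add, add_mul]
  map_add' a b := AddMonoidHom.ext fun γ => by
    change ∑ i, (toAdd (π γ.toMul) i : K) * (a i + b i) =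
      (∑ i, (toAdd (π γ.toMul) i : K) * a i) + ∑ i, (toAdd (π γ.toMul) i : K) * b i
    rw [← Finset.sum_add_distrib]
    exact Finset.sum_congr rfl fun i _ => mul_add _ _ _
  map_smul' r a := AddMonoidHom.ext fun γ => by
    change ∑ i, (toAdd (π γ.toMul) i : K) * (r * a i) = r * ∑ i, (toAdd (π γ.toMul) i : K) * a i
    rw [Finset.mul_sum]
    exact Finset.sum_congr rfl fun i _ => by ring

theorem eV_apply (a : Fin n → K) (γ : Gamma0 N) :
    eV π K a (Additive.ofMul γ) = ∑ i, (toAdd (π γ) i : K) * a i := rfl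

theorem eV_cV (f : K →+* K') (a : Fin n → K) : cV f (eV π K a) = eV π K' (fun i => f (a i)) := by
  refine AddMonoidHom.ext fun γ => ?_
  change f (∑ i, (toAdd (π γ.toMul) i : K) * a i) = ∑ i, (toAdd (π γ.toMul) i : K') * f (a i)
  rw [map_sum]
  exact Finset.sum_congr rfl fun i _ => by rw [map_mul, map_intCast]

variable {π} (hπ : Function.Surjective π)

include hπ in
theorem exists_coord (i : Fin n) : ∃ γ, ∀ a : Fin n → K, eV π K a (Additive.ofMul γ) = a i := by
  obtain ⟨γ, hγ⟩ := hπ (ofAdd (Pi.single i 1))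
  refine ⟨γ, fun a => ?_⟩
  rw [eV_apply, hγ, toAdd_ofAdd, Finset.sum_eq_single i]
  · rw [Pi.single_eq_same, Int.cast_one, one_mul]
  · intro j _ hj
    rw [Pi.single_eq_of_ne hj, Int.cast_zero, zero_mul]
  · intro h
    exact absurd (Finset.mem_univ i) h

include hπ in
theorem eV_injective : Function.Injective (eV π K) := by
  intro a b h
  funext i
  obtain ⟨γ, hγ⟩ := exists_coord (K := K) hπ i
  rw [← hγ a, h, hγ]

include hπ in
theorem exists_eV [CharZero K] [NoZeroDivisors K] {e : ℕ} (he : 0 < e)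
    {c : Additive (Gamma0 N) →+ K} (hc : ∀ γ, π γ = 1 → mC c γ ^ e = 1) : ∃ a, eV π K a = c := by
  have h1 : π.ker ≤ (mC c).ker := by
    intro γ hγ
    have h2 := hc γ hγ
    have h3 : e • c (Additive.ofMul γ) = 0 := congrArg toAdd h2
    rw [nsmul_eq_mul] at h3
    have h4 : c (Additive.ofMul γ) = 0 :=
      (mul_eq_zero.mp h3).resolve_left (Nat.cast_ne_zero.mpr he.ne')
    rw [MonoidHom.mem_ker, mC_apply, h4, ofAdd_zero]
  let g := MonoidHom.liftOfSurjective π hπ ⟨mC c, h1⟩
  have hg : ∀ γ, g (π γ) = mC c γ := fun γ =>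
    MonoidHom.liftOfRightInverse_comp_apply π _ _ ⟨mC c, h1⟩ γ
  let F : (Fin n → ℤ) →+ K := AddMonoidHom.mk' (fun v => toAdd (g (ofAdd v))) fun a b => by
    rw [ofAdd_add, map_mul, toAdd_mul]
  refine ⟨fun i => F (fun j => if i = j then 1 else 0), AddMonoidHom.ext fun γ => ?_⟩
  have h2 := LinearMap.pi_apply_eq_sum_univ F.toIntLinearMap (toAdd (π γ.toMul))
  have h3 : F.toIntLinearMap (toAdd (π γ.toMul)) = c γ := congrArg toAdd (hg γ.toMul)
  rw [← h3, h2]
  change ∑ i, ((toAdd (π γ.toMul) i : ℤ) : K) * F (fun j => if i = j then 1 else 0) =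
    ∑ i, toAdd (π γ.toMul) i • F (fun j => if i = j then 1 else 0)
  exact Finset.sum_congr rfl fun i _ => (zsmul_eq_mul _ _).symm

end Coord

/-! ### The matrix -/

section Mat

variable {n : ℕ} {π : Gamma0 N →* Multiplicative (Fin n → ℤ)} (hπ : Function.Surjective π)
  {X : Set (Gamma0 N)} (hX : ∀ x ∈ X, π x = 1) {e : ℕ} (he : 0 < e)
  (h : ∀ {B : Type} [CommGroup B] (χ : Gamma0 N →* B), (∀ x ∈ X, χ x = 1) →
    ∀ γ, π γ = 1 → χ γ ^ e = 1)

include hX in
theorem eV_KX {K : Type} [CommRing K] (a : Fin n → K) : KX X (mC (eV π K a)) := by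
  intro x hx
  rw [mC_apply, eV_apply, hX x hx, ← ofAdd_zero]
  congr 1
  exact Finset.sum_eq_zero fun i _ => by
    rw [toAdd_ofAdd, Pi.zero_apply, Int.cast_zero, zero_mul]

include hπ he h in
theorem exists_eV_KX {K : Type} [CommRing K] [CharZero K] [NoZeroDivisors K]
    {c : Additive (Gamma0 N) →+ K} (hc : KX X (mC c)) : ∃ a, eV π K a = c :=
  exists_eV hπ he fun γ hγ => h (mC c) hc γ hγ

variable {S : Finset ℕ} (hS : HSt X S) (m : ℕ) (l : List (Idx N S))

/-- additive characters killing a set -/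
def KA (X : Set (Gamma0 N)) (K : Type) [CommRing K] : AddSubgroup (Additive (Gamma0 N) →+ K) where
  carrier := {c | KX X (mC c)}
  zero_mem' := fun _ _ => rfl
  add_mem' := fun {a b} ha hb => by
    change KX X (mC (a + b))
    rw [mC_add]
    exact ha.mul hb
  neg_mem' := fun {a} ha => ha.inv

include hS in
theorem hV_mem {i : Idx N S} {c : Additive (Gamma0 N) →+ ℤ} (hc : c ∈ KA X ℤ) :
    hV ℤ i c ∈ KA X ℤ := hS i (mC c) hc

include hS in
theorem thV_mem {c : Additive (Gamma0 N) →+ ℤ} (hc : c ∈ KA X ℤ) :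
    thR (tV ℤ) m l c ∈ KA X ℤ := by
  refine thR_mem (fun i x hx => ?_) m l hc
  rw [tV_apply]
  exact (KA X ℤ).sub_mem (hV_mem hS hx) ((KA X ℤ).nsmul_mem hx _)

include hπ hX he h hS in
/-- **The matrix of the operator.** -/
theorem exists_mat : ∃ A : Matrix (Fin n) (Fin n) ℤ, ∀ (K : Type) [CommRing K] (a : Fin n → K),
    eV π K ((A.map (Int.castRingHom K)).mulVec a) = thR (tV K) m l (eV π K a) := by
  have h1 : ∀ j : Fin n, ∃ b : Fin n → ℤ,
      eV π ℤ b = thR (tV ℤ) m l (eV π ℤ (Pi.single j 1)) := fun j =>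
    exists_eV_KX hπ he h (thV_mem hS m l (eV_KX hX _))
  choose b hb using h1
  let A : Matrix (Fin n) (Fin n) ℤ := Matrix.of fun i j => b j i
  refine ⟨A, fun K _ a => ?_⟩
  have h2 : (eV π K).comp (Matrix.mulVecLin (A.map (Int.castRingHom K))) =
      (thR (tV (N := N) K) m l).comp (eV π K) := by
    refine LinearMap.pi_ext' fun j => LinearMap.ext_ring ?_
    rw [LinearMap.comp_apply, LinearMap.comp_apply, LinearMap.comp_apply, LinearMap.comp_apply,
      LinearMap.single_apply, Matrix.mulVecLin_apply, Matrix.mulVec_single_one]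
    have e1 : eV π K (Pi.single j 1) = cV (Int.castRingHom K) (eV π ℤ (Pi.single j 1)) := by
      rw [eV_cV]
      congr 1
      funext i
      by_cases hij : i = j
      · subst hij
        rw [Pi.single_eq_same, Pi.single_eq_same, map_one]
      · rw [Pi.single_eq_of_ne hij, Pi.single_eq_of_ne hij, map_zero]
    have e2 := thR_intertwine (cV (N := N) (Int.castRingHom K)) (t := tV ℤ) (t' := tV K)
      (fun i c => cV_tV (Int.castRingHom K) i c) m l (eV π ℤ (Pi.single j 1))
    rw [e1, ← e2, ← hb, eV_cV]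
    rfl
  exact LinearMap.congr_fun h2 a

end Mat

/-! ### The count -/

section Count

variable {n : ℕ} {π : Gamma0 N →* Multiplicative (Fin n → ℤ)} (hπ : Function.Surjective π)
  {X : Set (Gamma0 N)} (hX : ∀ x ∈ X, π x = 1) {e : ℕ} (he : 0 < e)
  (h : ∀ {B : Type} [CommGroup B] (χ : Gamma0 N →* B), (∀ x ∈ X, χ x = 1) →
    ∀ γ, π γ = 1 → χ γ ^ e = 1) {q : ℕ} [NeZero q]

/-- reduction -/
def rdV (n q : ℕ) : (Fin n → ℤ) →+ (Fin n → ZMod q) where
  toFun a i := (a i : ZMod q)
  map_zero' := funext fun _ => Int.cast_zero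
  map_add' _ _ := funext fun _ => Int.cast_add _ _

theorem rdV_surjective (n q : ℕ) : Function.Surjective (rdV n q) := by
  intro v
  choose a ha using fun i => ZMod.intCast_surjective (v i)
  exact ⟨a, funext ha⟩

theorem rdV_mulVec {n : ℕ} (q : ℕ) (A : Matrix (Fin n) (Fin n) ℤ) (a : Fin n → ℤ) :
    rdV n q (A.mulVec a) = (A.map (Int.castRingHom (ZMod q))).mulVec (rdV n q a) := by
  funext i
  change ((A.mulVec a i : ℤ) : ZMod q) = _
  rw [Matrix.mulVec, Matrix.mulVec, dotProduct, dotProduct, Int.cast_sum]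
  exact Finset.sum_congr rfl fun j _ => Int.cast_mul _ _

/-- the characters of order `q` -/
def fV (π : Gamma0 N →* Multiplicative (Fin n → ℤ)) (q : ℕ) : (Fin n → ℤ) →+ XC N :=
  (xV (q ^ 1)).comp (eV π ℤ : (Fin n → ℤ) →+ (Additive (Gamma0 N) →+ ℤ))

theorem fV_eq (a : Fin n → ℤ) : fV π q a = xV (q ^ 1) (eV π ℤ a) := rfl

include hπ in
theorem fV_eq_zero (a : Fin n → ℤ) : fV π q a = 0 ↔ rdV n q a = 0 := by
  have hq : q ^ 1 ≠ 0 := pow_ne_zero _ (NeZero.ne q)
  constructor
  · intro h0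
    funext i
    obtain ⟨γ, hγ⟩ := exists_coord (K := ℤ) hπ i
    have h1 : (fV π q a).ch γ = 1 := by rw [h0, XC.ch_zero]
    rw [fV_eq, xV_ch, zH_eq_one hq, mC_apply, toAdd_ofAdd, hγ, pow_one] at h1
    exact (ZMod.intCast_zmod_eq_zero_iff_dvd _ _).mpr h1
  · intro h0
    refine XC.ext fun γ => ?_
    rw [fV_eq, xV_ch, XC.ch_zero, zH_eq_one hq, mC_apply, toAdd_ofAdd, eV_apply, pow_one]
    refine Finset.dvd_sum fun i _ => Dvd.dvd.mul_left ?_ _
    exact (ZMod.intCast_zmod_eq_zero_iff_dvd _ _).mp (congrFun h0 i)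

/-- the characters of order `q`, in terms of vectors over `ZMod q` -/
theorem exists_gV (hπ : Function.Surjective π) : ∃ g : (Fin n → ZMod q) →+ XC N,
    (∀ a, g (rdV n q a) = fV π q a) ∧ Function.Injective g := by
  have h1 : (rdV n q).ker ≤ (fV π q).ker := fun a ha => (fV_eq_zero hπ a).mpr ha
  let g := AddMonoidHom.liftOfSurjective (rdV n q) (rdV_surjective n q) ⟨fV π q, h1⟩
  have hg : ∀ a, g (rdV n q a) = fV π q a := fun a =>
    AddMonoidHom.liftOfRightInverse_comp_apply (rdV n q) _ _ ⟨fV π q, h1⟩ a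
  refine ⟨g, hg, (injective_iff_map_eq_zero g).mpr fun v hv => ?_⟩
  obtain ⟨a, rfl⟩ := rdV_surjective n q v
  rw [hg] at hv
  exact (fV_eq_zero hπ a).mp hv

include hπ hX he h in
theorem card_nilp [NeZero N] [hq : Fact q.Prime] {m : ℕ} {l : List (Idx N {q})}
    (hth : thE N q = theta tC m l) {A : Matrix (Fin n) (Fin n) ℤ}
    (hA : ∀ a : Fin n → ℤ, eV π ℤ (A.mulVec a) = thR (tV ℤ) m l (eV π ℤ a)) :
    Nat.card (tors (EDX X q) q) =
      q ^ (A.charpoly.map (Int.castRingHom (ZMod q))).natTrailingDegree := by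
  obtain ⟨g, hg, hinj⟩ := exists_gV (q := q) hπ
  set Aq := A.map (Int.castRingHom (ZMod q)) with hAq
  -- the image
  have hmem : ∀ v, g v ∈ tors (DX X q) q := by
    intro v
    obtain ⟨a, rfl⟩ := rdV_surjective n q v
    rw [hg]
    refine ⟨⟨1, mC (eV π ℤ a), eV_KX hX a, rfl⟩, ?_⟩
    rw [← map_nsmul, fV_eq_zero hπ]
    funext i
    change (((q • a) i : ℤ) : ZMod q) = 0
    rw [Pi.smul_apply, nsmul_eq_mul, Int.cast_mul, Int.cast_natCast, ZMod.natCast_self, zero_mul]
  have hsurj : ∀ x ∈ tors (DX X q) q, ∃ v, g v = x := by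
    rintro x ⟨hx, hx0⟩
    obtain ⟨φ, hφ, hxφ⟩ := DX_tors hx (k := 1) (by rw [pow_one]; exact hx0)
    obtain ⟨a, ha⟩ := exists_eV_KX (K := ℤ) (c := aC φ) hπ he h hφ
    refine ⟨rdV n q a, ?_⟩
    rw [hg, fV_eq, ha]
    exact XC.ext fun γ => (DFunLike.congr_fun hxφ γ).symm
  -- the operator
  have hθ : ∀ v, g (Matrix.toLin' Aq v) = thE N q (g v) := by
    intro v
    obtain ⟨a, rfl⟩ := rdV_surjective n q v
    rw [Matrix.toLin'_apply, hAq, ← rdV_mulVec, hg, hg, fV_eq, hA, hth, fV_eq]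
    exact thR_intertwine (xV (q ^ 1)) (fun i c => xV_tV _ i c) m l _
  have hpow : ∀ (k : ℕ) v, g ((Matrix.toLin' Aq ^ k) v) = (thE N q ^ k) (g v) := fun k v =>
    pow_intertwine' (g : (Fin n → ZMod q) →+ XC N) hθ k v
  have hfd : FiniteDimensional (ZMod q) (Fin n → ZMod q) := inferInstance
  have e1 : Nat.card (tors (EDX X q) q) =
      Nat.card (Module.End.maxGenEigenspace (Matrix.toLin' Aq) (0 : ZMod q)) := by
    symm
    refine Nat.card_congr (Equiv.ofBijective (fun v => ⟨g v.1, ⟨(hmem v.1).1, ?_⟩, (hmem v.1).2⟩)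
      ⟨?_, ?_⟩)
    · obtain ⟨k, hk⟩ := (Module.End.mem_maxGenEigenspace _ _ _).mp v.2
      rw [zero_smul, sub_zero] at hk
      exact ⟨k, by rw [← hpow, hk, map_zero]⟩
    · intro v w hvw
      exact Subtype.ext (hinj (congrArg Subtype.val hvw))
    · rintro ⟨x, ⟨hx1, k, hk⟩, hx2⟩
      obtain ⟨v, rfl⟩ := hsurj x ⟨hx1, hx2⟩
      refine ⟨⟨v, (Module.End.mem_maxGenEigenspace _ _ _).mpr ⟨k, ?_⟩⟩, rfl⟩
      rw [zero_smul, sub_zero]
      apply hinj
      rw [hpow, hk, map_zero]
  rw [e1, Module.natCard_eq_pow_finrank (K := ZMod q), Nat.card_zmod,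
    LinearMap.finrank_maxGenEigenspace_zero_eq, Matrix.charpoly_toLin', hAq, Matrix.charpoly_map]

end Count

/-- two injective maps with the same range -/
theorem exists_equiv_of_range {K V W E : Type*} [Field K] [AddCommGroup V] [Module K V]
    [AddCommGroup W] [Module K W] [AddCommGroup E] [Module K E] {f : V →ₗ[K] E} {g : W →ₗ[K] E}
    (hf : Function.Injective f) (hg : Function.Injective g)
    (h : LinearMap.range f = LinearMap.range g) : ∃ e : V ≃ₗ[K] W, ∀ v, g (e v) = f v := by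
  refine ⟨(LinearEquiv.ofInjective f hf).trans ((LinearEquiv.ofEq _ _ h).trans
    (LinearEquiv.ofInjective g hg).symm), fun v => ?_⟩
  have h1 := LinearEquiv.apply_symm_apply (LinearEquiv.ofInjective g hg)
    (LinearEquiv.ofEq _ _ h (LinearEquiv.ofInjective f hf v))
  exact congrArg Subtype.val h1

/-- the characteristic polynomial of the matrix -/
theorem charpoly_mat {n : ℕ} {π : Gamma0 N →* Multiplicative (Fin n → ℤ)}
    (hπ : Function.Surjective π) {X : Set (Gamma0 N)} (hX : ∀ x ∈ X, π x = 1) {e : ℕ} (he : 0 < e)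
    (h : ∀ {B : Type} [CommGroup B] (χ : Gamma0 N →* B), (∀ x ∈ X, χ x = 1) →
      ∀ γ, π γ = 1 → χ γ ^ e = 1) {S : Finset ℕ} {m : ℕ} {l : List (Idx N S)}
    {A : Matrix (Fin n) (Fin n) ℤ}
    (hA : ∀ a : Fin n → ℂ, eV π ℂ ((A.map (Int.castRingHom ℂ)).mulVec a) =
      thR (tV ℂ) m l (eV π ℂ a))
    {W : Type*} [AddCommGroup W] [Module ℂ W] [FiniteDimensional ℂ W] (θ : Module.End ℂ W)
    (Ψ : W →ₗ[ℂ] (Additive (Gamma0 N) →+ ℂ)) (hΨ : Function.Injective Ψ)
    (hr : ∀ c, (∃ w, Ψ w = c) ↔ KX X (mC c))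
    (hθ : ∀ w, Ψ (θ w) = thR (tV ℂ) m l (Ψ w)) :
    A.charpoly.map (Int.castRingHom ℂ) = θ.charpoly := by
  have hrange : LinearMap.range Ψ = LinearMap.range (eV π ℂ) := by
    ext c
    rw [LinearMap.mem_range, LinearMap.mem_range, hr]
    constructor
    · exact fun hc => exists_eV_KX hπ he h hc
    · rintro ⟨a, rfl⟩
      exact eV_KX hX a
  obtain ⟨f, hf⟩ := exists_equiv_of_range hΨ (eV_injective hπ) hrange
  rw [← Matrix.charpoly_map, ← Matrix.charpoly_toLin', ← LinearEquiv.charpoly_conj f θ]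
  congr 1
  refine LinearMap.ext fun a => ?_
  apply eV_injective (K := ℂ) hπ
  rw [LinearEquiv.conj_apply_apply, Matrix.toLin'_apply, hA, hf, hθ, ← hf,
    LinearEquiv.apply_symm_apply]

end Fermat.Agent.Mzr
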