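import Fermat.Agent.Mzr.Cc1
import Fermat.Agent.Mzr.Cc3
import Fermat.Agent.Mzr.Nil
import Fermat.Agent.ESG.Eig
import Fermat.Agent.ESCore.PointNew

/-!
The action of complex conjugation on the Eisenstein part.
-/

set_option autoImplicit false
set_option linter.unusedSectionVars false

noncomputable section

namespace Fermat.Agent.Mzr

open CongruenceSubgroup Module
open Fermat.Agent.ESCore Fermat.Agent.ESCore.ModP Fermat.Agent.ESCore.Univ
open Fermat.Agent.ESCore.UnivG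
open Fermat.Agent.ESG (perA jA pairA pairA_injective pairA_apply exists_pair perA_mem jA_mem)
open ModularCurve.Period
open Multiplicative (toAdd ofAdd)
open scoped MatrixGroups ComplexConjugate

/-- The field of algebraic numbers. -/
local notation "Qb" => AlgebraicClosure ℚ
/-- The absolute Galois group. -/
local notation "GQ" => (AlgebraicClosure ℚ ≃ₐ[ℚ] AlgebraicClosure ℚ)

/-- the set defining the eigenspaces of the conjugation -/
def Xe (N : ℕ) (ε : ℤ) : Set (Gamma0 N) := X2 N ∪ {x | ∃ γ, x = jN N γ * (γ ^ ε)⁻¹}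

variable {N : ℕ} {ε : ℤ}

theorem X2_sub : X2 N ⊆ Xe N ε := Set.subset_union_left

theorem KX_Xe {B : Type} [CommGroup B] {φ : Gamma0 N →* B} :
    KX (Xe N ε) φ ↔ ParB φ ∧ ∀ γ, φ (jN N γ) = φ γ ^ ε := by
  constructor
  · intro h
    refine ⟨fun γ hγ => h γ (Or.inl hγ), fun γ => ?_⟩
    have h1 := h _ (Or.inr ⟨γ, rfl⟩)
    rw [map_mul, map_inv, map_zpow] at h1
    exact mul_inv_eq_one.mp h1
  · rintro ⟨h1, h2⟩ x (hx | ⟨γ, rfl⟩)
    · exact h1 x hx
    · rw [map_mul, map_inv, map_zpow, h2, mul_inv_cancel]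

theorem trS_jN (γ : Gamma0 N) : LG.trS ((jN N γ : Gamma0 N) : SL(2, ℤ)) =
    LG.trS (γ : SL(2, ℤ)) := by
  rw [LG.trS, LG.trS, coe_jN]
  change (jConjMat ((γ : SL(2, ℤ)) : Matrix (Fin 2) (Fin 2) ℤ)) 0 0 +
    (jConjMat ((γ : SL(2, ℤ)) : Matrix (Fin 2) (Fin 2) ℤ)) 1 1 = _
  simp

theorem ParB.comp_jN {B : Type} [CommGroup B] {φ : Gamma0 N →* B} (h : ParB φ) :
    ParB (φ.comp (jN N)) := fun γ hγ => h (jN N γ) (by rw [trS_jN]; exact hγ)

variable [NeZero N]

theorem heckeChar_jN {A : Type} [AddCommGroup A] {l : ℕ} (hl : l.Prime) (hN : ¬ l ∣ N)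
    (φ : Gamma0 N →* Multiplicative A) :
    heckeChar hl hN (φ.comp (jN N)) = (heckeChar hl hN φ).comp (jN N) := by
  rw [← heckeCharG_eq, ← heckeCharG_eq]
  exact ESG.heckeCharG_jG (Gamma1_in_Gamma0 N) le_rfl hl hN φ

theorem hSt_Xe (S : Finset ℕ) : HSt (Xe N ε) S := by
  intro i φ hφ
  rw [KX_Xe] at hφ ⊢
  refine ⟨parB_heckeChar _ _ hφ.1, fun γ => ?_⟩
  have h1 : φ.comp (jN N) = (zpowGroupHom ε).comp φ := MonoidHom.ext hφ.2
  have h2 := heckeChar_jN i.2.1 i.2.2.1 φ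
  rw [h1, heckeChar_comp] at h2
  exact (DFunLike.congr_fun h2 γ).symm

/-! ### Cusp forms -/

/-- the eigencharacter attached to a cusp form -/
def psiE (N : ℕ) [NeZero N] (ε : ℤ) : S2 (Gamma0 N) →ₗ[ℂ] (Additive (Gamma0 N) →+ ℂ) :=
  perA (Gamma1_in_Gamma0 N) (Nat.pos_of_ne_zero (NeZero.ne N)) +
    (ε : ℂ) • (jA (Gamma1_in_Gamma0 N) le_rfl).comp
      (perA (Gamma1_in_Gamma0 N) (Nat.pos_of_ne_zero (NeZero.ne N)))

theorem psiE_eq (f : S2 (Gamma0 N)) : psiE N ε f =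
    pairA (Gamma1_in_Gamma0 N) le_rfl (Nat.pos_of_ne_zero (NeZero.ne N)) (f, (ε : ℂ) • f) := by
  rw [pairA_apply, map_smul, map_smul]
  rfl

theorem psiE_injective : Function.Injective (psiE N ε) := by
  intro f g h
  rw [psiE_eq, psiE_eq] at h
  exact congrArg Prod.fst (pairA_injective _ _ _ h)

theorem jA_jA (c : Additive (Gamma0 N) →+ ℂ) :
    jA (Gamma1_in_Gamma0 N) le_rfl (jA (Gamma1_in_Gamma0 N) le_rfl c) = c := by
  refine AddMonoidHom.ext fun γ => ?_
  change c (Additive.ofMul (jN N (jN N γ.toMul))) = c γ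
  rw [jN_jN]
  rfl

theorem mem_par_iff {c : Additive (Gamma0 N) →+ ℂ} :
    c ∈ parabolicHoms ℂ (Gamma0 N) ℂ ↔ ParB (mC c) := by
  constructor
  · intro h γ hγ
    have h1 := h γ (by
      rw [Matrix.trace_fin_two]
      exact hγ)
    rw [mC_apply, h1]
    rfl
  · intro h γ hγ
    have h1 := h γ (by
      rw [Matrix.trace_fin_two] at hγ
      exact hγ)
    exact congrArg toAdd h1

theorem KX_iff {c : Additive (Gamma0 N) →+ ℂ} : KX (Xe N ε) (mC c) ↔
    c ∈ parabolicHoms ℂ (Gamma0 N) ℂ ∧ jA (Gamma1_in_Gamma0 N) le_rfl c = (ε : ℂ) • c := by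
  rw [KX_Xe, mem_par_iff]
  refine and_congr_right fun _ => ?_
  constructor
  · intro h
    refine AddMonoidHom.ext fun γ => ?_
    have h1 := congrArg toAdd (h γ.toMul)
    rw [toAdd_zpow, zsmul_eq_mul] at h1
    exact h1
  · intro h γ
    have h1 := DFunLike.congr_fun h (Additive.ofMul γ)
    apply toAdd.injective
    rw [toAdd_zpow, zsmul_eq_mul]
    exact h1

theorem psiE_range (hε : ε * ε = 1) (c : Additive (Gamma0 N) →+ ℂ) :
    (∃ f, psiE N ε f = c) ↔ KX (Xe N ε) (mC c) := by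
  have hε' : (ε : ℂ) * ε = 1 := by
    rw [← Int.cast_mul, hε, Int.cast_one]
  rw [KX_iff]
  constructor
  · rintro ⟨f, rfl⟩
    refine ⟨Submodule.add_mem _ (perA_mem _ _ f) (Submodule.smul_mem _ _ (jA_mem _ _
      (perA_mem _ _ f))), ?_⟩
    change jA _ _ (perA _ _ f + (ε : ℂ) • jA _ _ (perA _ _ f)) =
      (ε : ℂ) • (perA _ _ f + (ε : ℂ) • jA _ _ (perA _ _ f))
    rw [map_add, map_smul, jA_jA, smul_add, smul_smul, hε', one_smul, add_comm]
  · rintro ⟨h1, h2⟩
    obtain ⟨f, g, e⟩ := exists_pair (Gamma1_in_Gamma0 N) le_rfl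
      (Nat.pos_of_ne_zero (NeZero.ne N)) h1
    have h3 : pairA (Gamma1_in_Gamma0 N) le_rfl (Nat.pos_of_ne_zero (NeZero.ne N)) (g, f) =
        pairA (Gamma1_in_Gamma0 N) le_rfl (Nat.pos_of_ne_zero (NeZero.ne N))
          ((ε : ℂ) • f, (ε : ℂ) • g) := by
      rw [e, map_add, jA_jA] at h2
      rw [pairA_apply, pairA_apply, map_smul, map_smul, map_smul, ← smul_add, ← h2, add_comm]
    have h4 := congrArg Prod.fst (pairA_injective _ _ _ h3)
    change g = (ε : ℂ) • f at h4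
    refine ⟨f, ?_⟩
    rw [psiE_eq, pairA_apply, ← h4, e]

/-- `T_l - 1 - l` on cusp forms -/
def tS (N : ℕ) [NeZero N] {S : Finset ℕ} (i : Idx N S) : Module.End ℂ (S2 (Gamma0 N)) :=
  heckeS2 (Gamma1_in_Gamma0 N) le_rfl i.2.1 i.2.2.1 - ((1 + i.1 : ℕ) : Module.End ℂ _)

theorem psiE_tS {S : Finset ℕ} (i : Idx N S) (f : S2 (Gamma0 N)) :
    psiE N ε (tS N i f) = tV ℂ i (psiE N ε f) := by
  have hN := Nat.pos_of_ne_zero (NeZero.ne N)
  have h1 : hV ℂ i (perA (Gamma1_in_Gamma0 N) hN f) =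
      perA (Gamma1_in_Gamma0 N) hN (heckeS2 (Gamma1_in_Gamma0 N) le_rfl i.2.1 i.2.2.1 f) := by
    have e1 : mC (perA (Gamma1_in_Gamma0 N) hN f) = per (Gamma1_in_Gamma0 N) hN f := rfl
    rw [hV_apply, e1, ← heckeCharG_eq, ← per_hecke]
    rfl
  have h2 : ∀ c : Additive (Gamma0 N) →+ ℂ, hV ℂ i (jA (Gamma1_in_Gamma0 N) le_rfl c) =
      jA (Gamma1_in_Gamma0 N) le_rfl (hV ℂ i c) := by
    intro c
    have e1 : mC (jA (Gamma1_in_Gamma0 N) le_rfl c) = (mC c).comp (jN N) := rfl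
    rw [hV_apply, e1, heckeChar_jN]
    rfl
  have h3 : psiE N ε (heckeS2 (Gamma1_in_Gamma0 N) le_rfl i.2.1 i.2.2.1 f) =
      hV ℂ i (psiE N ε f) := by
    change perA _ hN _ + (ε : ℂ) • jA _ _ (perA _ hN _) =
      hV ℂ i (perA _ hN f + (ε : ℂ) • jA _ _ (perA _ hN f))
    rw [map_add, map_smul, h1, h2, h1]
  rw [tV_apply, tS, LinearMap.sub_apply, natR_end_apply, map_sub, map_nsmul, h3]

section Count

variable {q : ℕ} [NeZero q] [hq : Fact q.Prime]

theorem card_EDX (hε : ε * ε = 1) : ∃ P : Polynomial ℤ,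
    P.map (Int.castRingHom ℂ) = (thR (tS N) (thM N q) (thL N q)).charpoly ∧
    Nat.card (tors (EDX (Xe N ε) q) q) =
      q ^ (P.map (Int.castRingHom (ZMod q))).natTrailingDegree := by
  have := fg_Gamma0 N
  obtain ⟨n, π, hπ, hX, e, he, h⟩ := exists_struct (Gamma0 N) (Xe N ε)
  obtain ⟨A, hA⟩ := exists_mat hπ hX he h (hSt_Xe (N := N) (ε := ε) {q}) (thM N q) (thL N q)
  have hfin : FiniteDimensional ℂ (S2 (Gamma0 N)) := ESG.finite_S2
  refine ⟨A.charpoly, ?_, ?_⟩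
  · refine charpoly_mat hπ hX he h (hA ℂ) _ (psiE N ε) psiE_injective (psiE_range hε) fun f => ?_
    exact thR_intertwine (psiE N ε : S2 (Gamma0 N) →+ (Additive (Gamma0 N) →+ ℂ))
      (fun i f => psiE_tS i f) _ _ f
  · refine card_nilp hπ hX he h rfl fun a => ?_
    have h1 := hA ℤ a
    have h2 : A.map (Int.castRingHom ℤ) = A := by
      ext i j
      rfl
    rwa [h2] at h1

theorem card_EDX_eq : Nat.card (tors (EDX (Xe N 1) q) q) =
    Nat.card (tors (EDX (Xe N (-1)) q) q) := by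
  obtain ⟨P, hP, h1⟩ := card_EDX (N := N) (q := q) (ε := 1) (by norm_num)
  obtain ⟨Q, hQ, h2⟩ := card_EDX (N := N) (q := q) (ε := -1) (by norm_num)
  have h3 : P = Q := Polynomial.map_injective (Int.castRingHom ℂ) Int.cast_injective
    (hP.trans hQ.symm)
  rw [h1, h2, h3]

theorem le_of_pow_le {a b C : ℕ} (h : ∀ k, a ^ k ≤ C * b ^ k) : a ≤ b := by
  by_contra hlt
  push Not at hlt
  rcases Nat.eq_zero_or_pos b with hb | hb
  · subst hb
    have := h 1
    rw [pow_one, pow_one, mul_zero] at this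
    omega
  have key : ∀ k, b ^ k * (b + k) ≤ a ^ k * b := by
    intro k
    induction k with
    | zero => simp
    | succ k ih =>
      calc b ^ (k + 1) * (b + (k + 1)) ≤ (b ^ k * (b + k)) * (b + 1) := by
            rw [pow_succ]
            have : b * (b + (k + 1)) ≤ (b + k) * (b + 1) := by nlinarith
            calc b ^ k * b * (b + (k + 1)) = b ^ k * (b * (b + (k + 1))) := by ring
              _ ≤ b ^ k * ((b + k) * (b + 1)) := Nat.mul_le_mul_left _ this
              _ = _ := by ring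
        _ ≤ (a ^ k * b) * a := Nat.mul_le_mul ih hlt
        _ = a ^ (k + 1) * b := by ring
  have h1 := key (C * b)
  have h2 := Nat.mul_le_mul_right b (h (C * b))
  have h3 : b ^ (C * b) * (b + C * b) ≤ b ^ (C * b) * (C * b) := by
    calc b ^ (C * b) * (b + C * b) ≤ a ^ (C * b) * b := h1
      _ ≤ C * b ^ (C * b) * b := h2
      _ = _ := by ring
  have h4 := Nat.le_of_mul_le_mul_left h3 (pow_pos hb _)
  omega

theorem card_mul_le (k : ℕ) : Nat.card (tors (EDX (Xe N 1) q) (q ^ k)) *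
    Nat.card (tors (EDX (Xe N (-1)) q) (q ^ k)) ≤
      Nat.card (tors (Dinf N q) 2) * Nat.card (tors (eisD N q) (q ^ k)) := by
  have hq0 : q ^ k ≠ 0 := pow_ne_zero k (NeZero.ne q)
  have f1 : Finite (tors (Dinf N q) 2) := finite_tors_Dinf two_ne_zero
  have f2 : Finite (tors (eisD N q) (q ^ k)) := finite_tors_eisD hq0
  have f3 : Finite (tors (EDX (Xe N 1) q) (q ^ k)) :=
    Finite.of_injective (AddSubgroup.inclusion (tors_le (EDX_le X2_sub) _))
      (AddSubgroup.inclusion_injective _)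
  have f4 : Finite (tors (EDX (Xe N (-1)) q) (q ^ k)) :=
    Finite.of_injective (AddSubgroup.inclusion (tors_le (EDX_le X2_sub) _))
      (AddSubgroup.inclusion_injective _)
  let f : tors (EDX (Xe N 1) q) (q ^ k) × tors (EDX (Xe N (-1)) q) (q ^ k) →+
      tors (eisD N q) (q ^ k) :=
    AddMonoidHom.coprod (AddSubgroup.inclusion (tors_le (EDX_le X2_sub) _))
      (AddSubgroup.inclusion (tors_le (EDX_le X2_sub) _))
  have hf : ∀ x, (f x : XC N) = x.1.1 + x.2.1 := fun _ => rfl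
  have h1 := AddSubgroup.card_eq_card_quotient_mul_card_addSubgroup f.ker
  rw [Nat.card_prod] at h1
  have h2 : Nat.card ((tors (EDX (Xe N 1) q) (q ^ k) × tors (EDX (Xe N (-1)) q) (q ^ k)) ⧸ f.ker) ≤
      Nat.card (tors (eisD N q) (q ^ k)) := by
    rw [Nat.card_congr (QuotientAddGroup.quotientKerEquivRange f).toEquiv]
    exact Nat.card_le_card_of_injective _ Subtype.val_injective
  have h3 : Nat.card f.ker ≤ Nat.card (tors (Dinf N q) 2) := by
    refine Nat.card_le_card_of_injective (fun x => ⟨x.1.1.1, ?_, ?_⟩) ?_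
    · exact DX_le X2_sub x.1.1.2.1.1
    · have hx : (x.1.1.1 : XC N) + x.1.2.1 = 0 := by
        rw [← hf]
        exact congrArg Subtype.val x.2
      have hx' : (x.1.1.1 : XC N) = - x.1.2.1 := eq_neg_of_add_eq_zero_left hx
      obtain ⟨i, φ, hφ, e1⟩ := x.1.1.2.1.1
      obtain ⟨i', ψ, hψ, e2⟩ := x.1.2.2.1.1
      rw [KX_Xe] at hφ hψ
      refine XC.ext fun γ => ?_
      have a1 : (x.1.1.1 : XC N).ch (jN N γ) = (x.1.1.1 : XC N).ch γ := by
        rw [e1, MonoidHom.comp_apply, MonoidHom.comp_apply, hφ.2, zpow_one]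
      have a2 : (x.1.2.1 : XC N).ch (jN N γ) = ((x.1.2.1 : XC N).ch γ)⁻¹ := by
        rw [e2, MonoidHom.comp_apply, MonoidHom.comp_apply, hψ.2, zpow_neg, zpow_one, map_inv]
      have a3 : (x.1.1.1 : XC N).ch (jN N γ) = ((x.1.1.1 : XC N).ch γ)⁻¹ := by
        rw [hx', XC.ch_neg, XC.ch_neg, a2]
      rw [XC.ch_nsmul, XC.ch_zero, pow_two]
      rw [a1] at a3
      exact eq_inv_iff_mul_eq_one.mp a3
    · intro x y hxy
      have h5' := congrArg Subtype.val hxy
      have h5 : (x.1.1.1 : XC N) = y.1.1.1 := h5'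
      have hx : (x.1.1.1 : XC N) + x.1.2.1 = 0 := by
        rw [← hf]
        exact congrArg Subtype.val x.2
      have hy : (y.1.1.1 : XC N) + y.1.2.1 = 0 := by
        rw [← hf]
        exact congrArg Subtype.val y.2
      refine Subtype.ext (Prod.ext (Subtype.ext h5) (Subtype.ext ?_))
      rw [h5] at hx
      exact add_left_cancel (hx.trans hy.symm)
  rw [h1, mul_comm]
  exact Nat.mul_le_mul h3 h2

theorem card_sq_le : Nat.card (tors (EDX (Xe N (-1)) q) q) ^ 2 ≤ Nat.card (tors (eisD N q) q) := by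
  refine le_of_pow_le (C := Nat.card (tors (Dinf N q) 2)) fun k => ?_
  have h1 := card_mul_le (N := N) (q := q) k
  rw [card_tors_EDX (hSt_Xe _) X2_sub, card_tors_EDX (hSt_Xe _) X2_sub, card_EDX_eq,
    card_tors_eisD, ← pow_add] at h1
  rwa [← pow_mul, two_mul]

/-- the image of `1 + τ` -/
theorem inE_add_mem {τ : GQ} (hτ : ∀ x : Qb, ιC (τ x) = conj (ιC x)) (k : ℕ) (x : EX N q k) :
    inE k (x + gE k τ x) ∈ tors (EDX (Xe N (-1)) q) (q ^ k) := by
  obtain ⟨φ, hφ, e⟩ := Dinf_tors (inE_mem k x).1 (inE_tors k x)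
  refine ⟨⟨⟨k, φ * (φ.comp (jN N))⁻¹, ?_, ?_⟩, (inE_mem k (x + gE k τ x)).2⟩, inE_tors k _⟩
  · rw [KX_Xe]
    refine ⟨hφ.mul hφ.comp_jN.inv, fun γ => ?_⟩
    rw [MonoidHom.mul_apply, MonoidHom.mul_apply, MonoidHom.inv_apply, MonoidHom.inv_apply,
      MonoidHom.comp_apply, MonoidHom.comp_apply, jN_jN, zpow_neg, zpow_one, mul_inv, inv_inv,
      mul_comm]
  · refine MonoidHom.ext fun γ => ?_
    have h1 : (inE k (gE k τ x)).ch γ = ((inE k x).ch (jN N γ))⁻¹ :=
      galX_conj hτ (pos_pow q k) x.ch γ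
    rw [map_add, XC.ch_add, h1, e, MonoidHom.comp_apply, MonoidHom.comp_apply,
      MonoidHom.comp_apply, MonoidHom.mul_apply, MonoidHom.inv_apply, MonoidHom.comp_apply,
      map_mul, map_inv]

/-- **(P6)** -/
theorem card_range_conj {τ : GQ} (hτ : ∀ x : Qb, ιC (τ x) = conj (ιC x)) (k : ℕ) :
    Nat.card (Set.range fun x : EX N q k => x + gE k τ x) ^ 2 ≤ Nat.card (EX N q k) := by
  have hq0 : q ^ k ≠ 0 := pow_ne_zero k (NeZero.ne q)
  have f4 : Finite (tors (EDX (Xe N (-1)) q) (q ^ k)) := by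
    have f2 : Finite (tors (eisD N q) (q ^ k)) := finite_tors_eisD hq0
    exact Finite.of_injective (AddSubgroup.inclusion (tors_le (EDX_le X2_sub) _))
      (AddSubgroup.inclusion_injective _)
  have h1 : Nat.card (Set.range fun x : EX N q k => x + gE k τ x) ≤
      Nat.card (tors (EDX (Xe N (-1)) q) (q ^ k)) := by
    refine Nat.card_le_card_of_injective (fun y => ⟨inE k y.1, ?_⟩) fun y z h => ?_
    · obtain ⟨x, hx⟩ := y.2
      rw [← hx]
      exact inE_add_mem hτ k x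
    · have h' := congrArg Subtype.val h
      have h'' : inE k y.1 = inE k z.1 := h'
      exact Subtype.ext (inE_injective k h'')
  have h2 : Nat.card (EX N q k) = Nat.card (tors (eisD N q) q) ^ k := by
    rw [← card_tors_eisD]
    exact Nat.card_congr (eisXEquiv k).toEquiv
  rw [h2]
  refine (Nat.pow_le_pow_left h1 2).trans ?_
  rw [card_tors_EDX (hSt_Xe _) X2_sub, ← pow_mul, mul_comm, pow_mul]
  exact Nat.pow_le_pow_left card_sq_le k

end Count

end Fermat.Agent.Mzr
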