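import Fermat.Agent.Mzr.Abs

/-!
Integral matrices and nilpotent parts.
-/

set_option autoImplicit false

noncomputable section

namespace Fermat.Agent.Mzr

open Module Polynomial

variable {n : ℕ}

/-- the pairing with a vector -/
def dotR {R : Type*} [CommRing R] (v : Fin n → R) (x : Fin n → ℤ) : R := ∑ i, (x i : R) * v i

theorem dotR_add {R : Type*} [CommRing R] (v : Fin n → R) (x y : Fin n → ℤ) :
    dotR v (x + y) = dotR v x + dotR v y := by
  rw [dotR, dotR, dotR, ← Finset.sum_add_distrib]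
  refine Finset.sum_congr rfl fun i _ => ?_
  rw [Pi.add_apply, Int.cast_add, add_mul]

theorem dotR_zero {R : Type*} [CommRing R] (v : Fin n → R) : dotR v 0 = 0 := by
  rw [dotR]
  refine Finset.sum_eq_zero fun i _ => ?_
  rw [Pi.zero_apply, Int.cast_zero, zero_mul]

theorem dotR_add_left {R : Type*} [CommRing R] (v w : Fin n → R) (x : Fin n → ℤ) :
    dotR (v + w) x = dotR v x + dotR w x := by
  rw [dotR, dotR, dotR, ← Finset.sum_add_distrib]
  refine Finset.sum_congr rfl fun i _ => ?_
  rw [Pi.add_apply, mul_add]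

theorem dotR_smul_left {R : Type*} [CommRing R] (c : R) (v : Fin n → R) (x : Fin n → ℤ) :
    dotR (c • v) x = c * dotR v x := by
  rw [dotR, dotR, Finset.mul_sum]
  refine Finset.sum_congr rfl fun i _ => ?_
  rw [Pi.smul_apply, smul_eq_mul, mul_left_comm]

theorem dotR_single {R : Type*} [CommRing R] (v : Fin n → R) (j : Fin n) :
    dotR v (Pi.single j 1) = v j := by
  rw [dotR, Finset.sum_eq_single j]
  · rw [Pi.single_eq_same, Int.cast_one, one_mul]
  · intro i _ hi
    rw [Pi.single_eq_of_ne hi, Int.cast_zero, zero_mul]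
  · intro h
    exact absurd (Finset.mem_univ j) h

/-- an additive map on `ℤ ^ n` is a pairing -/
theorem eq_dotR {R : Type*} [CommRing R] (f : (Fin n → ℤ) →+ R) (x : Fin n → ℤ) :
    f x = dotR (fun j => f (Pi.single j 1)) x := by
  have h1 : x = ∑ j, x j • (Pi.single j 1 : Fin n → ℤ) := by
    funext i
    rw [Finset.sum_apply, Finset.sum_eq_single i]
    · rw [Pi.smul_apply, Pi.single_eq_same, smul_eq_mul, mul_one]
    · intro j _ hj
      rw [Pi.smul_apply, Pi.single_eq_of_ne hj.symm, smul_zero]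
    · intro h
      exact absurd (Finset.mem_univ i) h
  conv_lhs => rw [h1]
  rw [map_sum, dotR]
  refine Finset.sum_congr rfl fun j _ => ?_
  rw [map_zsmul, zsmul_eq_mul]

/-- the transpose matrix of an additive map -/
def matM (M : (Fin n → ℤ) →+ (Fin n → ℤ)) : Matrix (Fin n) (Fin n) ℤ :=
  fun j i => M (Pi.single j 1) i

theorem dotR_matM {R : Type*} [CommRing R] (M : (Fin n → ℤ) →+ (Fin n → ℤ)) (v : Fin n → R)
    (x : Fin n → ℤ) :
    dotR v (M x) = dotR (((matM M).map (Int.castRingHom R)).mulVec v) x := by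
  let f : (Fin n → ℤ) →+ R :=
    { toFun := fun x => dotR v (M x)
      map_zero' := by rw [map_zero, dotR_zero]
      map_add' := fun x y => by rw [map_add, dotR_add] }
  have h1 := eq_dotR f x
  refine h1.trans (congrArg (fun w => dotR w x) ?_)
  funext j
  change dotR v (M (Pi.single j 1)) = _
  rw [dotR]
  rfl

theorem mem_maxGen {K V : Type*} [Field K] [AddCommGroup V] [Module K V] (φ : Module.End K V)
    (v : V) : v ∈ φ.maxGenEigenspace 0 ↔ ∃ k : ℕ, (φ ^ k) v = 0 := by
  rw [Module.End.mem_maxGenEigenspace, zero_smul, sub_zero]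

/-- the size of the nilpotent part -/
theorem card_nil {q : ℕ} [Fact q.Prime] (A : Matrix (Fin n) (Fin n) (ZMod q)) :
    Nat.card {v : Fin n → ZMod q // ∃ k : ℕ, (A.toLin' ^ k) v = 0} =
      q ^ A.charpoly.natTrailingDegree := by
  have h1 := LinearMap.finrank_maxGenEigenspace_zero_eq A.toLin'
  rw [Matrix.charpoly_toLin'] at h1
  rw [← h1]
  have h2 : Nat.card {v : Fin n → ZMod q // ∃ k : ℕ, (A.toLin' ^ k) v = 0} =
      Nat.card (Module.End.maxGenEigenspace A.toLin' 0) :=
    Nat.card_congr (Equiv.subtypeEquivRight fun v => (mem_maxGen _ v).symm)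
  rw [h2, Module.natCard_eq_pow_finrank (K := ZMod q), Nat.card_zmod]

/-- **The count of the nilpotent part.** -/
theorem card_tors_nilp {q : ℕ} [Fact q.Prime] {X : Type*} [AddCommGroup X] {D : AddSubgroup X}
    {θ : Module.End ℤ X} (F : (Fin n → ZMod q) →+ X) (hF : Function.Injective F)
    (hrange : ∀ x, x ∈ tors D q ↔ ∃ v, F v = x) (A : Matrix (Fin n) (Fin n) (ZMod q))
    (hA : ∀ v, θ (F v) = F (A.toLin' v)) :
    Nat.card (tors (nilp D θ) q) = q ^ A.charpoly.natTrailingDegree := by
  rw [← card_nil]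
  have h1 : ∀ (k : ℕ) v, (θ ^ k) (F v) = F ((A.toLin' ^ k) v) := by
    intro k
    induction k with
    | zero => intro v; rfl
    | succ k ih =>
      intro v
      rw [pow_succ, pow_succ, Module.End.mul_apply, Module.End.mul_apply, hA, ih]
  symm
  refine Nat.card_congr (Equiv.ofBijective (fun v => ⟨F v.1, ?_⟩) ⟨?_, ?_⟩)
  · obtain ⟨k, hk⟩ := v.2
    have h2 : F v.1 ∈ tors D q := (hrange _).mpr ⟨v.1, rfl⟩
    exact ⟨⟨h2.1, k, by rw [h1, hk, map_zero]⟩, h2.2⟩
  · intro a b h
    exact Subtype.ext (hF (congrArg Subtype.val h))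
  · rintro ⟨x, hx⟩
    obtain ⟨v, rfl⟩ := (hrange x).mp ⟨hx.1.1, hx.2⟩
    obtain ⟨k, hk⟩ := hx.1.2
    refine ⟨⟨v, k, hF ?_⟩, rfl⟩
    rw [← h1, hk, map_zero]

/-- conjugate integral matrices over `ℂ` have the same number of zero eigenvalues modulo `q` -/
theorem trailing_eq {n n' q : ℕ} [Fact q.Prime] (A : Matrix (Fin n) (Fin n) ℤ)
    (A' : Matrix (Fin n') (Fin n') ℤ)
    (h : (A.map (Int.castRingHom ℂ)).charpoly = (A'.map (Int.castRingHom ℂ)).charpoly) :
    (A.map (Int.castRingHom (ZMod q))).charpoly.natTrailingDegree =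
      (A'.map (Int.castRingHom (ZMod q))).charpoly.natTrailingDegree := by
  have h1 : A.charpoly = A'.charpoly := by
    apply Polynomial.map_injective (Int.castRingHom ℂ) (RingHom.injective_int _)
    have h2 := Matrix.charpoly_map A (Int.castRingHom ℂ)
    have h3 := Matrix.charpoly_map A' (Int.castRingHom ℂ)
    exact h2.symm.trans (h.trans h3)
  have h2 := Matrix.charpoly_map A (Int.castRingHom (ZMod q))
  have h3 := Matrix.charpoly_map A' (Int.castRingHom (ZMod q))
  have h4 : (A.map (Int.castRingHom (ZMod q))).charpoly =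
      (A'.map (Int.castRingHom (ZMod q))).charpoly :=
    h2.trans ((congrArg (Polynomial.map (Int.castRingHom (ZMod q))) h1).trans h3.symm)
  rw [h4]

end Fermat.Agent.Mzr
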