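import Fermat.Agent.Mzr.CjS2

/-!
The divisible groups of characters with a sign.
-/

set_option autoImplicit false

noncomputable section

namespace Fermat.Agent.Mzr

open CongruenceSubgroup Module
open Fermat.Agent.ESCore Fermat.Agent.ESCore.ModP Fermat.Agent.ESCore.Univ
open Fermat.Agent.ESCore.UnivG Fermat.Agent.ESG
open ModularCurve.Period
open Multiplicative (toAdd ofAdd)
open scoped MatrixGroups

/-! ### Roots of unity -/

/-- the standard character of `ZMod q` -/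
def zq (q : ℕ) [NeZero q] : ZMod q →+ Additive ℂˣ :=
  ZMod.lift q ⟨zmultiplesHom (Additive ℂˣ) (Additive.ofMul (zt q)), by
    rw [zmultiplesHom_apply, natCast_zsmul]
    exact congrArg Additive.ofMul (zt_prim (NeZero.ne q)).pow_eq_one⟩

theorem zq_intCast (q : ℕ) [NeZero q] (a : ℤ) : zq q (a : ZMod q) = Additive.ofMul (zt q ^ a) := by
  rw [zq, ZMod.lift_coe]
  rfl

theorem zq_injective (q : ℕ) [NeZero q] : Function.Injective (zq q) := by
  rw [injective_iff_map_eq_zero]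
  intro a ha
  obtain ⟨b, rfl⟩ := ZMod.intCast_surjective a
  rw [zq_intCast] at ha
  have h1 : zt q ^ b = 1 := congrArg Additive.toMul ha
  rw [zt_zpow_eq_one (NeZero.ne q)] at h1
  exact (ZMod.intCast_zmod_eq_zero_iff_dvd _ _).mpr h1

/-- the standard character of `ZMod q`, multiplicatively -/
def zqM (q : ℕ) [NeZero q] : Multiplicative (ZMod q) →* ℂˣ :=
  AddMonoidHom.toMultiplicativeLeft (zq q)

theorem zqM_injective (q : ℕ) [NeZero q] : Function.Injective (zqM q) := fun _ _ h =>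
  zq_injective q h

theorem zqM_pow (q : ℕ) [NeZero q] (a : Multiplicative (ZMod q)) : zqM q a ^ q = 1 := by
  rw [← map_pow]
  have h1 : a ^ q = 1 := by
    apply Multiplicative.toAdd.injective
    rw [toAdd_pow, nsmul_eq_mul, ZMod.natCast_self, zero_mul]
    rfl
  rw [h1, map_one]

theorem exists_zqM {q : ℕ} [NeZero q] {z : ℂˣ} (hz : z ^ q = 1) :
    ∃ a : Multiplicative (ZMod q), zqM q a = z := by
  obtain ⟨a, ha⟩ := exists_zpow_of_pow (NeZero.ne q) hz
  refine ⟨ofAdd (a : ZMod q), ?_⟩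
  have h1 : zqM q (ofAdd (a : ZMod q)) = (zq q (a : ZMod q)).toMul := rfl
  rw [h1, zq_intCast, ha]
  rfl

/-! ### The homomorphisms on `ℤ ^ n` -/

variable {n : ℕ}

/-- the homomorphism with given values on the basis -/
def homU (u : Fin n → ℂˣ) : Multiplicative (Fin n → ℤ) →* ℂˣ where
  toFun x := ∏ i, u i ^ (toAdd x i)
  map_one' := Finset.prod_eq_one fun i _ => zpow_zero _
  map_mul' x y := by
    rw [← Finset.prod_mul_distrib]
    refine Finset.prod_congr rfl fun i _ => ?_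
    rw [toAdd_mul, Pi.add_apply, zpow_add]

theorem eq_homU (ψ : Multiplicative (Fin n → ℤ) →* ℂˣ) :
    ψ = homU fun i => ψ (ofAdd (Pi.single i 1)) := by
  refine MonoidHom.ext fun x => ?_
  have h1 : toAdd x = ∑ j, (toAdd x) j • (Pi.single j 1 : Fin n → ℤ) := by
    funext i
    rw [Finset.sum_apply, Finset.sum_eq_single i]
    · rw [Pi.smul_apply, Pi.single_eq_same, smul_eq_mul, mul_one]
    · intro j _ hj
      rw [Pi.smul_apply, Pi.single_eq_of_ne hj.symm, smul_zero]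
    · intro h
      exact absurd (Finset.mem_univ i) h
  have h2 : x = ∏ j, (ofAdd (Pi.single j 1 : Fin n → ℤ)) ^ ((toAdd x) j) := by
    apply Multiplicative.toAdd.injective
    rw [toAdd_prod]
    conv_lhs => rw [h1]
    rfl
  conv_lhs => rw [h2]
  rw [map_prod]
  refine Finset.prod_congr rfl fun j _ => ?_
  rw [map_zpow]

theorem homU_pow (u : Fin n → ℂˣ) (k : ℕ) : homU u ^ k = homU fun i => u i ^ k := by
  refine MonoidHom.ext fun x => ?_
  rw [MonoidHom.pow_apply]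
  change (∏ i, u i ^ (toAdd x i)) ^ k = ∏ i, (u i ^ k) ^ (toAdd x i)
  rw [← Finset.prod_pow]
  refine Finset.prod_congr rfl fun j _ => ?_
  rw [← zpow_natCast, ← zpow_natCast, ← zpow_mul, ← zpow_mul, mul_comm]

theorem exists_rootU {q : ℕ} (hq : q ≠ 0) (u : ℂˣ) : ∃ w : ℂˣ, w ^ q = u := by
  obtain ⟨w, hw⟩ := IsAlgClosed.exists_pow_nat_eq (u : ℂ) (Nat.pos_of_ne_zero hq)
  have hw0 : w ≠ 0 := by
    rintro rfl
    rw [zero_pow hq] at hw
    exact u.ne_zero hw.symm
  refine ⟨Units.mk0 w hw0, Units.ext ?_⟩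
  rw [Units.val_pow_eq_pow_val, Units.val_mk0, hw]

theorem exists_hom_root {q : ℕ} (hq : q ≠ 0) (ψ : Multiplicative (Fin n → ℤ) →* ℂˣ) :
    ∃ ψ' : Multiplicative (Fin n → ℤ) →* ℂˣ, ψ' ^ q = ψ := by
  choose w hw using fun i => exists_rootU hq (ψ (ofAdd (Pi.single i 1)))
  refine ⟨homU w, ?_⟩
  rw [homU_pow]
  simp only [hw]
  exact (eq_homU ψ).symm

theorem exists_int_hom {m : ℕ} (hm : m ≠ 0) {ψ : Multiplicative (Fin n → ℤ) →* ℂˣ}
    (h : ψ ^ m = 1) : ∃ g : Multiplicative (Fin n → ℤ) →* Multiplicative ℤ, ψ = (zH m).comp g := by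
  have h1 : ∀ x, ∃ a : ℤ, ψ x = zt m ^ a := fun x =>
    exists_zpow_of_pow hm (DFunLike.congr_fun h x)
  choose a ha using fun i : Fin n => h1 (ofAdd (Pi.single i 1))
  refine ⟨dotH (R := ℤ) a, ?_⟩
  rw [eq_homU ψ]
  refine MonoidHom.ext fun x => ?_
  change ∏ i, (ψ (ofAdd (Pi.single i 1))) ^ (toAdd x i) = zt m ^ (dotR a (toAdd x))
  rw [dotR]
  have h2 : ∀ (s : Finset (Fin n)) (f : Fin n → ℤ), zt m ^ (∑ i ∈ s, f i) = ∏ i ∈ s, zt m ^ f i :=
    fun s f => by
      classical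
      induction s using Finset.induction_on with
      | empty => rfl
      | insert b s hb ih => rw [Finset.sum_insert hb, Finset.prod_insert hb, zpow_add, ih]
  rw [h2]
  refine Finset.prod_congr rfl fun i _ => ?_
  rw [ha, ← zpow_mul, mul_comm]
  rfl

/-! ### The divisible groups -/

variable {N : ℕ}

/-- characters factoring through `π`, of `q`-power order -/
def Dpi (q : ℕ) (π : Gamma0 N →* Multiplicative (Fin n → ℤ)) : AddSubgroup (XC N) where
  carrier := {x | (∃ ψ : Multiplicative (Fin n → ℤ) →* ℂˣ, x = pfC ψ (Additive.ofMul π)) ∧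
    ∃ k, q ^ k • x = 0}
  zero_mem' := ⟨⟨1, rfl⟩, 0, smul_zero _⟩
  add_mem' := by
    rintro x y ⟨⟨ψ, hx⟩, k, hk⟩ ⟨⟨ψ', hy⟩, j, hj⟩
    refine ⟨⟨ψ * ψ', ?_⟩, k + j, ?_⟩
    · rw [hx, hy]
      rfl
    · rw [smul_add, pow_add, mul_smul, mul_smul, hj, smul_zero, add_zero, smul_comm, hk, smul_zero]
  neg_mem' := by
    rintro x ⟨⟨ψ, hx⟩, k, hk⟩
    refine ⟨⟨ψ⁻¹, ?_⟩, k, ?_⟩
    · rw [hx]
      rfl
    · rw [smul_neg, hk, neg_zero]

variable {ε : ℤ} {π : Gamma0 N →* Multiplicative (Fin n → ℤ)} {q : ℕ}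

theorem pfC_ofMul_ch (ψ : Multiplicative (Fin n → ℤ) →* ℂˣ) (γ : Gamma0 N) :
    (pfC ψ (Additive.ofMul π)).ch γ = ψ (π γ) := rfl

theorem pfC_nsmul (ψ : Multiplicative (Fin n → ℤ) →* ℂˣ) (k : ℕ) :
    k • pfC ψ (Additive.ofMul π) = pfC (ψ ^ k) (Additive.ofMul π) := rfl

theorem pfC_inj (h : PiD N ε n π) {ψ ψ' : Multiplicative (Fin n → ℤ) →* ℂˣ}
    (e : pfC ψ (Additive.ofMul π) = pfC ψ' (Additive.ofMul π)) : ψ = ψ' := by
  refine MonoidHom.ext fun x => ?_
  obtain ⟨γ, rfl⟩ := h.surj x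
  exact congrArg (fun z : XC N => z.ch γ) e

theorem pfC_eq_zero (h : PiD N ε n π) {ψ : Multiplicative (Fin n → ℤ) →* ℂˣ}
    (e : pfC ψ (Additive.ofMul π) = 0) : ψ = 1 :=
  pfC_inj h (e.trans (rfl : (0 : XC N) = pfC 1 (Additive.ofMul π)))

theorem Dpi_sgn (h : PiD N ε n π) {x : XC N} (hx : x ∈ Dpi q π) : jC x = ε • x := by
  obtain ⟨⟨ψ, rfl⟩, -⟩ := hx
  refine XC.ext fun γ => ?_
  have h1 : π (jConjGamma0 N γ) = π γ ^ ε :=
    DFunLike.congr_fun (congrArg Additive.toMul h.mem.2) γ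
  have h2 : (ε • pfC ψ (Additive.ofMul π)).ch γ = (pfC ψ (Additive.ofMul π)).ch γ ^ ε := rfl
  rw [h2, jC_ch, pfC_ofMul_ch, pfC_ofMul_ch, h1, map_zpow]

theorem Dpi_div [NeZero q] (x : XC N) (hx : x ∈ Dpi q π) : ∃ y ∈ Dpi q π, q • y = x := by
  obtain ⟨⟨ψ, rfl⟩, k, hk⟩ := hx
  obtain ⟨ψ', hψ⟩ := exists_hom_root (NeZero.ne q) ψ
  have h1 : q • pfC ψ' (Additive.ofMul π) = pfC ψ (Additive.ofMul π) := by
    rw [pfC_nsmul, hψ]
  exact ⟨pfC ψ' (Additive.ofMul π), ⟨⟨ψ', rfl⟩, k + 1, by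
    rw [pow_succ, mul_smul, h1, hk]⟩, h1⟩

theorem Dpi_le (h : PiD N ε n π) [NeZero q] : Dpi q π ≤ Dinf N q := by
  rintro x ⟨⟨ψ, rfl⟩, k, hk⟩
  rw [pfC_nsmul] at hk
  obtain ⟨g, hg⟩ := exists_int_hom (pow_ne_zero k (NeZero.ne q)) (pfC_eq_zero h hk)
  refine ⟨k, g.comp π, fun γ hγ => ?_, ?_⟩
  · rw [MonoidHom.comp_apply]
    have h1 : π γ = 1 := h.mem.1 γ hγ
    rw [h1, map_one]
  · rw [hg]
    rfl

/-- the sign parts of `Dinf` -/
theorem add_mem_Dpi [NeZero q] (hε : ε * ε = 1) (h : PiD N ε n π) {x : XC N} (hx : x ∈ Dinf N q) :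
    x + ε • jC x ∈ Dpi q π := by
  obtain ⟨k, φ, hφ, e⟩ := hx
  have hx' : x = pfC (zH (q ^ k)) (Additive.ofMul φ) := XC.ext fun γ => DFunLike.congr_fun e γ
  let χ : Additive (Gamma0 N →* Multiplicative ℤ) :=
    Additive.ofMul φ + ε • jB (Multiplicative ℤ) (Additive.ofMul φ)
  have hχ : χ ∈ PSub N (Multiplicative ℤ) ε := by
    refine ⟨?_, ?_⟩
    · have h1 : ParB (jB (Multiplicative ℤ) (Additive.ofMul φ)).toMul := by
        intro γ hγ
        refine hφ _ ?_
        rw [← hγ, LG.trS, LG.trS, jConjGamma0_coe, jConjSL_coe]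
        simp
      intro γ hγ
      change φ γ * ((jB (Multiplicative ℤ) (Additive.ofMul φ)).toMul γ) ^ ε = 1
      rw [hφ γ hγ, h1 γ hγ, one_zpow, one_mul]
    · rw [map_add, map_zsmul, jB_jB, smul_add, smul_smul, hε, one_smul, add_comm]
  obtain ⟨g, hg⟩ := h.lift (χ := χ.toMul) hχ
  have h1 : x + ε • jC x = pfC (zH (q ^ k)) χ := by
    rw [hx', map_add, map_zsmul]
    rfl
  refine ⟨⟨(zH (q ^ k)).comp (AddMonoidHom.toMultiplicative g), ?_⟩, k, ?_⟩
  · rw [h1]
    refine XC.ext fun γ => ?_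
    exact congrArg (zH (q ^ k)) (hg γ)
  · rw [h1]
    refine XC.ext fun γ => ?_
    rw [XC.ch_nsmul, pfC_ch, zH_pow_self (pow_ne_zero _ (NeZero.ne q))]
    rfl

section

variable [NeZero N]

omit [NeZero N] in
theorem theta_pfC {S : Finset ℕ} {m : ℕ} {l : List (Idx N S)} {M : (Fin n → ℤ) →+ (Fin n → ℤ)}
    (hM : ∀ γ, toAdd ((theta (tB (Multiplicative (Fin n → ℤ))) m l
        (Additive.ofMul π)).toMul γ) = M (toAdd (π γ)))
    (ψ : Multiplicative (Fin n → ℤ) →* ℂˣ) :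
    theta tC m l (pfC ψ (Additive.ofMul π)) =
      pfC (ψ.comp (AddMonoidHom.toMultiplicative M)) (Additive.ofMul π) := by
  rw [← theta_intertwine (pfC ψ) (fun i x => pfC_tB ψ i x)]
  refine XC.ext fun γ => ?_
  exact congrArg ψ (hM γ)

theorem Dpi_theta (h : PiD N ε n π) {S : Finset ℕ} (m : ℕ) (l : List (Idx N S)) (x : XC N)
    (hx : x ∈ Dpi q π) : theta tC m l x ∈ Dpi q π := by
  obtain ⟨M, hM⟩ := h.exists_M m l
  obtain ⟨⟨ψ, rfl⟩, k, hk⟩ := hx
  refine ⟨⟨_, theta_pfC hM ψ⟩, k, ?_⟩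
  rw [← map_nsmul, hk, map_zero]

/-- the `q`-torsion -/
def fq (q : ℕ) [NeZero q] (π : Gamma0 N →* Multiplicative (Fin n → ℤ)) :
    (Fin n → ZMod q) →+ XC N where
  toFun v := pfC ((zqM q).comp (dotH v)) (Additive.ofMul π)
  map_zero' := by
    refine XC.ext fun γ => ?_
    change zqM q (ofAdd (dotR 0 (toAdd (π γ)))) = 1
    have h1 : dotR (0 : Fin n → ZMod q) (toAdd (π γ)) = 0 := by
      rw [dotR]
      exact Finset.sum_eq_zero fun i _ => mul_zero _
    rw [h1]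
    exact map_one _
  map_add' v w := by
    refine XC.ext fun γ => ?_
    change zqM q (ofAdd (dotR (v + w) (toAdd (π γ)))) =
      zqM q (ofAdd (dotR v (toAdd (π γ)))) * zqM q (ofAdd (dotR w (toAdd (π γ))))
    rw [dotR_add_left, ofAdd_add, map_mul]

/-- **The count.** -/
theorem card_Dpi [Fact q.Prime] [NeZero q] (h : PiD N ε n π) {S : Finset ℕ} {m : ℕ}
    {l : List (Idx N S)} {M : (Fin n → ℤ) →+ (Fin n → ℤ)}
    (hM : ∀ γ, toAdd ((theta (tB (Multiplicative (Fin n → ℤ))) m l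
        (Additive.ofMul π)).toMul γ) = M (toAdd (π γ))) (k : ℕ) :
    Nat.card (tors (nilp (Dpi q π) (theta tC m l)) (q ^ k)) =
      (q ^ k) ^ ((matM M).map (Int.castRingHom (ZMod q))).charpoly.natTrailingDegree := by
  have hstab : ∀ x ∈ Dpi q π, theta tC m l x ∈ Dpi q π := Dpi_theta h m l
  have hfin : ∀ k, Finite (tors (Dpi q π) (q ^ k)) := by
    intro k
    have := finite_tors_Dinf (N := N) (q := q) (m := q ^ k) (pow_ne_zero k (NeZero.ne q))
    exact Finite.of_injective (AddSubgroup.inclusion (tors_le (Dpi_le h) (q ^ k)))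
      (AddSubgroup.inclusion_injective _)
  have hdiv : ∀ x ∈ nilp (Dpi q π) (theta tC m l), ∃ y ∈ nilp (Dpi q π) (theta tC m l),
      q • y = x := fun x hx => nilp_div hstab Dpi_div hfin (fun x hx => hx.2) hx
  rw [card_tors hdiv, ← pow_mul, mul_comm, pow_mul]
  congr 1
  refine card_tors_nilp (fq q π) ?_ ?_ _ ?_
  · -- injectivity
    intro v w hvw
    have h1 := pfC_inj h hvw
    funext j
    have h2 := DFunLike.congr_fun h1 (ofAdd (Pi.single j 1))
    have h3 := zqM_injective q h2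
    change ofAdd (dotR v (Pi.single j 1)) = ofAdd (dotR w (Pi.single j 1)) at h3
    rw [dotR_single, dotR_single] at h3
    exact ofAdd.injective h3
  · -- range
    intro x
    constructor
    · rintro ⟨⟨⟨ψ, rfl⟩, -⟩, hx⟩
      rw [pfC_nsmul] at hx
      have h1 := pfC_eq_zero h hx
      choose w hw using fun x => exists_zqM (q := q) (z := ψ x) (DFunLike.congr_fun h1 x)
      let g : (Fin n → ℤ) →+ ZMod q :=
        { toFun := fun x => toAdd (w (ofAdd x))
          map_zero' := by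
            have h2 : w (ofAdd 0) = 1 := by
              apply zqM_injective q
              rw [hw, map_one]
              exact map_one ψ
            rw [h2]
            rfl
          map_add' := fun x y => by
            have h2 : w (ofAdd (x + y)) = w (ofAdd x) * w (ofAdd y) := by
              apply zqM_injective q
              rw [hw, map_mul, hw, hw, ofAdd_add, map_mul]
            rw [h2]
            rfl }
      refine ⟨fun j => g (Pi.single j 1), ?_⟩
      change pfC ((zqM q).comp (dotH fun j => g (Pi.single j 1))) (Additive.ofMul π) = _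
      refine congrArg (fun ψ' : Multiplicative (Fin n → ℤ) →* ℂˣ =>
        (pfC ψ' (Additive.ofMul π) : XC N)) (MonoidHom.ext fun x => ?_)
      rw [← hw x]
      exact congrArg (fun z => zqM q (ofAdd z)) (eq_dotR g (toAdd x)).symm
    · rintro ⟨v, rfl⟩
      have h0 : q • fq q π v = 0 := by
        refine XC.ext fun γ => ?_
        rw [XC.ch_nsmul]
        exact zqM_pow q _
      exact ⟨⟨⟨(zqM q).comp (dotH v), rfl⟩, 1, by rw [pow_one]; exact h0⟩, h0⟩
  · intro v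
    refine (theta_pfC hM _).trans ?_
    refine XC.ext fun γ => ?_
    exact congrArg (fun z => zqM q (ofAdd z)) (dotR_matM M v (toAdd (π γ)))

end

end Fermat.Agent.Mzr
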