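import Fermat.Agent.Mzr.Nil
import Fermat.Agent.ES.MaxPrinciple

/-!
Complex conjugation on the characters.
-/

set_option autoImplicit false

noncomputable section

namespace Fermat.Agent.Mzr

open CongruenceSubgroup UpperHalfPlane
open Fermat.Agent.ESCore Fermat.Agent.ESCore.ModP Fermat.Agent.ESCore.Univ
open Fermat.Agent.ES (cj J_smul_smul J_tendsto cj_mdiff)
open Fermat.Agent.Eis16 (HasQ)
open ModularCurve.Period (jConjGamma0 jConjSL jConjGamma0_coe jConjSL_coe)
open scoped MatrixGroups ModularForm ComplexConjugate Manifold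

/-- The field of algebraic numbers. -/
local notation "Qb" => AlgebraicClosure ℚ
/-- The absolute Galois group. -/
local notation "GQ" => (AlgebraicClosure ℚ ≃ₐ[ℚ] AlgebraicClosure ℚ)

theorem ιC_cc (x : Qb) : ιC (complexConjugation x) = conj (ιC x) :=
  complexEmbedding_complexConjugation x

theorem denom_jConj (g : SL(2, ℤ)) (z : ℍ) :
    denom (jConjSL g) ((J • z : ℍ) : ℂ) = conj (denom g (z : ℂ)) := by
  rw [ModularGroup.denom_apply, ModularGroup.denom_apply, coe_J_smul]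
  simp

theorem cj_slash (k : ℤ) (F : ℍ → ℂ) (g : SL(2, ℤ)) :
    (cj F) ∣[k] g = cj (F ∣[k] (jConjSL g)) := by
  ext z
  rw [ModularForm.SL_slash_apply]
  simp only [cj]
  rw [ModularForm.SL_slash_apply, J_smul_smul, denom_jConj, map_mul, map_zpow₀, Complex.conj_conj]

theorem cj_bdd {F : ℍ → ℂ} (h : IsBoundedAtImInfty F) : IsBoundedAtImInfty (cj F) := by
  have h1 : (fun z : ℍ => F (J • z)) =O[atImInfty] (1 : ℍ → ℝ) :=
    Asymptotics.IsBigO.comp_tendsto h J_tendsto
  refine Asymptotics.IsBigO.of_norm_left ?_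
  simp only [cj, RCLike.norm_conj]
  exact h1.norm_left

/-- the conjugate character -/
def cjChar {N : ℕ} (χ : Gamma0 N →* ℂˣ) : Gamma0 N →* ℂˣ :=
  (Units.map (starRingEnd ℂ : ℂ →* ℂ)).comp (χ.comp (jConjGamma0 N))

theorem cj_mform {N : ℕ} {χ : Gamma0 N →* ℂˣ} {k : ℤ} {F : ℍ → ℂ} (hF : F ∈ mform χ k) :
    cj F ∈ mform (cjChar χ) k := by
  refine ⟨cj_mdiff hF.1, fun g => ?_, fun A => ?_⟩
  · rw [cj_slash]
    have h1 := hF.2.1 (jConjGamma0 N g)
    rw [jConjGamma0_coe] at h1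
    rw [h1]
    ext z
    simp only [cj, Pi.smul_apply, smul_eq_mul, map_mul]
    rfl
  · rw [cj_slash]
    exact cj_bdd (hF.2.2 _)

theorem cj_hasQ {F : ℍ → ℂ} {P : PowerSeries ℂ} (h : HasQ 1 F P) :
    HasQ 1 (cj F) (P.map (starRingEnd ℂ)) := by
  intro τ
  have h1 := (h (J • τ)).map (starRingEnd ℂ) Complex.continuous_conj
  have h2 : (fun n : ℕ => (P.map (starRingEnd ℂ)).coeff n * Function.Periodic.qParam 1 τ ^ n) =
      (starRingEnd ℂ) ∘ fun n : ℕ => P.coeff n * Function.Periodic.qParam 1 ((J • τ : ℍ) : ℂ) ^ n := by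
    funext n
    rw [Function.comp_apply, map_mul, map_pow, PowerSeries.coeff_map]
    congr 2
    rw [Function.Periodic.qParam, Function.Periodic.qParam, ← Complex.exp_conj, coe_J_smul]
    congr 1
    simp
    exact Or.inl (map_ofNat (starRingEnd ℂ) 2).symm
  rw [h2]
  exact h1

theorem cjChar_mem {N m : ℕ} {χ : Gamma0 N →* ℂˣ} (hχ : χ ∈ XG N m) : cjChar χ ∈ XG N m := by
  refine ⟨?_, fun γ hγ => ?_⟩
  · refine MonoidHom.ext fun γ => ?_
    have h1 := DFunLike.congr_fun hχ.1 (jConjGamma0 N γ)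
    rw [MonoidHom.pow_apply] at h1 ⊢
    change (Units.map (starRingEnd ℂ : ℂ →* ℂ)) (χ (jConjGamma0 N γ)) ^ m = 1
    rw [← map_pow, h1]
    exact map_one _
  · have h1 : χ (jConjGamma0 N γ) = 1 := by
      refine hχ.2 _ ?_
      rw [jConjGamma0_coe]
      have h2 : (jConjSL (γ : SL(2, ℤ))) 1 0 = - (γ : SL(2, ℤ)) 1 0 := by
        rw [jConjSL_coe]
        simp
      rw [h2, hγ, neg_zero]
    change (Units.map (starRingEnd ℂ : ℂ →* ℂ)) (χ (jConjGamma0 N γ)) = 1
    rw [h1]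
    exact map_one _

theorem conj_root {m : ℕ} (hm : 0 < m) {u : ℂˣ} (h : u ^ m = 1) :
    Units.map (starRingEnd ℂ : ℂ →* ℂ) u = u⁻¹ := by
  have h1 : ((u : ℂ)) ^ m = 1 := by rw [← Units.val_pow_eq_pow_val, h, Units.val_one]
  have h2 : ‖(u : ℂ)‖ = 1 := Complex.norm_eq_one_of_pow_eq_one h1 hm.ne'
  apply Units.ext
  rw [Units.val_inv_eq_inv_val, Complex.inv_eq_conj h2]
  rfl

variable {N : ℕ} [NeZero N]

theorem galX_cc {m : ℕ} (hm : 0 < m) (χ : XG N m) :
    (galX N hm complexConjugation χ).1 = cjChar χ.1 := by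
  obtain ⟨F, hF, hF0, P, hP⟩ := algForms hm χ
  have hF1 : F ∈ mform χ.1 (12 * (1 : ℕ)) := mform_congr hF rfl (by norm_num)
  obtain ⟨G, hG, hG0, hGP⟩ := galSpec_galX hm complexConjugation χ 1 F hF1 hF0 P hP
  have h1 := cj_mform hF1
  have h2 := cj_hasQ (hasQ_mform χ.2.2 hF1)
  have h3 : qExpansion 1 (cj F) = (gmap complexConjugation P).map ιC := by
    rw [h2.qExpansion_eq one_pos, hP]
    ext n
    rw [PowerSeries.coeff_map, PowerSeries.coeff_map, PowerSeries.coeff_map, gmap,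
      PowerSeries.coeff_map]
    exact (ιC_cc _).symm
  have h4 : G = cj F := Gal.fun_unique (T_mem_Gamma0 N) (galX N hm complexConjugation χ).2
    (cjChar_mem χ.2) hG h1 (hGP.trans h3.symm)
  subst h4
  exact Gal.char_unique hG h1 hG0

/-- composition with the conjugation by `diag (1, -1)` -/
def jC : Module.End ℤ (XC N) := AddMonoidHom.toIntLinearMap
  { toFun := fun x => XC.of (x.ch.comp (jConjGamma0 N))
    map_zero' := rfl
    map_add' := fun _ _ => rfl }

omit [NeZero N] in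
theorem jC_ch (x : XC N) (γ : Gamma0 N) : (jC x).ch γ = x.ch (jConjGamma0 N γ) := rfl

omit [NeZero N] in
theorem jC_jC (x : XC N) : jC (jC x) = x := XC.ext fun γ => by
  rw [jC_ch, jC_ch, ModularCurve.Period.jConjGamma0_jConjGamma0]

variable {q : ℕ} [NeZero q] [hq : Fact q.Prime]

/-- **Complex conjugation on the Eisenstein part.** -/
theorem inE_gE_cc (k : ℕ) (x : EX N q k) :
    inE k (gE k complexConjugation x) = - jC (inE k x) := by
  refine XC.ext fun γ => ?_
  rw [XC.ch_neg, jC_ch]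
  have h1 : (galX N (pos_pow q k) complexConjugation x.ch).1 γ = cjChar x.ch.1 γ :=
    DFunLike.congr_fun (galX_cc (pos_pow q k) x.ch) γ
  have h2 : (x.ch.1 (jConjGamma0 N γ)) ^ (q ^ k) = 1 :=
    DFunLike.congr_fun x.ch.2.1 (jConjGamma0 N γ)
  have h3 := conj_root (pos_pow q k) h2
  exact h1.trans h3

end Fermat.Agent.Mzr
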