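import Fermat.Agent.Mzr.CjAlg
import Fermat.Agent.Mzr.CjGal
import Fermat.Agent.Mzr.Eta
import Fermat.Agent.ESG.Eig

/-!
Hecke operators and the conjugation by `diag (1, -1)`.
-/

set_option autoImplicit false

noncomputable section

namespace Fermat.Agent.Mzr

open CongruenceSubgroup
open Fermat.Agent.ESCore Fermat.Agent.ESCore.ModP Fermat.Agent.ESCore.Univ
open Fermat.Agent.ESCore.UnivG
open ModularCurve.Period (jConjGamma0 jConjSL jConjGamma0_coe jConjSL_coe jConjGamma0_jConjGamma0)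
open scoped MatrixGroups

variable {N : ℕ} {B B' : Type} [CommGroup B] [CommGroup B']

/-! ### The operators -/

/-- the Hecke operators on characters -/
def hkB (B : Type) [CommGroup B] {S : Finset ℕ} (i : Idx N S) :
    Module.End ℤ (Additive (Gamma0 N →* B)) := AddMonoidHom.toIntLinearMap
  { toFun := fun x => Additive.ofMul (heckeChar i.2.1 i.2.2.1 x.toMul)
    map_zero' := congrArg Additive.ofMul (heckeChar_one i.2.1 i.2.2.1)
    map_add' := fun x y => congrArg Additive.ofMul (heckeChar_mul i.2.1 i.2.2.1 x.toMul y.toMul) }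

/-- `T_l - 1 - l` -/
def tB (B : Type) [CommGroup B] {S : Finset ℕ} (i : Idx N S) :
    Module.End ℤ (Additive (Gamma0 N →* B)) :=
  hkB B i - ((1 + i.1 : ℕ) : Module.End ℤ (Additive (Gamma0 N →* B)))

theorem tB_apply {S : Finset ℕ} (i : Idx N S) (x : Additive (Gamma0 N →* B)) :
    tB B i x = hkB B i x - (1 + i.1) • x := by rw [tB, LinearMap.sub_apply, nat_end_apply]

/-- push forward -/
def pf (f : B →* B') : Additive (Gamma0 N →* B) →+ Additive (Gamma0 N →* B') where
  toFun χ := Additive.ofMul (f.comp χ.toMul)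
  map_zero' := congrArg Additive.ofMul (MonoidHom.comp_one f)
  map_add' χ ψ := congrArg Additive.ofMul (MonoidHom.comp_mul f χ.toMul ψ.toMul)

theorem pf_tB (f : B →* B') {S : Finset ℕ} (i : Idx N S) (x : Additive (Gamma0 N →* B)) :
    pf f (tB B i x) = tB B' i (pf f x) := by
  rw [tB_apply, tB_apply, map_sub, map_nsmul]
  congr 1
  exact (congrArg Additive.ofMul (heckeChar_comp i.2.1 i.2.2.1 f x.toMul)).symm

/-- push forward to `XC` -/
def pfC (f : B →* ℂˣ) : Additive (Gamma0 N →* B) →+ XC N where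
  toFun χ := XC.of (f.comp χ.toMul)
  map_zero' := congrArg XC.of (MonoidHom.comp_one f)
  map_add' χ ψ := congrArg XC.of (MonoidHom.comp_mul f χ.toMul ψ.toMul)

theorem pfC_ch (f : B →* ℂˣ) (x : Additive (Gamma0 N →* B)) (γ : Gamma0 N) :
    (pfC f x).ch γ = f (x.toMul γ) := rfl

theorem pfC_tB (f : B →* ℂˣ) {S : Finset ℕ} (i : Idx N S) (x : Additive (Gamma0 N →* B)) :
    pfC f (tB B i x) = tC i (pfC f x) := by
  rw [tB_apply, tC_apply, map_sub, map_nsmul]
  congr 1
  exact (congrArg XC.of (heckeChar_comp i.2.1 i.2.2.1 f x.toMul)).symm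

/-- composition with the conjugation by `diag (1, -1)` -/
def jB (B : Type) [CommGroup B] : Additive (Gamma0 N →* B) →+ Additive (Gamma0 N →* B) where
  toFun χ := Additive.ofMul (χ.toMul.comp (jConjGamma0 N))
  map_zero' := rfl
  map_add' _ _ := rfl

theorem jB_jB (x : Additive (Gamma0 N →* B)) : jB B (jB B x) = x := by
  apply Additive.toMul.injective
  refine MonoidHom.ext fun γ => ?_
  change x.toMul (jConjGamma0 N (jConjGamma0 N γ)) = _
  rw [jConjGamma0_jConjGamma0]

theorem heckeChar_jConj [NeZero N] {l : ℕ} (hl : l.Prime) (hN : ¬ l ∣ N) (χ : Gamma0 N →* B) :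
    heckeChar hl hN (χ.comp (jConjGamma0 N)) = (heckeChar hl hN χ).comp (jConjGamma0 N) := by
  have h1 := Fermat.Agent.ESG.heckeCharG_jG (A := Additive B) (Gamma1_in_Gamma0 N) le_rfl hl hN
    (show Gamma0 N →* Multiplicative (Additive B) from χ)
  rw [heckeCharG_eq, heckeCharG_eq] at h1
  exact h1

theorem jB_tB [NeZero N] {S : Finset ℕ} (i : Idx N S) (x : Additive (Gamma0 N →* B)) :
    jB B (tB B i x) = tB B i (jB B x) := by
  rw [tB_apply, tB_apply, map_sub, map_nsmul]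
  congr 1
  exact (congrArg Additive.ofMul (heckeChar_jConj i.2.1 i.2.2.1 x.toMul)).symm

/-- parabolic characters in a sign part -/
def PSub (N : ℕ) (B : Type) [CommGroup B] (ε : ℤ) : AddSubgroup (Additive (Gamma0 N →* B)) where
  carrier := {x | ParB x.toMul ∧ jB B x = ε • x}
  zero_mem' := ⟨ParB.one, by rw [map_zero, smul_zero]⟩
  add_mem' := fun {x y} hx hy => ⟨hx.1.mul hy.1, by rw [map_add, hx.2, hy.2, smul_add]⟩
  neg_mem' := fun {x} hx => ⟨hx.1.inv, by rw [map_neg, hx.2, smul_neg]⟩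

theorem tB_mem_PSub [NeZero N] {ε : ℤ} {S : Finset ℕ} (i : Idx N S) {x : Additive (Gamma0 N →* B)}
    (hx : x ∈ PSub N B ε) : tB B i x ∈ PSub N B ε := by
  rw [tB_apply]
  refine (PSub N B ε).sub_mem ⟨parB_heckeChar _ _ hx.1, ?_⟩ ((PSub N B ε).nsmul_mem hx _)
  have h1 : jB B (hkB B i x) = hkB B i (jB B x) :=
    (congrArg Additive.ofMul (heckeChar_jConj i.2.1 i.2.2.1 x.toMul)).symm
  rw [h1, hx.2, map_zsmul]

/-! ### The universal character -/

/-- the universal parabolic character with a sign -/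
structure PiD (N : ℕ) (ε : ℤ) (n : ℕ) (π : Gamma0 N →* Multiplicative (Fin n → ℤ)) : Prop where
  surj : Function.Surjective π
  mem : Additive.ofMul π ∈ PSub N (Multiplicative (Fin n → ℤ)) ε
  fac : ∀ {A : Type} [AddCommGroup A] [IsAddTorsionFree A] (χ : Gamma0 N →* Multiplicative A),
    Additive.ofMul χ ∈ PSub N (Multiplicative A) ε → ∀ γ, π γ = 1 → χ γ = 1

theorem exists_piD (N : ℕ) [NeZero N] (ε : ℤ) : ∃ n π, PiD N ε n π := by
  have := fg_Gamma0 N
  obtain ⟨n, π, hπ, hX, e, he, h⟩ := exists_struct (Gamma0 N)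
    ({γ | LG.trS (γ : SL(2, ℤ)) ^ 2 = 4} ∪ Set.range fun γ => jConjGamma0 N γ * (γ ^ ε)⁻¹)
  refine ⟨n, π, hπ, ⟨fun γ hγ => hX γ (Or.inl hγ), ?_⟩, ?_⟩
  · apply Additive.toMul.injective
    refine MonoidHom.ext fun γ => ?_
    have h1 := hX _ (Or.inr ⟨γ, rfl⟩)
    rw [map_mul, map_inv, map_zpow, mul_inv_eq_one] at h1
    exact h1
  · intro A _ _ χ hχ γ hγ
    have h1 : χ γ ^ e = 1 := by
      refine h χ ?_ γ hγ
      rintro x (hx | ⟨δ, rfl⟩)
      · exact hχ.1 x hx
      · rw [map_mul, map_inv, map_zpow, mul_inv_eq_one]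
        exact DFunLike.congr_fun (congrArg Additive.toMul hχ.2) δ
    have h2 : e • (Multiplicative.toAdd (χ γ)) = 0 := h1
    have h3 : Multiplicative.toAdd (χ γ) = 0 := (nsmul_eq_zero_iff_right he.ne').mp h2
    exact h3

variable {ε : ℤ} {n : ℕ} {π : Gamma0 N →* Multiplicative (Fin n → ℤ)}

theorem PiD.lift (h : PiD N ε n π) {A : Type} [AddCommGroup A] [IsAddTorsionFree A]
    {χ : Gamma0 N →* Multiplicative A} (hχ : Additive.ofMul χ ∈ PSub N (Multiplicative A) ε) :
    ∃ g : (Fin n → ℤ) →+ A, ∀ γ, Multiplicative.toAdd (χ γ) = g (Multiplicative.toAdd (π γ)) := by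
  let f := (π.liftOfSurjective h.surj) ⟨χ, fun γ hγ => h.fac χ hχ γ hγ⟩
  have hf : ∀ γ, f (π γ) = χ γ := fun γ => MonoidHom.liftOfRightInverse_comp_apply _ _ _ _ γ
  exact ⟨AddMonoidHom.toMultiplicative.symm f, fun γ => (congrArg Multiplicative.toAdd (hf γ)).symm⟩

theorem PiD.exists_M [NeZero N] (h : PiD N ε n π) {S : Finset ℕ} (m : ℕ) (l : List (Idx N S)) :
    ∃ M : (Fin n → ℤ) →+ (Fin n → ℤ), ∀ γ,
      Multiplicative.toAdd ((theta (tB (Multiplicative (Fin n → ℤ))) m l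
        (Additive.ofMul π)).toMul γ) = M (Multiplicative.toAdd (π γ)) :=
  h.lift (χ := (theta (tB (Multiplicative (Fin n → ℤ))) m l (Additive.ofMul π)).toMul)
    (theta_mem (fun i _ hx => tB_mem_PSub i hx) m l h.mem)

end Fermat.Agent.Mzr
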