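import Fermat.Agent.Mzr.CjPi
import Fermat.Agent.ESG.Pair

/-!
The two signs have the same characteristic polynomials.
-/

set_option autoImplicit false

noncomputable section

namespace Fermat.Agent.Mzr

open CongruenceSubgroup Module
open Fermat.Agent.ESCore Fermat.Agent.ESCore.ModP Fermat.Agent.ESCore.Univ
open Fermat.Agent.ESCore.UnivG Fermat.Agent.ESG
open ModularCurve.Period
open Multiplicative (toAdd ofAdd)
open scoped MatrixGroups

/-! ### Generalities -/

/-- the operator `1 - ∏ (1 - tᵢ ^ m)` -/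
def thR {ι R M : Type*} [CommRing R] [AddCommGroup M] [Module R M] (t : ι → Module.End R M)
    (m : ℕ) (l : List ι) : Module.End R M := 1 - (l.map fun i => 1 - t i ^ m).prod

theorem pow_intertwineR {R M M' : Type*} [CommRing R] [AddCommGroup M] [Module R M]
    [AddCommGroup M'] {s : Module.End R M} {t : Module.End ℤ M'} (φ : M →+ M')
    (h : ∀ m, φ (s m) = t (φ m)) (k : ℕ) (m : M) : φ ((s ^ k) m) = (t ^ k) (φ m) := by
  induction k generalizing m with
  | zero => rfl
  | succ k ih => rw [pow_succ, pow_succ, Module.End.mul_apply, Module.End.mul_apply, ih, h]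

theorem thR_intertwine {ι R M M' : Type*} [CommRing R] [AddCommGroup M] [Module R M]
    [AddCommGroup M'] {t : ι → Module.End R M} {t' : ι → Module.End ℤ M'} (φ : M →+ M')
    (h : ∀ i x, φ (t i x) = t' i (φ x)) (m : ℕ) (l : List ι) (x : M) :
    φ (thR t m l x) = theta t' m l (φ x) := by
  have h1 : ∀ x, φ ((l.map fun i => 1 - t i ^ m).prod x) =
      (l.map fun i => 1 - t' i ^ m).prod (φ x) := by
    induction l with
    | nil => intro x; rfl
    | cons i l ih =>
      intro x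
      rw [List.map_cons, List.prod_cons, List.map_cons, List.prod_cons, Module.End.mul_apply,
        Module.End.mul_apply, ← ih, LinearMap.sub_apply, LinearMap.sub_apply, map_sub,
        pow_intertwineR φ (h i)]
      rfl
  rw [thR, theta, LinearMap.sub_apply, LinearMap.sub_apply, map_sub, h1]
  rfl

/-- additive characters -/
def cA {Γ : Type} [Group Γ] : Additive (Γ →* Multiplicative ℂ) →+ (Additive Γ →+ ℂ) where
  toFun x := AddMonoidHom.toMultiplicativeRight.symm x.toMul
  map_zero' := rfl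
  map_add' _ _ := rfl

theorem cA_apply {Γ : Type} [Group Γ] (x : Additive (Γ →* Multiplicative ℂ)) (γ : Γ) :
    cA x (Additive.ofMul γ) = toAdd (x.toMul γ) := rfl

theorem cA_injective {Γ : Type} [Group Γ] :
    Function.Injective (cA : Additive (Γ →* Multiplicative ℂ) →+ (Additive Γ →+ ℂ)) := by
  intro x y h
  apply Additive.toMul.injective
  refine MonoidHom.ext fun γ => ?_
  exact DFunLike.congr_fun h (Additive.ofMul γ)

variable {N : ℕ} [NeZero N]

theorem hNpos : 0 < N := Nat.pos_of_ne_zero (NeZero.ne N)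

/-- `T_l - 1 - l` on the cusp forms -/
def tS {S : Finset ℕ} (i : Idx N S) : Module.End ℂ (S2 (Gamma0 N)) :=
  heckeS2 (Gamma1_in_Gamma0 N) le_rfl i.2.1 i.2.2.1 - ((1 + i.1 : ℕ) : Module.End ℂ _)

omit [NeZero N] in
theorem tS_apply {S : Finset ℕ} (i : Idx N S) (f : S2 (Gamma0 N)) :
    tS i f = heckeS2 (Gamma1_in_Gamma0 N) le_rfl i.2.1 i.2.2.1 f - (1 + i.1) • f := by
  rw [tS, LinearMap.sub_apply]
  congr 1

/-- periods with a sign -/
def psiX (N : ℕ) [NeZero N] (ε : ℤ) :
    S2 (Gamma0 N) →+ Additive (Gamma0 N →* Multiplicative ℂ) where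
  toFun f := perHomG (Gamma1_in_Gamma0 N) hNpos f +
    ε • jB (Multiplicative ℂ) (perHomG (Gamma1_in_Gamma0 N) hNpos f)
  map_zero' := by rw [map_zero, map_zero, smul_zero, add_zero]
  map_add' f g := by
    rw [map_add, map_add, smul_add]
    abel

theorem psiX_apply (ε : ℤ) (f : S2 (Gamma0 N)) :
    psiX N ε f = perHomG (Gamma1_in_Gamma0 N) hNpos f +
      ε • jB (Multiplicative ℂ) (perHomG (Gamma1_in_Gamma0 N) hNpos f) := rfl

theorem perHomG_tS {S : Finset ℕ} (i : Idx N S) (f : S2 (Gamma0 N)) :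
    perHomG (Gamma1_in_Gamma0 N) hNpos (tS i f) =
      tB (Multiplicative ℂ) i (perHomG (Gamma1_in_Gamma0 N) hNpos f) := by
  rw [tS_apply, tB_apply, map_sub, map_nsmul]
  congr 1
  refine (congrArg Additive.ofMul (per_hecke (Gamma1_in_Gamma0 N) le_rfl hNpos i.2.1 i.2.2.1
    f)).trans ?_
  exact congrArg Additive.ofMul (heckeCharG_eq i.2.1 i.2.2.1 _)

theorem psiX_tS (ε : ℤ) {S : Finset ℕ} (i : Idx N S) (f : S2 (Gamma0 N)) :
    psiX N ε (tS i f) = tB (Multiplicative ℂ) i (psiX N ε f) := by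
  rw [psiX_apply, psiX_apply, perHomG_tS, jB_tB, map_add, map_zsmul]

/-- periods with a sign, linearly -/
def psiA (N : ℕ) [NeZero N] (ε : ℤ) : S2 (Gamma0 N) →ₗ[ℂ] (Additive (Gamma0 N) →+ ℂ) :=
  perA (Gamma1_in_Gamma0 N) hNpos +
    (ε : ℂ) • (jA (Gamma1_in_Gamma0 N) le_rfl).comp (perA (Gamma1_in_Gamma0 N) hNpos)

theorem psiA_apply (ε : ℤ) (f : S2 (Gamma0 N)) :
    psiA N ε f = perA (Gamma1_in_Gamma0 N) hNpos f +
      (ε : ℂ) • jA (Gamma1_in_Gamma0 N) le_rfl (perA (Gamma1_in_Gamma0 N) hNpos f) := rfl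

theorem cA_psiX (ε : ℤ) (f : S2 (Gamma0 N)) : cA (psiX N ε f) = psiA N ε f := by
  rw [psiX_apply, psiA_apply, map_add, map_zsmul]
  congr 1
  refine AddMonoidHom.ext fun γ => ?_
  change ε • (_ : ℂ) = (ε : ℂ) * (_ : ℂ)
  rw [zsmul_eq_mul]
  rfl

theorem psiA_eq_pair (ε : ℤ) (f : S2 (Gamma0 N)) :
    psiA N ε f = pairA (Gamma1_in_Gamma0 N) le_rfl hNpos (f, (ε : ℂ) • f) := by
  rw [psiA_apply, pairA_apply, map_smul, map_smul]

theorem psiA_injective (ε : ℤ) : Function.Injective (psiA N ε) := by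
  intro f g h
  rw [psiA_eq_pair, psiA_eq_pair] at h
  exact congrArg Prod.fst (pairA_injective _ _ _ h)

omit [NeZero N] in
theorem jA_jA (c : Additive (Gamma0 N) →+ ℂ) :
    jA (Gamma1_in_Gamma0 N) le_rfl (jA (Gamma1_in_Gamma0 N) le_rfl c) = c := by
  refine AddMonoidHom.ext fun γ => ?_
  have h1 := jA_apply (Gamma1_in_Gamma0 N) le_rfl (jA (Gamma1_in_Gamma0 N) le_rfl c) γ.toMul
  have h2 := jA_apply (Gamma1_in_Gamma0 N) le_rfl c (jG (Gamma1_in_Gamma0 N) le_rfl γ.toMul)
  rw [jG_jG] at h2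
  exact h1.trans h2

theorem range_psiA {ε : ℤ} (hε : ε * ε = 1) (c : Additive (Gamma0 N) →+ ℂ) :
    c ∈ LinearMap.range (psiA N ε) ↔ c ∈ parabolicHoms ℂ (Gamma0 N) ℂ ∧
      jA (Gamma1_in_Gamma0 N) le_rfl c = (ε : ℂ) • c := by
  have hεC : (ε : ℂ) * ε = 1 := by exact_mod_cast hε
  constructor
  · rintro ⟨f, rfl⟩
    refine ⟨?_, ?_⟩
    · rw [psiA_eq_pair]
      exact pairA_mem _ _ _ _
    · rw [psiA_apply, map_add, map_smul, jA_jA, smul_add, smul_smul, hεC, one_smul, add_comm]
  · rintro ⟨hc, hj⟩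
    obtain ⟨f, g, e⟩ := exists_pair (Gamma1_in_Gamma0 N) le_rfl hNpos hc
    refine ⟨f, ?_⟩
    have h1 : pairA (Gamma1_in_Gamma0 N) le_rfl hNpos (g, f) =
        pairA (Gamma1_in_Gamma0 N) le_rfl hNpos ((ε : ℂ) • f, (ε : ℂ) • g) := by
      rw [pairA_apply, pairA_apply, map_smul, map_smul, map_smul, ← smul_add, ← e, ← hj, e,
        map_add, jA_jA, add_comm]
    have h2 := congrArg Prod.fst (pairA_injective _ _ _ h1)
    rw [e, psiA_apply]
    have h3 : g = (ε : ℂ) • f := h2
    rw [h3, map_smul, map_smul]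

/-! ### The universal character -/

variable {ε : ℤ} {n : ℕ} {π : Gamma0 N →* Multiplicative (Fin n → ℤ)}

/-- the pairing, multiplicatively -/
def dotH {R : Type} [CommRing R] (v : Fin n → R) :
    Multiplicative (Fin n → ℤ) →* Multiplicative R where
  toFun x := ofAdd (dotR v (toAdd x))
  map_one' := congrArg ofAdd (dotR_zero v)
  map_mul' x y := congrArg ofAdd (dotR_add v (toAdd x) (toAdd y))

variable (π) in
/-- the characters over `ℂ` -/
def eX (v : Fin n → ℂ) : Additive (Gamma0 N →* Multiplicative ℂ) :=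
  pf (dotH v) (Additive.ofMul π)

variable (π) in
/-- the characters over `ℂ`, linearly -/
def eA : (Fin n → ℂ) →ₗ[ℂ] (Additive (Gamma0 N) →+ ℂ) where
  toFun v := cA (eX π v)
  map_add' v w := AddMonoidHom.ext fun _ => dotR_add_left v w _
  map_smul' c v := AddMonoidHom.ext fun _ => dotR_smul_left c v _

omit [NeZero N] in
theorem eA_apply (v : Fin n → ℂ) (γ : Gamma0 N) :
    eA π v (Additive.ofMul γ) = dotR v (toAdd (π γ)) := rfl

omit [NeZero N] in
theorem eA_injective (h : PiD N ε n π) : Function.Injective (eA π) := by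
  intro v w hvw
  funext j
  obtain ⟨γ, hγ⟩ := h.surj (ofAdd (Pi.single j 1))
  have h1 := DFunLike.congr_fun hvw (Additive.ofMul γ)
  rw [eA_apply, eA_apply, hγ, toAdd_ofAdd, dotR_single, dotR_single] at h1
  exact h1

omit [NeZero N] in
theorem range_eA (h : PiD N ε n π) (c : Additive (Gamma0 N) →+ ℂ) :
    c ∈ LinearMap.range (eA π) ↔ c ∈ parabolicHoms ℂ (Gamma0 N) ℂ ∧
      jA (Gamma1_in_Gamma0 N) le_rfl c = (ε : ℂ) • c := by
  constructor
  · rintro ⟨v, rfl⟩
    refine ⟨fun γ hγ => ?_, ?_⟩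
    · rw [eA_apply]
      have h1 : π γ = 1 := h.mem.1 γ (by rw [← hγ, LG.trS, Matrix.trace_fin_two])
      rw [h1]
      exact dotR_zero v
    · refine AddMonoidHom.ext fun γ => ?_
      have h1 : π (jConjGamma0 N γ.toMul) = π γ.toMul ^ ε :=
        DFunLike.congr_fun (congrArg Additive.toMul h.mem.2) γ.toMul
      change toAdd (dotH v (π (jConjGamma0 N γ.toMul))) = (ε : ℂ) * toAdd (dotH v (π γ.toMul))
      rw [h1, map_zpow, toAdd_zpow, zsmul_eq_mul]
  · rintro ⟨hc, hj⟩
    let χ : Gamma0 N →* Multiplicative ℂ := AddMonoidHom.toMultiplicativeRight c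
    have hχ : Additive.ofMul χ ∈ PSub N (Multiplicative ℂ) ε := by
      refine ⟨fun γ hγ => ?_, ?_⟩
      · exact hc γ (by rw [← hγ, LG.trS, Matrix.trace_fin_two])
      · apply Additive.toMul.injective
        refine MonoidHom.ext fun γ => ?_
        have h1 := DFunLike.congr_fun hj (Additive.ofMul γ)
        change c (Additive.ofMul (jConjGamma0 N γ)) = ε • c (Additive.ofMul γ)
        rw [zsmul_eq_mul]
        exact h1
    obtain ⟨g, hg⟩ := h.lift hχ
    refine ⟨fun j => g (Pi.single j 1), ?_⟩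
    refine AddMonoidHom.ext fun γ => ?_
    exact (eq_dotR g _).symm.trans (hg γ.toMul).symm

/-- **The characteristic polynomial.** -/
theorem charpoly_eq (hε : ε * ε = 1) (h : PiD N ε n π) {S : Finset ℕ} (m : ℕ)
    (l : List (Idx N S)) {M : (Fin n → ℤ) →+ (Fin n → ℤ)}
    (hM : ∀ γ, toAdd ((theta (tB (Multiplicative (Fin n → ℤ))) m l
        (Additive.ofMul π)).toMul γ) = M (toAdd (π γ))) :
    Module.Finite ℂ (S2 (Gamma0 N)) ∧
    ∀ [Module.Finite ℂ (S2 (Gamma0 N))],
    ((matM M).map (Int.castRingHom ℂ)).charpoly =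
      (thR (fun i : Idx N S => tS i) m l : Module.End ℂ (S2 (Gamma0 N))).charpoly := by
  have hr : LinearMap.range (eA π) = LinearMap.range (psiA N ε) := by
    ext c
    rw [range_eA h, range_psiA hε]
  let e : (Fin n → ℂ) ≃ₗ[ℂ] S2 (Gamma0 N) :=
    (LinearEquiv.ofInjective (eA π) (eA_injective h)).trans
      ((LinearEquiv.ofEq _ _ hr).trans (LinearEquiv.ofInjective (psiA N ε) (psiA_injective ε)).symm)
  have he : ∀ v, psiA N ε (e v) = eA π v := by
    intro v
    have h1 := (LinearEquiv.ofInjective (psiA N ε) (psiA_injective ε)).apply_symm_apply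
      ((LinearEquiv.ofEq _ _ hr) (LinearEquiv.ofInjective (eA π) (eA_injective h) v))
    exact congrArg Subtype.val h1
  have heX : ∀ v, psiX N ε (e v) = eX π v := by
    intro v
    apply cA_injective
    rw [cA_psiX, he]
    rfl
  refine ⟨Module.Finite.equiv e, ?_⟩
  intro _
  set A := (matM M).map (Int.castRingHom ℂ) with hA
  have hAX : ∀ v, theta (tB (Multiplicative ℂ)) m l (eX π v) = eX π (A.mulVec v) := by
    intro v
    rw [eX, ← theta_intertwine (pf (dotH v)) (fun i x => pf_tB (dotH v) i x)]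
    apply Additive.toMul.injective
    refine MonoidHom.ext fun γ => ?_
    have h1 := dotR_matM M v (toAdd (π γ))
    rw [← hM] at h1
    exact congrArg ofAdd h1
  have hcomm : ∀ v, e (A.toLin' v) = thR (fun i : Idx N S => tS i) m l (e v) := by
    intro v
    apply psiA_injective ε
    rw [← cA_psiX, ← cA_psiX, thR_intertwine (psiX N ε) (fun i x => psiX_tS ε i x), heX, heX, hAX]
    rfl
  have h2 : e.conj A.toLin' = thR (fun i : Idx N S => tS i) m l := by
    refine LinearMap.ext fun f => ?_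
    rw [LinearEquiv.conj_apply_apply, hcomm, LinearEquiv.apply_symm_apply]
  rw [← h2, LinearEquiv.charpoly_conj, Matrix.charpoly_toLin']

end Fermat.Agent.Mzr
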