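import Fermat.Agent.Mzr.DK3

/-!
Bases of groups of homomorphisms; the number of torsion elements of the nilpotent part.
-/

set_option autoImplicit false

noncomputable section

namespace Fermat.Agent.Mzr

open CongruenceSubgroup Module
open Fermat.Agent.ESCore Fermat.Agent.ESCore.ModP Fermat.Agent.ESCore.Univ
open scoped MatrixGroups

/-- killing a set -/
def Kl {Γ B : Type*} [Group Γ] [CommGroup B] (X : Set Γ) (χ : Γ →* B) : Prop := ∀ x ∈ X, χ x = 1

theorem Kl.mul {Γ B : Type*} [Group Γ] [CommGroup B] {X : Set Γ} {χ ψ : Γ →* B} (h : Kl X χ)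
    (h' : Kl X ψ) : Kl X (χ * ψ) := fun x hx => by rw [MonoidHom.mul_apply, h x hx, h' x hx, mul_one]

theorem Kl.inv {Γ B : Type*} [Group Γ] [CommGroup B] {X : Set Γ} {χ : Γ →* B} (h : Kl X χ) :
    Kl X χ⁻¹ := fun x hx => by rw [MonoidHom.inv_apply, h x hx, inv_one]

theorem Kl.pow {Γ B : Type*} [Group Γ] [CommGroup B] {X : Set Γ} {χ : Γ →* B} (h : Kl X χ)
    (n : ℕ) : Kl X (χ ^ n) := fun x hx => by rw [MonoidHom.pow_apply, h x hx, one_pow]

/-- **Bases** of the homomorphisms killing a set, in torsion free groups. -/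
theorem exists_basis (Γ : Type) [Group Γ] [Group.FG Γ] (X : Set Γ) :
    ∃ (n : ℕ) (φ : Fin n → Γ →* Multiplicative ℤ) (g : Fin n → Γ), (∀ i, Kl X (φ i)) ∧
      (∀ i j, Multiplicative.toAdd (φ i (g j)) = if i = j then 1 else 0) ∧
      ∀ {A : Type} [AddCommGroup A] [IsAddTorsionFree A] (χ : Γ →* Multiplicative A), Kl X χ →
        ∀ γ, Multiplicative.toAdd (χ γ) =
          ∑ i, Multiplicative.toAdd (φ i γ) • Multiplicative.toAdd (χ (g i)) := by
  obtain ⟨n, π, hπ, hX, e, he, h⟩ := exists_struct Γ X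
  let φ : Fin n → Γ →* Multiplicative ℤ := fun i =>
    (AddMonoidHom.toMultiplicative (Pi.evalAddMonoidHom (fun _ : Fin n => ℤ) i)).comp π
  have hφ : ∀ i γ, Multiplicative.toAdd (φ i γ) = Multiplicative.toAdd (π γ) i := fun _ _ => rfl
  choose g hg using fun i : Fin n => hπ (Multiplicative.ofAdd (fun j => if j = i then 1 else 0))
  refine ⟨n, φ, g, fun i x hx => ?_, fun i j => ?_, ?_⟩
  · change (AddMonoidHom.toMultiplicative _) (π x) = 1
    rw [hX x hx, map_one]
  · rw [hφ, hg]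
    rfl
  · intro A _ _ χ hχ γ
    let γ' : Γ := (List.ofFn fun i => g i ^ (Multiplicative.toAdd (φ i γ))).prod
    have hprod : ∀ {B : Type} [CommGroup B] (ψ : Γ →* B),
        ψ γ' = ∏ i, ψ (g i) ^ (Multiplicative.toAdd (φ i γ)) := by
      intro B _ ψ
      rw [map_list_prod, List.map_ofFn, List.prod_ofFn]
      refine Finset.prod_congr rfl fun i _ => ?_
      rw [Function.comp_apply, map_zpow]
    have h1 : π γ' = π γ := by
      rw [hprod]
      apply Multiplicative.toAdd.injective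
      rw [toAdd_prod]
      funext j
      rw [Finset.sum_apply, Finset.sum_eq_single j]
      · rw [toAdd_zpow, hg]
        change _ * (if j = j then (1 : ℤ) else 0) = _
        rw [if_pos rfl, mul_one, hφ]
      · intro i _ hij
        rw [toAdd_zpow, hg]
        change _ * (if j = i then (1 : ℤ) else 0) = _
        rw [if_neg hij.symm, mul_zero]
      · exact fun h => absurd (Finset.mem_univ _) h
    have h2 : π (γ * γ'⁻¹) = 1 := by rw [map_mul, map_inv, h1, mul_inv_cancel]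
    have h3 := h χ hχ _ h2
    have h4 : Multiplicative.toAdd (χ (γ * γ'⁻¹)) = 0 := by
      have h5 : e • Multiplicative.toAdd (χ (γ * γ'⁻¹)) = 0 := by
        rw [← toAdd_pow, h3]
        rfl
      exact nsmul_right_injective (M := A) he.ne' (h5.trans (nsmul_zero e).symm)
    rw [map_mul, map_inv, toAdd_mul, toAdd_inv, ← sub_eq_add_neg, sub_eq_zero] at h4
    rw [h4, hprod, toAdd_prod]
    exact Finset.sum_congr rfl fun i _ => toAdd_zpow _ _

variable {N : ℕ}

/-- the divisible group attached to `X` -/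
def DX (X : Set (Gamma0 N)) (q : ℕ) [NeZero q] : AddSubgroup (XC N) where
  carrier := {x | ∃ (k : ℕ) (φ : Gamma0 N →* Multiplicative ℤ), Kl X φ ∧
    x.ch = (zH (q ^ k)).comp φ}
  zero_mem' := ⟨0, 1, fun _ _ => rfl, MonoidHom.ext fun γ => by
    rw [XC.ch_zero, MonoidHom.comp_apply, MonoidHom.one_apply, map_one]⟩
  add_mem' := by
    rintro x y ⟨k, φ, hφ, hx⟩ ⟨j, ψ, hψ, hy⟩
    have hq : q ≠ 0 := NeZero.ne q
    refine ⟨k + j, φ ^ (q ^ j) * ψ ^ (q ^ k), (hφ.pow _).mul (hψ.pow _), ?_⟩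
    refine MonoidHom.ext fun γ => ?_
    rw [XC.ch_add, hx, hy]
    rw [MonoidHom.comp_apply, MonoidHom.comp_apply, MonoidHom.comp_apply,
      MonoidHom.mul_apply, map_mul, MonoidHom.pow_apply, MonoidHom.pow_apply, map_pow, map_pow]
    have h1 : ∀ a, zH (q ^ (k + j)) a ^ q ^ j = zH (q ^ k) a := fun a => by
      rw [pow_add, zH_pow_of_mul (pow_ne_zero _ hq)]
    have h2 : ∀ a, zH (q ^ (k + j)) a ^ q ^ k = zH (q ^ j) a := fun a => by
      rw [add_comm, pow_add, zH_pow_of_mul (pow_ne_zero _ hq)]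
    rw [h1, h2]
  neg_mem' := by
    rintro x ⟨k, φ, hφ, hx⟩
    refine ⟨k, φ⁻¹, hφ.inv, ?_⟩
    refine MonoidHom.ext fun γ => ?_
    rw [XC.ch_neg, hx, MonoidHom.comp_apply, MonoidHom.comp_apply, MonoidHom.inv_apply, map_inv]

variable {q : ℕ} [NeZero q] {X : Set (Gamma0 N)}

theorem DX_div {x : XC N} (hx : x ∈ DX X q) : ∃ y ∈ DX X q, q • y = x := by
  obtain ⟨k, φ, hφ, e⟩ := hx
  refine ⟨XC.of ((zH (q ^ (k + 1))).comp φ), ⟨k + 1, φ, hφ, rfl⟩, ?_⟩
  refine XC.ext fun γ => ?_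
  rw [XC.ch_nsmul, XC.ch_of, e, MonoidHom.comp_apply, MonoidHom.comp_apply, pow_succ,
    zH_pow_of_mul (NeZero.ne q)]

/-- the elements of order dividing `q ^ k` -/
theorem DX_tors {x : XC N} (hx : x ∈ DX X q)
    {k : ℕ} (hk : q ^ k • x = 0) : ∃ φ : Gamma0 N →* Multiplicative ℤ, Kl X φ ∧
      x.ch = (zH (q ^ k)).comp φ := by
  have hq : q ≠ 0 := NeZero.ne q
  obtain ⟨j, φ, hφ, e⟩ := hx
  have hk' : ∀ γ, (zH (q ^ j) (φ γ)) ^ (q ^ k) = 1 := by
    intro γ
    have h1 : (q ^ k • x).ch γ = 1 := by rw [hk]; rfl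
    rwa [XC.ch_nsmul, e] at h1
  rcases le_total j k with hjk | hjk
  · obtain ⟨i, rfl⟩ := Nat.exists_eq_add_of_le hjk
    refine ⟨φ ^ (q ^ i), hφ.pow _, ?_⟩
    rw [e]
    refine MonoidHom.ext fun γ => ?_
    rw [MonoidHom.comp_apply, MonoidHom.comp_apply, MonoidHom.pow_apply, map_pow, pow_add,
      zH_pow_of_mul (pow_ne_zero _ hq)]
  · obtain ⟨i, rfl⟩ := Nat.exists_eq_add_of_le hjk
    have h1 : ∀ γ, ((q ^ i : ℕ) : ℤ) ∣ Multiplicative.toAdd (φ γ) := by
      intro γ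
      have h2 := hk' γ
      rw [← map_pow, zH_eq_one (pow_ne_zero _ hq), toAdd_pow, nsmul_eq_mul, pow_add] at h2
      push_cast at h2 ⊢
      exact (mul_dvd_mul_iff_left (pow_ne_zero k (by exact_mod_cast hq : (q : ℤ) ≠ 0))).mp h2
    choose c hc using h1
    have hqi : ((q ^ i : ℕ) : ℤ) ≠ 0 := by exact_mod_cast pow_ne_zero _ hq
    let ψ : Gamma0 N →* Multiplicative ℤ := MonoidHom.mk' (fun γ => Multiplicative.ofAdd (c γ))
      (fun a b => by
        apply Multiplicative.toAdd.injective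
        change c (a * b) = c a + c b
        apply mul_left_cancel₀ hqi
        rw [← hc, mul_add, ← hc, ← hc, map_mul]
        rfl)
    refine ⟨ψ, fun γ hγ => ?_, ?_⟩
    · apply Multiplicative.toAdd.injective
      apply mul_left_cancel₀ hqi
      change _ * c γ = _ * 0
      rw [← hc, hφ γ hγ, mul_zero]
      rfl
    · rw [e]
      refine MonoidHom.ext fun γ => ?_
      rw [MonoidHom.comp_apply, MonoidHom.comp_apply, zH_apply, zH_apply]
      change zt (q ^ (k + i)) ^ (Multiplicative.toAdd (φ γ)) = zt (q ^ k) ^ c γ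
      rw [hc γ, pow_add, ← zt_mul_pow (m := q ^ k) (n := q ^ i) (pow_ne_zero _ hq), ← zpow_natCast,
        ← zpow_mul]

/-- **The number of torsion elements of the nilpotent part.** -/
theorem card_nilp {M : Type*} [AddCommGroup M] {D : AddSubgroup M} {θ : Module.End ℤ M} {n : ℕ}
    (ι : (Fin n → ℤ) →+ M) (Θ : Matrix (Fin n) (Fin n) ℤ)
    (hθ : ∀ a, θ (ι a) = ι (Θ.mulVec a)) {q : ℕ} [hq : Fact q.Prime]
    (hker : ∀ a, ι a = 0 ↔ ∀ i, (q : ℤ) ∣ a i)
    (hD : ∀ x, (x ∈ D ∧ q • x = 0) ↔ ∃ a, ι a = x) :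
    Nat.card (tors (nilp D θ) q) =
      q ^ (Θ.map (Int.castRingHom (ZMod q))).charpoly.natTrailingDegree := by
  set Θb := Θ.map (Int.castRingHom (ZMod q)) with hΘb
  set f : Module.End (ZMod q) (Fin n → ZMod q) := Matrix.toLin' Θb with hf
  have e1 : Nat.card (f.maxGenEigenspace 0) = q ^ Θb.charpoly.natTrailingDegree := by
    rw [Module.natCard_eq_pow_finrank (K := ZMod q), Nat.card_zmod,
      LinearMap.finrank_maxGenEigenspace_zero_eq, hf, Matrix.charpoly_toLin']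
  rw [← e1]
  let F : (Fin n → ZMod q) → M := fun v => ι (fun i => ((v i).val : ℤ))
  have hF : ∀ a : Fin n → ℤ, ι a = F (fun i => (a i : ZMod q)) := by
    intro a
    rw [← sub_eq_zero, ← map_sub, hker]
    intro i
    rw [← ZMod.intCast_zmod_eq_zero_iff_dvd]
    simp
  have hF0 : ∀ v, F v = 0 ↔ v = 0 := by
    intro v
    refine ⟨fun h => ?_, fun h => ?_⟩
    · funext i
      have h1 := (hker _).mp h i
      rw [← ZMod.intCast_zmod_eq_zero_iff_dvd] at h1
      simpa using h1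
    · rw [h]
      refine (hker _).mpr fun i => ?_
      simp
  have hFsub : ∀ v w, F v - F w = F (v - w) := by
    intro v w
    change ι _ - ι _ = _
    rw [← map_sub, hF]
    congr 1
    funext i
    simp
  have hFθ : ∀ v, θ (F v) = F (f v) := by
    intro v
    change θ (ι _) = _
    rw [hθ, hF]
    congr 1
    funext i
    rw [hf, Matrix.toLin'_apply, hΘb]
    simp [Matrix.mulVec, dotProduct]
  have hFθn : ∀ (k : ℕ) v, (θ ^ k) (F v) = F ((f ^ k) v) := by
    intro k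
    induction k with
    | zero => exact fun v => rfl
    | succ k ih => intro v; rw [pow_succ, pow_succ, Module.End.mul_apply, Module.End.mul_apply,
        hFθ, ih]
  refine (Nat.card_congr (Equiv.ofBijective (fun v : f.maxGenEigenspace 0 =>
    (⟨F v.1, ?_, ?_⟩ : tors (nilp D θ) q)) ⟨?_, ?_⟩)).symm
  · obtain ⟨k, hk⟩ := (Module.End.mem_maxGenEigenspace f 0 v.1).mp v.2
    rw [zero_smul, sub_zero] at hk
    refine ⟨((hD (F v.1)).mpr ⟨_, rfl⟩).1, k, ?_⟩
    rw [hFθn, hk]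
    exact (hF0 0).mpr rfl
  · exact ((hD (F v.1)).mpr ⟨_, rfl⟩).2
  · intro v w h
    have h1 : F v.1 = F w.1 := congrArg Subtype.val h
    rw [← sub_eq_zero, hFsub, hF0, sub_eq_zero] at h1
    exact Subtype.ext h1
  · rintro ⟨x, ⟨hxD, k, hk⟩, hqx⟩
    obtain ⟨a, rfl⟩ := (hD x).mp ⟨hxD, hqx⟩
    refine ⟨⟨fun i => (a i : ZMod q), ?_⟩, Subtype.ext (hF a).symm⟩
    rw [Module.End.mem_maxGenEigenspace]
    refine ⟨k, ?_⟩
    rw [zero_smul, sub_zero, ← hF0, ← hFθn, ← hF]
    exact hk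

end Fermat.Agent.Mzr
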