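import Mathlib
import Fermat.Agent.Flat.PMod

/-!
Characters trivial on elliptic and parabolic elements: the classes of divisible functions.
-/

set_option autoImplicit false
set_option linter.unusedSectionVars false

noncomputable section

namespace Fermat.Agent.Mzr

section Ord

open UpperHalfPlane hiding I J
open ModularForm IntermediateField AlgebraicCurve
open scoped Manifold MatrixGroups ModularForm IntermediateField.algebraAdjoinAdjoin
open Fermat.Agent.Eis16 Fermat.Agent.ModFun Fermat.Agent.ESCore Fermat.Agent.FunField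
open Fermat.Agent.LG
open CongruenceSubgroup (Gamma0 Gamma0_mem)

/-- the character is trivial on `-1`, on the parabolic and on the elliptic elements -/
def ParE {N : ℕ} (χ : Gamma0 N →* ℂˣ) : Prop :=
  ∀ γ : Gamma0 N, LG.trS (γ : SL(2, ℤ)) ^ 2 ≤ 4 → χ γ = 1

theorem ParE.isPar {N : ℕ} {χ : Gamma0 N →* ℂˣ} (h : ParE χ) : IsPar χ :=
  fun γ hγ => h γ hγ.le

variable {K : Type*} [Field K] [IsAlgClosed K] [CharZero K] {N : ℕ} [NeZero N] {ι : K →+* ℂ}
  {ζ : Kˣ}

/-- The orders of the `m`-th power of a function with a parabolic character are divisible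
by `m`. -/
theorem ord_dvdE (hζ : ι ζ = Complex.exp (2 * Real.pi * Complex.I / N))
    {χ : Gamma0 N →* ℂˣ} (hχ : ParE χ) {f : ℍ → ℂ} (hf : f ∈ Gal.MB)
    (hfχ : ∀ (γ : Gamma0 N) (τ : ℍ), f ((γ : SL(2, ℤ)) • τ) = (χ γ : ℂ) * f τ) {m : ℕ}
    {z : F0 K N} (hz0 : z ≠ 0) (hz : HasExp ι (qN 1) (f ^ m) (z : LaurentSeries K))
    (v : Place K (F0 K N)) : (m : ℤ) ∣ v.ord z := by
  have hinv : ∀ γ : SL(2, ℤ), γ ∈ Gamma0 N → trS γ ^ 2 ≤ 4 → ∀ τ : ℍ, f (γ • τ) = f τ := by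
    intro γ hγ htr τ
    have h1 := hfχ ⟨γ, hγ⟩ τ
    rw [hχ ⟨γ, hγ⟩ htr, Units.val_one, one_mul] at h1
    exact h1
  have hrotE : ∀ {h : SL(2, ℤ)} {τ₀ : ℍ}, h • τ₀ = τ₀ → ∀ (g : SL(2, ℤ)) (r : ℕ),
      g * h ^ r * g⁻¹ ∈ Gamma0 N → ∀ τ : ℍ, f ((g * h ^ r * g⁻¹) • τ) = f τ := by
    intro h τ₀ hfix g r hmem
    refine hinv _ hmem ?_
    rw [trS_conj]
    refine trS_sq_le_of_fix (τ := τ₀) ?_
    clear hmem
    induction r with
    | zero => rw [pow_zero, one_smul]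
    | succ r ih => rw [pow_succ, mul_smul, hfix, ih]
  have hexpE : ∀ (τ₀ : ℍ) (g : SL(2, ℤ)), ∃ R, HasExp (RingHom.id ℂ) (sD τ₀)
      (fun τ => f (g • τ)) R := fun τ₀ g => ⟨_, hasExp_dExp τ₀ (mdiff_smul hf.1 g)⟩
  rcases lt_or_ge (v.ord (jF K N)) 0 with hj | hj
  · have hN0 : (N : ℂ) ≠ 0 := by exact_mod_cast NeZero.ne N
    have hG := (hasExp_J' (RingHom.id ℂ)).level N
    have hprim : IsPrimitiveRoot (Complex.exp (2 * Real.pi * Complex.I / N)) N :=
      Complex.isPrimitiveRoot_exp N (NeZero.ne N)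
    refine ord_dvd_at (expData_qN (ι := ι)) hζ ModularGroup.T
      (Units.mk0 (Complex.exp (2 * Real.pi * Complex.I / N)) (Complex.exp_ne_zero _))
      (fun τ => ?_) (m₀ := N) (Nat.pos_of_ne_zero (NeZero.ne N)) hprim
      (transcendental_inv transcendental_jF) (Fermat.Agent.FunField.adjoin_inv_eq _)
      (G := (ModularCurve.qExpand ℂ N (ModularCurve.jqModC ℂ))⁻¹)
      (fun x => by rw [map_inv₀, embF_jF expData_qN hζ x hG]) ?_ (f := f) (m := m) ?_ ?_ hz0 hz v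
      (by rw [v.ord_inv]; omega)
    · rw [modular_T_smul, qN_apply, qN_apply, Function.Periodic.qParam, Function.Periodic.qParam,
        Units.val_mk0, ← Complex.exp_add]
      congr 1
      have : (((1 : ℝ) +ᵥ τ : ℍ) : ℂ) = 1 + τ := by simp
      rw [this]
      push_cast
      field_simp
    · exact order_qExpand_jq_inv N
    · intro g
      refine exists_exp_of_MB (Gal.MB_comp hf g) N fun τ => ?_
      change f (g • ((N : ℝ) +ᵥ τ)) = f (g • τ)
      rw [smul_vadd_eq]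
      refine hinv _ (conj_T_mem_Gamma0 N g) ?_ _
      rw [trS_conj, trS_T_zpow]
      norm_num
    · intro g r hmem
      refine hinv _ hmem ?_
      rw [trS_conj, ← zpow_natCast, trS_T_zpow]
      norm_num
  · obtain ⟨c, hc⟩ := ord_jF_sub_pos_cases hζ v hj
    by_cases hc0 : c = 0
    · subst hc0
      obtain ⟨u, hu1, hu2⟩ := exists_rotation_ρ
      refine ord_dvd_at (expData_sD ModFun.ρ) hζ (ModularGroup.S * ModularGroup.T) u hu2
        (m₀ := 3) (by norm_num) hu1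
        (Fermat.Agent.FunField.transcendental_sub transcendental_jF 0)
        (Fermat.Agent.FunField.adjoin_sub_eq _ 0) (fun x => embF_jF_sub hζ ModFun.ρ x) ?_ (hexpE ModFun.ρ)
        (hrotE ST_smul_ρ) hz0 hz v hc
      refine ModFun.order_ofPowerSeries (n := 3) ?_
      have h1 := order_dExp_J_three ModFun.ρ E₄_ρ
      have h2 : (J - fun _ => ι 0) = J := by
        funext τ
        simp
      rw [h2, h1]
      rfl
    by_cases hc1 : c = 1728
    · subst hc1
      refine ord_dvd_at (expData_sD UpperHalfPlane.I) hζ ModularGroup.S (-1) sD_S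
        (m₀ := 2) (by norm_num) isPrimitiveRoot_S
        (Fermat.Agent.FunField.transcendental_sub transcendental_jF 1728)
        (Fermat.Agent.FunField.adjoin_sub_eq _ 1728) (fun x => embF_jF_sub hζ _ x) ?_
        (hexpE UpperHalfPlane.I) (hrotE S_smul_I) hz0 hz v hc
      refine ModFun.order_ofPowerSeries (n := 2) ?_
      have h1 := order_dExp_J_two UpperHalfPlane.I E₆_I
      have h2 : (J - fun _ => ι 1728) = (J - fun _ => 1728) := by
        have h3 : ι 1728 = 1728 := map_ofNat ι 1728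
        rw [h3]
      rw [h2, h1]
      rfl
    · obtain ⟨τ₀, hτ₀⟩ := J_surjective (ι c)
      have h4 : E₄ τ₀ ≠ 0 := by
        intro h
        rw [← J_eq_zero_iff, hτ₀] at h
        exact hc0 (ι.injective (by rw [h, map_zero]))
      have h6 : E₆ τ₀ ≠ 0 := by
        intro h
        rw [← J_eq_1728_iff, hτ₀] at h
        exact hc1 (ι.injective (by rw [h]; exact (map_ofNat ι 1728).symm))
      refine ord_dvd_at (expData_sD τ₀) hζ 1 1 (fun τ => by simp) (m₀ := 1) one_pos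
        (by simp) (Fermat.Agent.FunField.transcendental_sub transcendental_jF c)
        (Fermat.Agent.FunField.adjoin_sub_eq _ c) (fun x => embF_jF_sub hζ τ₀ x) ?_
        (hexpE τ₀) (hrotE (τ₀ := τ₀) (by simp)) hz0 hz v hc
      have h1 := order_dExp_J_one τ₀ h4 h6
      rw [hτ₀] at h1
      exact ModFun.order_ofPowerSeries (n := 1) (by simpa using h1)

end Ord

section Cls

open AlgebraicCurve IsDedekindDomain IntermediateField WithZero Module Fermat.Agent.FunField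
open Fermat.Agent.LG Fermat.Agent.ModFun Fermat.Agent.Geo Fermat.Agent.Flat
open Fermat.Agent.ESCore (ιC galX XG)
open IsLocalRing ModularCurve
open CongruenceSubgroup (Gamma0)

/-- The field of algebraic numbers. -/
local notation "Qb" => AlgebraicClosure ℚ
/-- The absolute Galois group. -/
local notation "GQ" => (AlgebraicClosure ℚ ≃ₐ[ℚ] AlgebraicClosure ℚ)

variable {N : ℕ} [NeZero N] {m : ℕ}

theorem powF_dvdE (χ : XG N m) (hχ : ParE χ.1) {y : LaurentSeries Qb}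
    (hy : XSer ιC N χ.1 y) (hy0 : y ≠ 0) (v : Place Qb (F0 Qb N)) :
    (m : ℤ) ∣ v.ord (powF χ hy) := by
  obtain ⟨ζ, hζ⟩ := exists_zeta_Qb N
  have h1 := powF_ne_zero χ hy hy0
  obtain ⟨f, hf, hf', hfy⟩ := id hy
  exact ord_dvdE hζ hχ hf hf' h1 (hfy.pow m) v

/-- the class attached to a character and a series -/
def clsE (χ : XG N m) (hχ : ParE χ.1) {y : LaurentSeries Qb}
    (hy : XSer ιC N χ.1 y) (hy0 : y ≠ 0) : Sel Qb (F0 Qb N) m :=
  Sel.mk ⟨Units.mk0 (powF χ hy) (powF_ne_zero χ hy hy0), fun v => powF_dvdE χ hχ hy hy0 v⟩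

theorem clsE_eq (hm : 0 < m) (χ : XG N m) (hχ : ParE χ.1) {y z : LaurentSeries Qb}
    (hy : XSer ιC N χ.1 y) (hy0 : y ≠ 0) (hz : XSer ιC N χ.1 z) (hz0 : z ≠ 0) :
    clsE χ hχ hy hy0 = clsE χ hχ hz hz0 := by
  rw [← sub_eq_zero]
  have h1 : ∀ a b : SelZ Qb (F0 Qb N) m, Sel.mk a - Sel.mk b = Sel.mk (a / b) := fun _ _ => rfl
  rw [clsE, clsE, h1, Sel.mk_eq_zero]
  refine ⟨⟨y / z, XSer.div_mem hm χ.2.1 hz hz0 hy⟩, ?_, ?_⟩
  · intro h
    exact div_ne_zero hy0 hz0 (congrArg Subtype.val h)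
  · apply Subtype.ext
    change ((Units.mk0 (powF χ hy) (powF_ne_zero χ hy hy0) /
      Units.mk0 (powF χ hz) (powF_ne_zero χ hz hz0) : (F0 Qb N)ˣ) :
      LaurentSeries Qb) = (y / z) ^ m
    rw [Units.val_div_eq_div_val, div_pow]
    rfl

theorem clsE_eq_zero (hm : 0 < m) (χ : XG N m) (hχ : ParE χ.1)
    {y : LaurentSeries Qb} (hy : XSer ιC N χ.1 y) (hy0 : y ≠ 0)
    (h : clsE χ hχ hy hy0 = 0) : χ = 1 := by
  rw [clsE, Sel.mk_eq_zero] at h
  obtain ⟨u, hu0, hu⟩ := h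
  have hu' : y ^ m = (u : LaurentSeries Qb) ^ m := congrArg Subtype.val hu
  have hu0' : (u : LaurentSeries Qb) ≠ 0 := fun h => hu0 (Subtype.ext h)
  have h1 : (y / (u : LaurentSeries Qb)) ^ m = 1 := by
    rw [div_pow, hu', div_self (pow_ne_zero m hu0')]
  have h3 : IsIntegral Qb (y / (u : LaurentSeries Qb)) := by
    refine IsIntegral.of_pow hm ?_
    rw [h1]
    exact isIntegral_one
  obtain ⟨a, ha⟩ := minpoly.mem_range_of_degree_eq_one Qb _
    (IsAlgClosed.degree_eq_one_of_irreducible Qb (minpoly.irreducible h3))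
  have h4 : y = algebraMap Qb (LaurentSeries Qb) a * u := by
    rw [ha, div_mul_cancel₀ _ hu0']
  have h5 : y ∈ F0 Qb N := by
    rw [h4]
    exact mul_mem ((F0 Qb N).algebraMap_mem a) u.2
  exact Subtype.ext (hy.eq_one_of_mem hy0 h5)

variable (N m) in
/-- characters trivial on parabolic and elliptic elements -/
def PXE : Subgroup (XG N m) where
  carrier := {χ | ParE χ.1}
  one_mem' := fun _ _ => rfl
  mul_mem' := by
    intro a b ha hb γ hγ
    change a.1 γ * b.1 γ = 1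
    rw [ha γ hγ, hb γ hγ, one_mul]
  inv_mem' := by
    intro a ha γ hγ
    change (a.1 γ)⁻¹ = 1
    rw [ha γ hγ, inv_one]

/-- the homomorphism to the group of divisible functions -/
def selE (hm : 0 < m) : Additive (PXE N m) →+ Sel Qb (F0 Qb N) m where
  toFun χ := clsE χ.toMul.1 χ.toMul.2 (exists_xSer hm χ.toMul.1).choose_spec.2
    (exists_xSer hm χ.toMul.1).choose_spec.1
  map_zero' := by
    have h1 : XSer ιC N ((1 : XG N m) : Gamma0 N →* ℂˣ) (1 : LaurentSeries Qb) := xSer_one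
    refine (clsE_eq hm 1 (fun _ _ => rfl) _ _ h1 one_ne_zero).trans ?_
    refine Sel.mk_eq_zero.mpr ?_
    refine ⟨1, one_ne_zero, ?_⟩
    apply Subtype.ext
    change (1 : LaurentSeries Qb) ^ m = ((1 : F0 Qb N) : LaurentSeries Qb) ^ m
    rfl
  map_add' χ ψ := by
    have hχ := (exists_xSer hm χ.toMul.1).choose_spec
    have hψ := (exists_xSer hm ψ.toMul.1).choose_spec
    have h1 : XSer ιC N ((χ + ψ).toMul.1.1) _ := hχ.2.mul hψ.2
    refine (clsE_eq hm _ (χ + ψ).toMul.2 _ _ h1 (mul_ne_zero hχ.1 hψ.1)).trans ?_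
    refine Eq.trans ?_ (Sel.mk_mul _ _)
    refine congrArg Sel.mk ?_
    apply Subtype.ext
    apply Units.ext
    apply Subtype.ext
    exact mul_pow _ _ m

theorem selE_eq (hm : 0 < m) (χ : Additive (PXE N m)) {y : LaurentSeries Qb}
    (hy : XSer ιC N χ.toMul.1.1 y) (hy0 : y ≠ 0) :
    selE hm χ = clsE χ.toMul.1 χ.toMul.2 hy hy0 :=
  clsE_eq hm _ _ (exists_xSer hm χ.toMul.1).choose_spec.2
    (exists_xSer hm χ.toMul.1).choose_spec.1 hy hy0

theorem selE_injective (hm : 0 < m) : Function.Injective (selE (N := N) hm) := by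
  rw [injective_iff_map_eq_zero]
  intro χ h
  have h1 := clsE_eq_zero hm χ.toMul.1 χ.toMul.2 (exists_xSer hm χ.toMul.1).choose_spec.2
    (exists_xSer hm χ.toMul.1).choose_spec.1 h
  apply Additive.toMul.injective
  exact Subtype.ext h1

/-- Galois equivariance. -/
theorem selE_smul (hm : 0 < m) (σ : GQ) (χ χ' : Additive (PXE N m))
    (h : χ'.toMul.1 = galX N hm σ χ.toMul.1) :
    selE hm χ' = selHom m (galF0 N) σ (selE hm χ) := by
  have hχ := (exists_xSer hm χ.toMul.1).choose_spec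
  have h1 := xSer_galX hm σ χ.toMul.1 hχ.2
  rw [← h] at h1
  have h2 : coeffMap (σ.toRingEquiv.toRingHom : Qb →+* Qb)
      (exists_xSer hm χ.toMul.1).choose ≠ 0 := by
    rw [Ne, _root_.map_eq_zero]
    exact hχ.1
  rw [selE_eq hm χ' h1 h2]
  change Sel.mk _ = selHom m (galF0 N) σ (Sel.mk _)
  change Sel.mk _ = Sel.mk _
  refine congrArg Sel.mk ?_
  apply Subtype.ext
  apply Units.ext
  apply Subtype.ext
  change (coeffMap (σ.toRingEquiv.toRingHom : Qb →+* Qb) _) ^ m =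
    coeffMap ((σ.toRingEquiv : Qb ≃+* Qb) : Qb →+* Qb) (_ ^ m)
  rw [map_pow]
  rfl

/-- Two series with the same power. -/
theorem exists_const_of_pow_eq {m : ℕ} (hm : 0 < m) {a b : LaurentSeries Qb} (hb : b ≠ 0)
    (h : a ^ m = b ^ m) : ∃ c : Qb, c ≠ 0 ∧ a = algebraMap Qb (LaurentSeries Qb) c * b := by
  have h1 : (a / b) ^ m = 1 := by rw [div_pow, h, div_self (pow_ne_zero m hb)]
  have h3 : IsIntegral Qb (a / b) := by
    refine IsIntegral.of_pow hm ?_
    rw [h1]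
    exact isIntegral_one
  obtain ⟨c, hc⟩ := minpoly.mem_range_of_degree_eq_one Qb _
    (IsAlgClosed.degree_eq_one_of_irreducible Qb (minpoly.irreducible h3))
  refine ⟨c, ?_, ?_⟩
  · rintro rfl
    rw [_root_.map_zero] at hc
    rw [← hc, zero_pow hm.ne'] at h1
    exact zero_ne_one h1
  · rw [hc, div_mul_cancel₀ _ hb]

/-- the expansion of a meromorphic function with character `χ` -/
def MSer (N : ℕ) [NeZero N] (χ : Gamma0 N →* ℂˣ) (z : LaurentSeries Qb) : Prop :=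
  ∃ (u : F0 Qb N) (y : LaurentSeries Qb), u ≠ 0 ∧ y ≠ 0 ∧ XSer ιC N χ y ∧ z = u * y

theorem MSer.ne_zero {χ : Gamma0 N →* ℂˣ} {z : LaurentSeries Qb} (h : MSer N χ z) : z ≠ 0 := by
  obtain ⟨u, y, hu, hy, _, rfl⟩ := h
  exact mul_ne_zero (fun h => hu (Subtype.ext h)) hy

theorem MSer.mul {χ ψ : Gamma0 N →* ℂˣ} {z w : LaurentSeries Qb} (h : MSer N χ z)
    (h' : MSer N ψ w) : MSer N (χ * ψ) (z * w) := by
  obtain ⟨u, y, hu, hy, hy', rfl⟩ := h
  obtain ⟨u', y', hu', hy1, hy1', rfl⟩ := h'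
  refine ⟨u * u', y * y', mul_ne_zero hu hu', mul_ne_zero hy hy1, hy'.mul hy1', ?_⟩
  change (u : LaurentSeries Qb) * y * (u' * y') = (u : LaurentSeries Qb) * u' * (y * y')
  ring

theorem mSer_of_mem {z : F0 Qb N} (hz : z ≠ 0) : MSer N 1 (z : LaurentSeries Qb) :=
  ⟨z, 1, hz, one_ne_zero, xSer_one, (mul_one _).symm⟩

theorem MSer.pow {χ : Gamma0 N →* ℂˣ} {z : LaurentSeries Qb} (h : MSer N χ z) (n : ℕ) :
    MSer N (χ ^ n) (z ^ n) := by
  obtain ⟨u, y, hu, hy, hy', rfl⟩ := h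
  refine ⟨u ^ n, y ^ n, pow_ne_zero n hu, pow_ne_zero n hy, hy'.pow n, ?_⟩
  change _ = (u : LaurentSeries Qb) ^ n * y ^ n
  ring

theorem MSer.const_mul {χ : Gamma0 N →* ℂˣ} {z : LaurentSeries Qb} (h : MSer N χ z) {c : Qb}
    (hc : c ≠ 0) : MSer N χ (algebraMap Qb (LaurentSeries Qb) c * z) := by
  obtain ⟨u, y, hu, hy, hy', rfl⟩ := h
  refine ⟨algebraMap Qb (F0 Qb N) c * u, y, mul_ne_zero ?_ hu, hy, hy', ?_⟩
  · intro h0
    exact hc ((algebraMap Qb (F0 Qb N)).injective (by rw [h0, _root_.map_zero]))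
  · change _ = algebraMap Qb (LaurentSeries Qb) c * u * y
    ring

theorem MSer.eq_one_of_mem {χ : Gamma0 N →* ℂˣ} {z : LaurentSeries Qb} (h : MSer N χ z)
    (hz : z ∈ F0 Qb N) : χ = 1 := by
  obtain ⟨u, y, hu, hy, hy', rfl⟩ := h
  refine hy'.eq_one_of_mem hy ?_
  have hu' : (u : LaurentSeries Qb) ≠ 0 := fun h => hu (Subtype.ext h)
  have h1 : y = (u : LaurentSeries Qb) * y / u := by
    rw [mul_comm, mul_div_assoc, div_self hu', mul_one]
  rw [h1]
  exact _root_.div_mem hz u.2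

/-- **Membership in the image.** -/
theorem mk_eq_selE_iff (hm : 0 < m) (χ : Additive (PXE N m)) (f : SelZ Qb (F0 Qb N) m) :
    Sel.mk f = selE hm χ ↔ ∃ z : LaurentSeries Qb, MSer N χ.toMul.1.1 z ∧
      (((f : (F0 Qb N)ˣ) : F0 Qb N) : LaurentSeries Qb) = z ^ m := by
  have h1 : ∀ a b : SelZ Qb (F0 Qb N) m, Sel.mk a - Sel.mk b = Sel.mk (a / b) := fun _ _ => rfl
  constructor
  · intro h
    obtain ⟨y, hy0, hy⟩ := exists_xSer hm χ.toMul.1
    rw [selE_eq hm χ hy hy0, ← sub_eq_zero] at h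
    have h := (Sel.mk_eq_zero (f := f / _)).mp h
    obtain ⟨u, hu0, hu⟩ := h
    have hu1 : (((f : (F0 Qb N)ˣ) : F0 Qb N) : LaurentSeries Qb) / y ^ m =
        (u : LaurentSeries Qb) ^ m := by
      have h2 := congrArg (fun z : F0 Qb N => (z : LaurentSeries Qb)) hu
      change (((((f : (F0 Qb N)ˣ) / Units.mk0 (powF χ.toMul.1 hy) (powF_ne_zero _ hy hy0) :
        (F0 Qb N)ˣ) : F0 Qb N)) : LaurentSeries Qb) = _ at h2
      rw [Units.val_div_eq_div_val] at h2
      exact h2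
    refine ⟨u * y, ⟨u, y, hu0, hy0, hy, rfl⟩, ?_⟩
    rw [mul_pow, ← hu1, div_mul_cancel₀ _ (pow_ne_zero m hy0)]
  · rintro ⟨z, ⟨u, y, hu0, hy0, hy, rfl⟩, hf⟩
    rw [selE_eq hm χ hy hy0, ← sub_eq_zero]
    refine (Sel.mk_eq_zero (f := f / _)).mpr ?_
    refine ⟨u, hu0, ?_⟩
    apply Subtype.ext
    change (((((f : (F0 Qb N)ˣ) / Units.mk0 (powF χ.toMul.1 hy) (powF_ne_zero _ hy hy0) :
        (F0 Qb N)ˣ) : F0 Qb N)) : LaurentSeries Qb) = (u : LaurentSeries Qb) ^ m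
    rw [Units.val_div_eq_div_val]
    change (((f : (F0 Qb N)ˣ) : F0 Qb N) : LaurentSeries Qb) / y ^ m = _
    rw [hf, mul_pow, mul_div_assoc, div_self (pow_ne_zero m hy0), mul_one]

end Cls

end Fermat.Agent.Mzr
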