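import Mathlib

/-!
Homomorphisms of a finitely generated group killing a set.
-/

set_option autoImplicit false

noncomputable section

namespace Fermat.Agent.Mzr

open Module

/-- **Structure of the homomorphisms killing a set.** -/
theorem exists_struct (Γ : Type) [Group Γ] [Group.FG Γ] (X : Set Γ) :
    ∃ (n : ℕ) (π : Γ →* Multiplicative (Fin n → ℤ)), Function.Surjective π ∧
      (∀ x ∈ X, π x = 1) ∧ ∃ e : ℕ, 0 < e ∧ ∀ {B : Type} [CommGroup B] (χ : Γ →* B),
        (∀ x ∈ X, χ x = 1) → ∀ γ, π γ = 1 → χ γ ^ e = 1 := by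
  let A := Additive (Abelianization Γ)
  have hA : Module.Finite ℤ A := by
    have h1 : Group.FG (Abelianization Γ) :=
      Group.fg_of_surjective (f := (Abelianization.of : Γ →* Abelianization Γ))
        (QuotientGroup.mk'_surjective _)
    have h2 : AddGroup.FG A := AddGroup.fg_iff_mul_fg.mpr h1
    exact Module.Finite.iff_addGroup_fg.mpr h2
  let B0 : AddSubgroup A := AddSubgroup.closure ((fun x => Additive.ofMul (Abelianization.of x)) '' X)
  let Q := A ⧸ B0
  have hQ : Module.Finite ℤ Q :=
    Module.Finite.of_surjective (QuotientAddGroup.mk' B0).toIntLinearMap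
      QuotientAddGroup.mk_surjective
  let T : Submodule ℤ Q := Submodule.torsion ℤ Q
  have hTf : Finite T := by
    have : Module.Finite ℤ T := Module.IsNoetherian.finite ℤ T
    refine Module.finite_of_fg_torsion T fun x => ?_
    obtain ⟨a, ha⟩ := x.2
    exact ⟨a, Subtype.ext ha⟩
  have : Module.Free ℤ (Q ⧸ T) := inferInstance
  let b := Module.finBasis ℤ (Q ⧸ T)
  set n := Module.finrank ℤ (Q ⧸ T) with hn
  let pr : Γ → Q := fun γ => QuotientAddGroup.mk (Additive.ofMul (Abelianization.of γ))
  have hpr : ∀ a c, pr (a * c) = pr a + pr c := fun a c => by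
    change QuotientAddGroup.mk (Additive.ofMul (Abelianization.of (a * c))) = _
    rw [map_mul]
    rfl
  have hprs : Function.Surjective pr := by
    intro x
    obtain ⟨y, rfl⟩ := QuotientAddGroup.mk_surjective x
    obtain ⟨γ, hγ⟩ := QuotientGroup.mk'_surjective (commutator Γ) (Additive.toMul y)
    exact ⟨γ, congrArg QuotientAddGroup.mk (congrArg Additive.ofMul hγ)⟩
  let π : Γ →* Multiplicative (Fin n → ℤ) := MonoidHom.mk'
    (fun γ => Multiplicative.ofAdd (b.equivFun (Submodule.Quotient.mk (pr γ)))) (fun a c => by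
      rw [hpr, Submodule.Quotient.mk_add, map_add]
      rfl)
  refine ⟨n, π, ?_, ?_, ?_⟩
  · intro v
    obtain ⟨x, hx⟩ := b.equivFun.surjective (Multiplicative.toAdd v)
    obtain ⟨y, rfl⟩ := Submodule.Quotient.mk_surjective T x
    obtain ⟨γ, rfl⟩ := hprs y
    exact ⟨γ, congrArg Multiplicative.ofAdd hx⟩
  · intro x hx
    have h1 : pr x = 0 := by
      refine (QuotientAddGroup.eq_zero_iff _).mpr ?_
      exact AddSubgroup.subset_closure ⟨x, hx, rfl⟩
    change Multiplicative.ofAdd (b.equivFun (Submodule.Quotient.mk (pr x))) = 1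
    rw [h1, Submodule.Quotient.mk_zero, map_zero]
    rfl
  · refine ⟨Nat.card T, Nat.card_pos, fun {B} _ χ hχ γ hγ => ?_⟩
    have h1 : b.equivFun (Submodule.Quotient.mk (pr γ)) = 0 := congrArg Multiplicative.toAdd hγ
    have h2 : (Submodule.Quotient.mk (pr γ) : Q ⧸ T) = 0 := by
      rw [← map_zero b.equivFun] at h1
      exact b.equivFun.injective h1
    have h3 : pr γ ∈ T := (Submodule.Quotient.mk_eq_zero T).mp h2
    have h4 : Nat.card T • pr γ = 0 := congrArg Subtype.val (card_nsmul_eq_zero' (x := (⟨_, h3⟩ : T)))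
    have h5 : Nat.card T • (Additive.ofMul (Abelianization.of γ) : A) ∈ B0 :=
      (QuotientAddGroup.eq_zero_iff _).mp h4
    let F : A →+ Additive B := MonoidHom.toAdditive (Abelianization.lift χ)
    have h6 : ∀ y ∈ B0, F y = 0 := by
      intro y hy
      induction hy using AddSubgroup.closure_induction with
      | mem y hy =>
        obtain ⟨x, hx, rfl⟩ := hy
        exact congrArg Additive.ofMul ((Abelianization.lift_apply_of χ x).trans (hχ x hx))
      | zero => exact map_zero F
      | add a c _ _ ha hc => rw [map_add, ha, hc, add_zero]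
      | neg a _ ha => rw [map_neg, ha, neg_zero]
    have h7 := h6 _ h5
    rw [map_nsmul] at h7
    have h8 : Nat.card T • (Additive.ofMul (χ γ)) = 0 := h7
    exact congrArg Additive.toMul h8

end Fermat.Agent.Mzr
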