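import Fermat.Agent.Mzr.Abs
import Fermat.Agent.Mzr.Struct
import Fermat.Agent.Mzr.Par0
import Fermat.Agent.MZ.ParPow
import Fermat.Agent.ESCore.ResLevel

/-!
The divisible group of parabolic characters.
-/

set_option autoImplicit false

noncomputable section

namespace Fermat.Agent.Mzr

open CongruenceSubgroup
open Fermat.Agent.ESCore Fermat.Agent.ESCore.ModP Fermat.Agent.ESCore.Univ
open Fermat.Agent.LG (IsPar NoEll noEll_of_four_dvd isPar_galX)
open scoped MatrixGroups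

/-- The absolute Galois group. -/
local notation "GQ" => (AlgebraicClosure ℚ ≃ₐ[ℚ] AlgebraicClosure ℚ)

/-! ### Roots of unity -/

/-- the standard root of unity of order `m` -/
def zt (m : ℕ) : ℂˣ := Units.mk0 (Complex.exp (2 * Real.pi * Complex.I / m)) (Complex.exp_ne_zero _)

theorem zt_prim {m : ℕ} (hm : m ≠ 0) : IsPrimitiveRoot (zt m) m :=
  IsPrimitiveRoot.coe_units_iff.mp (Complex.isPrimitiveRoot_exp m hm)

theorem zt_zpow_eq_one {m : ℕ} (hm : m ≠ 0) {n : ℤ} : zt m ^ n = 1 ↔ (m : ℤ) ∣ n :=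
  (zt_prim hm).zpow_eq_one_iff_dvd n

theorem zt_mul_pow {m n : ℕ} (hn : n ≠ 0) : zt (m * n) ^ n = zt m := by
  apply Units.ext
  rw [Units.val_pow_eq_pow_val, zt, Units.val_mk0, zt, Units.val_mk0, ← Complex.exp_nat_mul]
  congr 1
  push_cast
  have : (n : ℂ) ≠ 0 := Nat.cast_ne_zero.mpr hn
  rcases eq_or_ne m 0 with rfl | hm
  · simp
  have : (m : ℂ) ≠ 0 := Nat.cast_ne_zero.mpr hm
  field_simp

/-- the exponential -/
def zH (m : ℕ) : Multiplicative ℤ →* ℂˣ := zpowersHom ℂˣ (zt m)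

theorem zH_apply (m : ℕ) (n : Multiplicative ℤ) : zH m n = zt m ^ (Multiplicative.toAdd n) := rfl

theorem zH_eq_one {m : ℕ} (hm : m ≠ 0) {n : Multiplicative ℤ} :
    zH m n = 1 ↔ (m : ℤ) ∣ Multiplicative.toAdd n := zt_zpow_eq_one hm

/-! ### Parabolic homomorphisms -/

variable {N : ℕ} {B : Type} [CommGroup B]

/-- parabolic homomorphisms -/
def ParB (χ : Gamma0 N →* B) : Prop := ∀ γ : Gamma0 N, LG.trS (γ : SL(2, ℤ)) ^ 2 = 4 → χ γ = 1

theorem parB_iff {χ : Gamma0 N →* ℂˣ} : ParB χ ↔ IsPar χ := Iff.rfl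

theorem ParB.comp {B' : Type} [CommGroup B'] {χ : Gamma0 N →* B} (h : ParB χ) (f : B →* B') :
    ParB (f.comp χ) := fun γ hγ => by rw [MonoidHom.comp_apply, h γ hγ, map_one]

theorem ParB.mul {χ ψ : Gamma0 N →* B} (h : ParB χ) (h' : ParB ψ) : ParB (χ * ψ) :=
  fun γ hγ => by rw [MonoidHom.mul_apply, h γ hγ, h' γ hγ, one_mul]

theorem ParB.inv {χ : Gamma0 N →* B} (h : ParB χ) : ParB χ⁻¹ :=
  fun γ hγ => by rw [MonoidHom.inv_apply, h γ hγ, inv_one]

theorem ParB.pow {χ : Gamma0 N →* B} (h : ParB χ) (n : ℕ) : ParB (χ ^ n) :=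
  fun γ hγ => by rw [MonoidHom.pow_apply, h γ hγ, one_pow]

theorem ParB.one : ParB (1 : Gamma0 N →* B) := fun _ _ => rfl

theorem parB_heckeChar {l : ℕ} (hl : l.Prime) (hN : ¬ l ∣ N) {χ : Gamma0 N →* B}
    (hχ : ParB χ) : ParB (heckeChar hl hN χ) := by
  intro γ hγ
  set S := heckeSys hl hN with hS
  change ∏ x, χ (S.coc γ x) = 1
  have hφ := gam_injective N
  refine MZ.prod_eq_one_of_orbits (S.tgt γ) (S.tgt_bijective γ).injective
    (fun x => χ (S.coc γ x)) ?_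
  intro x n hn hx
  -- the cocycle of the powers
  have key : ∀ k : ℕ, S.tgt (γ ^ k) x = (S.tgt γ)^[k] x ∧
      χ (S.coc (γ ^ k) x) = ∏ i ∈ Finset.range k, χ (S.coc γ ((S.tgt γ)^[i] x)) := by
    intro k
    induction k with
    | zero =>
      refine ⟨?_, ?_⟩
      · rw [pow_zero]
        exact S.tgt_eq hφ (γ' := 1) (by simp)
      · rw [pow_zero, S.coc_eq hφ (γ' := 1) (y := x) (by simp), map_one, Finset.prod_range_zero]
    | succ k ih =>
      refine ⟨?_, ?_⟩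
      · rw [Function.iterate_succ_apply', ← ih.1, pow_succ]
        refine S.tgt_eq hφ (γ' := S.coc (γ ^ k) x * S.coc γ (S.tgt (γ ^ k) x)) ?_
        rw [map_mul, ← mul_assoc, S.spec, mul_assoc, S.spec, map_mul, mul_assoc]
      · rw [pow_succ, S.coc_mul hφ, map_mul, ih.2, ih.1, Finset.prod_range_succ]
  rw [← (key n).2]
  apply hχ
  -- the trace
  have h1 := S.spec (γ ^ n) x
  rw [(key n).1, hx] at h1
  have h2 : gam N (S.coc (γ ^ n) x) = S.δ x * gam N (γ ^ n) * (S.δ x)⁻¹ := by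
    rw [h1, mul_inv_cancel_right]
  have h3 : ∀ g : Gamma0 N, ((LG.trS (g : SL(2, ℤ)) : ℤ) : ℝ) =
      Matrix.trace ((gam N g : GL (Fin 2) ℝ) : Matrix (Fin 2) (Fin 2) ℝ) := by
    intro g
    rw [Matrix.trace_fin_two, gam_apply, LG.trS]
    push_cast
    rfl
  have h4 : ((LG.trS ((S.coc (γ ^ n) x : Gamma0 N) : SL(2, ℤ)) : ℤ) : ℝ) =
      ((LG.trS ((γ ^ n : Gamma0 N) : SL(2, ℤ)) : ℤ) : ℝ) := by
    rw [h3, h3, h2]
    rw [Units.val_mul, Units.val_mul, Matrix.trace_mul_cycle, ← Units.val_mul, inv_mul_cancel,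
      Units.val_one, one_mul]
  have h5 : LG.trS ((S.coc (γ ^ n) x : Gamma0 N) : SL(2, ℤ)) =
      LG.trS ((γ ^ n : Gamma0 N) : SL(2, ℤ)) := by exact_mod_cast h4
  rw [h5]
  exact MZ.trS_pow_sq hγ n

/-! ### Elliptic elements -/

theorem sq_eq (M : Matrix (Fin 2) (Fin 2) ℤ) (hdet : M.det = 1) (t : ℤ) (ht : t = M 0 0 + M 1 1) :
    M ^ 2 = t • M - (1 : Matrix (Fin 2) (Fin 2) ℤ) := by
  rw [Matrix.det_fin_two] at hdet
  rw [pow_two, ht]
  ext i j
  rw [Matrix.sub_apply, Matrix.smul_apply, Matrix.mul_apply, Fin.sum_univ_two, smul_eq_mul]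
  fin_cases i <;> fin_cases j
  · change M 0 0 * M 0 0 + M 0 1 * M 1 0 = (M 0 0 + M 1 1) * M 0 0 - 1
    linear_combination -hdet
  · change M 0 0 * M 0 1 + M 0 1 * M 1 1 = (M 0 0 + M 1 1) * M 0 1 - 0
    ring
  · change M 1 0 * M 0 0 + M 1 1 * M 1 0 = (M 0 0 + M 1 1) * M 1 0 - 0
    ring
  · change M 1 0 * M 0 1 + M 1 1 * M 1 1 = (M 0 0 + M 1 1) * M 1 1 - 1
    linear_combination -hdet

theorem pow_twelve {γ : SL(2, ℤ)} (h : LG.trS γ ^ 2 < 4) : γ ^ 12 = 1 := by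
  have h1 : LG.trS γ = -1 ∨ LG.trS γ = 0 ∨ LG.trS γ = 1 := by
    have : -2 < LG.trS γ ∧ LG.trS γ < 2 := ⟨by nlinarith, by nlinarith⟩
    omega
  have h2 := sq_eq (γ : Matrix (Fin 2) (Fin 2) ℤ) γ.det_coe (LG.trS γ) rfl
  apply Subtype.ext
  rw [Matrix.SpecialLinearGroup.coe_pow, Matrix.SpecialLinearGroup.coe_one]
  set M := (γ : Matrix (Fin 2) (Fin 2) ℤ) with hM
  rcases h1 with h1 | h1 | h1
  · rw [h1, neg_one_smul] at h2
    have h3 : M ^ 3 = 1 := by
      rw [pow_succ, h2, sub_mul, neg_mul, one_mul, ← pow_two, h2]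
      abel
    rw [show 12 = 3 * 4 from rfl, pow_mul, h3, one_pow]
  · rw [h1, zero_smul, zero_sub] at h2
    rw [show 12 = 2 * 6 from rfl, pow_mul, h2]
    exact Even.neg_one_pow (by decide)
  · rw [h1, one_smul] at h2
    have h3 : M ^ 3 = -1 := by
      rw [pow_succ, h2, sub_mul, one_mul, ← pow_two, h2]
      abel
    rw [show 12 = 3 * 4 from rfl, pow_mul, h3]
    exact Even.neg_one_pow (by decide)

theorem ParB.ell {φ : Gamma0 N →* Multiplicative ℤ} (h : ParB φ) {γ : Gamma0 N}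
    (hγ : LG.trS (γ : SL(2, ℤ)) ^ 2 ≤ 4) : φ γ = 1 := by
  rcases hγ.lt_or_eq with h1 | h1
  · have h2 : γ ^ 12 = 1 := Subtype.ext (pow_twelve h1)
    have h3 : φ γ ^ 12 = 1 := by rw [← map_pow, h2, map_one]
    have h4 : (12 : ℕ) • Multiplicative.toAdd (φ γ) = 0 := congrArg Multiplicative.toAdd h3
    have h5 : Multiplicative.toAdd (φ γ) = 0 := by
      rw [nsmul_eq_mul] at h4
      simpa using h4
    exact Multiplicative.toAdd.injective h5
  · exact h γ h1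

/-! ### The divisible group -/

variable (N) in
/-- characters, additively -/
def XC : Type := Additive (Gamma0 N →* ℂˣ)

instance : AddCommGroup (XC N) := inferInstanceAs (AddCommGroup (Additive (Gamma0 N →* ℂˣ)))

/-- the character -/
def XC.ch (x : XC N) : Gamma0 N →* ℂˣ := Additive.toMul x

/-- a character as an element of `XC` -/
def XC.of (χ : Gamma0 N →* ℂˣ) : XC N := Additive.ofMul χ

theorem XC.ch_of (χ : Gamma0 N →* ℂˣ) : (XC.of χ).ch = χ := rfl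

theorem XC.of_ch (x : XC N) : XC.of x.ch = x := rfl

theorem XC.ext {x y : XC N} (h : ∀ γ, x.ch γ = y.ch γ) : x = y :=
  Additive.toMul.injective (MonoidHom.ext h)

theorem XC.ch_add (x y : XC N) (γ : Gamma0 N) : (x + y).ch γ = x.ch γ * y.ch γ := rfl

theorem XC.ch_zero (γ : Gamma0 N) : (0 : XC N).ch γ = 1 := rfl

theorem XC.ch_neg (x : XC N) (γ : Gamma0 N) : (-x).ch γ = (x.ch γ)⁻¹ := rfl

theorem XC.ch_nsmul (n : ℕ) (x : XC N) (γ : Gamma0 N) : (n • x).ch γ = x.ch γ ^ n := rfl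

variable (N) in
/-- the divisible group of parabolic characters of `q`-power order -/
def Dinf (q : ℕ) [NeZero q] : AddSubgroup (XC N) where
  carrier := {x | ∃ (k : ℕ) (φ : Gamma0 N →* Multiplicative ℤ), ParB φ ∧
    x.ch = (zH (q ^ k)).comp φ}
  zero_mem' := ⟨0, 1, ParB.one, MonoidHom.ext fun γ => by
    rw [XC.ch_zero, MonoidHom.comp_apply, MonoidHom.one_apply, map_one]⟩
  add_mem' := by
    rintro x y ⟨k, φ, hφ, hx⟩ ⟨j, ψ, hψ, hy⟩
    have hq : q ≠ 0 := NeZero.ne q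
    refine ⟨k + j, φ ^ (q ^ j) * ψ ^ (q ^ k), (hφ.pow _).mul (hψ.pow _), ?_⟩
    refine MonoidHom.ext fun γ => ?_
    rw [XC.ch_add, hx, hy]
    rw [MonoidHom.comp_apply, MonoidHom.comp_apply, MonoidHom.comp_apply,
      MonoidHom.mul_apply, map_mul, MonoidHom.pow_apply, MonoidHom.pow_apply, map_pow, map_pow]
    have h1 : ∀ a, zH (q ^ (k + j)) a ^ q ^ j = zH (q ^ k) a := fun a => by
      rw [zH_apply, zH_apply, pow_add, ← zt_mul_pow (m := q ^ k) (n := q ^ j)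
        (pow_ne_zero _ hq), ← zpow_natCast, ← zpow_natCast, ← zpow_mul, ← zpow_mul,
        mul_comm (Multiplicative.toAdd a)]
    have h2 : ∀ a, zH (q ^ (k + j)) a ^ q ^ k = zH (q ^ j) a := fun a => by
      rw [zH_apply, zH_apply, add_comm, pow_add, ← zt_mul_pow (m := q ^ j) (n := q ^ k)
        (pow_ne_zero _ hq), ← zpow_natCast, ← zpow_natCast, ← zpow_mul, ← zpow_mul,
        mul_comm (Multiplicative.toAdd a)]
    rw [h1, h2]
  neg_mem' := by
    rintro x ⟨k, φ, hφ, hx⟩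
    refine ⟨k, φ⁻¹, hφ.inv, ?_⟩
    refine MonoidHom.ext fun γ => ?_
    rw [XC.ch_neg, hx, MonoidHom.comp_apply, MonoidHom.comp_apply, MonoidHom.inv_apply, map_inv]

theorem zH_pow_of_mul {m n : ℕ} (hn : n ≠ 0) (a : Multiplicative ℤ) :
    zH (m * n) a ^ n = zH m a := by
  rw [zH_apply, zH_apply, ← zt_mul_pow (m := m) (n := n) hn, ← zpow_natCast, ← zpow_natCast,
    ← zpow_mul, ← zpow_mul, mul_comm (Multiplicative.toAdd a)]

variable {q : ℕ} [NeZero q]

theorem Dinf_parE {x : XC N} (hx : x ∈ Dinf N q) : ParE x.ch := by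
  obtain ⟨k, φ, hφ, e⟩ := hx
  intro γ hγ
  rw [e, MonoidHom.comp_apply, hφ.ell hγ, map_one]

theorem Dinf_div {x : XC N} (hx : x ∈ Dinf N q) : ∃ y ∈ Dinf N q, q • y = x := by
  obtain ⟨k, φ, hφ, e⟩ := hx
  refine ⟨XC.of ((zH (q ^ (k + 1))).comp φ), ⟨k + 1, φ, hφ, rfl⟩, ?_⟩
  refine XC.ext fun γ => ?_
  rw [XC.ch_nsmul, XC.ch_of, e, MonoidHom.comp_apply, MonoidHom.comp_apply, pow_succ,
    zH_pow_of_mul (NeZero.ne q)]

theorem zH_pow_self {m : ℕ} (hm : m ≠ 0) (a : Multiplicative ℤ) : zH m a ^ m = 1 := by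
  rw [← map_pow, zH_eq_one hm]
  exact ⟨Multiplicative.toAdd a, by rw [toAdd_pow, nsmul_eq_mul]⟩

theorem Dinf_tor {x : XC N} (hx : x ∈ Dinf N q) : ∃ k, q ^ k • x = 0 := by
  obtain ⟨k, φ, hφ, e⟩ := hx
  refine ⟨k, XC.ext fun γ => ?_⟩
  rw [XC.ch_nsmul, e, MonoidHom.comp_apply, zH_pow_self (pow_ne_zero _ (NeZero.ne q)), XC.ch_zero]

/-- the elements of order dividing `q ^ k` -/
theorem Dinf_tors {x : XC N} (hx : x ∈ Dinf N q)
    {k : ℕ} (hk : q ^ k • x = 0) : ∃ φ : Gamma0 N →* Multiplicative ℤ, ParB φ ∧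
      x.ch = (zH (q ^ k)).comp φ := by
  have hq : q ≠ 0 := NeZero.ne q
  obtain ⟨j, φ, hφ, e⟩ := hx
  have hk' : ∀ γ, (zH (q ^ j) (φ γ)) ^ (q ^ k) = 1 := by
    intro γ
    have h1 : (q ^ k • x).ch γ = 1 := by rw [hk]; rfl
    rwa [XC.ch_nsmul, e] at h1
  rcases le_total j k with hjk | hjk
  · obtain ⟨i, rfl⟩ := Nat.exists_eq_add_of_le hjk
    refine ⟨φ ^ (q ^ i), hφ.pow _, ?_⟩
    rw [e]
    refine MonoidHom.ext fun γ => ?_
    rw [MonoidHom.comp_apply, MonoidHom.comp_apply, MonoidHom.pow_apply, map_pow, pow_add,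
      zH_pow_of_mul (pow_ne_zero _ hq)]
  · obtain ⟨i, rfl⟩ := Nat.exists_eq_add_of_le hjk
    have h1 : ∀ γ, ((q ^ i : ℕ) : ℤ) ∣ Multiplicative.toAdd (φ γ) := by
      intro γ
      have h2 := hk' γ
      rw [← map_pow, zH_eq_one (pow_ne_zero _ hq), toAdd_pow, nsmul_eq_mul, pow_add] at h2
      push_cast at h2 ⊢
      exact (mul_dvd_mul_iff_left (pow_ne_zero k (by exact_mod_cast hq : (q : ℤ) ≠ 0))).mp h2
    choose c hc using h1
    have hqi : ((q ^ i : ℕ) : ℤ) ≠ 0 := by exact_mod_cast pow_ne_zero _ hq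
    let ψ : Gamma0 N →* Multiplicative ℤ := MonoidHom.mk' (fun γ => Multiplicative.ofAdd (c γ))
      (fun a b => by
        apply Multiplicative.toAdd.injective
        change c (a * b) = c a + c b
        apply mul_left_cancel₀ hqi
        rw [← hc, mul_add, ← hc, ← hc, map_mul]
        rfl)
    refine ⟨ψ, fun γ hγ => ?_, ?_⟩
    · apply Multiplicative.toAdd.injective
      apply mul_left_cancel₀ hqi
      change _ * c γ = _ * 0
      rw [← hc, hφ γ hγ, mul_zero]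
      rfl
    · rw [e]
      refine MonoidHom.ext fun γ => ?_
      rw [MonoidHom.comp_apply, MonoidHom.comp_apply, zH_apply, zH_apply]
      change zt (q ^ (k + i)) ^ (Multiplicative.toAdd (φ γ)) = zt (q ^ k) ^ c γ
      rw [hc γ, pow_add, ← zt_mul_pow (m := q ^ k) (n := q ^ i) (pow_ne_zero _ hq), ← zpow_natCast,
        ← zpow_mul]

/-- membership in `XG` -/
theorem Dinf_mem_XG {x : XC N} (hx : x ∈ Dinf N q) {m : ℕ} (hk : m • x = 0) : x.ch ∈ XG N m := by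
  refine ⟨congrArg Additive.toMul hk, fun γ hγ => ?_⟩
  refine (Dinf_parE hx).isPar γ ?_
  have h1 := (γ : SL(2, ℤ)).det_coe
  rw [Matrix.det_fin_two, hγ, mul_zero, sub_zero] at h1
  rw [LG.trS]
  rcases Int.eq_one_or_neg_one_of_mul_eq_one' h1 with ⟨ha, hb⟩ | ⟨ha, hb⟩ <;> rw [ha, hb] <;>
    norm_num

/-- the inclusion -/
def inclX (N m : ℕ) : Additive (XG N m) →+ XC N :=
  MonoidHom.toAdditive (XG N m).subtype

theorem inclX_ch {m : ℕ} (x : Additive (XG N m)) : (inclX N m x).ch = x.toMul.1 := rfl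

theorem inclX_injective (N m : ℕ) : Function.Injective (inclX N m) := fun a b h =>
  Additive.toMul.injective (Subtype.ext (congrArg Additive.toMul h))

theorem finite_tors_Dinf [NeZero N] {m : ℕ} (hm : m ≠ 0) : Finite (tors (Dinf N q) m) := by
  have : NeZero m := ⟨hm⟩
  have := finite_XG N m
  refine Finite.of_injective (fun x : tors (Dinf N q) m =>
    (⟨x.1.ch, Dinf_mem_XG x.2.1 x.2.2⟩ : XG N m)) ?_
  intro a b h
  exact Subtype.ext (congrArg (fun z : XG N m => XC.of z.1) h)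

end Fermat.Agent.Mzr
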