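import Fermat.Agent.Mzr.DK

/-!
Galois stability of the divisible group of parabolic characters.
-/

set_option autoImplicit false

noncomputable section

namespace Fermat.Agent.Mzr

open CongruenceSubgroup
open Fermat.Agent.ESCore Fermat.Agent.ESCore.ModP Fermat.Agent.ESCore.Univ
open Fermat.Agent.LG (IsPar NoEll noEll_of_four_dvd isPar_galX)
open scoped MatrixGroups

/-- The absolute Galois group. -/
local notation "GQ" => (AlgebraicClosure ℚ ≃ₐ[ℚ] AlgebraicClosure ℚ)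

variable {N : ℕ} {q : ℕ} [NeZero q]

theorem fg_Gamma0 (N : ℕ) [NeZero N] : Group.FG (Gamma0 N) := by
  have hG : Group.FG SL(2, ℤ) := by
    rw [Group.fg_iff]
    exact ⟨{ModularGroup.S, ModularGroup.T}, SpecialLinearGroup.SL2Z_generators, by simp⟩
  exact inferInstance

theorem exists_zpow_of_pow {m : ℕ} (hm : m ≠ 0) {z : ℂˣ} (hz : z ^ m = 1) :
    ∃ a : ℤ, z = zt m ^ a := by
  have : NeZero m := ⟨hm⟩
  have hz' : (z : ℂ) ^ m = 1 := by rw [← Units.val_pow_eq_pow_val, hz, Units.val_one]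
  obtain ⟨i, -, hi⟩ := (Complex.isPrimitiveRoot_exp m hm).eq_pow_of_pow_eq_one hz'
  refine ⟨i, Units.ext ?_⟩
  rw [zpow_natCast, Units.val_pow_eq_pow_val, ← hi]
  rfl

/-- a multiple of every parabolic character lies in the divisible group -/
theorem exists_exp_Dinf (N : ℕ) [NeZero N] (q : ℕ) [NeZero q] : ∃ e : ℕ, 0 < e ∧
    ∀ (j : ℕ) (χ : Gamma0 N →* ℂˣ), IsPar χ → χ ^ (q ^ j) = 1 → e • XC.of χ ∈ Dinf N q := by
  have := fg_Gamma0 N
  obtain ⟨n, π, hπ, hX, e, he, h⟩ :=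
    exists_struct (Gamma0 N) {γ | LG.trS (γ : SL(2, ℤ)) ^ 2 = 4}
  refine ⟨e, he, fun j χ hχ hj => ?_⟩
  have hqj : q ^ j ≠ 0 := pow_ne_zero _ (NeZero.ne q)
  have hk : ∀ γ ∈ π.ker, (χ ^ e) γ = 1 := fun γ hγ => h χ (fun x hx => hχ x hx) γ hγ
  let f : Multiplicative (Fin n → ℤ) →* ℂˣ := (QuotientGroup.lift π.ker (χ ^ e) hk).comp
    (QuotientGroup.quotientKerEquivOfSurjective π hπ).symm.toMonoidHom
  have hf : ∀ γ, f (π γ) = χ γ ^ e := by
    intro γ
    have h1 : (QuotientGroup.quotientKerEquivOfSurjective π hπ).symm (π γ) =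
        QuotientGroup.mk γ := by
      rw [MulEquiv.symm_apply_eq]
      rfl
    change QuotientGroup.lift π.ker (χ ^ e) hk
      ((QuotientGroup.quotientKerEquivOfSurjective π hπ).symm (π γ)) = _
    rw [h1]
    rfl
  have hfq : ∀ v, f v ^ (q ^ j) = 1 := by
    intro v
    obtain ⟨γ, rfl⟩ := hπ v
    have h1 := DFunLike.congr_fun hj γ
    rw [MonoidHom.pow_apply] at h1
    rw [hf, ← pow_mul, mul_comm, pow_mul, h1]
    exact one_pow e
  have ha : ∀ i : Fin n, ∃ a : ℤ,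
      f (Multiplicative.ofAdd (fun j => if i = j then 1 else 0)) = zt (q ^ j) ^ a :=
    fun i => exists_zpow_of_pow hqj (hfq _)
  choose a ha using ha
  let F : (Fin n → ℤ) →+ Additive ℂˣ :=
    { toFun := fun v => Additive.ofMul (f (Multiplicative.ofAdd v))
      map_zero' := congrArg Additive.ofMul (map_one f)
      map_add' := fun v w => congrArg Additive.ofMul (map_mul f _ _) }
  have hF : ∀ v : Fin n → ℤ, f (Multiplicative.ofAdd v) = zt (q ^ j) ^ (∑ i, v i * a i) := by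
    intro v
    have h1 := LinearMap.pi_apply_eq_sum_univ F.toIntLinearMap v
    have h2 : F v = Additive.ofMul (zt (q ^ j) ^ (∑ i, v i * a i)) := by
      refine h1.trans ?_
      have h3 : ∀ i, v i • F (fun j => if i = j then 1 else 0) =
          Additive.ofMul (zt (q ^ j) ^ (v i * a i)) := by
        intro i
        change v i • Additive.ofMul (f (Multiplicative.ofAdd (fun j => if i = j then 1 else 0))) = _
        rw [ha i, ← ofMul_zpow, ← zpow_mul, mul_comm]
      refine (Finset.sum_congr rfl fun i _ => h3 i).trans ?_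
      rw [← ofMul_prod]
      congr 1
      exact (map_sum (zmultiplesHom (Additive ℂˣ) (Additive.ofMul (zt (q ^ j)))) (fun i => v i * a i)
        Finset.univ).symm
    exact congrArg Additive.toMul h2
  let φ : Gamma0 N →* Multiplicative ℤ := MonoidHom.mk'
    (fun γ => Multiplicative.ofAdd (∑ i, (Multiplicative.toAdd (π γ)) i * a i)) (fun b c => by
      apply Multiplicative.toAdd.injective
      change (∑ i, (Multiplicative.toAdd (π (b * c))) i * a i) =
        (∑ i, (Multiplicative.toAdd (π b)) i * a i) + ∑ i, (Multiplicative.toAdd (π c)) i * a i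
      rw [← Finset.sum_add_distrib]
      refine Finset.sum_congr rfl fun i _ => ?_
      rw [map_mul, toAdd_mul, Pi.add_apply, add_mul])
  refine ⟨j, φ, fun γ hγ => ?_, MonoidHom.ext fun γ => ?_⟩
  · apply Multiplicative.toAdd.injective
    change (∑ i, (Multiplicative.toAdd (π γ)) i * a i) = 0
    rw [hX γ hγ]
    exact Finset.sum_eq_zero fun i _ => zero_mul _
  · rw [XC.ch_nsmul, XC.ch_of]
    exact (hf γ).symm.trans (hF (Multiplicative.toAdd (π γ)))

/-- fourth powers -/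
theorem pow_four_mem {γ : SL(2, ℤ)} (hγ : γ ∈ Gamma0 N) (htr : LG.trS γ ^ 2 = 4) :
    γ ^ 4 ∈ Gamma0 (4 * N) := by
  have h1 := sq_eq (γ : Matrix (Fin 2) (Fin 2) ℤ) γ.det_coe (LG.trS γ) rfl
  set M := (γ : Matrix (Fin 2) (Fin 2) ℤ) with hM
  set t := LG.trS γ with ht
  have h3 : (γ ^ 4 : SL(2, ℤ)) 1 0 = 2 * t * M 1 0 := by
    have h4 : M ^ 4 = (t ^ 3 - 2 * t) • M - (t ^ 2 - 1) • (1 : Matrix (Fin 2) (Fin 2) ℤ) := by
      rw [show 4 = 2 * 2 from rfl, pow_mul, h1, pow_two, sub_mul, mul_sub, one_mul, mul_one,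
        smul_mul_smul_comm, ← pow_two, ← pow_two, h1]
      module
    have h5 : ((γ ^ 4 : SL(2, ℤ)) : Matrix (Fin 2) (Fin 2) ℤ) = M ^ 4 :=
      Matrix.SpecialLinearGroup.coe_pow γ 4
    have h6 := congrFun (congrFun (h5.trans h4) 1) 0
    rw [Matrix.sub_apply, Matrix.smul_apply, Matrix.smul_apply, smul_eq_mul, smul_eq_mul,
      Matrix.one_apply_ne (by decide), mul_zero, sub_zero] at h6
    refine h6.trans ?_
    have h7 : t ^ 3 - 2 * t = 2 * t := by linear_combination t * htr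
    rw [h7]
  rw [Gamma0_mem, ZMod.intCast_zmod_eq_zero_iff_dvd, h3]
  rw [Gamma0_mem, ZMod.intCast_zmod_eq_zero_iff_dvd] at hγ
  obtain ⟨c, hc⟩ := hγ
  have h8 : t = 2 ∨ t = -2 := by
    have : (t - 2) * (t + 2) = 0 := by linear_combination htr
    rcases mul_eq_zero.mp this with h | h
    · left; linarith
    · right; linarith
  have h9 : M 1 0 = N * c := hc
  rcases h8 with h8 | h8
  · exact ⟨c, by rw [h8, h9]; push_cast; ring⟩
  · exact ⟨-c, by rw [h8, h9]; push_cast; ring⟩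

/-- the Galois conjugates of a parabolic character are parabolic up to exponent `4` -/
theorem isPar_galX_four [NeZero N] {m : ℕ} (hm : 0 < m) (σ : GQ) (χ : XG N m)
    (hχ : IsPar χ.1) : IsPar ((galX N hm σ χ).1 ^ 4) := by
  intro γ hγ
  have hN : N ∣ 4 * N := Dvd.intro_left 4 rfl
  have h1 : IsPar (resX hN m χ).1 := fun g hg => hχ ⟨g, Gamma0_le_of_dvd hN g.2⟩ hg
  have h2 := isPar_galX (noEll_of_four_dvd ⟨N, rfl⟩) hm σ (resX hN m χ) h1
  rw [galX_res hN hm σ χ] at h2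
  have h3 := h2 ⟨(γ : SL(2, ℤ)) ^ 4, pow_four_mem γ.2 hγ⟩ (MZ.trS_pow_sq hγ 4)
  rw [MonoidHom.pow_apply, ← map_pow]
  exact h3

/-- **Galois stability.** -/
theorem galX_mem_Dinf [NeZero N] [hq : Fact q.Prime] {k : ℕ} (hm : 0 < q ^ k) (σ : GQ)
    (x : Additive (XG N (q ^ k))) (hx : inclX N _ x ∈ Dinf N q) :
    inclX N (q ^ k) (Additive.ofMul (galX N hm σ x.toMul)) ∈ Dinf N q := by
  obtain ⟨e, he, h⟩ := exists_exp_Dinf N q
  -- the exponent
  obtain ⟨v, w, hw, hvw⟩ := Nat.exists_eq_pow_mul_and_not_dvd (n := 4 * e) (by omega) q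
    hq.out.ne_one
  -- divide
  have hkx : q ^ k • inclX N _ x = 0 := by
    rw [← map_nsmul]
    have : q ^ k • x = 0 := Additive.toMul.injective (Subtype.ext x.toMul.2.1)
    rw [this, map_zero]
  obtain ⟨φ, hφ, hxφ⟩ := Dinf_tors hx hkx
  let y : XC N := XC.of ((zH (q ^ (k + v))).comp φ)
  have hy : y ∈ Dinf N q := ⟨k + v, φ, hφ, rfl⟩
  have hy0 : q ^ (k + v) • y = 0 := XC.ext fun γ => by
    rw [XC.ch_nsmul, XC.ch_of, MonoidHom.comp_apply,
      zH_pow_self (pow_ne_zero _ (NeZero.ne q)), XC.ch_zero]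
  have hyx : q ^ v • y = inclX N _ x := XC.ext fun γ => by
    rw [XC.ch_nsmul, XC.ch_of, MonoidHom.comp_apply, pow_add,
      zH_pow_of_mul (pow_ne_zero _ (NeZero.ne q)), hxφ, MonoidHom.comp_apply]
  have hm' : 0 < q ^ (k + v) := pow_pos hq.out.pos _
  let ψ : XG N (q ^ (k + v)) := ⟨y.ch, Dinf_mem_XG hy hy0⟩
  have hcompat : (galX N hm σ x.toMul).1 = (galX N hm' σ (ψ ^ (q ^ v))).1 := by
    refine galX_compat hm hm' (pow_dvd_pow q (Nat.le_add_right k v)) σ x.toMul (ψ ^ (q ^ v)) ?_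
    exact (congrArg XC.ch hyx).symm
  set ρ := galX N hm' σ ψ with hρ
  have h1 : e • XC.of (ρ.1 ^ 4) ∈ Dinf N q := by
    refine h (k + v) _ (isPar_galX_four hm' σ ψ (Dinf_parE hy).isPar) ?_
    refine MonoidHom.ext fun γ => ?_
    have h1 := DFunLike.congr_fun ρ.2.1 γ
    rw [MonoidHom.pow_apply] at h1
    rw [MonoidHom.pow_apply, MonoidHom.pow_apply, ← pow_mul, mul_comm, pow_mul, h1]
    exact one_pow 4
  -- conclusion
  set z : XC N := inclX N (q ^ k) (Additive.ofMul (galX N hm σ x.toMul)) with hz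
  have h2 : w • z ∈ Dinf N q := by
    convert h1 using 1
    refine XC.ext fun γ => ?_
    rw [XC.ch_nsmul, XC.ch_nsmul, XC.ch_of, MonoidHom.pow_apply, hz, inclX_ch]
    change (galX N hm σ x.toMul).1 γ ^ w = _
    rw [hcompat, map_pow, ← hρ]
    change (ρ.1 γ ^ q ^ v) ^ w = _
    rw [← pow_mul, ← pow_mul, hvw]
  have hz0 : q ^ k • z = 0 := by
    rw [hz, ← map_nsmul]
    have : q ^ k • (Additive.ofMul (galX N hm σ x.toMul)) = 0 :=
      Additive.toMul.injective (Subtype.ext (galX N hm σ x.toMul).2.1)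
    rw [this, map_zero]
  -- `w` is invertible modulo `q ^ k`
  have hcop : Nat.Coprime w (q ^ k) := Nat.Coprime.pow_right k
    (Nat.Coprime.symm ((Nat.Prime.coprime_iff_not_dvd hq.out).mpr hw))
  obtain ⟨u, hu⟩ : ∃ u : ℕ, u * w ≡ 1 [MOD q ^ k] := by
    have : NeZero (q ^ k) := ⟨hm.ne'⟩
    refine ⟨(((ZMod.unitOfCoprime w hcop)⁻¹ : (ZMod (q ^ k))ˣ) : ZMod (q ^ k)).val, ?_⟩
    rw [← ZMod.natCast_eq_natCast_iff, Nat.cast_mul, ZMod.natCast_zmod_val,
      ← ZMod.coe_unitOfCoprime w hcop, Units.inv_mul, Nat.cast_one]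
  have h3 : z = u • w • z := by
    rw [smul_smul]
    refine XC.ext fun γ => ?_
    have h4 : z.ch γ ^ (q ^ k) = 1 := by
      have := congrArg (fun a : XC N => a.ch γ) hz0
      exact this
    rw [XC.ch_nsmul]
    conv_lhs => rw [← pow_one (z.ch γ)]
    exact (pow_eq_pow_of_modEq hu h4).symm
  rw [h3]
  exact (Dinf N q).nsmul_mem h2 u

end Fermat.Agent.Mzr
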