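import Fermat.Agent.Mzr.DK2

/-!
The Eisenstein part of the divisible group of parabolic characters.
-/

set_option autoImplicit false

noncomputable section

namespace Fermat.Agent.Mzr

open CongruenceSubgroup
open Fermat.Agent.ESCore Fermat.Agent.ESCore.ModP Fermat.Agent.ESCore.Univ
open scoped MatrixGroups

/-- The absolute Galois group. -/
local notation "GQ" => (AlgebraicClosure ℚ ≃ₐ[ℚ] AlgebraicClosure ℚ)

variable {N : ℕ}

/-! ### Hecke operators -/

/-- the Hecke operators on characters -/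
def hkC {S : Finset ℕ} (i : Idx N S) : Module.End ℤ (XC N) := AddMonoidHom.toIntLinearMap
  { toFun := fun x => XC.of (heckeChar i.2.1 i.2.2.1 x.ch)
    map_zero' := congrArg XC.of (heckeChar_one i.2.1 i.2.2.1)
    map_add' := fun x y => congrArg XC.of (heckeChar_mul i.2.1 i.2.2.1 x.ch y.ch) }

theorem hkC_apply {S : Finset ℕ} (i : Idx N S) (x : XC N) :
    hkC i x = XC.of (heckeChar i.2.1 i.2.2.1 x.ch) := rfl

/-- `T_l - 1 - l` -/
def tC {S : Finset ℕ} (i : Idx N S) : Module.End ℤ (XC N) :=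
  hkC i - ((1 + i.1 : ℕ) : Module.End ℤ (XC N))

theorem hkC_comm {S : Finset ℕ} (i j : Idx N S) : Commute (hkC i) (hkC j) :=
  LinearMap.ext fun x => congrArg XC.of (heckeChar_comm i.2.1 i.2.2.1 j.2.1 j.2.2.1 x.ch)

theorem tC_comm {S : Finset ℕ} (i j : Idx N S) : Commute (tC i) (tC j) :=
  ((hkC_comm i j).sub_left (Nat.cast_commute _ _)).sub_right (Nat.commute_cast _ _)

theorem nat_end_apply {M : Type*} [AddCommGroup M] (n : ℕ) (x : M) :
    ((n : ℕ) : Module.End ℤ M) x = n • x := Module.End.natCast_apply n x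

theorem tC_apply {S : Finset ℕ} (i : Idx N S) (x : XC N) : tC i x = hkC i x - (1 + i.1) • x := by
  rw [tC, LinearMap.sub_apply, nat_end_apply]

section

variable {q : ℕ} [NeZero q]

theorem hkC_mem {S : Finset ℕ} (i : Idx N S) {x : XC N} (hx : x ∈ Dinf N q) :
    hkC i x ∈ Dinf N q := by
  obtain ⟨k, φ, hφ, e⟩ := hx
  refine ⟨k, heckeChar i.2.1 i.2.2.1 φ, parB_heckeChar _ _ hφ, ?_⟩
  rw [hkC_apply, XC.ch_of, e, heckeChar_comp]

theorem tC_mem {S : Finset ℕ} (i : Idx N S) {x : XC N} (hx : x ∈ Dinf N q) :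
    tC i x ∈ Dinf N q := by
  rw [tC_apply]
  exact (Dinf N q).sub_mem (hkC_mem i hx) ((Dinf N q).nsmul_mem hx _)

theorem exists_th (N : ℕ) [NeZero N] (q : ℕ) [NeZero q] (S : Finset ℕ) :
    ∃ (m : ℕ) (l : List (Idx N S)), 0 < m ∧
    ∀ (i : Idx N S) (k : ℕ), ∀ x ∈ nilp (Dinf N q) (theta tC m l), q ^ k • x = 0 →
      (tC i ^ (m * k)) x = 0 := by
  have := finite_tors_Dinf (N := N) (q := q) (m := q) (NeZero.ne q)
  exact exists_theta tC_comm (fun i _ hx => tC_mem i hx)

/-- the exponent -/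
def thM (N : ℕ) [NeZero N] (q : ℕ) [NeZero q] : ℕ := (exists_th N q {q}).choose

/-- the primes -/
def thL (N : ℕ) [NeZero N] (q : ℕ) [NeZero q] : List (Idx N {q}) :=
  (exists_th N q {q}).choose_spec.choose

variable [NeZero N]

variable (N q) in
/-- the operator -/
def thE : Module.End ℤ (XC N) := theta tC (thM N q) (thL N q)

theorem thM_pos : 0 < thM N q := (exists_th N q {q}).choose_spec.choose_spec.1

theorem thE_spec (i : Idx N {q}) (k : ℕ) {x : XC N} (hx : x ∈ nilp (Dinf N q) (thE N q))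
    (hk : q ^ k • x = 0) : (tC i ^ (thM N q * k)) x = 0 :=
  (exists_th N q {q}).choose_spec.choose_spec.2 i k x hx hk

theorem thE_mem {x : XC N} (hx : x ∈ Dinf N q) : thE N q x ∈ Dinf N q :=
  theta_mem (fun i x hx => tC_mem i hx) _ _ hx

variable (N q) in
/-- **The Eisenstein part** -/
def eisD : AddSubgroup (XC N) := nilp (Dinf N q) (thE N q)

theorem eisD_le : eisD N q ≤ Dinf N q := fun _ hx => hx.1

theorem tC_mem_eisD (i : Idx N {q}) {x : XC N} (hx : x ∈ eisD N q) : tC i x ∈ eisD N q :=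
  nilp_map (fun _ h => tC_mem i h) (theta_commute (fun j => tC_comm j i) _ _) x hx

theorem hkC_mem_eisD (i : Idx N {q}) {x : XC N} (hx : x ∈ eisD N q) : hkC i x ∈ eisD N q := by
  have h := tC_mem_eisD i hx
  rw [tC_apply] at h
  have h2 := (eisD N q).add_mem h ((eisD N q).nsmul_mem hx (1 + i.1))
  rwa [sub_add_cancel] at h2

theorem eisD_div {x : XC N} (hx : x ∈ eisD N q) : ∃ y ∈ eisD N q, q • y = x :=
  nilp_div (fun _ h => thE_mem h) (fun _ h => Dinf_div h)
    (fun k => finite_tors_Dinf (pow_ne_zero k (NeZero.ne q))) (fun _ h => Dinf_tor h) hx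

theorem eisD_div_pow (r : ℕ) {x : XC N} (hx : x ∈ eisD N q) : ∃ y ∈ eisD N q, q ^ r • y = x := by
  induction r generalizing x with
  | zero => exact ⟨x, hx, by rw [pow_zero, one_smul]⟩
  | succ r ih =>
    obtain ⟨y, hy, rfl⟩ := eisD_div hx
    obtain ⟨z, hz, rfl⟩ := ih hy
    exact ⟨z, hz, by rw [pow_succ', mul_smul]⟩

omit [NeZero N] in
theorem tors_le {D D' : AddSubgroup (XC N)} (h : D ≤ D') (n : ℕ) : tors D n ≤ tors D' n :=
  fun _ hx => ⟨h hx.1, hx.2⟩

theorem finite_tors_eisD {m : ℕ} (hm : m ≠ 0) : Finite (tors (eisD N q) m) := by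
  have := finite_tors_Dinf (N := N) (q := q) hm
  exact Finite.of_injective (AddSubgroup.inclusion (tors_le eisD_le m))
    (AddSubgroup.inclusion_injective _)

theorem card_tors_eisD (k : ℕ) :
    Nat.card (tors (eisD N q) (q ^ k)) = Nat.card (tors (eisD N q) q) ^ k :=
  card_tors (fun _ h => eisD_div h) k

variable (N q) in
/-- The number `d` with `#S_k = q ^ (k d)`. -/
theorem exists_card [hq : Fact q.Prime] : ∃ d : ℕ, ∀ k,
    Nat.card (tors (eisD N q) (q ^ k)) = (q ^ k) ^ d := by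
  have := finite_tors_eisD (N := N) (q := q) (m := q) (NeZero.ne q)
  have h1 : ∀ g : Multiplicative (tors (eisD N q) q), g ^ q = 1 := by
    intro g
    have h2 : q • (Multiplicative.toAdd g) = 0 := Subtype.ext (Multiplicative.toAdd g).2.2
    exact congrArg Multiplicative.ofAdd h2
  have h2 : IsPGroup q (Multiplicative (tors (eisD N q) q)) := fun g => ⟨1, by rw [pow_one, h1]⟩
  obtain ⟨d, hd⟩ := IsPGroup.iff_card.mp h2
  refine ⟨d, fun k => ?_⟩
  rw [card_tors_eisD]
  have h3 : Nat.card (tors (eisD N q) q) = q ^ d := hd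
  rw [h3, ← pow_mul, ← pow_mul, mul_comm]

/-! ### The torsion levels as groups of characters in `XG` -/

variable (N q) in
/-- the Eisenstein part of level `k` -/
def eisX (k : ℕ) : AddSubgroup (Additive (XG N (q ^ k))) := (eisD N q).comap (inclX N (q ^ k))

theorem mem_eisX {k : ℕ} {x : Additive (XG N (q ^ k))} :
    x ∈ eisX N q k ↔ inclX N _ x ∈ eisD N q := Iff.rfl

omit [NeZero N] in
theorem XG_nsmul {m : ℕ} (x : Additive (XG N m)) : m • x = 0 :=
  Additive.toMul.injective (Subtype.ext x.toMul.2.1)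

theorem exists_eisX {k : ℕ} {x : XC N} (hx : x ∈ eisD N q) (hk : q ^ k • x = 0) :
    ∃ y ∈ eisX N q k, inclX N _ y = x :=
  ⟨Additive.ofMul ⟨x.ch, Dinf_mem_XG hx.1 hk⟩, hx, rfl⟩

/-- the levels as torsion subgroups -/
def eisXEquiv (k : ℕ) : eisX N q k ≃+ tors (eisD N q) (q ^ k) where
  toFun x := ⟨inclX N _ x.1, x.2, by rw [← map_nsmul, XG_nsmul, map_zero]⟩
  invFun x := ⟨Additive.ofMul ⟨x.1.ch, Dinf_mem_XG x.2.1.1 x.2.2⟩, x.2.1⟩
  left_inv _ := rfl
  right_inv _ := rfl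
  map_add' _ _ := Subtype.ext (map_add _ _ _)

instance finite_eisX (k : ℕ) : Finite (eisX N q k) := by
  have := finite_tors_eisD (N := N) (q := q) (m := q ^ k) (pow_ne_zero _ (NeZero.ne q))
  exact Finite.of_equiv _ (eisXEquiv k).toEquiv.symm

/-- **(P4)** -/
theorem eisX_card [hq : Fact q.Prime] : ∃ d : ℕ, ∀ k, Nat.card (eisX N q k) = (q ^ k) ^ d ∧
    ∀ c : ℕ, 0 < c → Nat.card {x : eisX N q k // c • x = 0} ≤ c ^ d := by
  obtain ⟨d, hd⟩ := exists_card N q
  refine ⟨d, fun k => ⟨?_, fun c hc => ?_⟩⟩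
  · rw [← hd, Nat.card_congr (eisXEquiv k).toEquiv]
  · refine card_ker_le (k := k) hq.out (fun x => Subtype.ext (XG_nsmul x.1)) (fun v hv => ?_) c hc
    rw [← hd v]
    refine Nat.card_congr
      { toFun := fun x => ⟨inclX N _ x.1.1, x.1.2, ?_⟩
        invFun := fun x => ⟨⟨Additive.ofMul ⟨x.1.ch, Dinf_mem_XG x.2.1.1 ?_⟩, x.2.1⟩, ?_⟩
        left_inv := fun _ => rfl
        right_inv := fun _ => rfl }
    · rw [← map_nsmul]
      have h1 : q ^ v • x.1.1 = 0 := congrArg Subtype.val x.2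
      rw [h1, map_zero]
    · obtain ⟨j, rfl⟩ := Nat.exists_eq_add_of_le hv
      rw [pow_add, mul_comm, mul_smul, x.2.2, smul_zero]
    · refine Subtype.ext ?_
      apply inclX_injective
      exact x.2.2

/-! ### Galois stability -/

theorem gal_hecke_comm {m : ℕ} (hm : 0 < m) {l : ℕ} (hl : l.Prime) (hN : ¬ l ∣ N) (σ : GQ)
    (χ : XG N m) : heckeX hl hN m (galX N hm σ χ) = galX N hm σ (heckeX hl hN m χ) :=
  heckeX_gal_comm (algForms hm) (galSpec_galX hm) hl hN σ χ

/-- the Galois action on characters of order dividing `m` -/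
def gX {m : ℕ} (hm : 0 < m) (σ : GQ) : Module.End ℤ (Additive (XG N m)) := galRep (galX N hm) σ

theorem gX_apply {m : ℕ} (hm : 0 < m) (σ : GQ) (x : Additive (XG N m)) :
    gX hm σ x = Additive.ofMul (galX N hm σ x.toMul) := rfl

/-- `T_l - 1 - l` on `XG` -/
def tX (m : ℕ) {S : Finset ℕ} (i : Idx N S) : Module.End ℤ (Additive (XG N m)) :=
  heckeXL i.2.1 i.2.2.1 m - ((1 + i.1 : ℕ) : Module.End ℤ _)

theorem tX_gX_comm {m : ℕ} (hm : 0 < m) {S : Finset ℕ} (i : Idx N S) (σ : GQ) :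
    Commute (tX m i) (gX (N := N) hm σ) := by
  refine Commute.sub_left ?_ (Nat.cast_commute _ _)
  exact LinearMap.ext fun χ => congrArg Additive.ofMul (gal_hecke_comm hm i.2.1 i.2.2.1 σ χ.toMul)

omit [NeZero N] in
theorem inclX_tX (m : ℕ) {S : Finset ℕ} (i : Idx N S) (x : Additive (XG N m)) :
    inclX N m (tX m i x) = tC i (inclX N m x) := by
  rw [tX, tC, LinearMap.sub_apply, LinearMap.sub_apply, map_sub, nat_end_apply, nat_end_apply,
    map_nsmul]
  rfl

/-- **Galois stability.** -/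
theorem gX_mem_eisX [Fact q.Prime] {k : ℕ} (hm : 0 < q ^ k) (σ : GQ)
    {x : Additive (XG N (q ^ k))} (hx : x ∈ eisX N q k) : gX hm σ x ∈ eisX N q k := by
  obtain ⟨h1, n, h2⟩ := hx
  refine ⟨galX_mem_Dinf hm σ x h1, n, ?_⟩
  set θ := theta (tX (q ^ k)) (thM N q) (thL N q) with hθ
  have h3 : ∀ y, inclX N _ ((θ ^ n) y) = (thE N q ^ n) (inclX N _ y) := fun y =>
    pow_intertwine (inclX N _) (fun z => theta_intertwine (inclX N _) (inclX_tX _) _ _ z) n y
  rw [← h3] at h2 ⊢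
  have h4 : (θ ^ n) x = 0 := inclX_injective _ _ (h2.trans (map_zero _).symm)
  have h5 : Commute (θ ^ n) (gX hm σ) :=
    (theta_commute (fun i => tX_gX_comm hm i σ) _ _).pow_left n
  rw [← Module.End.mul_apply, h5.eq, Module.End.mul_apply, h4, map_zero, map_zero]

end

end Fermat.Agent.Mzr
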