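import Fermat.Agent.Mzr.DK3

/-!
The Eisenstein part of the group of divisible functions.
-/

set_option autoImplicit false

noncomputable section

namespace Fermat.Agent.Mzr

open AlgebraicCurve
open Fermat.Agent.LG Fermat.Agent.ModFun Fermat.Agent.Geo Fermat.Agent.Flat
open Fermat.Agent.ESCore (ιC galX XG)
open CongruenceSubgroup (Gamma0)

/-- The field of algebraic numbers. -/
local notation "Qb" => AlgebraicClosure ℚ
/-- The absolute Galois group. -/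
local notation "GQ" => (AlgebraicClosure ℚ ≃ₐ[ℚ] AlgebraicClosure ℚ)

variable {N : ℕ} [NeZero N] {q : ℕ} [NeZero q]

theorem pos_pow (q : ℕ) [NeZero q] (k : ℕ) : 0 < q ^ k :=
  pow_pos (Nat.pos_of_ne_zero (NeZero.ne q)) k

/-- the inclusion -/
def pxe (N m : ℕ) : Additive (PXE N m) →+ Additive (XG N m) :=
  MonoidHom.toAdditive (PXE N m).subtype

variable (N q) in
/-- **(P1)** The Eisenstein part `S_k`. -/
def eisS (k : ℕ) : AddSubgroup (Sel Qb (F0 Qb N) (q ^ k)) :=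
  ((eisX N q k).comap (pxe N (q ^ k))).map (selE (pos_pow q k))

theorem parE_of_eisX {k : ℕ} {x : Additive (XG N (q ^ k))} (hx : x ∈ eisX N q k) :
    ParE x.toMul.1 := Dinf_parE hx.1

/-- an element of the Eisenstein part as an element of `PXE` -/
def liftE (k : ℕ) : eisX N q k →+ Additive (PXE N (q ^ k)) where
  toFun x := Additive.ofMul ⟨x.1.toMul, parE_of_eisX x.2⟩
  map_zero' := rfl
  map_add' _ _ := rfl

theorem mem_eisS {k : ℕ} {s : Sel Qb (F0 Qb N) (q ^ k)} :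
    s ∈ eisS N q k ↔ ∃ x : eisX N q k, selE (pos_pow q k) (liftE k x) = s := by
  constructor
  · rintro ⟨x, hx, rfl⟩
    exact ⟨⟨pxe N _ x, hx⟩, rfl⟩
  · rintro ⟨x, rfl⟩
    exact ⟨liftE k x, x.2, rfl⟩

/-- the map between the two incarnations -/
def toEisS (k : ℕ) : eisX N q k →+ eisS N q k where
  toFun x := ⟨selE (pos_pow q k) (liftE k x), mem_eisS.mpr ⟨x, rfl⟩⟩
  map_zero' := Subtype.ext ((selE (N := N) (pos_pow q k)).map_zero)
  map_add' x y := Subtype.ext ((selE (N := N) (pos_pow q k)).map_add (liftE k x) (liftE k y))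

theorem toEisS_coe (k : ℕ) (x : eisX N q k) :
    (toEisS k x : Sel Qb (F0 Qb N) (q ^ k)) = selE (pos_pow q k) (liftE k x) := rfl

theorem toEisS_injective (k : ℕ) : Function.Injective (toEisS (N := N) (q := q) k) := by
  intro a b h
  have h0 : selE (pos_pow q k) (liftE k a) = selE (pos_pow q k) (liftE k b) :=
    congrArg Subtype.val h
  have h1 := selE_injective (N := N) (pos_pow q k) h0
  have h2 := congrArg (pxe N (q ^ k)) h1
  exact Subtype.ext h2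

theorem toEisS_surjective (k : ℕ) : Function.Surjective (toEisS (N := N) (q := q) k) := by
  intro s
  obtain ⟨x, hx⟩ := mem_eisS.mp s.2
  exact ⟨x, Subtype.ext hx⟩

/-- the isomorphism between the two incarnations -/
def eisEquiv (k : ℕ) : eisX N q k ≃+ eisS N q k :=
  AddEquiv.ofBijective (toEisS k) ⟨toEisS_injective k, toEisS_surjective k⟩

theorem eisEquiv_coe (k : ℕ) (x : eisX N q k) :
    (eisEquiv k x : Sel Qb (F0 Qb N) (q ^ k)) = selE (pos_pow q k) (liftE k x) := rfl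

theorem eisEquiv_gal [Fact q.Prime] (k : ℕ) (σ : GQ) (x : eisX N q k) :
    (eisEquiv k ⟨gX (pos_pow q k) σ x.1, gX_mem_eisX _ σ x.2⟩ : Sel Qb (F0 Qb N) (q ^ k)) =
      selHom (q ^ k) (galF0 N) σ (eisEquiv k x) := by
  rw [eisEquiv_coe, eisEquiv_coe]
  exact selE_smul (pos_pow q k) σ _ _ rfl

/-- **(P1)** Galois stability. -/
theorem eisS_gal [Fact q.Prime] {k : ℕ} (σ : GQ) {s : Sel Qb (F0 Qb N) (q ^ k)}
    (hs : s ∈ eisS N q k) : selHom (q ^ k) (galF0 N) σ s ∈ eisS N q k := by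
  obtain ⟨x, rfl⟩ := mem_eisS.mp hs
  have h1 := eisEquiv_gal k σ x
  rw [eisEquiv_coe k x] at h1
  rw [← h1]
  exact Subtype.prop _

/-- **(P1)** finiteness -/
instance finite_eisS (k : ℕ) : Finite (eisS N q k) := Finite.of_equiv _ (eisEquiv k).toEquiv

/-- **(P4)** -/
theorem eisS_card (N q : ℕ) [NeZero N] [NeZero q] [Fact q.Prime] : ∃ d : ℕ, ∀ k,
    Nat.card (eisS N q k) = (q ^ k) ^ d ∧
    ∀ c : ℕ, 0 < c → Nat.card {x : eisS N q k // c • x = 0} ≤ c ^ d := by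
  obtain ⟨d, hd⟩ := eisX_card (N := N) (q := q)
  refine ⟨d, fun k => ⟨?_, fun c hc => ?_⟩⟩
  · rw [← (hd k).1]
    exact (Nat.card_congr (eisEquiv k).toEquiv).symm
  · exact (card_ker_congr (eisEquiv k) c).symm.le.trans ((hd k).2 c hc)

/-- **(P4)**, the number of multiples -/
theorem eisS_card_mul (k c : ℕ) : Nat.card (eisS N q k) =
    Nat.card {x : eisS N q k // c • x = 0} *
      Nat.card (Set.range fun x : eisS N q k => c • x) := by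
  rw [← card_ker_congr (eisEquiv k) c, ← card_range_congr (eisEquiv k) c,
    ← card_le_mul (S := eisX N q k) c]
  exact (Nat.card_congr (eisEquiv k).toEquiv).symm

/-- **Membership in the Eisenstein part.** -/
theorem mk_mem_eisS_iff {k : ℕ} (f : SelZ Qb (F0 Qb N) (q ^ k)) :
    Sel.mk f ∈ eisS N q k ↔ ∃ χ : Gamma0 N →* ℂˣ, XC.of χ ∈ eisD N q ∧
      ∃ z : LaurentSeries Qb, MSer N χ z ∧
        (((f : (F0 Qb N)ˣ) : F0 Qb N) : LaurentSeries Qb) = z ^ (q ^ k) := by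
  constructor
  · intro h
    obtain ⟨x, hx⟩ := mem_eisS.mp h
    obtain ⟨z, hz, hz'⟩ := (mk_eq_selE_iff (pos_pow q k) _ f).mp hx.symm
    exact ⟨_, x.2, z, hz, hz'⟩
  · rintro ⟨χ, hχ, z, hz, hz'⟩
    have h1 : χ ^ (q ^ k) = 1 := (hz.pow (q ^ k)).eq_one_of_mem (by rw [← hz']; exact Subtype.prop _)
    let x : Additive (XG N (q ^ k)) := Additive.ofMul ⟨χ, Dinf_mem_XG hχ.1 h1⟩
    exact mem_eisS.mpr ⟨⟨x, hχ⟩,
      ((mk_eq_selE_iff (pos_pow q k) (liftE k ⟨x, hχ⟩) f).mpr ⟨z, hz, hz'⟩).symm⟩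

/-- **(P2)**, first half -/
theorem eisS_down {k r : ℕ} (u : (F0 Qb N)ˣ) (h1 : u ∈ SelZ Qb (F0 Qb N) (q ^ (k + r)))
    (h2 : u ∈ SelZ Qb (F0 Qb N) (q ^ k)) (h : Sel.mk ⟨u, h1⟩ ∈ eisS N q (k + r)) :
    Sel.mk ⟨u, h2⟩ ∈ eisS N q k := by
  obtain ⟨χ, hχ, z, hz, hz'⟩ := (mk_mem_eisS_iff _).mp h
  refine (mk_mem_eisS_iff _).mpr ⟨χ ^ (q ^ r), ?_, z ^ (q ^ r), hz.pow _, ?_⟩
  · exact (eisD N q).nsmul_mem hχ (q ^ r)
  · rw [← pow_mul, ← pow_add, add_comm r k]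
    exact hz'

omit [NeZero N] [NeZero q] in
theorem selZ_mono {k r : ℕ} {u : (F0 Qb N)ˣ} (h1 : u ∈ SelZ Qb (F0 Qb N) (q ^ (k + r))) :
    u ∈ SelZ Qb (F0 Qb N) (q ^ k) := fun v =>
  (Int.natCast_dvd_natCast.mpr (pow_dvd_pow q (Nat.le_add_right k r))).trans (h1 v)

/-- **(P2)**, second half: surjectivity -/
theorem eisS_surj {k : ℕ} (r : ℕ) {s : Sel Qb (F0 Qb N) (q ^ k)} (hs : s ∈ eisS N q k) :
    ∃ (u : (F0 Qb N)ˣ) (h1 : u ∈ SelZ Qb (F0 Qb N) (q ^ (k + r)))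
      (h2 : u ∈ SelZ Qb (F0 Qb N) (q ^ k)), Sel.mk ⟨u, h1⟩ ∈ eisS N q (k + r) ∧
      Sel.mk ⟨u, h2⟩ = s := by
  obtain ⟨x, rfl⟩ := mem_eisS.mp hs
  obtain ⟨y, hy, hyx⟩ := eisD_div_pow r x.2
  have hy0 : q ^ (k + r) • y = 0 := by
    rw [pow_add, mul_smul, hyx, ← map_nsmul, XG_nsmul, map_zero]
  let ψ : XG N (q ^ (k + r)) := ⟨y.ch, Dinf_mem_XG hy.1 hy0⟩
  have hψE : ParE ψ.1 := Dinf_parE hy.1
  obtain ⟨w, hw0, hw⟩ := exists_xSer (pos_pow q (k + r)) ψ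
  let u : (F0 Qb N)ˣ := Units.mk0 (powF ψ hw) (powF_ne_zero ψ hw hw0)
  have h1 : u ∈ SelZ Qb (F0 Qb N) (q ^ (k + r)) := fun v => powF_dvdE ψ hψE hw hw0 v
  have hM : MSer N ψ.1 w := ⟨1, w, one_ne_zero, hw0, hw, (one_mul w).symm⟩
  refine ⟨u, h1, selZ_mono h1, (mk_mem_eisS_iff _).mpr ⟨ψ.1, hy, w, hM, rfl⟩, ?_⟩
  refine (mk_eq_selE_iff (pos_pow q k) (liftE k x) _).mpr ⟨w ^ (q ^ r), ?_, ?_⟩
  · have h3 := hM.pow (q ^ r)
    have h4 : ψ.1 ^ (q ^ r) = (liftE k x).toMul.1.1 := congrArg XC.ch hyx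
    rwa [h4] at h3
  · rw [← pow_mul, ← pow_add, add_comm r k]
    rfl

/-- **(P3)** -/
theorem eisS_pow_iff {k r : ℕ} (u : (F0 Qb N)ˣ) (h1 : u ∈ SelZ Qb (F0 Qb N) (q ^ k))
    (h2 : u ^ (q ^ r) ∈ SelZ Qb (F0 Qb N) (q ^ (k + r))) :
    Sel.mk ⟨u, h1⟩ ∈ eisS N q k ↔ Sel.mk ⟨u ^ (q ^ r), h2⟩ ∈ eisS N q (k + r) := by
  rw [mk_mem_eisS_iff, mk_mem_eisS_iff]
  have e : (((u ^ (q ^ r) : (F0 Qb N)ˣ) : F0 Qb N) : LaurentSeries Qb) =
      ((u : F0 Qb N) : LaurentSeries Qb) ^ (q ^ r) := by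
    rw [Units.val_pow_eq_pow_val]
    rfl
  constructor
  · rintro ⟨χ, hχ, z, hz, hz'⟩
    refine ⟨χ, hχ, z, hz, ?_⟩
    refine e.trans ?_
    have h3 : ((u : F0 Qb N) : LaurentSeries Qb) = z ^ (q ^ k) := hz'
    rw [h3, ← pow_mul, ← pow_add]
  · rintro ⟨χ, hχ, z, hz, hz'⟩
    have h3 : ((u : F0 Qb N) : LaurentSeries Qb) ^ (q ^ r) = (z ^ (q ^ k)) ^ (q ^ r) := by
      rw [← e, ← pow_mul, ← pow_add]
      exact hz'
    obtain ⟨c, hc, h4⟩ := exists_const_of_pow_eq (pos_pow q r) (pow_ne_zero _ hz.ne_zero) h3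
    obtain ⟨c', hc'⟩ := IsAlgClosed.exists_pow_nat_eq c (pos_pow q k)
    have hc0 : c' ≠ 0 := by
      rintro rfl
      rw [zero_pow (pos_pow q k).ne'] at hc'
      exact hc hc'.symm
    refine ⟨χ, hχ, _, hz.const_mul hc0, ?_⟩
    rw [mul_pow, ← _root_.map_pow, hc']
    exact h4

end Fermat.Agent.Mzr
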