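import Fermat.Agent.Mzr.HLog
import Fermat.Agent.Mzr.EisS
import Fermat.Agent.WP.Phi
import Fermat.Agent.Flat.Fin

/-!
The class of `Δ(τ)/Δ(Nτ)` is Eisenstein.
-/

set_option autoImplicit false

noncomputable section

namespace Fermat.Agent.Mzr

open CongruenceSubgroup Filter AlgebraicCurve
open UpperHalfPlane hiding I
open Fermat.Agent.FunField Fermat.Agent.Flat Fermat.Agent.LG
open Fermat.Agent.ModFun Fermat.Agent.WP Fermat.Agent.MZ
open Fermat.Agent.ESCore (ιC heckeChar XG)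
open Fermat.Agent.ESCore.Univ (Idx)
open scoped MatrixGroups Topology

/-- The field of algebraic numbers. -/
local notation "Qb" => AlgebraicClosure ℚ

section Any

variable {N : ℕ} [NeZero N]

/-- the character of a root of `Δ(τ)/Δ(Nτ)` -/
theorem char_of_root {G : ℍ → ℂ} {Φ : Gamma0 N →* Multiplicative ℤ} (hG : Continuous G)
    (hGh : ∀ τ, Complex.exp (G τ) = (ud N τ)⁻¹)
    (hΦ : ∀ (γ : Gamma0 N) (τ : ℍ), G ((γ : SL(2, ℤ)) • τ) = G τ +
      (Multiplicative.toAdd (Φ γ) : ℤ) * (2 * Real.pi * Complex.I))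
    {m : ℕ} (hm : 0 < m) {χ : Gamma0 N →* ℂˣ} {y : LaurentSeries Qb} (hy : XSer ιC N χ y)
    (hym : y ^ m = hSer Qb N) : χ = (zH m).comp Φ := by
  obtain ⟨f, hf, hfχ, hfy⟩ := hy
  have h1 : f ^ m = (ud N)⁻¹ := by
    have h2 : HasExp ιC (qN 1) (f ^ m) (hSer Qb N) := by
      rw [← hym]
      exact hfy.pow m
    exact h2.fun_unique (qN_ne_zero 1) hasExp_hSer
  have h2 : ∀ τ, f τ ^ m = (ud N τ)⁻¹ := fun τ => congrFun h1 τ
  have hf0 : ∀ τ, f τ ≠ 0 := fun τ h0 => by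
    have := h2 τ
    rw [h0, zero_pow hm.ne'] at this
    exact inv_ne_zero (ud_ne_zero N τ) this.symm
  obtain ⟨g, hg, hgf⟩ := exists_log_of_continuous hf.1.continuous hf0
  obtain ⟨n, hn⟩ := exists_int_of_exp (u := fun τ => m * g τ - G τ)
    ((continuous_const.mul hg).sub hG) fun τ => by
      rw [Complex.exp_sub, hGh, Complex.exp_nat_mul, hgf, h2, div_self]
      exact inv_ne_zero (ud_ne_zero N τ)
  have hm' : (m : ℂ) ≠ 0 := by exact_mod_cast hm.ne'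
  ext γ
  have h3 := hfχ γ UpperHalfPlane.I
  rw [← hgf, ← hgf UpperHalfPlane.I] at h3
  have h4 : g ((γ : SL(2, ℤ)) • UpperHalfPlane.I) = g UpperHalfPlane.I +
      (Multiplicative.toAdd (Φ γ) : ℤ) * (2 * Real.pi * Complex.I / m) := by
    have h5 := hn ((γ : SL(2, ℤ)) • UpperHalfPlane.I)
    have h6 := hn UpperHalfPlane.I
    rw [hΦ] at h5
    field_simp
    linear_combination h5 - h6
  rw [h4, Complex.exp_add, mul_comm] at h3
  have h5 := mul_right_cancel₀ (Complex.exp_ne_zero _) h3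
  rw [← h5, MonoidHom.comp_apply, zH_apply, Units.val_zpow_eq_zpow_val, zt, Units.val_mk0,
    ← Complex.exp_int_mul]

end Any

section Prime

variable {N : ℕ} [hN : Fact N.Prime] [NeZero N]

theorem dvd_ord_HF {m : ℕ} (hm : m ∣ N - 1) (v : Place Qb (F0 Qb N)) :
    (m : ℤ) ∣ v.ord (HF N) := by
  have h1 : (m : ℤ) ∣ (N : ℤ) - 1 := by
    have h2 : (m : ℤ) ∣ ((N - 1 : ℕ) : ℤ) := Int.natCast_dvd_natCast.mpr hm
    rwa [Nat.cast_sub hN.out.one_lt.le, Nat.cast_one] at h2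
  rcases lt_or_ge (v.ord (jF Qb N)) 0 with h | h
  · rcases eq_cusp h with rfl | rfl
    · rw [cInf_ord_HF]
      have := (dvd_neg).mpr h1
      rwa [neg_sub] at this
    · rw [cZero_ord_HF]
      exact h1
  · rw [ord_HF h]
    exact dvd_zero _

variable {l : ℕ} [NeZero l] (hl : l.Prime) (hlN : ¬ l ∣ N)

omit hN in
include hl hlN in
theorem tN_holC {x : LaurentSeries Qb} (hx : x ∈ holC ιC N) : tN l (zl l) x ∈ holC ιC N := by
  have h1 := (xSer_one_iff.mpr hx).tN hl hlN (zl_spec l)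
  rw [heckeChar_one'] at h1
  exact xSer_one_iff.mp h1

/-- `H` is an eigenfunction of the multiplicative Hecke operators -/
theorem exists_TF_HF : ∃ c : Qb, c ≠ 0 ∧
    TF N hl hlN (HF N) = algebraMap Qb (F0 Qb N) c * HF N ^ (l + 1) := by
  obtain ⟨ζ, hζ⟩ := exists_zeta_Qb N
  have h0 : HF N ^ (l + 1) ≠ 0 := pow_ne_zero _ HF_ne_zero
  have hT0 : TF N hl hlN (HF N) ≠ 0 := TF_ne_zero hl hlN HF_ne_zero
  have hord : ∀ v : Place Qb (F0 Qb N),
      v.ord (TF N hl hlN (HF N) / HF N ^ (l + 1)) = 0 := by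
    intro v
    have h1 : v.ord (TF N hl hlN (HF N)) = (l + 1) * v.ord (HF N) := by
      rcases lt_or_ge (v.ord (jF Qb N)) 0 with h | h
      · rcases eq_cusp h with rfl | rfl
        · exact cInf_ord_TF hl hlN _
        · exact cZero_ord_TF hl hlN _
      · rw [ord_HF h, mul_zero]
        have h2 : 0 ≤ v.ord (TF N hl hlN (HF N)) := ord_nonneg_of_holC h
          (tN_holC hl hlN hSer_mem_holC)
        have h3 : 0 ≤ v.ord (TF N hl hlN (HF' N)) := ord_nonneg_of_holC h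
          (tN_holC hl hlN hSer'_mem_holC)
        have h4 : TF N hl hlN (HF N) * TF N hl hlN (HF' N) = 1 := by
          rw [← map_mul, HF_mul, map_one]
        have h5 := v.ord_mul (f := TF N hl hlN (HF N)) (g := TF N hl hlN (HF' N)) hT0
          (right_ne_zero_of_mul_eq_one h4)
        rw [h4, v.ord_one] at h5
        omega
    rw [div_eq_mul_inv, v.ord_mul hT0 (inv_ne_zero h0), v.ord_inv, Flat.ord_pow, h1]
    push_cast
    ring
  obtain ⟨c, hc⟩ := (sep_jF hζ).const fun v => (hord v).ge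
  refine ⟨c, ?_, ?_⟩
  · rintro rfl
    rw [map_zero] at hc
    exact div_ne_zero hT0 h0 hc.symm
  · rw [hc, div_mul_cancel₀ _ h0]

/-- the characters of the roots of `H` are eigenvectors -/
theorem hecke_of_root {m : ℕ} (hm : 0 < m) {χ : Gamma0 N →* ℂˣ} {y : LaurentSeries Qb}
    (hy : XSer ιC N χ y) (hym : y ^ m = hSer Qb N) : heckeChar hl hlN χ = χ ^ (l + 1) := by
  obtain ⟨h1, h2⟩ := xSer_TF hl hlN hy (f := HF N) hym
  obtain ⟨c, hc, h3⟩ := exists_TF_HF (N := N) hl hlN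
  have hy0 : y ≠ 0 := by
    rintro rfl
    rw [zero_pow hm.ne'] at hym
    exact HF_ne_zero (Subtype.ext hym.symm)
  obtain ⟨c', hc'⟩ := IsAlgClosed.exists_pow_nat_eq c hm
  have hc'0 : c' ≠ 0 := by
    rintro rfl
    rw [zero_pow hm.ne'] at hc'
    exact hc hc'.symm
  have h4 : tN l (zl l) y ^ m = (algebraMap Qb (LaurentSeries Qb) c' * y ^ (l + 1)) ^ m := by
    rw [h2, h3, mul_pow, ← map_pow, hc', ← pow_mul, mul_comm (l + 1) m, pow_mul, hym]
    rfl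
  have hne : algebraMap Qb (LaurentSeries Qb) c' * y ^ (l + 1) ≠ 0 :=
    mul_ne_zero ((map_ne_zero _).mpr hc'0) (pow_ne_zero _ hy0)
  obtain ⟨c'', hc'', h5⟩ := exists_const_of_pow_eq hm hne h4
  have h6 : XSer ιC N (χ ^ (l + 1)) (tN l (zl l) y) := by
    rw [h5, ← mul_assoc, ← map_mul]
    have h7 := (xSer_one_iff (ι := ιC) (N := N).mpr ((holC ιC N).algebraMap_mem (c'' * c'))).mul
      (hy.pow (l + 1))
    rwa [char_one_mul] at h7
  refine h1.char_unique ?_ h6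
  rw [h5]
  exact mul_ne_zero ((map_ne_zero _).mpr hc'') hne

variable {q : ℕ} [NeZero q]

/-- the characters of the roots of `H` are Eisenstein -/
theorem root_mem_eisD (hpar : ∀ ψ : Gamma0 N →* Multiplicative ℤ,
      (∀ h : ModularGroup.T ∈ Gamma0 N, ψ ⟨ModularGroup.T, h⟩ = 1) →
      (∀ h : (-1 : SL(2, ℤ)) ∈ Gamma0 N, ψ ⟨-1, h⟩ = 1) → ParB ψ)
    {K : ℕ} (hK : q ^ K ∣ N - 1) {χ : Gamma0 N →* ℂˣ} {y : LaurentSeries Qb}
    (hy : XSer ιC N χ y) (hym : y ^ (q ^ K) = hSer Qb N) : XC.of χ ∈ eisD N q := by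
  obtain ⟨G, Φ, hG, hGh, hΦ, hΦT, hΦ1⟩ := exists_PhiH N
  obtain ⟨φ, hφT, hφ1⟩ := exists_phi1 (N := N) hN.out.one_lt
  have hm : 0 < q ^ K := pos_pow q K
  have hχ := char_of_root hG hGh hΦ hm hy hym
  have hD : XC.of χ ∈ Dinf N q := by
    refine ⟨K, Φ * φ ^ (N - 1), hpar _ (fun h => ?_) (fun h => ?_), ?_⟩
    · rw [MonoidHom.mul_apply, MonoidHom.pow_apply, hΦT, hφT, ← ofAdd_nsmul, ← ofAdd_add]
      have h1 : (1 - (N : ℤ)) + (N - 1) • (1 : ℤ) = 0 := by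
        rw [nsmul_eq_mul, mul_one, Nat.cast_sub hN.out.one_lt.le, Nat.cast_one]
        ring
      rw [h1, ofAdd_zero]
    · rw [MonoidHom.mul_apply, MonoidHom.pow_apply, hΦ1, hφ1, one_pow, mul_one]
    · refine MonoidHom.ext fun γ => ?_
      rw [XC.ch_of, hχ, MonoidHom.comp_apply, MonoidHom.comp_apply, MonoidHom.mul_apply, map_mul]
      have h1 : zH (q ^ K) ((φ ^ (N - 1)) γ) = 1 := by
        rw [zH_eq_one hm.ne', MonoidHom.pow_apply, toAdd_pow, nsmul_eq_mul]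
        exact Dvd.dvd.mul_right (Int.natCast_dvd_natCast.mpr hK) _
      rw [h1, mul_one]
  refine mem_nilp.mpr ⟨hD, 1, ?_⟩
  rw [pow_one]
  refine theta_apply_eq_zero thM_pos fun i _ => ?_
  have : NeZero i.1 := ⟨i.2.1.ne_zero⟩
  rw [tC_apply, hkC_apply, XC.ch_of, hecke_of_root i.2.1 i.2.2.1 hm hy hym, sub_eq_zero]
  refine XC.ext fun γ => ?_
  rw [XC.ch_nsmul, XC.ch_of, XC.ch_of, add_comm]
  rfl

variable [hq : Fact q.Prime]

/-- **(P12)** -/
theorem HF_mem_of (hpar : ∀ ψ : Gamma0 N →* Multiplicative ℤ,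
      (∀ h : ModularGroup.T ∈ Gamma0 N, ψ ⟨ModularGroup.T, h⟩ = 1) →
      (∀ h : (-1 : SL(2, ℤ)) ∈ Gamma0 N, ψ ⟨-1, h⟩ = 1) → ParB ψ)
    {K : ℕ} (hK : q ^ K ∣ N - 1)
    (h : Units.mk0 (HF N) HF_ne_zero ∈ SelZ Qb (F0 Qb N) (q ^ K)) :
    Sel.mk ⟨_, h⟩ ∈ eisS N q K := by
  obtain ⟨χ, hχ, y, hy0, hy, hym⟩ := exists_xSer_of_dvd (pos_pow q K) (z := HF N) HF_ne_zero
    (xSer_one_iff.mpr hSer_mem_holC) (dvd_ord_HF hK)
  refine (mk_mem_eisS_iff _).mpr ⟨χ, root_mem_eisD hpar hK hy hym, y, ?_, hym.symm⟩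
  exact ⟨1, y, one_ne_zero, hy0, hy, (one_mul y).symm⟩

/-- the class of `H` -/
theorem HF_mem_selZ {m : ℕ} (hm : m ∣ N - 1) :
    Units.mk0 (HF N) HF_ne_zero ∈ SelZ Qb (F0 Qb N) m := fun v => dvd_ord_HF hm v

end Prime

end Fermat.Agent.Mzr
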