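import Fermat.Agent.WP.HF
import Fermat.Agent.Mzr.DK

/-!
The logarithm of `Δ(τ)/Δ(Nτ)` and its periods.
-/

set_option autoImplicit false

noncomputable section

namespace Fermat.Agent.Mzr

open CongruenceSubgroup Filter
open UpperHalfPlane hiding I
open Fermat.Agent.ModFun Fermat.Agent.WP
open Fermat.Agent.ESCore (ιC)
open scoped MatrixGroups Topology

/-- The field of algebraic numbers. -/
local notation "Qb" => AlgebraicClosure ℚ

/-- nonvanishing continuous functions on the upper half plane have a logarithm -/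
theorem exists_log_of_continuous {h : ℍ → ℂ} (hc : Continuous h) (h0 : ∀ τ, h τ ≠ 0) :
    ∃ G : ℍ → ℂ, Continuous G ∧ ∀ τ, Complex.exp (G τ) = h τ := by
  have h1 : IsSimplyConnected (Set.univ : Set ℍ) := by
    have h2 : ContractibleSpace (Set.univ : Set ℍ) :=
      (Homeomorph.Set.univ ℍ).contractibleSpace_iff.mpr inferInstance
    exact (inferInstance : SimplyConnectedSpace (Set.univ : Set ℍ))
  obtain ⟨G, hG, hG'⟩ := Complex.exists_continuousOn_eqOn_exp_comp h1 isOpen_univ hc.continuousOn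
    (fun ⟨τ, _, e⟩ => h0 τ e)
  exact ⟨G, continuousOn_univ.mp hG, fun τ => hG' (Set.mem_univ τ)⟩

/-- a continuous function with values in `2πiℤ` is constant -/
theorem exists_int_of_exp {u : ℍ → ℂ} (hu : Continuous u) (h : ∀ τ, Complex.exp (u τ) = 1) :
    ∃ n : ℤ, ∀ τ, u τ = n * (2 * Real.pi * Complex.I) := by
  have h1 : ∀ τ, ∃ n : ℤ, u τ = n * (2 * Real.pi * Complex.I) := fun τ =>
    Complex.exp_eq_one_iff.mp (h τ)
  choose n hn using h1
  have hpi : (2 * Real.pi * Complex.I : ℂ) ≠ 0 := Complex.two_pi_I_ne_zero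
  have hcont : Continuous n := by
    have h2 : Continuous fun τ => (n τ : ℝ) := by
      have h3 : (fun τ => (n τ : ℝ)) = fun τ => (u τ / (2 * Real.pi * Complex.I)).re := by
        funext τ
        rw [hn τ, mul_div_cancel_right₀ _ hpi, Complex.intCast_re]
      rw [h3]
      exact Complex.continuous_re.comp (hu.div_const _)
    exact (Int.isClosedEmbedding_coe_real.isEmbedding.continuous_iff).mpr h2
  have h2 := (PreconnectedSpace.constant (α := ℍ) inferInstance hcont : ∀ {x y}, n x = n y)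
  exact ⟨n UpperHalfPlane.I, fun τ => by rw [hn τ, h2]⟩

variable {N : ℕ} [NeZero N]

theorem continuous_smul_sl (g : SL(2, ℤ)) : Continuous fun τ : ℍ => g • τ :=
  continuous_const_smul (Matrix.SpecialLinearGroup.mapGL ℝ g : GL (Fin 2) ℝ)

omit [NeZero N] in
/-- the periods of an invariant function -/
theorem exists_periods {h G : ℍ → ℂ} (hG : Continuous G) (hGh : ∀ τ, Complex.exp (G τ) = h τ)
    (hinv : ∀ (γ : Gamma0 N) (τ : ℍ), h ((γ : SL(2, ℤ)) • τ) = h τ) :
    ∃ Φ : Gamma0 N →* Multiplicative ℤ, ∀ (γ : Gamma0 N) (τ : ℍ),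
      G ((γ : SL(2, ℤ)) • τ) = G τ + (Multiplicative.toAdd (Φ γ) : ℤ) *
        (2 * Real.pi * Complex.I) := by
  have h1 : ∀ γ : Gamma0 N, ∃ n : ℤ, ∀ τ, G ((γ : SL(2, ℤ)) • τ) - G τ =
      n * (2 * Real.pi * Complex.I) := fun γ =>
    exists_int_of_exp (u := fun τ => G ((γ : SL(2, ℤ)) • τ) - G τ)
      ((hG.comp (continuous_smul_sl _)).sub hG) fun τ => by
        rw [Complex.exp_sub, hGh, hGh, hinv, div_self]
        rw [← hGh]
        exact Complex.exp_ne_zero _
  choose n hn using h1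
  have hpi : (2 * Real.pi * Complex.I : ℂ) ≠ 0 := Complex.two_pi_I_ne_zero
  have huniq : ∀ γ (m : ℤ), (∀ τ, G (((γ : Gamma0 N) : SL(2, ℤ)) • τ) - G τ =
      m * (2 * Real.pi * Complex.I)) → n γ = m := by
    intro γ m h
    have h2 := (hn γ UpperHalfPlane.I).symm.trans (h UpperHalfPlane.I)
    exact_mod_cast mul_right_cancel₀ hpi h2
  refine ⟨{ toFun := fun γ => Multiplicative.ofAdd (n γ)
            map_one' := ?_
            map_mul' := ?_ }, fun γ τ => ?_⟩
  · change Multiplicative.ofAdd (n 1) = Multiplicative.ofAdd 0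
    rw [huniq 1 0 fun τ => by
      rw [Subgroup.coe_one, one_smul, sub_self, Int.cast_zero, zero_mul]]
  · intro γ δ
    rw [← ofAdd_add, huniq (γ * δ) (n γ + n δ) fun τ => by
      rw [Subgroup.coe_mul, mul_smul, ← sub_add_sub_cancel _ (G ((δ : SL(2, ℤ)) • τ)), hn, hn]
      push_cast
      ring]
  · change _ = _ + (n γ : ℂ) * _
    rw [← hn γ τ]
    ring

/-- **the period of a translation** -/
theorem period_T {h G : ℍ → ℂ} (hG : Continuous G) (hGh : ∀ τ, Complex.exp (G τ) = h τ)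
    {n a : ℤ} {c : ℂ} (hc : c ≠ 0)
    (hlim : Tendsto (fun τ => h τ * qN 1 τ ^ (-a)) atImInfty (𝓝 c))
    (hn : ∀ τ : ℍ, G ((1 : ℝ) +ᵥ τ) = G τ + n * (2 * Real.pi * Complex.I)) : n = a := by
  -- the normalised logarithm
  obtain ⟨c', rfl⟩ : ∃ c', Complex.exp c' = c := ⟨Complex.log c, Complex.exp_log hc⟩
  have h1 : Tendsto (fun τ => h τ * qN 1 τ ^ (-a) / Complex.exp c') atImInfty (𝓝 1) := by
    have := hlim.div_const (Complex.exp c')
    rwa [div_self hc] at this
  have h2 : ∀ᶠ τ in atImInfty, 0 < (h τ * qN 1 τ ^ (-a) / Complex.exp c').re := by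
    have h3 : Tendsto (fun τ => (h τ * qN 1 τ ^ (-a) / Complex.exp c').re) atImInfty (𝓝 1) := by
      exact (Complex.continuous_re.tendsto 1).comp h1
    exact h3.eventually (lt_mem_nhds one_pos)
  rw [atImInfty, eventually_comap] at h2
  obtain ⟨C, hC⟩ := eventually_atTop.mp h2
  let y : ℝ := max C 1
  have hy : 0 < y := lt_max_of_lt_right one_pos
  let p : ℝ → ℍ := fun s => s +ᵥ (⟨⟨0, y⟩, hy⟩ : ℍ)
  have hpc : ∀ s, (p s : ℂ) = s + y * Complex.I := by
    intro s
    apply Complex.ext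
    · simp [p]
    · simp [p]
  have hp : Continuous p := by
    refine UpperHalfPlane.isEmbedding_coe.continuous_iff.mpr ?_
    have h3 : (UpperHalfPlane.coe ∘ p) = fun s : ℝ => (s : ℂ) + y * Complex.I := funext hpc
    rw [h3]
    exact Complex.continuous_ofReal.add continuous_const
  have hpim : ∀ s, (p s).im = y := by
    intro s
    rw [← UpperHalfPlane.coe_im, hpc]
    simp
  let v : ℝ → ℂ := fun s => G (p s) - a * (2 * Real.pi * Complex.I) * (p s : ℂ) - c'
  have hv : Continuous v :=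
    ((hG.comp hp).sub (continuous_const.mul (UpperHalfPlane.continuous_coe.comp hp))).sub
      continuous_const
  have hexp : ∀ s, 0 < (Complex.exp (v s)).re := by
    intro s
    have h3 := hC y (le_max_left _ _) (p s) (hpim s)
    have h4 : Complex.exp (v s) = h (p s) * qN 1 (p s) ^ (-a) / Complex.exp c' := by
      change Complex.exp (G (p s) - a * (2 * Real.pi * Complex.I) * (p s : ℂ) - c') = _
      rw [Complex.exp_sub, Complex.exp_sub, hGh, qN_apply, Function.Periodic.qParam, zpow_neg,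
        ← Complex.exp_int_mul, div_eq_mul_inv (h (p s))]
      congr 4
      push_cast
      ring
    rw [h4]
    exact h3
  have hcos : ∀ s, 0 < Real.cos (v s).im := by
    intro s
    have h3 := hexp s
    rw [Complex.exp_re] at h3
    exact (mul_pos_iff_of_pos_left (Real.exp_pos _)).mp h3
  have hv1 : v 1 = v 0 + (n - a) * (2 * Real.pi * Complex.I) := by
    have h3 : p 1 = (1 : ℝ) +ᵥ p 0 := by
      change (1 : ℝ) +ᵥ _ = (1 : ℝ) +ᵥ ((0 : ℝ) +ᵥ _)
      rw [zero_vadd]
    have h4 : (p 1 : ℂ) = p 0 + 1 := by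
      rw [hpc, hpc]
      push_cast
      ring
    change G (p 1) - a * (2 * Real.pi * Complex.I) * (p 1 : ℂ) - c' =
      G (p 0) - a * (2 * Real.pi * Complex.I) * (p 0 : ℂ) - c' + _
    rw [h4, h3, hn]
    ring
  let f : ℝ → ℝ := fun s => (v s).im
  have hf : Continuous f := Complex.continuous_im.comp hv
  have hf1 : f 1 = f 0 + (n - a) * (2 * Real.pi) := by
    change (v 1).im = (v 0).im + _
    rw [hv1, Complex.add_im]
    congr 1
    have h3 : ((n : ℂ) - a) * (2 * Real.pi * Complex.I) =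
        (((n - a) * (2 * Real.pi) : ℝ) : ℂ) * Complex.I := by
      push_cast
      ring
    rw [h3, Complex.im_ofReal_mul, Complex.I_im, mul_one]
  by_contra hne
  have hpi := Real.pi_pos
  rcases lt_or_gt_of_ne hne with hlt | hgt
  · have h3 : ((n : ℝ) - a) ≤ -1 := by
      have h4 : n - a ≤ -1 := by omega
      exact_mod_cast h4
    have h4 : f 0 - Real.pi ∈ Set.uIcc (f 0) (f 1) := by
      rw [Set.mem_uIcc]
      right
      constructor
      · rw [hf1]
        nlinarith
      · linarith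
    obtain ⟨s, -, hs⟩ := intermediate_value_uIcc hf.continuousOn h4
    have h5 := hcos s
    have h6 : (v s).im = (v 0).im - Real.pi := hs
    rw [h6, Real.cos_sub_pi] at h5
    linarith [hcos 0]
  · have h3 : (1 : ℝ) ≤ (n : ℝ) - a := by
      have h4 : 1 ≤ n - a := by omega
      exact_mod_cast h4
    have h4 : f 0 + Real.pi ∈ Set.uIcc (f 0) (f 1) := by
      rw [Set.mem_uIcc]
      left
      constructor
      · linarith
      · rw [hf1]
        nlinarith
    obtain ⟨s, -, hs⟩ := intermediate_value_uIcc hf.continuousOn h4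
    have h5 := hcos s
    have h6 : (v s).im = (v 0).im + Real.pi := hs
    rw [h6, Real.cos_add_pi] at h5
    linarith [hcos 0]

theorem continuous_ud_inv : Continuous (ud N)⁻¹ :=
  (mdiff_ud N).continuous.inv₀ (ud_ne_zero N)

/-- **the periods of `log Δ(τ)/Δ(Nτ)`** -/
theorem exists_PhiH (N : ℕ) [NeZero N] : ∃ (G : ℍ → ℂ) (Φ : Gamma0 N →* Multiplicative ℤ),
    Continuous G ∧ (∀ τ, Complex.exp (G τ) = (ud N τ)⁻¹) ∧
    (∀ (γ : Gamma0 N) (τ : ℍ), G ((γ : SL(2, ℤ)) • τ) = G τ +
      (Multiplicative.toAdd (Φ γ) : ℤ) * (2 * Real.pi * Complex.I)) ∧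
    (∀ h : ModularGroup.T ∈ Gamma0 N, Φ ⟨ModularGroup.T, h⟩ = Multiplicative.ofAdd (1 - (N : ℤ))) ∧
    ∀ h : (-1 : SL(2, ℤ)) ∈ Gamma0 N, Φ ⟨-1, h⟩ = 1 := by
  obtain ⟨G, hG, hGh⟩ := exists_log_of_continuous (continuous_ud_inv (N := N))
    (fun τ => inv_ne_zero (ud_ne_zero N τ))
  obtain ⟨Φ, hΦ⟩ := exists_periods (N := N) hG hGh fun γ τ => by
    rw [Pi.inv_apply, Pi.inv_apply, ud_invariant dvd_rfl γ.2]
  refine ⟨G, Φ, hG, hGh, hΦ, fun h => ?_, fun h => ?_⟩
  · have h1 := leadU_hSer Qb N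
    have h2 : HasExp ιC (qN 1) (fun τ => (ud N)⁻¹ τ * qN 1 τ ^ (-(1 - (N : ℤ))))
        (HahnSeries.single (-(1 - (N : ℤ))) 1 * hSer Qb N) := by
      have h3 := (hasExp_single (φ := ιC) (s := qN 1) (-(1 - (N : ℤ))) 1).mul
        (hasExp_hSer (ι := ιC) (N := N))
      refine h3.congr fun τ => ?_
      rw [Pi.mul_apply, map_one, one_mul, mul_comm]
    have h4 : ∀ m, (HahnSeries.single (-(1 - (N : ℤ))) (1 : Qb) * hSer Qb N).coeff m =
        (hSer Qb N).coeff (m + (1 - N)) := by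
      intro m
      rw [HahnSeries.coeff_single_mul, one_mul, sub_neg_eq_add]
    have h5 := h2.tendsto fun m hm => by
      rw [h4]
      exact h1.1 _ (by omega)
    have h6 : ιC ((HahnSeries.single (-(1 - (N : ℤ))) (1 : Qb) * hSer Qb N).coeff 0) ≠ 0 := by
      rw [h4, zero_add]
      exact (map_ne_zero ιC).mpr h1.2.ne_zero
    have h7 := period_T hG hGh (n := Multiplicative.toAdd (Φ ⟨ModularGroup.T, h⟩))
      (a := 1 - (N : ℤ)) h6 h5 fun τ => by
        rw [← hΦ, ← UpperHalfPlane.modular_T_smul]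
    rw [← h7]
    rfl
  · have h1 := hΦ ⟨-1, h⟩ UpperHalfPlane.I
    have h2 : ((⟨-1, h⟩ : Gamma0 N) : SL(2, ℤ)) • UpperHalfPlane.I = UpperHalfPlane.I := by
      change (-1 : SL(2, ℤ)) • UpperHalfPlane.I = UpperHalfPlane.I
      rw [ModularGroup.SL_neg_smul, one_smul]
    rw [h2, left_eq_add, mul_eq_zero, or_iff_left Complex.two_pi_I_ne_zero, Int.cast_eq_zero] at h1
    exact h1

end Fermat.Agent.Mzr
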