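import Fermat.Agent.Mzr.Eta
import Fermat.Agent.ESCore.S34Final

/-!
Inertia at `N` on the Eisenstein part.
-/

set_option autoImplicit false

noncomputable section

namespace Fermat.Agent.Mzr

open CongruenceSubgroup Polynomial
open Fermat.Agent.ESCore Fermat.Agent.ESCore.ModP Fermat.Agent.ESCore.Univ
open Fermat.Agent.LG (GoodLev IsPar)
open scoped MatrixGroups

/-- The field of algebraic numbers. -/
local notation "Qb" => AlgebraicClosure ℚ
/-- The absolute Galois group. -/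
local notation "GQ" => (AlgebraicClosure ℚ ≃ₐ[ℚ] AlgebraicClosure ℚ)

variable {N : ℕ} [NeZero N] {q : ℕ} [NeZero q]

/-- the levels are compatible -/
theorem inE_eq_iff {k : ℕ} {x : EX N q k} {y : XC N} : inE k x = y ↔ x.ch.1 = y.ch := by
  constructor
  · rintro rfl
    rfl
  · intro h
    exact XC.ext fun γ => DFunLike.congr_fun h γ

variable [hq : Fact q.Prime]

theorem gE_compat {k k' : ℕ} (h : k ≤ k') (σ : GQ) {x : EX N q k} {y : EX N q k'}
    (e : inE k x = inE k' y) : inE k (gE k σ x) = inE k' (gE k' σ y) := by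
  have h1 : x.ch.1 = y.ch.1 := inE_eq_iff.mp e
  refine inE_eq_iff.mpr ?_
  exact galX_compat (pos_pow q k) (pos_pow q k') (pow_dvd_pow q h) σ x.ch y.ch h1

/-- `y` is divisible and lifts `x` -/
def Lft {k r : ℕ} (y : EX N q (k + r)) (x : EX N q k) : Prop :=
  inE (k + r) (q ^ r • y) = inE k x

omit hq in
theorem exists_lft {k : ℕ} (r : ℕ) (x : EX N q k) : ∃ y : EX N q (k + r), Lft y x := by
  obtain ⟨z, hz, h⟩ := eisD_div_pow r (inE_mem k x)
  have h1 : q ^ (k + r) • z = 0 := by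
    rw [pow_add, mul_smul, h, inE_tors]
  obtain ⟨y, hy⟩ := exists_inE hz h1
  exact ⟨y, by rw [Lft, map_nsmul, hy, h]⟩

theorem Lft.gal {k r : ℕ} {y : EX N q (k + r)} {x : EX N q k} (h : Lft y x) (σ : GQ) :
    Lft (gE (k + r) σ y) (gE k σ x) := by
  rw [Lft, ← map_nsmul (gE (k + r) σ)]
  exact (gE_compat (Nat.le_add_right k r) σ h.symm).symm

omit hq in
theorem Lft.sub {k r : ℕ} {y y' : EX N q (k + r)} {x x' : EX N q k} (h : Lft y x)
    (h' : Lft y' x') : Lft (y - y') (x - x') := by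
  rw [Lft, smul_sub, map_sub, map_sub, h, h']

omit hq in
theorem Lft.nsmul {k r : ℕ} {y : EX N q (k + r)} {x : EX N q k} (h : Lft y x) (n : ℕ) :
    Lft (n • y) (n • x) := by
  rw [Lft, smul_comm]
  exact ((inE (k + r)).map_nsmul n (q ^ r • y)).trans
    ((congrArg (n • ·) h).trans ((inE k).map_nsmul n x).symm)

/-- divisibility removes bounded constants -/
theorem eq_zero_of_lft {d : ℕ} (hd : d ≠ 0) {P : ∀ k, EX N q k → EX N q k}
    (hP : ∀ k r (y : EX N q (k + r)) (x : EX N q k), Lft y x → Lft (P _ y) (P _ x))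
    (h : ∀ k x, d • P k x = 0) (k : ℕ) (x : EX N q k) : P k x = 0 := by
  obtain ⟨a, d', hd', e⟩ := Nat.exists_eq_pow_mul_and_not_dvd hd q hq.out.ne_one
  obtain ⟨y, hy⟩ := exists_lft a x
  have h1 := hP k a y x hy
  apply inE_injective
  rw [map_zero]
  have h2 : d' • inE k (P k x) = 0 := by
    rw [← h1, ← map_nsmul, smul_smul, mul_comm, ← e, h, map_zero]
  have h3 := inE_tors k (P k x)
  have hcop : Nat.Coprime d' (q ^ k) := by
    refine Nat.Coprime.pow_right k ?_
    exact ((Nat.Prime.coprime_iff_not_dvd hq.out).mpr hd').symm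
  have h4 : addOrderOf (inE k (P k x)) ∣ 1 := by
    rw [← hcop]
    exact Nat.dvd_gcd (addOrderOf_dvd_of_nsmul_eq_zero h2) (addOrderOf_dvd_of_nsmul_eq_zero h3)
  exact AddMonoid.addOrderOf_eq_one_iff.mp (Nat.dvd_one.mp h4)

omit hq in
theorem ex_isPar {k : ℕ} (x : EX N q k) : IsPar x.ch.1 := fun γ hγ =>
  Dinf_parE (eisD_le (inE_mem k x)) γ hγ.le

omit hq [NeZero N] in
theorem goodLev_four (hN2 : N ≠ 2) : GoodLev N 4 := Or.inl ⟨hN2, dvd_rfl⟩

theorem quot_aux {G : Type*} [CommGroup G] (a b c d : G) : a / b / (c / d) = (a * d) / (c * b) := by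
  rw [div_div_div_eq, mul_comm b c]

theorem quot_aux2 {G H : Type*} [CommGroup G] [CommGroup H] (f : G →* H) (a b : G)
    (h : f a = f b) : f (a / b) = 1 := by
  rw [_root_.map_div, h, div_self']

/-- **(P7)** -/
theorem inertia_sq [hN : Fact N.Prime] (hN2 : N ≠ 2) (hNq : N ≠ q) (k : ℕ)
    {A : ValuationSubring Qb} (hA : A.LiesOverPrime N) {σ τ : GQ}
    (hσ : σ ∈ A.inertiaSubgroupIn ℚ) (hτ : τ ∈ A.inertiaSubgroupIn ℚ) :
    (gE (N := N) (q := q) k σ - 1) * (gE k τ - 1) = 0 := by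
  have : NeZero (N * 4) := ⟨mul_ne_zero (NeZero.ne N) (by norm_num)⟩
  have hdvd : N ∣ N * 4 := dvd_mul_right _ _
  obtain ⟨d, hd, hres⟩ := exists_pow_res hdvd
  let P : ∀ k, EX N q k → EX N q k := fun k x =>
    (gE k σ (gE k τ x) - gE k τ x) - (gE k σ x - x)
  have hPP : ∀ k x, ((gE k σ - 1) * (gE k τ - 1) : AddMonoid.End (EX N q k)) x = P k x := by
    intro k x
    change gE k σ (gE k τ x - x) - (gE k τ x - x) = P k x
    rw [map_sub]
    change _ = (gE k σ (gE k τ x) - gE k τ x) - (gE k σ x - x)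
    abel
  have hP : ∀ k r (y : EX N q (k + r)) (x : EX N q k), Lft y x → Lft (P _ y) (P _ x) :=
    fun k r y x h => (((h.gal τ).gal σ).sub (h.gal τ)).sub ((h.gal σ).sub h)
  refine DFunLike.ext _ _ fun x => (hPP k x).trans ?_
  refine eq_zero_of_lft hd hP ?_ k x
  intro k x
  have hNm : ¬ N ∣ q ^ k := fun h =>
    hNq ((Nat.prime_dvd_prime_iff_eq hN.out hq.out).mp (hN.out.dvd_of_dvd_pow h))
  have hN4 : ¬ N ∣ 4 := by
    intro h
    have h2 : N ∣ 2 ^ 2 := h
    exact hN2 ((Nat.prime_dvd_prime_iff_eq hN.out Nat.prime_two).mp (hN.out.dvd_of_dvd_pow h2))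
  have key := LG1Prop_of hN.out hA (M := 4) (N := N * 4) rfl hN4 (goodLev_four hN2)
    (pos_pow q k) hNm σ hσ τ hτ (resX hdvd (q ^ k) x.ch)
    (ParC.res hdvd (fun γ hγ => ex_isPar x γ hγ))
  rw [galX_res, galX_res, galX_res, ← map_mul, ← map_mul] at key
  have h1 : resX hdvd (q ^ k) (P k x).ch = 1 := by
    have h2 : (P k x).ch = (galX N (pos_pow q k) (σ * τ) x.ch * x.ch) /
        (galX N (pos_pow q k) σ x.ch * galX N (pos_pow q k) τ x.ch) := by
      have e1 : (gE k σ (gE k τ x)).ch = galX N (pos_pow q k) (σ * τ) x.ch := by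
        rw [gE_ch, gE_ch, map_mul]
        rfl
      have e2 : (P k x).ch = (gE k σ (gE k τ x)).ch / (gE k τ x).ch / ((gE k σ x).ch / x.ch) := rfl
      rw [e2, e1, gE_ch, gE_ch]
      exact quot_aux _ _ _ _
    rw [h2]
    exact quot_aux2 _ _ _ key
  have h3 := hres (P k x).ch.1 (congrArg Subtype.val h1)
  refine EX.ext (Subtype.ext ?_)
  rw [EX.ch_nsmul, EX.ch_zero]
  exact h3

end Fermat.Agent.Mzr
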