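import Fermat.Agent.Mzr.SplEx
import Fermat.Agent.Mzr.HKillB

/-!
Splittings of the extensions attached to Eisenstein functions, up to a bounded number.
-/

set_option autoImplicit false

noncomputable section

namespace Fermat.Agent.Mzr

open AlgebraicCurve Fermat.Agent.FunField Fermat.Agent.Flat Fermat.Agent.LG Fermat.Agent.ModFun
open Fermat.Agent.Geo

/-- The field of algebraic numbers. -/
local notation "Qb" => AlgebraicClosure ℚ

variable {N : ℕ} [NeZero N] {q : ℕ} [NeZero q] [hq : Fact q.Prime]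

/-- **(W1b)** -/
theorem exists_spl [hN : Fact N.Prime] (hN2 : N ≠ 2) (hNq : N ≠ q) :
    ∃ n : ℕ, 0 < n ∧ ∀ (k : ℕ) (T : Set (FixPl N)) (_ : T.Finite) (a b : FixPl N) (ha : a ∈ T)
      (hb : b ∈ T),
      IsFlat (OI (padicPlace q)) ((padicPlace q).inertiaSubgroupIn ℚ)
        (eisPD (q := q) T k a b ha hb).E Qb →
      (∀ ℓ : Nat.Primes, (ℓ : ℕ) ≠ q → (ℓ : ℕ) ≠ N →
        ∀ σ ∈ (padicPlace (ℓ : ℕ)).inertiaSubgroupIn ℚ,
          ∀ e : (eisPD (q := q) T k a b ha hb).E, σ • e = e) →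
      (eisPD (q := q) T k a b ha hb).Spl n ⊤ := by
  obtain ⟨C₀, hC₀⟩ := card_vfix N q
  exact exists_spl_of hN2 hNq hC₀

end Fermat.Agent.Mzr
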